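import Fermat.Agent.RT.MazurP.LocalE
import Fermat.Agent.LevelRaising.Residual
import Fermat.Prelude.Def_FreyPackage_IsConductorLevel

/-!
# Integral models of the Frey curve

An integral model of the Frey curve is bad at every prime dividing `abc`, and its `p`-torsion is
that of the Frey curve.
-/

set_option autoImplicit false

noncomputable section

namespace Fermat.Agent.RT.MazurP

open WeierstrassCurve WeierstrassCurve.Affine WeierstrassCurve.Affine.Point
open Fermat.Agent.Arith Fermat.Agent.EC.Rep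
open Fermat.Agent.Carayol.Omega (oldX oldY)
open scoped WeierstrassCurve.Affine

/-- Two integral models related by a change of coordinates over `ℚ` have the same `c₄³ / Δ`. -/
theorem c₄_pow_mul_Δ_eq {F W : WeierstrassCurve ℤ} {C : VariableChange ℚ}
    (hC : C • F.map (Int.castRingHom ℚ) = W.map (Int.castRingHom ℚ)) :
    W.c₄ ^ 3 * F.Δ = F.c₄ ^ 3 * W.Δ := by
  have h1 := congrArg WeierstrassCurve.c₄ hC
  have h2 := congrArg WeierstrassCurve.Δ hC
  rw [variableChange_c₄, map_c₄, map_c₄, eq_intCast, eq_intCast] at h1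
  rw [variableChange_Δ, map_Δ, map_Δ, eq_intCast, eq_intCast] at h2
  apply Int.cast_injective (α := ℚ)
  push_cast
  rw [← h1, ← h2]
  ring

/-- Every prime dividing `abc` divides the discriminant of the Frey model. -/
theorem dvd_freyCurveInt_Δ (P : FreyPackage) {q : ℕ} (hq : q.Prime)
    (h : (q : ℤ) ∣ P.a * P.b * P.c) : (q : ℤ) ∣ P.freyCurveInt.Δ := by
  rcases eq_or_ne q 2 with rfl | hq2
  · obtain ⟨d, hd⟩ := pow_dvd_pow_of_dvd h (2 * P.p)
    obtain ⟨m, hm⟩ : ∃ m, 2 * P.p = 8 + (m + 1) := ⟨2 * P.p - 9, by have := P.hp5; omega⟩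
    have e := EC.Reduction.Frey.Δ_eq P
    rw [hd] at e
    refine ⟨2 ^ m * d, mul_left_cancel₀ (pow_ne_zero 8 (two_ne_zero (α := ℤ))) ?_⟩
    rw [e, hm]
    push_cast
    ring
  · exact EC.Reduction.Frey.dvd_Δ P hq hq2 h

/-- An integral model of the Frey curve is bad at the primes dividing `abc`. -/
theorem not_dvd_abc_of_isGoodPrimeFor (P : FreyPackage) {W : WeierstrassCurve ℤ}
    (hW : W.IsIntegralModelOf P.freyCurve) {q : ℕ} (hq : q.Prime) (hgood : W.IsGoodPrimeFor q) :
    ¬ (q : ℤ) ∣ P.a * P.b * P.c := by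
  intro h
  obtain ⟨C, hC⟩ := hW
  rw [EC.Reduction.Frey.freyCurve_eq_map] at hC
  have e := c₄_pow_mul_Δ_eq hC
  have hd : (q : ℤ) ∣ P.freyCurveInt.c₄ ^ 3 * W.Δ :=
    e ▸ (dvd_freyCurveInt_Δ P hq h).mul_left _
  rcases (Nat.prime_iff_prime_int.mp hq).dvd_mul.mp hd with h' | h'
  · exact EC.Reduction.Frey.not_dvd_c₄ P hq h ((Nat.prime_iff_prime_int.mp hq).dvd_of_dvd_pow h')
  · exact hgood h'

local notation "Q̄" => AlgebraicClosure ℚ

/-- The points of two curves related by a change of coordinates over `ℚ`. -/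
theorem exists_pointEquiv (E : WeierstrassCurve ℚ) [E.IsElliptic] (W' : WeierstrassCurve ℚ)
    {C : VariableChange ℚ} (hC : C • E = W') :
    ∃ Φ : (W'⁄Q̄).Point ≃+ (E⁄Q̄).Point, ∀ (σ : (Q̄ ≃ₐ[ℚ] Q̄)) (P : (W'⁄Q̄).Point),
      Φ (σ • P) = σ • Φ P := by
  subst hC
  classical
  set φ : ℚ →+* Q̄ := algebraMap ℚ Q̄
  have hXY : (C • E).map φ = C.map φ • E.map φ := (map_variableChange E C φ).symm
  let Φ : ((C • E)⁄Q̄).Point ≃+ (E⁄Q̄).Point :=
    (LevelRaising.pointCongr hXY).trans (Carayol.Omega.pointEquiv (C.map φ) (E.map φ))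
  refine ⟨Φ, ?_⟩
  intro σ P
  cases P with
  | zero =>
      rw [algEquiv_smul_def, algEquiv_smul_def]
      change Φ (Point.map σ.toAlgHom 0) = Point.map σ.toAlgHom (Φ 0)
      rw [_root_.map_zero, _root_.map_zero, _root_.map_zero]
  | some x y h =>
      rw [algEquiv_smul_def, algEquiv_smul_def, Point.map_some]
      show Carayol.Omega.pointEquiv (C.map φ) (E.map φ) (LevelRaising.pointCongr hXY (.some _ _ _)) =
        Point.map σ.toAlgHom (Carayol.Omega.pointEquiv (C.map φ) (E.map φ)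
          (LevelRaising.pointCongr hXY (.some _ _ h)))
      erw [LevelRaising.pointCongr_some, LevelRaising.pointCongr_some,
        Carayol.Omega.pointEquiv_some, Carayol.Omega.pointEquiv_some]
      refine Eq.trans ?_ (Point.map_some (f := σ.toAlgHom) _).symm
      refine LevelRaising.point_some_congr (X := E.map φ) ?_ ?_ _ _ <;> simp [oldX, oldY, φ]

/-- The `p`-torsion of two models related by a change of coordinates over `ℚ`. -/
theorem exists_residualRep_equiv {F W : WeierstrassCurve ℤ} {p : ℕ} [Fact p.Prime] (hF : F.Δ ≠ 0)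
    (hW : W.Δ ≠ 0) {C : VariableChange ℚ}
    (hC : C • F.map (Int.castRingHom ℚ) = W.map (Int.castRingHom ℚ)) :
    ∃ Le : (residualRep W p hW).V ≃ₗ[ZMod p] (residualRep F p hF).V,
      ∀ σ : GQ, Le.conj ((residualRep W p hW).ρ σ) = (residualRep F p hF).ρ σ := by
  have := EC.FrobTrace.isElliptic_map_rat hF
  obtain ⟨Φ, hΦ⟩ := exists_pointEquiv _ _ hC
  let e : (residualRep W p hW).V ≃+ (residualRep F p hF).V :=
    { toFun := fun x => ⟨Φ x.1, by
        rw [Submodule.mem_torsionBy_iff, ← map_zsmul, (Submodule.mem_torsionBy_iff _ _).mp x.2,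
          _root_.map_zero]⟩
      invFun := fun x => ⟨Φ.symm x.1, by
        rw [Submodule.mem_torsionBy_iff, ← map_zsmul, (Submodule.mem_torsionBy_iff _ _).mp x.2,
          _root_.map_zero]⟩
      left_inv := fun x => Subtype.ext (Φ.symm_apply_apply x.1)
      right_inv := fun x => Subtype.ext (Φ.apply_symm_apply x.1)
      map_add' := fun x y => Subtype.ext (map_add Φ x.1 y.1) }
  refine ⟨{ e with map_smul' := fun c x => ZMod.map_smul e.toAddMonoidHom c x },
    fun σ => LinearMap.ext fun x => ?_⟩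
  refine Subtype.ext ?_
  show Φ (σ • Φ.symm x.1) = σ • x.1
  rw [hΦ, AddEquiv.apply_symm_apply]

end Fermat.Agent.RT.MazurP

end
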