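import Fermat.Agent.RT.MazurP.EigenSpace
import Fermat.Agent.RT.MazurP.Models
import Fermat.Agent.RT.Mazur.Residual
import Fermat.Agent.GaloisReps.Matching
import Fermat.Agent.Deform.Burnside

/-!
# The torsion classes carrying the residual representation, and inertia over `p` on them

For the Frey curve modular of level `N` with `p ∣ N`: either an eigen class of `J₀(N)[p]` is fixed
by inertia over `p`, or two eigen classes carry a wild extension with lower jump one.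
-/

set_option autoImplicit false

noncomputable section

namespace Fermat.Agent.RT.MazurP

open ModularCurve AlgebraicCurve Fermat.Agent.Arith Fermat.Agent.GaloisReps Fermat.Agent.EC.Rep

variable {N p : ℕ} [NeZero N]

theorem gq_smul_zsmul {J : Type*} [AddCommGroup J] [DistribMulAction GQ J] (g : GQ) (a : ℤ)
    (x : J) : g • (a • x) = a • (g • x) :=
  map_zsmul (DistribSMul.toAddMonoidHom J g) a x

omit [NeZero N] in
theorem galois_smul_zsmul (g : GQ) (a : ℤ) (x : JZero N) : g • (a • x) = a • (g • x) :=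
  gq_smul_zsmul g a x

theorem zsmul_congr_of_nsmul_eq_zero {J : Type*} [AddCommGroup J] {x : J} (hx : p • x = 0)
    {a b : ℤ} (h : (a : ZMod p) = b) : a • x = b • x := by
  obtain ⟨c, hc⟩ := (ZMod.intCast_eq_intCast_iff_dvd_sub a b p).mp h
  rw [show b = a + c * p by linear_combination hc, add_zsmul, mul_zsmul, natCast_zsmul, hx,
    zsmul_zero, add_zero]

theorem eq_zero_of_zsmul_of_nsmul {J : Type*} [AddCommGroup J] [Fact p.Prime] {x : J}
    (hx : p • x = 0) {a : ℤ} (ha : (a : ZMod p) ≠ 0) (h : a • x = 0) : x = 0 := by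
  obtain ⟨c, hc⟩ := ZMod.intCast_surjective ((a : ZMod p)⁻¹)
  rw [← one_zsmul x, ← zsmul_congr_of_nsmul_eq_zero hx (a := c * a) (b := 1)
    (by push_cast; rw [hc, inv_mul_cancel₀ ha]), mul_zsmul, h, zsmul_zero]

variable [Fact p.Prime]

/-- A finite Galois stable group of order `p` classes on which Frobenius elements satisfy the
quadratics of `W` contains a stable group seeing exactly the residual representation's kernel. -/
theorem exists_stable_subgroup {J : Type*} [AddCommGroup J] [DistribMulAction GQ J]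
    (V : AddSubgroup J) [Finite V] (hV0 : V ≠ ⊥) (hpV : ∀ v ∈ V, p • v = 0)
    (hst : ∀ g : GQ, ∀ v ∈ V, g • v ∈ V)
    (hfix : ∀ v ∈ V, ∃ L : IntermediateField ℚ QBar, FiniteDimensional ℚ L ∧
      ∀ τ : GQ, (∀ z ∈ L, τ z = z) → τ • v = v)
    {W : WeierstrassCurve ℤ} (hΔ : W.Δ ≠ 0) (hp2 : p ≠ 2) (hirr : W.ModRepIsIrreducible p)
    (S : Finset ℕ) (hS : ∀ l : ℕ, l.Prime → l ∉ S → W.IsGoodPrimeFor l ∧ l ≠ p)
    (hfrob : ∀ l : ℕ, l.Prime → l ∉ S → ∀ B : ValuationSubring QBar, B.LiesOverPrime l →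
      ∀ σ : GQ, B.IsFrobeniusAt σ l → ∀ v ∈ V,
        σ • σ • v - W.apOfModel l • (σ • v) + l • v = 0) :
    ∃ U ≤ V, (∀ g : GQ, ∀ u ∈ U, g • u ∈ U) ∧
      (∀ g : GQ, (residualRep W p hΔ).ρ g = 1 → ∀ u ∈ U, g • u = u) ∧
      (∀ g : GQ, (∀ c : ZMod p, (residualRep W p hΔ).ρ g ≠ c • 1) →
        ∀ c : ℤ, ∃ u ∈ U, g • u ≠ c • u) ∧
      ∀ (g : GQ) (t d : ℤ),
        (t : ZMod p) = LinearMap.trace (ZMod p) _ ((residualRep W p hΔ).ρ g) →
        (d : ZMod p) = LinearMap.det ((residualRep W p hΔ).ρ g) →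
        ∀ u ∈ U, g • g • u - t • (g • u) + d • u = 0 := by
  classical
  have htorV : ∀ v : V, p • v = 0 := fun v => Subtype.ext (hpV v v.2)
  let _ : Module (ZMod p) V := AddCommGroup.zmodModule (n := p) htorV
  let act : GQ → V →+ V := fun g =>
    { toFun := fun v => ⟨g • (v : J), hst g v v.2⟩
      map_zero' := Subtype.ext (smul_zero g)
      map_add' := fun v w => Subtype.ext (smul_add g (v : J) w) }
  let ψ : GQ →* Module.End (ZMod p) V :=
    { toFun := fun g => (act g).toZModLinearMap p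
      map_one' := LinearMap.ext fun v => Subtype.ext (one_smul GQ (v : J))
      map_mul' := fun g h => LinearMap.ext fun v => Subtype.ext (mul_smul g h (v : J)) }
  have hψ : ∀ g (v : V), ((ψ g v : V) : J) = g • (v : J) := fun g v => rfl
  have hsmul : ∀ (a : ℤ) (v : V), (((a : ZMod p) • v : V) : J) = a • (v : J) := fun a v => by
    rw [Int.cast_smul_eq_zsmul]; rfl
  have htop : RT.Mazur.IsStableUnder ψ ⊤ := fun g v _ => Submodule.mem_top
  have htop0 : (⊤ : Submodule (ZMod p) V) ≠ ⊥ := by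
    obtain ⟨v, hv, hv0⟩ : ∃ v ∈ V, v ≠ 0 := by
      by_contra hall
      simp only [not_exists, not_and, not_not] at hall
      exact hV0 (V.eq_bot_iff_forall.mpr hall)
    intro e
    have hmem : (⟨v, hv⟩ : V) ∈ (⊤ : Submodule (ZMod p) V) := Submodule.mem_top
    rw [e, Submodule.mem_bot] at hmem
    exact hv0 (congrArg Subtype.val hmem)
  set ρ := residualRep W p hΔ with hρdef
  let b := Module.finBasisOfFinrankEq (ZMod p) ρ.V ρ.finrank_eq
  let r : GQ →* Matrix (Fin 2) (Fin 2) (ZMod p) :=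
    (LinearMap.toMatrixAlgEquiv b).toMonoidHom.comp ρ.ρ
  have hrtr : ∀ g, (r g).trace = LinearMap.trace (ZMod p) ρ.V (ρ.ρ g) := fun g =>
    (LinearMap.trace_eq_matrix_trace (ZMod p) b _).symm
  have hrdet : ∀ g, (r g).det = LinearMap.det (ρ.ρ g) := fun g => LinearMap.det_toMatrix b _
  have hquad : ∀ g, ∀ v ∈ (⊤ : Submodule (ZMod p) V),
      ψ g (ψ g v) - (r g).trace • ψ g v + (r g).det • v = 0 := by
    intro g v _
    obtain ⟨L₁, hL₁, h₁⟩ := ρ.factorsThroughFiniteLevel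
    choose L₂ hL₂ h₂ using fun w : V => hfix w w.2
    have : ∀ w, FiniteDimensional ℚ (L₂ w) := hL₂
    obtain ⟨ℓ, hℓ, hℓS, B, hB, σ, hσ, ⟨i, hi⟩, -⟩ :=
      Arith.Density.exists_frobenius_pow (ρ.ρ.prod ψ) (L₁ ⊔ ⨆ w, L₂ w) (fun τ hτ => Prod.ext
        (h₁ τ fun z hz => hτ z ((le_sup_left : L₁ ≤ L₁ ⊔ ⨆ w, L₂ w) hz))
        (LinearMap.ext fun w => Subtype.ext (h₂ w τ fun z hz =>
          hτ z ((le_sup_right : ⨆ w, L₂ w ≤ L₁ ⊔ ⨆ w, L₂ w) (le_iSup L₂ w hz))))) g S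
    obtain ⟨hgood, hℓp⟩ := hS ℓ hℓ hℓS
    obtain ⟨hρg, hψg⟩ := Prod.ext_iff.mp hi
    simp only [MonoidHom.prod_apply, Prod.pow_fst, Prod.pow_snd] at hρg hψg
    set a : ZMod p := (W.apOfModel ℓ : ZMod p) with ha
    have hcp := charpoly_residualRep_frobenius hΔ hℓ hgood hℓp hB hσ
    have htr : (r g).trace = powerTrace a (ℓ : ZMod p) i := by
      rw [hrtr, hρg]
      exact trace_pow_of_charpoly ρ.finrank_eq _ a ℓ hcp i
    have hdet : (r g).det = (ℓ : ZMod p) ^ i := by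
      rw [hrdet, hρg, map_pow, LinearMap.det_eq_sign_charpoly_coeff, ρ.finrank_eq, hcp]
      simp
    have hq : ψ σ * ψ σ - algebraMap (ZMod p) _ a * ψ σ +
        (ℓ : Module.End (ZMod p) V) = 0 := by
      refine LinearMap.ext fun w => Subtype.ext ?_
      have he := hfrob ℓ hℓ hℓS B hB σ hσ w w.2
      simp only [LinearMap.add_apply, LinearMap.sub_apply, Module.End.mul_apply,
        Module.algebraMap_end_apply, Module.End.natCast_apply, LinearMap.zero_apply,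
        AddSubgroup.coe_add, AddSubgroup.coe_sub, AddSubgroup.coe_zero,
        AddSubmonoidClass.coe_nsmul, ha, hsmul, hψ]
      exact he
    have hi2 := pow_quadratic (Algebra.commutes a (ψ σ)) ℓ hq i
    rw [← map_natCast (algebraMap (ZMod p) (Module.End (ZMod p) V)) ℓ, ← map_powerTrace,
      ← map_natCast (algebraMap (ZMod p) (Module.End (ZMod p) V)) (ℓ ^ i)] at hi2
    have h3 := LinearMap.congr_fun hi2 v
    simp only [LinearMap.add_apply, LinearMap.sub_apply, Module.End.mul_apply,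
      Module.algebraMap_end_apply, LinearMap.zero_apply] at h3
    rw [htr, hdet, hψg, ← Nat.cast_pow]
    exact h3
  obtain ⟨U, -, -, hUst, hUker, hUns⟩ := RT.Mazur.exists_submodule_kernel ψ r
    (Deform.span_matrix_eq_top ρ (isAbsolutelyIrreducible_residualRep hΔ hp2 hirr) b) ⊤ htop htop0
    hquad
  refine ⟨U.toAddSubgroup.map V.subtype, ?_, ?_, ?_, ?_, ?_⟩
  · rintro _ ⟨v, -, rfl⟩
    exact v.2
  · rintro g _ ⟨v, hv, rfl⟩
    exact ⟨ψ g v, hUst g v hv, rfl⟩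
  · rintro g hg _ ⟨v, hv, rfl⟩
    exact congrArg Subtype.val (hUker g (show LinearMap.toMatrixAlgEquiv b (ρ.ρ g) = 1 by
      rw [hg, map_one]) v hv)
  · intro g hg c
    obtain ⟨v, hv, hne⟩ := hUns g (fun k hk => hg k ((LinearMap.toMatrixAlgEquiv b).injective
      (by rw [map_smul, map_one]; exact hk))) (c : ZMod p)
    exact ⟨v, ⟨v, hv, rfl⟩, fun e => hne (Subtype.ext (e.trans (hsmul c v).symm))⟩
  · rintro g t d ht hd _ ⟨v, hv, rfl⟩
    have h := congrArg Subtype.val (hquad g v Submodule.mem_top)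
    rwa [hrtr, hrdet, ← ht, ← hd, AddSubgroup.coe_add, AddSubgroup.coe_sub, hψ, hsmul, hsmul, hψ,
      AddSubgroup.coe_zero] at h

/-- The classes with the eigenvalues of `W` contain a Galois stable group on which the kernel of
the residual representation acts trivially and non-scalar elements stay non-scalar. -/
theorem exists_eigen_subgroup {W : WeierstrassCurve ℤ} (hΔ : W.Δ ≠ 0) (hp2 : p ≠ 2)
    (hirr : W.ModRepIsIrreducible p) (hES : CongruenceProperty N p) (G : ℕ → Prop) (S₀ : Finset ℕ)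
    (hG : ∀ l : ℕ, l.Prime → l ∉ S₀ → G l ∧ W.IsGoodPrimeFor l)
    {x : JZero N} (hx0 : x ≠ 0) (hpx : p • x = 0) (hxe : IsEigen N G W.apOfModel x) :
    ∃ U : AddSubgroup (JZero N), (∀ u ∈ U, p • u = 0 ∧ IsEigen N G W.apOfModel u) ∧
      (∀ g : GQ, ∀ u ∈ U, g • u ∈ U) ∧
      (∀ g : GQ, (residualRep W p hΔ).ρ g = 1 → ∀ u ∈ U, g • u = u) ∧
      (∀ g : GQ, (∀ c : ZMod p, (residualRep W p hΔ).ρ g ≠ c • 1) →
        ∀ c : ℤ, ∃ u ∈ U, g • u ≠ c • u) ∧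
      ∀ (g : GQ) (t d : ℤ),
        (t : ZMod p) = LinearMap.trace (ZMod p) _ ((residualRep W p hΔ).ρ g) →
        (d : ZMod p) = LinearMap.det ((residualRep W p hΔ).ρ g) →
        ∀ u ∈ U, g • g • u - t • (g • u) + d • u = 0 := by
  classical
  have hp : p.Prime := Fact.out
  have : NeZero (p ^ 1) := ⟨pow_ne_zero 1 hp.ne_zero⟩
  let V : AddSubgroup (JZero N) :=
    { carrier := {v | p • v = 0 ∧ IsEigen N G W.apOfModel v}
      zero_mem' := ⟨nsmul_zero _, fun l hl _ => by simp⟩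
      add_mem' := fun {v w} hv hw => ⟨by rw [nsmul_add, hv.1, hw.1, add_zero], fun l hl hGl => by
        rw [map_add, hv.2 l hl hGl, hw.2 l hl hGl, zsmul_add]⟩
      neg_mem' := fun {v} hv => ⟨by rw [neg_nsmul, hv.1, neg_zero], fun l hl hGl => by
        rw [map_neg, hv.2 l hl hGl, zsmul_neg]⟩ }
  have htors : ∀ v ∈ V, v ∈ JTors N p 1 := fun v hv => by
    rw [Pic0.mem_torsion, pow_one, natCast_zsmul]; exact hv.1
  have : Finite (JTors N p 1) :=
    Finite.of_injective _ ((torsionIso N p (conjProperty N)).psi 1).injective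
  have : Finite V := Finite.of_injective (fun v : V => (⟨v, htors v v.2⟩ : JTors N p 1))
    fun v w h => Subtype.ext (congrArg Subtype.val h :)
  obtain ⟨U, hUle, h⟩ := exists_stable_subgroup V
    (fun e => hx0 ((AddSubgroup.eq_bot_iff_forall V).mp e x ⟨hpx, hxe⟩)) (fun v hv => hv.1)
    (fun g v hv =>
      ⟨(map_nsmul (DistribSMul.toAddMonoidHom (JZero N) g) p v).symm.trans
        ((congrArg (g • ·) hv.1).trans (smul_zero (A := JZero N) g)),
      fun l hl hGl => (galois_heckeOperatorBar (N := N) ⟨l, hl⟩ g v).symm.trans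
        ((congrArg (g • ·) (hv.2 l hl hGl)).trans (galois_smul_zsmul g _ v))⟩)
    (fun v hv => exists_fixing_torsion (N := N) ⟨v, htors v hv⟩) hΔ hp2 hirr
    (S₀ ∪ (N * p).primeFactors)
    (fun l hl hlS => by
      rw [Finset.mem_union, not_or] at hlS
      exact ⟨(hG l hl hlS.1).2, fun h => hlS.2 (Nat.mem_primeFactors.mpr
        ⟨hl, h ▸ dvd_mul_left l N, mul_ne_zero (NeZero.ne N) hp.ne_zero⟩)⟩)
    (fun l hl hlS B hB σ hσ v hv => by
      rw [Finset.mem_union, not_or] at hlS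
      have hlN : ¬ l ∣ N * p := fun h => hlS.2 (Nat.mem_primeFactors.mpr
        ⟨hl, h, mul_ne_zero (NeZero.ne N) hp.ne_zero⟩)
      have he := (hES l hl hlN B hB 1 ⟨v, htors v hv⟩).2 σ hσ
      have hT := (galois_heckeOperatorBar (N := N) ⟨l, hl⟩ σ v).symm.trans
        ((congrArg (σ • ·) (hv.2 l hl (hG l hl hlS.1).1)).trans (galois_smul_zsmul σ _ v))
      exact (congrArg (fun y => σ • σ • v - y + l • v) hT).symm.trans he)
  exact ⟨U, fun u hu => hUle hu, h⟩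

/-- `exists_fixed_or_wild` on any module with an action of `GQ`. -/
theorem exists_fixed_or_wild_of {J : Type*} [AddCommGroup J] [DistribMulAction GQ J]
    {A : ValuationSubring QBar} {F : WeierstrassCurve ℤ}
    (hA : A.LiesOverPrime p) (hp5 : 5 ≤ p) (hF : F.Δ ≠ 0)
    (hFΔ : (p : ℤ) ∣ F.Δ) (hFc₄ : ¬ (p : ℤ) ∣ F.c₄) (hv : p ∣ padicValInt p F.Δ)
    (U : AddSubgroup J) (hUp : ∀ u ∈ U, p • u = 0) (hUst : ∀ g : GQ, ∀ u ∈ U, g • u ∈ U)
    (hUker : ∀ g : GQ, (residualRep F p hF).ρ g = 1 → ∀ u ∈ U, g • u = u)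
    (hUns : ∀ g : GQ, (∀ c : ZMod p, (residualRep F p hF).ρ g ≠ c • 1) →
      ∀ c : ℤ, ∃ u ∈ U, g • u ≠ c • u)
    (hquad : ∀ (g : GQ) (t d : ℤ),
      (t : ZMod p) = LinearMap.trace (ZMod p) _ ((residualRep F p hF).ρ g) →
      (d : ZMod p) = LinearMap.det ((residualRep F p hF).ρ g) →
      ∀ u ∈ U, g • g • u - t • (g • u) + d • u = 0) :
    (∃ x ∈ U, x ≠ 0 ∧ ∀ τ ∈ A.inertiaSubgroupIn ℚ, τ • x = x) ∨
      ∃ (W : Wild A p) (x₁ x₀ : J), x₁ ∈ U ∧ x₀ ∈ U ∧ x₀ ≠ 0 ∧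
        (∀ τ ∈ W.C.H, τ • x₁ = x₁) ∧ (∀ τ ∈ W.C₁.H, τ • x₀ = x₀) ∧ W.σ • x₁ = x₁ + x₀ ∧
        ∀ τ ∈ A.inertiaSubgroupIn ℚ, ∃ n c : ℤ, τ • x₀ = n • x₀ ∧ τ • x₁ = x₁ + c • x₀ := by
  classical
  have hp : p.Prime := Fact.out
  have hp2 : p ≠ 2 := by omega
  set ρ := residualRep F p hF with hρdef
  obtain ⟨⟨Fr⟩, htr⟩ := exists_frame hA hp2 hF hFΔ hFc₄
  have hdet : ∀ τ, LinearMap.det (ρ.ρ τ) = (cyclotomicHom p τ : ZMod p) := fun τ =>
    det_residualRep hF (card_rootsOfUnity_qbar p) τ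
  have hwild : ∀ τ ∈ wildKer A F p, ∀ u ∈ U, τ • u = u := fun τ hτ => hUker τ
    (LinearMap.ext fun v => Subtype.ext
      ((mem_wildKer.mp hτ).2 v.1 ((Submodule.mem_torsionBy_iff _ _).mp v.2)))
  have hscalar : ∀ τ ∈ A.inertiaSubgroupIn ℚ, ∀ c : ZMod p, ρ.ρ τ = c • 1 →
      c = 1 ∧ (cyclotomicHom p τ : ZMod p) = 1 := by
    intro τ hτ c hc
    have h1 := htr τ hτ
    have h2 := hdet τ
    rw [hc, map_smul, LinearMap.trace_one, ρ.finrank_eq, smul_eq_mul] at h1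
    rw [hc, LinearMap.det_smul, ρ.finrank_eq, map_one, mul_one] at h2
    push_cast at h1
    have hc1 : c = 1 := by
      have hmul : (c - 1) * (c - 1) = 0 := by linear_combination h2 - h1
      exact sub_eq_zero.mp (mul_self_eq_zero.mp hmul)
    exact ⟨hc1, by rw [← h2, hc1, one_pow]⟩
  obtain ⟨τ₀, hτ₀, hprim, -, hgen⟩ := exists_tame_generator (p := p) hA
  set n : ℤ := ((cyclotomicHom p τ₀ : ZMod p).val : ℤ) with hndef
  have hn : (n : ZMod p) = (cyclotomicHom p τ₀ : ZMod p) := by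
    rw [hndef, Int.cast_natCast, ZMod.natCast_val, ZMod.cast_id]
  have hn0 : (n : ZMod p) ≠ 0 := hn ▸ Units.ne_zero _
  have hnpow : ∀ j : ℕ, (n : ZMod p) ^ j = 1 → p - 1 ∣ j := fun j hj => hprim j (hn ▸ hj)
  have hn2 : (n : ZMod p) ^ 2 ≠ 1 := fun h => by
    have := Nat.le_of_dvd two_pos (hnpow 2 h); omega
  have hn1 : (n : ZMod p) ≠ 1 := fun h => hn2 (by rw [h, one_pow])
  have hnons : ∀ c : ZMod p, ρ.ρ τ₀ ≠ c • 1 := fun c hc =>
    hn1 (hn.trans (hscalar τ₀ hτ₀ c hc).2)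
  have hq0 : ∀ u ∈ U, τ₀ • τ₀ • u - (n + 1) • (τ₀ • u) + n • u = 0 :=
    hquad τ₀ (n + 1) n (by rw [htr τ₀ hτ₀]; push_cast; rw [hn]) (by rw [hdet, hn])
  -- the fixed part
  have hfixa : ∀ u ∈ U, τ₀ • (τ₀ • u - n • u) = τ₀ • u - n • u := fun u hu => by
    have h := hq0 u hu
    rw [smul_sub, gq_smul_zsmul, ← sub_eq_zero, ← h, add_zsmul, one_zsmul]
    abel
  have hfixpow : ∀ (j : ℕ) (y : J), τ₀ • y = y → τ₀ ^ j • y = y := fun j y hy => by
    induction j with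
    | zero => simp
    | succ j ih => rw [pow_succ, mul_smul, hy, ih]
  rcases wildKer_eq_tameKer_or_exists_wild hA hp2 hF hFΔ hFc₄ hv with hA' | ⟨W, hC, hC₁, hmove, hgen₁⟩
  · left
    obtain ⟨u, hu, hne⟩ := hUns τ₀ hnons n
    refine ⟨τ₀ • u - n • u, U.sub_mem (hUst _ _ hu) (U.zsmul_mem hu _), sub_ne_zero.mpr hne,
      fun τ hτ => ?_⟩
    obtain ⟨j, hj⟩ := hgen τ hτ
    rw [show τ = τ₀ ^ j * ((τ₀ ^ j)⁻¹ * τ) by group, mul_smul,
      hwild _ (hA'.symm ▸ hj) _ (U.sub_mem (hUst _ _ hu) (U.zsmul_mem hu _)),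
      hfixpow j _ (hfixa u hu)]
  right
  have hσ : W.σ ∈ tameKer A p := hC₁ ▸ W.σ_mem
  obtain ⟨hσI, hσχ⟩ := mem_tameKer.mp hσ
  have hσq : ∀ u ∈ U, W.σ • (W.σ • u - u) = W.σ • u - u := fun u hu => by
    have h := hquad W.σ 2 1 (by rw [htr W.σ hσI, hσχ]; push_cast; ring)
      (by rw [hdet, hσχ]; simp) u hu
    rw [smul_sub, ← sub_eq_zero, ← h, two_zsmul, one_zsmul]
    abel
  have hσpow : ∀ (m : ℕ), ∀ u ∈ U, W.σ ^ m • u = u + (m : ℤ) • (W.σ • u - u) := by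
    intro m u hu
    induction m with
    | zero => simp
    | succ m ih =>
      rw [pow_succ', mul_smul, ih, smul_add, gq_smul_zsmul, hσq u hu, Nat.cast_succ, add_zsmul,
        one_zsmul]
      abel
  have hswap : ∀ u ∈ U, τ₀ • W.σ • u =
      W.σ ^ (cyclotomicHom p τ₀ : ZMod p).val • τ₀ • u := fun u hu => by
    have h := hwild _ (Fr.conj_pow_mem_wildKer hτ₀ hσ) _ (hUst τ₀ u hu)
    rw [mul_smul, inv_smul_eq_iff, mul_smul, mul_smul, inv_smul_smul] at h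
    exact h
  have hσns : ∀ c : ZMod p, ρ.ρ W.σ ≠ c • 1 := fun c hc => by
    obtain ⟨x, hx, hxne⟩ := hmove
    rw [(hscalar W.σ hσI c hc).1, one_smul] at hc
    exact hxne (congrArg Subtype.val
      (LinearMap.congr_fun hc ⟨x, (Submodule.mem_torsionBy_iff _ _).mpr hx⟩))
  obtain ⟨u, hu, hne⟩ := hUns W.σ hσns 1
  rw [one_zsmul] at hne
  set a := τ₀ • u - n • u with hadef
  set b := τ₀ • u - u with hbdef
  have haU : a ∈ U := U.sub_mem (hUst _ _ hu) (U.zsmul_mem hu _)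
  have hbU : b ∈ U := U.sub_mem (hUst _ _ hu) hu
  have hτb : τ₀ • b = n • b := by
    have h := hq0 u hu
    rw [hbdef, smul_sub, zsmul_sub, ← sub_eq_zero, ← h, add_zsmul, one_zsmul]
    abel
  set z := W.σ • b - b with hzdef
  have hzU : z ∈ U := U.sub_mem (hUst _ _ hbU) hbU
  have hτz : τ₀ • z = (n * n) • z := by
    have hnb : n • b ∈ U := U.zsmul_mem hbU _
    rw [hzdef, smul_sub, hswap b hbU, hτb, hσpow _ _ hnb, ← hndef, gq_smul_zsmul, ← zsmul_sub,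
      add_sub_cancel_left, mul_zsmul]
  have hz0 : z = 0 := by
    have h := hq0 z hzU
    rw [hτz, gq_smul_zsmul, hτz, ← mul_zsmul, ← mul_zsmul, sub_eq_add_neg, ← neg_zsmul,
      ← add_zsmul, ← add_zsmul] at h
    refine eq_zero_of_zsmul_of_nsmul (hUp z hzU) ?_ h
    push_cast
    have e : (n : ZMod p) * n * ((n : ZMod p) * n) + -(((n : ZMod p) + 1) * ((n : ZMod p) * n)) + n =
        n * ((n : ZMod p) - 1) * ((n : ZMod p) ^ 2 - 1) := by ring
    rw [e]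
    exact mul_ne_zero (mul_ne_zero hn0 (sub_ne_zero.mpr hn1)) (sub_ne_zero.mpr hn2)
  set x₀ := W.σ • a - a with hx₀def
  have hx₀U : x₀ ∈ U := U.sub_mem (hUst _ _ haU) haU
  have hx₀ : x₀ = -((n - 1) • (W.σ • u - u)) := by
    have hab : a = b - (n - 1) • u := by
      rw [hadef, hbdef, sub_zsmul, one_zsmul]; abel
    rw [hx₀def, hab, smul_sub, gq_smul_zsmul, zsmul_sub, show W.σ • b = b from sub_eq_zero.mp hz0]
    abel
  have hx₀0 : x₀ ≠ 0 := by
    rw [hx₀, neg_ne_zero]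
    intro h
    exact hne (sub_eq_zero.mp (eq_zero_of_zsmul_of_nsmul (hUp _ (U.sub_mem (hUst _ _ hu) hu))
      (by push_cast; exact sub_ne_zero.mpr hn1) h))
  have hτx₀ : τ₀ • x₀ = n • x₀ := by
    rw [hx₀def, smul_sub, hswap a haU, hfixa u hu, hσpow _ _ haU, ← hndef, add_sub_cancel_left]
  have hσx₀ : W.σ • x₀ = x₀ := hσq a haU
  have hσpx₀ : ∀ i : ℕ, W.σ ^ i • x₀ = x₀ := fun i => by
    induction i with
    | zero => simp
    | succ i ih => rw [pow_succ, mul_smul, hσx₀, ih]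
  have htame : ∀ h ∈ tameKer A p, ∃ i : ℕ, ∀ w ∈ U, h • w = W.σ ^ i • w := by
    intro h hh
    obtain ⟨i, hi⟩ := hgen₁ h hh
    refine ⟨i, fun w hw => ?_⟩
    have := hwild _ hi w hw
    rwa [mul_smul, inv_smul_eq_iff] at this
  refine ⟨W, a, x₀, haU, hx₀U, hx₀0, fun τ hτ => hwild τ (hC ▸ hτ) a haU, fun τ hτ => ?_,
    by rw [hx₀def]; abel, fun τ hτ => ?_⟩
  · obtain ⟨i, hi⟩ := htame τ (hC₁ ▸ hτ)
    rw [hi x₀ hx₀U, hσpx₀]
  · obtain ⟨j, hj⟩ := hgen τ hτ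
    obtain ⟨i, hi⟩ := htame _ hj
    have hjx : τ₀ ^ j • x₀ = (n ^ j) • x₀ := by
      clear hj hi
      induction j with
      | zero => simp
      | succ j ih =>
        rw [pow_succ', mul_smul, ih, gq_smul_zsmul, hτx₀, ← mul_zsmul, pow_succ]
    have e : ∀ w : J, τ • w = τ₀ ^ j • ((τ₀ ^ j)⁻¹ * τ) • w := fun w => by
      rw [← mul_smul, mul_inv_cancel_left]
    refine ⟨n ^ j, (i : ℤ) * n ^ j, by rw [e, hi x₀ hx₀U, hσpx₀, hjx], ?_⟩
    rw [e, hi a haU, hσpow i a haU, ← hx₀def, smul_add, gq_smul_zsmul, hjx,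
      hfixpow j a (hfixa u hu), ← mul_zsmul]

omit [NeZero N] in
/-- Inertia over `p` on a group of classes on which it acts through a representation with
semisimplification `χ + 1`: either a fixed class, or two classes with a wild extension. -/
theorem exists_fixed_or_wild {A : ValuationSubring QBar} {F : WeierstrassCurve ℤ}
    (hA : A.LiesOverPrime p) (hp5 : 5 ≤ p) (hF : F.Δ ≠ 0)
    (hFΔ : (p : ℤ) ∣ F.Δ) (hFc₄ : ¬ (p : ℤ) ∣ F.c₄) (hv : p ∣ padicValInt p F.Δ)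
    (U : AddSubgroup (JZero N)) (hUp : ∀ u ∈ U, p • u = 0) (hUst : ∀ g : GQ, ∀ u ∈ U, g • u ∈ U)
    (hUker : ∀ g : GQ, (residualRep F p hF).ρ g = 1 → ∀ u ∈ U, g • u = u)
    (hUns : ∀ g : GQ, (∀ c : ZMod p, (residualRep F p hF).ρ g ≠ c • 1) →
      ∀ c : ℤ, ∃ u ∈ U, g • u ≠ c • u)
    (hquad : ∀ (g : GQ) (t d : ℤ),
      (t : ZMod p) = LinearMap.trace (ZMod p) _ ((residualRep F p hF).ρ g) →
      (d : ZMod p) = LinearMap.det ((residualRep F p hF).ρ g) →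
      ∀ u ∈ U, g • g • u - t • (g • u) + d • u = 0) :
    (∃ x ∈ U, x ≠ 0 ∧ ∀ τ ∈ A.inertiaSubgroupIn ℚ, τ • x = x) ∨
      ∃ (W : Wild A p) (x₁ x₀ : JZero N), x₁ ∈ U ∧ x₀ ∈ U ∧ x₀ ≠ 0 ∧
        (∀ τ ∈ W.C.H, τ • x₁ = x₁) ∧ (∀ τ ∈ W.C₁.H, τ • x₀ = x₀) ∧ W.σ • x₁ = x₁ + x₀ ∧
        ∀ τ ∈ A.inertiaSubgroupIn ℚ, ∃ n c : ℤ, τ • x₀ = n • x₀ ∧ τ • x₁ = x₁ + c • x₀ :=
  exists_fixed_or_wild_of hA hp5 hF hFΔ hFc₄ hv U hUp hUst hUker hUns hquad

omit [Fact p.Prime] in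
/-- The eigen classes at `p` for the Frey curve. -/
theorem exists_eigen_torsion (P : FreyPackage) [Fact P.p.Prime] (hcond : P.IsConductorLevel N)
    (hpN : P.p ∣ N)
    (hirr : WeierstrassCurve.Affine.Point.GaloisRepIsIrreducible (K := AlgebraicClosure ℚ) ℚ
      P.freyCurve P.p)
    (hmod : P.ModularRepOfLevel N) (hES : CongruenceProperty N P.p) :
    ∃ W₀ : WeierstrassCurve ℤ, W₀.IsIntegralModelOf P.freyCurve ∧
      (∀ l : ℕ, l.Prime → W₀.IsGoodPrimeFor l ∧ l ≠ P.p → ¬ l ∣ N * P.p) ∧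
      (∃ l : ℕ, l.Prime ∧ (W₀.IsGoodPrimeFor l ∧ l ≠ P.p) ∧
        ¬ (P.p : ℤ) ∣ W₀.apOfModel l - (1 + l)) ∧
      ∀ A : ValuationSubring QBar, A.LiesOverPrime P.p →
        (∃ x : JZero N, x ≠ 0 ∧ P.p • x = 0 ∧
          IsEigen N (fun l => W₀.IsGoodPrimeFor l ∧ l ≠ P.p) W₀.apOfModel x ∧
          ∀ τ ∈ A.inertiaSubgroupIn ℚ, τ • x = x) ∨
        ∃ (W : Wild A P.p) (x₁ x₀ : JZero N), x₀ ≠ 0 ∧ P.p • x₁ = 0 ∧ P.p • x₀ = 0 ∧
          IsEigen N (fun l => W₀.IsGoodPrimeFor l ∧ l ≠ P.p) W₀.apOfModel x₁ ∧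
          IsEigen N (fun l => W₀.IsGoodPrimeFor l ∧ l ≠ P.p) W₀.apOfModel x₀ ∧
          (∀ τ ∈ W.C.H, τ • x₁ = x₁) ∧ (∀ τ ∈ W.C₁.H, τ • x₀ = x₀) ∧ W.σ • x₁ = x₁ + x₀ ∧
          ∀ τ ∈ A.inertiaSubgroupIn ℚ, ∃ n c : ℤ, τ • x₀ = n • x₀ ∧ τ • x₁ = x₁ + c • x₀ := by
  classical
  obtain ⟨f, W₀, 𝔪, hf, hW₀, h𝔪, hp𝔪, hcong⟩ := hmod
  have hp2 : P.p ≠ 2 := by have := P.hp5; omega
  have : P.freyCurve.IsElliptic := Mazur.Small.frey_isElliptic P
  obtain ⟨hΔ, hirrW⟩ := LevelRaising.modRepIsIrreducible_of_model hW₀ hirr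
  have hi : ∀ l : ℕ, l.Prime → W₀.IsGoodPrimeFor l ∧ l ≠ P.p → ¬ l ∣ N * P.p := by
    rintro l hl ⟨hgood, hlp⟩ hd
    rcases hl.dvd_mul.mp hd with h | h
    · exact not_dvd_abc_of_isGoodPrimeFor P hW₀ hl hgood (hcond.support l hl h)
    · exact hlp ((Nat.prime_dvd_prime_iff_eq hl P.pp).mp h)
  obtain ⟨x, hx0, hpx, hxe⟩ := exists_eigen_class (p := P.p) hf h𝔪.ne_top hp𝔪
    (fun l => W₀.IsGoodPrimeFor l ∧ l ≠ P.p) W₀.apOfModel fun l hl hG =>
      hcong l hl hG.1 (fun h => hi l hl hG (dvd_mul_of_dvd_left h _)) hG.2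
  obtain ⟨U, hUe, hUst, hUker, hUns, hquad⟩ := exists_eigen_subgroup hΔ hp2 hirrW hES
    (fun l => W₀.IsGoodPrimeFor l ∧ l ≠ P.p) (insert P.p W₀.Δ.natAbs.primeFactors)
    (fun l hl hS => by
      rw [Finset.mem_insert, not_or] at hS
      have hgood : W₀.IsGoodPrimeFor l := fun hd => hS.2 (Nat.mem_primeFactors.mpr
        ⟨hl, Int.natCast_dvd.mp hd, Int.natAbs_ne_zero.mpr hΔ⟩)
      exact ⟨⟨hgood, hS.1⟩, hgood⟩) hx0 hpx hxe
  refine ⟨W₀, hW₀, hi, ?_, fun A hA => ?_⟩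
  · obtain ⟨l, hl, -, hgood, hlp, hne⟩ := exists_apOfModel_ne hp2 hirrW hΔ ∅
    refine ⟨l, hl, ⟨hgood, hlp⟩, fun hd => hne ?_⟩
    have := (ZMod.intCast_zmod_eq_zero_iff_dvd _ _).mpr hd
    push_cast at this
    exact sub_eq_zero.mp this
  have hpabc := hcond.p_dvd_abc hpN
  obtain ⟨C, hC⟩ := hW₀
  rw [EC.Reduction.Frey.freyCurve_eq_map] at hC
  have hF := EC.Reduction.Frey.Δ_ne_zero P
  obtain ⟨Le, hLe⟩ := exists_residualRep_equiv (p := P.p) hF hΔ hC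
  have hconj1 : Le.conj (1 : Module.End (ZMod P.p) (residualRep W₀ P.p hΔ).V) = 1 :=
    LinearMap.ext fun y => Le.apply_symm_apply y
  rcases exists_fixed_or_wild hA P.hp5 hF (EC.Reduction.Frey.dvd_Δ P P.pp hp2 hpabc)
      (EC.Reduction.Frey.not_dvd_c₄ P P.pp hpabc)
      (by rw [EC.Multiplicative.Frey.padicValInt_Δ_of_odd P P.pp hp2]
          exact ⟨2 * padicValInt P.p (P.a * P.b * P.c), by ring⟩)
      U (fun u hu => (hUe u hu).1) hUst
      (fun g hg => hUker g (Le.conj.injective (by rw [hLe, hg, hconj1])))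
      (fun g hg => hUns g fun c hc => hg c (by rw [← hLe, hc, map_smul, hconj1]))
      (fun g t d ht hd => hquad g t d
        (by rw [ht, ← hLe]; exact LinearMap.trace_conj' _ Le)
        (by rw [hd, ← hLe, LinearEquiv.conj_apply, LinearMap.comp_assoc, LinearMap.det_conj])) with
    ⟨y, hy, hy0, hyfix⟩ | ⟨W, x₁, x₀, h₁, h₀, hne, hH, hH₁, hσ, hI⟩
  · exact Or.inl ⟨y, hy0, (hUe y hy).1, (hUe y hy).2, hyfix⟩
  · exact Or.inr ⟨W, x₁, x₀, hne, (hUe _ h₁).1, (hUe _ h₀).1, (hUe _ h₁).2, (hUe _ h₀).2, hH, hH₁,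
      hσ, hI⟩

end Fermat.Agent.RT.MazurP

end
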