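import Fermat.Agent.RT.MazurP.Assembly
import Fermat.Agent.RT.MazurP.Torsion
import Fermat.Agent.GaloisReps.OfInjective
import Fermat.Agent.EichlerShimura.InjectiveProof

/-!
# Lowering the level at `p`, from the absence of invariant maps on flat groups
-/

set_option autoImplicit false
set_option synthInstance.maxHeartbeats 400000

noncomputable section

namespace Fermat.Agent.RT.MazurP

open ModularCurve WeierstrassCurve.Affine.Point FreyPackage
open Fermat.Agent.Semistable Fermat.Agent.Arith

/-- Level lowering at `p`, from the absence of invariant maps on flat groups. -/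
theorem lower_of_noFlatQuotient (P : FreyPackage) {N : ℕ} (hcond : P.IsConductorLevel N)
    (hpN : P.p ∣ N)
    (hirr : GaloisRepIsIrreducible (K := AlgebraicClosure ℚ) ℚ P.freyCurve P.p)
    (hmod : P.ModularRepOfLevel N)
    (hGeo : ∀ [Fact P.p.Prime] (A : ValuationSubring QBar), A.LiesOverPrime P.p →
      ∀ (M : ℕ) [NeZero M] (hpM : ¬ P.p ∣ M), 4 ∣ M → NoFlatQuotient A M P.p hpM) :
    ∃ M : ℕ, M ∣ N ∧ ¬ P.p ∣ M ∧ P.ModularRepOfLevel M := by
  refine lower_of_inputs P hcond hpN (fun {_} A hA => ?_) hGeo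
  have : Fact P.p.Prime := ⟨P.pp⟩
  obtain ⟨W₀, hW₀, hG, hne, hA'⟩ := exists_eigen_torsion P hcond hpN hirr hmod
    (GaloisReps.congruenceProperty_all EichlerShimura.injectiveOnTorsion_all N P.p)
  exact ⟨W₀, hW₀, hG, hne, hA' A hA⟩

end Fermat.Agent.RT.MazurP

end
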