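import Fermat.Agent.RT.MazurP.Coeff
import Fermat.Agent.Semistable.Basis
import Fermat.Agent.GaloisReps.JacobianModel

/-!
# Reductions up to constants, eigen classes and wild inertia data

Interface definitions for level lowering at `p`.
-/

set_option autoImplicit false
set_option synthInstance.maxHeartbeats 400000

noncomputable section

namespace Fermat.Agent.RT.MazurP

open ModularCurve Fermat.Agent.Semistable Fermat.Agent.Arith Fermat.Agent.RT.Mazur

variable {A : ValuationSubring QBar}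

/-- `z` is, up to a constant, the reduction of the series `x`: some constant multiple of `x` lies
in `locS A` and has reduction `z ≠ 0`. -/
def IsRed (A : ValuationSubring QBar) (x : LSer) (z : LaurentSeries (Res A)) : Prop :=
  z ≠ 0 ∧ ∃ c : QBar, c ≠ 0 ∧
    ∃ h : algebraMap QBar LSer c * x ∈ locS A, redL A ⟨_, h⟩ = z

namespace IsRed

theorem ne_zero_left {x : LSer} {z : LaurentSeries (Res A)} (h : IsRed A x z) : x ≠ 0 := by
  rintro rfl
  obtain ⟨hz, c, -, h, e⟩ := h
  refine hz ?_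
  rw [← e, show (⟨algebraMap QBar LSer c * 0, h⟩ : locS A) = 0 from Subtype.ext (mul_zero _),
    map_zero]

theorem of_locS {x : LSer} (hx : x ∈ locS A) (hne : redL A ⟨x, hx⟩ ≠ 0) :
    IsRed A x (redL A ⟨x, hx⟩) := by
  have e : algebraMap QBar LSer 1 * x = x := by rw [map_one, one_mul]
  exact ⟨hne, 1, one_ne_zero, by rw [e]; exact hx, redL_congr _ _ e⟩

theorem const {c : QBar} (hc : c ≠ 0) : IsRed A (algebraMap QBar LSer c) 1 := by
  have e : algebraMap QBar LSer c⁻¹ * algebraMap QBar LSer c = 1 := by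
    rw [← map_mul, inv_mul_cancel₀ hc, map_one]
  exact ⟨one_ne_zero, c⁻¹, inv_ne_zero hc, by rw [e]; exact one_mem _,
    (redL_congr _ (one_mem _) e).trans (map_one (redL A))⟩

theorem mul {x y : LSer} {z w : LaurentSeries (Res A)} (hx : IsRed A x z) (hy : IsRed A y w) :
    IsRed A (x * y) (z * w) := by
  obtain ⟨hz, c, hc, hcx, rfl⟩ := hx
  obtain ⟨hw, d, hd, hdy, rfl⟩ := hy
  have e : algebraMap QBar LSer (c * d) * (x * y) =
      algebraMap QBar LSer c * x * (algebraMap QBar LSer d * y) := by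
    rw [map_mul, mul_mul_mul_comm]
  have e2 : redL A ⟨_, mul_mem hcx hdy⟩ = redL A ⟨_, hcx⟩ * redL A ⟨_, hdy⟩ :=
    map_mul (redL A) (⟨_, hcx⟩ : locS A) ⟨_, hdy⟩
  exact ⟨mul_ne_zero hz hw, c * d, mul_ne_zero hc hd, by rw [e]; exact mul_mem hcx hdy,
    (redL_congr _ (mul_mem hcx hdy) e).trans e2⟩

theorem inv {x : LSer} {z : LaurentSeries (Res A)} (hx : IsRed A x z) : IsRed A x⁻¹ z⁻¹ := by
  obtain ⟨hz, c, hc, hcx, rfl⟩ := hx
  obtain ⟨h', e'⟩ := inv_mem_locS hcx hz
  have e : algebraMap QBar LSer c⁻¹ * x⁻¹ = (algebraMap QBar LSer c * x)⁻¹ := by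
    rw [map_inv₀, mul_inv]
  exact ⟨inv_ne_zero hz, c⁻¹, inv_ne_zero hc, by rw [e]; exact h', (redL_congr _ h' e).trans e'⟩

theorem pow {x : LSer} {z : LaurentSeries (Res A)} (hx : IsRed A x z) (n : ℕ) :
    IsRed A (x ^ n) (z ^ n) := by
  induction n with
  | zero =>
    rw [pow_zero, pow_zero, ← map_one (algebraMap QBar LSer)]
    exact const one_ne_zero
  | succ n ih => rw [pow_succ, pow_succ]; exact ih.mul hx

theorem zpow {x : LSer} {z : LaurentSeries (Res A)} (hx : IsRed A x z) (n : ℤ) :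
    IsRed A (x ^ n) (z ^ n) := by
  rcases Int.eq_nat_or_neg n with ⟨m, rfl | rfl⟩
  · rw [zpow_natCast, zpow_natCast]; exact hx.pow m
  · rw [zpow_neg, zpow_neg, zpow_natCast, zpow_natCast]; exact (hx.pow m).inv

theorem exists_of_ne_zero {p : ℕ} (hA : A.LiesOverPrime p) (hp : p.Prime) {x : LSer}
    (hx : x ∈ fracS A) (h0 : x ≠ 0) : ∃ z, IsRed A x z := by
  obtain ⟨c, hc, h, hne⟩ := exists_scale hA hp hx h0
  exact ⟨_, hne, c, hc, h, rfl⟩

/-- Reductions are unique up to a nonzero constant. -/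
theorem unique {x : LSer} {z w : LaurentSeries (Res A)} (hz : IsRed A x z) (hw : IsRed A x w) :
    ∃ u : Res A, u ≠ 0 ∧ w = algebraMap (Res A) (LaurentSeries (Res A)) u * z := by
  have key : ∀ {z w : LaurentSeries (Res A)} {c d : QBar} (hc : c ≠ 0) (hdA : d / c ∈ A)
      (hcx : algebraMap QBar LSer c * x ∈ locS A) (hdx : algebraMap QBar LSer d * x ∈ locS A),
      redL A ⟨_, hcx⟩ = z → redL A ⟨_, hdx⟩ = w →
      w = algebraMap (Res A) (LaurentSeries (Res A)) (IsLocalRing.residue A ⟨d / c, hdA⟩) * z := by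
    intro z w c d hc hdA hcx hdx hz hw
    obtain ⟨h, e⟩ := redL_const_mul hdA hcx
    rw [← hw, ← hz, ← e]
    refine redL_congr _ _ ?_
    rw [← mul_assoc, ← map_mul, div_mul_cancel₀ _ hc]
  obtain ⟨hz0, c, hc, hcx, ez⟩ := hz
  obtain ⟨hw0, d, hd, hdx, ew⟩ := hw
  rcases A.mem_or_inv_mem (d / c) with h | h
  · refine ⟨_, fun h0 => hw0 ?_, key hc h hcx hdx ez ew⟩
    rw [key hc h hcx hdx ez ew, h0, map_zero, zero_mul]
  · rw [inv_div] at h
    have e := key hd h hdx hcx ew ez
    have hu : IsLocalRing.residue A ⟨c / d, h⟩ ≠ 0 := fun h0 => hz0 (by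
      rw [e, h0, map_zero, zero_mul])
    refine ⟨(IsLocalRing.residue A ⟨c / d, h⟩)⁻¹, inv_ne_zero hu, ?_⟩
    rw [e, ← mul_assoc, ← map_mul, inv_mul_cancel₀ hu, map_one, one_mul]

end IsRed

/-- The Hecke operators at the primes in `G` act on `x` by `a`. -/
def IsEigen (N : ℕ) [NeZero N] (G : ℕ → Prop) (a : ℕ → ℤ) (x : JZero N) : Prop :=
  ∀ (l : ℕ) (hl : l.Prime), G l → heckeOperatorBar N ⟨l, hl⟩ x = a l • x

/-- A wildly ramified coefficient field with lower ramification jump `1`, the fixed field of its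
tame part, and a generator `σ` of the wild part. -/
structure Wild (A : ValuationSubring QBar) (p : ℕ) where
  /-- The field. -/
  C : CoefField A p
  /-- The tame subfield. -/
  C₁ : CoefField A p
  /-- The generator of the wild part. -/
  σ : GQ
  le : C.H ≤ C₁.H
  σ_mem : σ ∈ C₁.H
  e_eq : C.e = p * (p - 1)
  e₁_eq : C₁.e = p - 1
  normal : ∀ τ ∈ C.H, σ⁻¹ * τ * σ ∈ C.H
  /-- `σ π / π = 1 + u π mod π²` with a unit `u`. -/
  u : A
  u_ne : IsLocalRing.residue A u ≠ 0
  σ_π : ∃ w ∈ A, σ C.π = C.π * (1 + (u : QBar) * C.π + w * C.π ^ 2)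
  scalar : ∀ y ∈ A, (∀ τ ∈ C.H, τ y = y) → ∃ w ∈ A, σ y - y = w * C.π ^ 2

namespace Wild

variable {p : ℕ} (W : Wild A p)

theorem σ_mem_inertia : W.σ ∈ A.inertiaSubgroupIn ℚ := W.C₁.le_inertia W.σ_mem

end Wild

section Level

variable (p M : ℕ) [Fact p.Prime] [NeZero M] (hpM : ¬ p ∣ M)

/-- The reduction of either side of a function of level `p M` is a function of level `M`. -/
theorem isRed_mem_KM [CharP (Res A) p] (hA : A.LiesOverPrime p) (hM : (M : Res A) ≠ 0)
    {x : FB (p * M)} {s : Fin 2} {z : LaurentSeries (Res A)}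
    (h : IsRed A (iota2 M p hpM s x) z) : z ∈ KM A M := by
  have hp : p.Prime := Fact.out
  obtain ⟨hz, c, hc, hcx, rfl⟩ := h
  obtain ⟨e₀, e₁, he₀, he₁⟩ := exists_idem (A := A) M p hpM
  set e : loc2 A (iota2 M p hpM) := if s = 0 then e₀ else e₁ with he
  have hes : ∀ t, red2 A (iota2 M p hpM) e t = if t = s then 1 else 0 := by
    intro t
    rw [he]
    fin_cases s <;> fin_cases t <;> simp [he₀, he₁]
  have hx0 : x ≠ 0 := fun h0 => hz (by
    rw [redL_congr hcx (zero_mem _) (by rw [h0, map_zero, mul_zero])]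
    exact map_zero (redL A))
  set y : FB (p * M) := algebraMap QBar (FB (p * M)) c * x with hy
  have hys : ∀ t, iota2 M p hpM t y = algebraMap QBar LSer c * iota2 M p hpM t x := fun t => by
    rw [hy, map_mul, AlgHom.commutes]
  obtain ⟨N, hN⟩ : ∃ N : ℕ, ∀ t, iota2 M p hpM t ((e : FB (p * M)) ^ N * y) ∈ locS A := by
    have key : ∀ t, ∃ n : ℕ, ∀ N, n ≤ N → iota2 M p hpM t ((e : FB (p * M)) ^ N * y) ∈ locS A := by
      intro t
      have het : iota2 M p hpM t (e : FB (p * M)) ∈ locS A := (mem_loc2 _).mp e.2 t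
      rcases eq_or_ne t s with rfl | hts
      · exact ⟨0, fun N _ => by
          rw [map_mul, map_pow, hys]; exact mul_mem (pow_mem het N) hcx⟩
      rcases eq_or_ne (iota2 M p hpM t (e : FB (p * M))) 0 with h0 | h0
      · refine ⟨1, fun N hN => ?_⟩
        rw [map_mul, map_pow, h0, zero_pow (by omega), zero_mul]
        exact zero_mem _
      obtain ⟨a, ha, haE, haEne⟩ := exists_scale hA hp (locS_le_fracS het) h0
      have hxy : iota2 M p hpM t y ∈ fracS A := iota2_fracS M p hpM t y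
      have hy0 : iota2 M p hpM t y ≠ 0 := (map_ne_zero _).mpr
        (mul_ne_zero ((map_ne_zero _).mpr hc) hx0)
      obtain ⟨b, hb, hbY, -⟩ := exists_scale hA hp hxy hy0
      have hainv : a⁻¹ ∈ A.nonunits := by
        by_contra hcon
        rcases A.mem_or_inv_mem a with h | h
        · obtain ⟨h', e'⟩ := redL_const_mul h het
          have h2 : red2 A (iota2 M p hpM) e t = 0 := by rw [hes, if_neg hts]
          rw [red2_apply] at h2
          exact haEne (e'.trans (by rw [h2, mul_zero]))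
        · have hv : A.valuation a⁻¹ = 1 := valuation_eq_one h hcon
          have ha' : a ∈ A := (A.valuation_le_one_iff a).mp (by
            rw [map_inv₀, inv_eq_one] at hv; rw [hv])
          obtain ⟨h', e'⟩ := redL_const_mul ha' het
          have h2 : red2 A (iota2 M p hpM) e t = 0 := by rw [hes, if_neg hts]
          rw [red2_apply] at h2
          exact haEne (e'.trans (by rw [h2, mul_zero]))
      obtain ⟨n, hn⟩ := exists_pow_valuation_lt hA hp hainv (s := b) hb
      refine ⟨n, fun N hN => ?_⟩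
      have hab : a⁻¹ ^ N / b ∈ A := by
        obtain ⟨i, rfl⟩ := Nat.exists_eq_add_of_le hN
        rw [pow_add, mul_div_right_comm]
        refine mul_mem ((A.valuation_le_one_iff _).mp ?_) (pow_mem (mem_of_mem_nonunits hainv) i)
        rw [map_div₀]
        exact (div_le_one₀ (zero_lt_iff.mpr ((Valuation.ne_zero_iff _).mpr hb))).mpr hn.le
      have h3 := mul_mem (algebraMap_mem_locS hab) (mul_mem (pow_mem haE N) hbY)
      convert h3 using 1
      have hαa : algebraMap QBar LSer a ≠ 0 := (map_ne_zero _).mpr ha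
      have hαb : algebraMap QBar LSer b ≠ 0 := (map_ne_zero _).mpr hb
      rw [map_mul, map_pow, map_div₀, map_pow, map_inv₀, mul_pow, inv_pow,
        mul_mul_mul_comm, ← mul_assoc, div_mul_eq_mul_div, inv_mul_cancel_left₀ (pow_ne_zero N hαa)]
      field_simp [hαb]
    choose n hn using key
    exact ⟨max (n 0) (n 1), fun t => hn t _ (by fin_cases t <;> simp)⟩
  have hmem : (e : FB (p * M)) ^ N * y ∈ loc2 A (iota2 M p hpM) := (mem_loc2 _).mpr hN
  have hred := red2_mem_KM M p hpM hM ⟨_, hmem⟩ s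
  rw [red2_apply] at hred
  have h1 : redL A ⟨iota2 M p hpM s (e : FB (p * M)), (mem_loc2 _).mp e.2 s⟩ = 1 := by
    rw [← red2_apply, hes, if_pos rfl]
  have e2 : iota2 M p hpM s ((e : FB (p * M)) ^ N * y) =
      iota2 M p hpM s (e : FB (p * M)) ^ N * (algebraMap QBar LSer c * iota2 M p hpM s x) := by
    rw [map_mul, map_pow, hys]
  rw [redL_congr (hN s) (mul_mem (pow_mem ((mem_loc2 _).mp e.2 s) N) hcx) e2] at hred
  have e3 := map_mul (redL A) (⟨_, (mem_loc2 _).mp e.2 s⟩ ^ N) ⟨_, hcx⟩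
  rw [map_pow, h1, one_pow, one_mul] at e3
  rwa [← e3]

end Level

end Fermat.Agent.RT.MazurP

end
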