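import Fermat.Agent.RT.MazurP.HeckeSeries
import Fermat.Agent.RT.Mazur.Rational

/-!
# Torsion classes and their Kummer functions

The class of a function with orders divisible by `m`, its Galois equivariance, and fixed Kummer
functions of fixed classes.
-/

set_option autoImplicit false
set_option synthInstance.maxHeartbeats 400000
set_option linter.unusedSectionVars false

noncomputable section

namespace Fermat.Agent.RT.MazurP

open ModularCurve AlgebraicCurve Fermat.Agent.Semistable Fermat.Agent.Arith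

variable {N m : ℕ} [NeZero N] [NeZero m]

/-- The class of a function with divisor divisible by `m`. -/
def cls (m : ℕ) [NeZero m] {f : FB N} (hf : f ≠ 0)
    (hdvd : ∀ v : Place QBar (FB N), (m : ℤ) ∣ v.ord f) : JZero N :=
  (JacTorsion.toTorsion (Additive.ofMul (⟨Units.mk0 f hf, hdvd⟩ :
    JacTorsion.divGrp QBar (FB N) m)) : JZero N)

theorem cls_congr {f g : FB N} (e : f = g) (hf : f ≠ 0) (hg : g ≠ 0)
    (hf' : ∀ v : Place QBar (FB N), (m : ℤ) ∣ v.ord f)
    (hg' : ∀ v : Place QBar (FB N), (m : ℤ) ∣ v.ord g) : cls m hf hf' = cls m hg hg' := by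
  subst e; rfl

theorem nsmul_cls {f : FB N} (hf : f ≠ 0) (hdvd : ∀ v : Place QBar (FB N), (m : ℤ) ∣ v.ord f) :
    m • cls m hf hdvd = 0 := by
  have h := (JacTorsion.toTorsion (Additive.ofMul (⟨Units.mk0 f hf, hdvd⟩ :
    JacTorsion.divGrp QBar (FB N) m))).2
  rw [Pic0.mem_torsion, natCast_zsmul] at h
  exact h

theorem cls_mul {f g : FB N} (hf : f ≠ 0) (hg : g ≠ 0)
    (hf' : ∀ v : Place QBar (FB N), (m : ℤ) ∣ v.ord f)
    (hg' : ∀ v : Place QBar (FB N), (m : ℤ) ∣ v.ord g)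
    (hfg : ∀ v : Place QBar (FB N), (m : ℤ) ∣ v.ord (f * g)) :
    cls m (mul_ne_zero hf hg) hfg = cls m hf hf' + cls m hg hg' := by
  rw [cls, cls, cls, ← AddSubgroup.coe_add, ← map_add, ← ofMul_mul]
  refine congrArg (fun u : JacTorsion.divGrp QBar (FB N) m =>
    (JacTorsion.toTorsion (Additive.ofMul u) : JZero N)) (Subtype.ext (Units.ext ?_))
  rfl

theorem cls_zpow {f : FB N} (hf : f ≠ 0) (hf' : ∀ v : Place QBar (FB N), (m : ℤ) ∣ v.ord f)
    (n : ℤ) (h : ∀ v : Place QBar (FB N), (m : ℤ) ∣ v.ord (f ^ n)) :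
    cls m (zpow_ne_zero n hf) h = n • cls m hf hf' := by
  rw [cls, cls, ← AddSubgroup.coe_zsmul, ← map_zsmul, ← ofMul_zpow]
  refine congrArg (fun u : JacTorsion.divGrp QBar (FB N) m =>
    (JacTorsion.toTorsion (Additive.ofMul u) : JZero N)) (Subtype.ext (Units.ext ?_))
  simp

theorem cls_eq_zero_iff {f : FB N} (hf : f ≠ 0)
    (hf' : ∀ v : Place QBar (FB N), (m : ℤ) ∣ v.ord f) :
    cls m hf hf' = 0 ↔ ∃ g : FB N, g ≠ 0 ∧ f = g ^ m := by
  rw [cls, ZeroMemClass.coe_eq_zero, JacTorsion.toTorsion_eq_zero_iff, JacTorsion.mem_powGrp]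
  constructor
  · rintro ⟨g, hg⟩
    exact ⟨(g : FB N), g.ne_zero, by simpa using (congrArg Units.val hg).symm⟩
  · rintro ⟨g, hg, e⟩
    exact ⟨Units.mk0 g hg, Units.ext (by simpa using e.symm)⟩

/-- Orders of a product of a constant, a function and an `m`-th power. -/
theorem dvd_ord_const_mul_pow {f φ : FB N} {c : QBar} (hc : c ≠ 0) (hf : f ≠ 0) (hφ : φ ≠ 0)
    (hdvd : ∀ v : Place QBar (FB N), (m : ℤ) ∣ v.ord f) (v : Place QBar (FB N)) :
    (m : ℤ) ∣ v.ord (algebraMap QBar (FB N) c * f * φ ^ m) := by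
  have hc' : algebraMap QBar (FB N) c ≠ 0 := (map_ne_zero _).mpr hc
  rw [v.ord_mul (mul_ne_zero hc' hf) (pow_ne_zero _ hφ), v.ord_mul hc' hf, FF.ord_algebraMap,
    FF.ord_pow v, zero_add]
  exact dvd_add (hdvd v) (dvd_mul_right _ _)

/-- Constants and `m`-th powers do not change the class. -/
theorem cls_const_mul_pow {f φ : FB N} {c : QBar} (hc : c ≠ 0) (hf : f ≠ 0) (hφ : φ ≠ 0)
    (hf' : ∀ v : Place QBar (FB N), (m : ℤ) ∣ v.ord f)
    (h : algebraMap QBar (FB N) c * f * φ ^ m ≠ 0) :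
    cls m h (dvd_ord_const_mul_pow hc hf hφ hf') = cls m hf hf' := by
  obtain ⟨d, hd⟩ := IsAlgClosed.exists_pow_nat_eq c (NeZero.pos m)
  set g := algebraMap QBar (FB N) d * φ with hg
  have hd0 : d ≠ 0 := fun h0 => hc (by rw [← hd, h0, zero_pow (NeZero.ne m)])
  have hg0 : g ≠ 0 := mul_ne_zero ((map_ne_zero _).mpr hd0) hφ
  have e : algebraMap QBar (FB N) c * f * φ ^ m = f * g ^ m := by
    rw [hg, mul_pow, ← map_pow, hd]; ring
  have hgm : ∀ v : Place QBar (FB N), (m : ℤ) ∣ v.ord (g ^ m) := fun v => by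
    rw [FF.ord_pow v]; exact dvd_mul_right _ _
  have hfg : ∀ v : Place QBar (FB N), (m : ℤ) ∣ v.ord (f * g ^ m) := fun v => by
    rw [← e]; exact dvd_ord_const_mul_pow hc hf hφ hf' v
  rw [cls_congr e h (mul_ne_zero hf (pow_ne_zero _ hg0)) _ hfg,
    cls_mul hf (pow_ne_zero _ hg0) hf' hgm hfg, (cls_eq_zero_iff _ hgm).mpr ⟨g, hg0, rfl⟩, add_zero]

theorem dvd_ord_galF (τ : GQ) {f : FB N}
    (hdvd : ∀ v : Place QBar (FB N), (m : ℤ) ∣ v.ord f) (v : Place QBar (FB N)) :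
    (m : ℤ) ∣ v.ord (galF N τ f) := by
  set g := arithmeticGalois (modularFunctionFieldFull N) τ with hg
  have h := SemilinearAut.ord_smul g (g⁻¹ • v) f
  rw [smul_inv_smul] at h
  show (m : ℤ) ∣ v.ord (g • f)
  rw [h]
  exact hdvd _

theorem galF_ne_zero (τ : GQ) {f : FB N} (hf : f ≠ 0) : galF N τ f ≠ 0 :=
  (map_ne_zero (galF N τ)).mpr hf

/-- Galois acts on classes through the functions. -/
theorem smul_cls (τ : GQ) {f : FB N} (hf : f ≠ 0)
    (hdvd : ∀ v : Place QBar (FB N), (m : ℤ) ∣ v.ord f) :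
    τ • cls m hf hdvd = cls m (galF_ne_zero τ hf) (dvd_ord_galF τ hdvd) := by
  set g := arithmeticGalois (modularFunctionFieldFull N) τ with hg
  set u : JacTorsion.divGrp QBar (FB N) m := ⟨Units.mk0 f hf, hdvd⟩
  set u' : JacTorsion.divGrp QBar (FB N) m :=
    ⟨Units.mk0 _ (galF_ne_zero τ hf), dvd_ord_galF τ hdvd⟩
  show τ • (Pic0.mk ⟨JacTorsion.divQuot u, JacTorsion.divQuot_mem_degZero _⟩ : JZero N) =
    Pic0.mk ⟨JacTorsion.divQuot u', JacTorsion.divQuot_mem_degZero _⟩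
  rw [galois_smul_pic0_def, SemilinearAut.pic0_smul_mk]
  refine congrArg Pic0.mk (Subtype.ext (Finsupp.ext fun P => ?_))
  show (g • JacTorsion.divQuot u) P = JacTorsion.divQuot u' P
  rw [SemilinearAut.divisor_smul_apply]
  simp only [JacTorsion.divQuot, Finsupp.mapRange_apply, FF.div_apply]
  refine congrArg (· / (m : ℤ)) ?_
  have h := SemilinearAut.ord_smul g (g⁻¹ • P) f
  rw [smul_inv_smul] at h
  exact h.symm

/-- A fixed torsion class has a Kummer function fixed by the group. -/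
theorem exists_cls_fixed (S : Subgroup GQ) {x : JZero N} (hm : m • x = 0)
    (hx : ∀ τ ∈ S, τ • x = x) :
    ∃ (f : FB N) (hf : f ≠ 0) (hdvd : ∀ v : Place QBar (FB N), (m : ℤ) ∣ v.ord f),
      cls m hf hdvd = x ∧ (f : LSer).leadingCoeff = 1 ∧ ∀ τ ∈ S, galF N τ f = f := by
  obtain ⟨f, hfx, hl, hfix⟩ := Mazur.exists_fixed_kummer
    (S := arithmeticGalois (modularFunctionFieldFull N) '' (S : Set GQ))
    (P₀ := Mazur.Eisenstein.placeInf N)
    (by rintro _ ⟨τ, -, rfl⟩; exact Mazur.galois_smul_placeInf τ)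
    (fun y : FB N => (y : LSer).leadingCoeff)
    (fun c y => by
      show ((algebraMap QBar LSer c) * (y : LSer)).leadingCoeff = _
      rw [HahnSeries.leadingCoeff_mul, algebraMap_laurentSeries_eq_single,
        HahnSeries.leadingCoeff_of_single])
    (fun y hy => HahnSeries.leadingCoeff_ne_zero.mpr fun h => hy (Subtype.ext h))
    (by rintro _ ⟨τ, -, rfl⟩ y; exact JacTorsion.coeffMap_leadingCoeff (τ : QBar →+* QBar) _)
    (x := (⟨x, by rw [Pic0.mem_torsion, natCast_zsmul]; exact hm⟩ : Pic0.torsion QBar (FB N) m))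
    (by rintro _ ⟨τ, hτ, rfl⟩; exact hx τ hτ)
  refine ⟨((f : (FB N)ˣ) : FB N), Units.ne_zero _, f.2, ?_, hl, fun τ hτ => hfix _ ⟨τ, hτ, rfl⟩⟩
  show (JacTorsion.toTorsion (Additive.ofMul (⟨Units.mk0 _ (Units.ne_zero _), f.2⟩ :
    JacTorsion.divGrp QBar (FB N) m)) : JZero N) = x
  rw [show (⟨Units.mk0 ((f : (FB N)ˣ) : FB N) (Units.ne_zero _), f.2⟩ :
    JacTorsion.divGrp QBar (FB N) m) = f from Subtype.ext (Units.ext rfl), hfx]

/-- Functions with the same class differ by an `m`-th power. -/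
theorem exists_eq_mul_pow {f g : FB N} (hf : f ≠ 0) (hg : g ≠ 0)
    (hf' : ∀ v : Place QBar (FB N), (m : ℤ) ∣ v.ord f)
    (hg' : ∀ v : Place QBar (FB N), (m : ℤ) ∣ v.ord g) (h : cls m hf hf' = cls m hg hg') :
    ∃ q : FB N, q ≠ 0 ∧ f = g * q ^ m := by
  have hgi : ∀ v : Place QBar (FB N), (m : ℤ) ∣ v.ord g⁻¹ := fun v => by
    rw [v.ord_inv]; exact (hg' v).neg_right
  have hfg : ∀ v : Place QBar (FB N), (m : ℤ) ∣ v.ord (f * g⁻¹) := fun v => by
    rw [v.ord_mul hf (inv_ne_zero hg)]; exact dvd_add (hf' v) (hgi v)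
  have hgg : ∀ v : Place QBar (FB N), (m : ℤ) ∣ v.ord (g * g⁻¹) := fun v => by
    rw [mul_inv_cancel₀ hg, v.ord_one]; exact dvd_zero _
  have h1 : cls m (mul_ne_zero hf (inv_ne_zero hg)) hfg = 0 := by
    rw [cls_mul hf (inv_ne_zero hg) hf' hgi hfg, h, ← cls_mul hg (inv_ne_zero hg) hg' hgi hgg]
    exact (cls_eq_zero_iff _ hgg).mpr ⟨1, one_ne_zero, by rw [one_pow, mul_inv_cancel₀ hg]⟩
  obtain ⟨q, hq, e⟩ := (cls_eq_zero_iff _ hfg).mp h1
  exact ⟨q, hq, by rw [← e, mul_left_comm, mul_inv_cancel₀ hg, mul_one]⟩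

/-- The multiplier between a class, its image and their difference is fixed. -/
theorem exists_multiplier (S : Subgroup GQ) {σ : GQ} (hnorm : ∀ τ ∈ S, σ⁻¹ * τ * σ ∈ S)
    {f₁ f₀ : FB N} (h₁ : f₁ ≠ 0) (h₀ : f₀ ≠ 0)
    (d₁ : ∀ v : Place QBar (FB N), (m : ℤ) ∣ v.ord f₁)
    (d₀ : ∀ v : Place QBar (FB N), (m : ℤ) ∣ v.ord f₀)
    (l₁ : (f₁ : LSer).leadingCoeff = 1) (l₀ : (f₀ : LSer).leadingCoeff = 1)
    (fix₁ : ∀ τ ∈ S, galF N τ f₁ = f₁) (fix₀ : ∀ τ ∈ S, galF N τ f₀ = f₀)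
    (hσ : σ • cls m h₁ d₁ = cls m h₁ d₁ + cls m h₀ d₀) :
    ∃ q : FB N, q ≠ 0 ∧ (∀ τ ∈ S, galF N τ q = q) ∧
      galF N σ f₁ = algebraMap QBar (FB N) 1 * f₁ * f₀ * q ^ m := by
  have d10 : ∀ v : Place QBar (FB N), (m : ℤ) ∣ v.ord (f₁ * f₀) := fun v => by
    rw [v.ord_mul h₁ h₀]; exact dvd_add (d₁ v) (d₀ v)
  rw [smul_cls, ← cls_mul h₁ h₀ d₁ d₀ d10] at hσ
  obtain ⟨q, hq, e⟩ := exists_eq_mul_pow _ _ _ _ hσ
  have hlead : ∀ (τ : GQ) (y : FB N),
      (galF N τ y : LSer).leadingCoeff = τ ((y : LSer).leadingCoeff) := fun τ y => by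
    rw [coe_arithmeticRingAut]; exact JacTorsion.coeffMap_leadingCoeff (τ : QBar →+* QBar) _
  set w := (q : LSer).leadingCoeff with hw
  have hwm : w ^ m = 1 := by
    have h : (galF N σ f₁ : LSer).leadingCoeff = ((f₁ * f₀ * q ^ m : FB N) : LSer).leadingCoeff :=
      congrArg (fun y : FB N => (y : LSer).leadingCoeff) e
    rw [hlead, l₁, map_one, IntermediateField.coe_mul, IntermediateField.coe_mul,
      IntermediateField.coe_pow, HahnSeries.leadingCoeff_mul, HahnSeries.leadingCoeff_mul, l₁, l₀,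
      one_mul, one_mul] at h
    have hp : ∀ i : ℕ, ((q : LSer) ^ i).leadingCoeff = w ^ i := fun i => by
      induction i with
      | zero => simp
      | succ i ih => rw [pow_succ, HahnSeries.leadingCoeff_mul, ih, pow_succ]
    rw [hp] at h
    exact h.symm
  have hw0 : w ≠ 0 := fun h0 => by
    rw [h0, zero_pow (NeZero.ne m)] at hwm; exact zero_ne_one hwm
  set q' := algebraMap QBar (FB N) w⁻¹ * q with hq'
  have hq'0 : q' ≠ 0 := mul_ne_zero ((map_ne_zero _).mpr (inv_ne_zero hw0)) hq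
  have hl' : (q' : LSer).leadingCoeff = 1 := by
    show (algebraMap QBar LSer w⁻¹ * (q : LSer)).leadingCoeff = 1
    rw [HahnSeries.leadingCoeff_mul, algebraMap_laurentSeries_eq_single,
      HahnSeries.leadingCoeff_of_single, ← hw, inv_mul_cancel₀ hw0]
  have e' : galF N σ f₁ = f₁ * f₀ * q' ^ m := by
    rw [e, hq', mul_pow, ← map_pow, inv_pow, hwm, inv_one, map_one, one_mul]
  refine ⟨q', hq'0, fun τ hτ => ?_, by rw [map_one, one_mul, e']⟩
  have hcomp : galF N τ (galF N σ f₁) = galF N σ f₁ := by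
    have h := fix₁ _ (hnorm τ hτ)
    refine Subtype.ext ?_
    have h' := congrArg (fun y : FB N => coeffMap (σ : QBar →+* QBar) (y : LSer)) h
    simp only [coe_arithmeticRingAut, coeffMap_coeffMap] at h'
    simp only [coe_arithmeticRingAut, coeffMap_coeffMap]
    refine Eq.trans ?_ h'
    congr 2
    exact RingHom.ext fun x => show τ (σ x) = σ ((σ⁻¹ * τ * σ) x) by
      rw [← AlgEquiv.mul_apply σ, ← mul_assoc, ← mul_assoc, mul_inv_cancel, one_mul,
        AlgEquiv.mul_apply]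
  rw [e', map_mul, map_mul, map_pow, fix₁ τ hτ, fix₀ τ hτ] at hcomp
  have hpow := mul_left_cancel₀ (mul_ne_zero h₁ h₀) hcomp
  have hr : (galF N τ q' / q') ^ m = 1 := by
    rw [div_pow, hpow, div_self (pow_ne_zero _ hq'0)]
  obtain ⟨ζ, hζ⟩ : ∃ ζ : QBar, galF N τ q' / q' = algebraMap QBar (FB N) ζ :=
    FF.eq_algebraMap_of_ord_nonneg fun v => by
      have h1 := congrArg v.ord hr
      rw [FF.ord_pow v, v.ord_one] at h1
      rcases mul_eq_zero.mp h1 with h2 | h2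
      · exact absurd h2 (by exact_mod_cast NeZero.ne m)
      · omega
  have h2 : galF N τ q' = algebraMap QBar (FB N) ζ * q' := by rw [← hζ, div_mul_cancel₀ _ hq'0]
  have h3 := congrArg (fun y : FB N => (y : LSer).leadingCoeff) h2
  simp only [hlead, hl', map_one] at h3
  rw [show ((algebraMap QBar (FB N) ζ * q' : FB N) : LSer) =
    algebraMap QBar LSer ζ * (q' : LSer) from rfl, HahnSeries.leadingCoeff_mul,
    algebraMap_laurentSeries_eq_single, HahnSeries.leadingCoeff_of_single, hl', mul_one] at h3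
  rw [h2, ← h3, map_one, one_mul]

end Fermat.Agent.RT.MazurP

end
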