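import Fermat.Agent.RT.MazurP.Flat

/-!
# The congruent form

A flat group has no invariant map to `ℤ/p`; applied to the flat classes this leaves only the
congruent form of level `M`.
-/

set_option autoImplicit false
set_option synthInstance.maxHeartbeats 400000
set_option maxHeartbeats 1000000
set_option linter.unusedSectionVars false

noncomputable section

namespace Fermat.Agent.RT.MazurP

open ModularCurve Fermat.Agent.Semistable Fermat.Agent.Arith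

/-- An inertia stable group of flat classes of level `p M` has no invariant map to `ℤ/p`. -/
def NoFlatQuotient (A : ValuationSubring QBar) (M p : ℕ) [NeZero M] [Fact p.Prime]
    (hpM : ¬ p ∣ M) : Prop :=
  ∀ H : AddSubgroup (JZero (p * M)), (∀ y ∈ H, OrdinaryAtP.IsFlatClass A M p hpM y) →
    ∀ hstab : ∀ τ ∈ A.inertiaSubgroupIn ℚ, ∀ y ∈ H, τ • y ∈ H,
      ∀ π : H →+ ZMod p,
        (∀ τ (hτ : τ ∈ A.inertiaSubgroupIn ℚ) (y : H),
          π ⟨τ • (y : JZero (p * M)), hstab τ hτ y y.2⟩ = π y) → π = 0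

theorem smul_zsmul_class {N : ℕ} [NeZero N] (τ : GQ) (n : ℤ) (x : JZero N) :
    τ • (n • x) = n • (τ • x) :=
  map_zsmul (DistribSMul.toAddMonoidHom (JZero N) τ) n x

theorem dvd_of_zsmul_eq_zero {H : Type*} [AddCommGroup H] {p : ℕ} (hp : p.Prime) {y : H}
    (hy : y ≠ 0) (hpy : p • y = 0) {i : ℤ} (h : i • y = 0) : (p : ℤ) ∣ i := by
  by_contra hi
  obtain ⟨u, v, huv⟩ := ((Nat.prime_iff_prime_int.mp hp).coprime_iff_not_dvd).mpr hi
  refine hy ?_
  rw [← one_zsmul y, ← huv, add_zsmul, mul_zsmul, mul_zsmul, natCast_zsmul, hpy, h, smul_zero,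
    smul_zero, add_zero]

variable {A : ValuationSubring QBar} {p M : ℕ} [Fact p.Prime] [NeZero M] {hpM : ¬ p ∣ M}

/-- No flat fixed class. -/
theorem NoFlatQuotient.false_of_fixed (hG : NoFlatQuotient A M p hpM) {y : JZero (p * M)}
    (hy : y ≠ 0) (hpy : p • y = 0) (hflat : OrdinaryAtP.IsFlatClass A M p hpM y)
    (hfix : ∀ τ ∈ A.inertiaSubgroupIn ℚ, τ • y = y) : False := by
  have hp : p.Prime := Fact.out
  set φ : ℤ →+ JZero (p * M) := zmultiplesHom _ y with hφdef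
  have hmem : ∀ x ∈ φ.range, OrdinaryAtP.IsFlatClass A M p hpM x := by
    rintro _ ⟨i, rfl⟩
    show OrdinaryAtP.IsFlatClass A M p hpM (i • y)
    induction i using Int.induction_on with
    | zero => rw [zero_zsmul]; exact OrdinaryAtP.isFlatClass_zero hpM
    | succ i ih => rw [add_zsmul, one_zsmul]; exact ih.add hpM hflat
    | pred i ih => rw [sub_zsmul, one_zsmul]; exact ih.add hpM (hflat.neg hpM)
  have hfixR : ∀ τ ∈ A.inertiaSubgroupIn ℚ, ∀ x ∈ φ.range, τ • x = x := by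
    rintro τ hτ _ ⟨i, rfl⟩
    show τ • (i • y) = i • y
    rw [smul_zsmul_class, hfix τ hτ]
  let e : {g : _ →+ ZMod p // φ.rangeRestrict.ker ≤ g.ker} ≃ (φ.range →+ ZMod p) :=
    AddMonoidHom.liftOfSurjective φ.rangeRestrict φ.rangeRestrict_surjective
  have hker : φ.rangeRestrict.ker ≤ (Int.castAddHom (ZMod p)).ker := by
    intro i hi
    rw [AddMonoidHom.ker_rangeRestrict, AddMonoidHom.mem_ker] at hi
    exact (ZMod.intCast_zmod_eq_zero_iff_dvd i p).mpr (dvd_of_zsmul_eq_zero hp hy hpy hi)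
  have h := hG φ.range hmem (fun τ hτ x hx => by rw [hfixR τ hτ x hx]; exact hx)
    (e ⟨_, hker⟩) fun τ hτ x => congrArg _ (Subtype.ext (hfixR τ hτ x x.2))
  have h1 := DFunLike.congr_fun h (φ.rangeRestrict 1)
  rw [AddMonoidHom.liftOfRightInverse_comp_apply] at h1
  simp at h1

/-- No flat plane with a nontrivial wild action. -/
theorem NoFlatQuotient.false_of_plane (hG : NoFlatQuotient A M p hpM) {σ : GQ}
    {y₁ y₀ : JZero (p * M)} (hy₀ : y₀ ≠ 0) (hp₀ : p • y₀ = 0)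
    (hσ₁ : σ • y₁ = y₁ + y₀) (hσ₀ : σ • y₀ = y₀)
    (hf₁ : OrdinaryAtP.IsFlatClass A M p hpM y₁) (hf₀ : OrdinaryAtP.IsFlatClass A M p hpM y₀)
    (hI : ∀ τ ∈ A.inertiaSubgroupIn ℚ, ∃ n c : ℤ, τ • y₀ = n • y₀ ∧ τ • y₁ = y₁ + c • y₀) :
    False := by
  have hp : p.Prime := Fact.out
  set φ : ℤ × ℤ →+ JZero (p * M) :=
    AddMonoidHom.coprod (zmultiplesHom _ y₁) (zmultiplesHom _ y₀) with hφdef
  have hφ : ∀ i j : ℤ, φ (i, j) = i • y₁ + j • y₀ := fun i j => rfl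
  have hflat : ∀ {x : JZero (p * M)}, OrdinaryAtP.IsFlatClass A M p hpM x → ∀ i : ℤ,
      OrdinaryAtP.IsFlatClass A M p hpM (i • x) := fun {x} hx i => by
    induction i using Int.induction_on with
    | zero => rw [zero_zsmul]; exact OrdinaryAtP.isFlatClass_zero hpM
    | succ i ih => rw [add_zsmul, one_zsmul]; exact ih.add hpM hx
    | pred i ih => rw [sub_zsmul, one_zsmul]; exact ih.add hpM (hx.neg hpM)
  have hmem : ∀ x ∈ φ.range, OrdinaryAtP.IsFlatClass A M p hpM x := by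
    rintro _ ⟨⟨i, j⟩, rfl⟩
    rw [hφ]
    exact (hflat hf₁ i).add hpM (hflat hf₀ j)
  have hact : ∀ (τ : GQ) {n c : ℤ}, τ • y₀ = n • y₀ → τ • y₁ = y₁ + c • y₀ → ∀ i j : ℤ,
      τ • φ (i, j) = φ (i, i * c + j * n) := fun τ n c h0 h1 i j => by
    rw [hφ, hφ, smul_add, smul_zsmul_class, smul_zsmul_class, h0, h1, zsmul_add, add_zsmul,
      mul_zsmul, mul_zsmul, add_assoc]
  have hker : φ.rangeRestrict.ker ≤ ((Int.castAddHom (ZMod p)).comp (AddMonoidHom.fst ℤ ℤ)).ker := by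
    rintro ⟨i, j⟩ hij
    rw [AddMonoidHom.ker_rangeRestrict, AddMonoidHom.mem_ker] at hij
    have h := congrArg (σ • ·) hij
    simp only [smul_zero] at h
    rw [hact σ (n := 1) (c := 1) (by rw [one_zsmul]; exact hσ₀) (by rw [one_zsmul]; exact hσ₁) i j,
      mul_one, mul_one, hφ, add_zsmul, add_left_comm, ← hφ, hij, add_zero] at h
    exact (ZMod.intCast_zmod_eq_zero_iff_dvd i p).mpr (dvd_of_zsmul_eq_zero hp hy₀ hp₀ h)
  have hstab : ∀ τ ∈ A.inertiaSubgroupIn ℚ, ∀ x ∈ φ.range, τ • x ∈ φ.range := by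
    rintro τ hτ _ ⟨⟨i, j⟩, rfl⟩
    obtain ⟨n, c, h0, h1⟩ := hI τ hτ
    exact ⟨(i, i * c + j * n), (hact τ h0 h1 i j).symm⟩
  let e : {g : _ →+ ZMod p // φ.rangeRestrict.ker ≤ g.ker} ≃ (φ.range →+ ZMod p) :=
    AddMonoidHom.liftOfSurjective φ.rangeRestrict φ.rangeRestrict_surjective
  have h := hG φ.range hmem hstab (e ⟨_, hker⟩) (by
    rintro τ hτ ⟨_, ⟨i, j⟩, rfl⟩
    obtain ⟨n, c, h0, h1⟩ := hI τ hτ
    have e1 : (⟨τ • φ (i, j), hstab τ hτ _ ⟨(i, j), rfl⟩⟩ : φ.range) =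
        φ.rangeRestrict (i, i * c + j * n) := Subtype.ext (hact τ h0 h1 i j)
    have e2 : (⟨φ (i, j), ⟨(i, j), rfl⟩⟩ : φ.range) = φ.rangeRestrict (i, j) := rfl
    simp only
    rw [e1, e2, AddMonoidHom.liftOfRightInverse_comp_apply,
      AddMonoidHom.liftOfRightInverse_comp_apply]
    rfl)
  have h1 := DFunLike.congr_fun h (φ.rangeRestrict (1, 0))
  rw [AddMonoidHom.liftOfRightInverse_comp_apply] at h1
  simp at h1

section Main

variable {p M : ℕ} [Fact p.Prime] [NeZero M]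

/-- Step to the congruent form from the fixed class. -/
theorem congrForm_of_fixed {A : ValuationSubring QBar} (hA : A.LiesOverPrime p) (hp5 : 5 ≤ p)
    (hpM : ¬ p ∣ M) (hpM4 : ¬ p ∣ 4 * M) (hGeo : NoFlatQuotient A (4 * M) p hpM4)
    (G : ℕ → Prop) (a : ℕ → ℤ) (hG : ∀ l, l.Prime → G l → ¬ l ∣ p * (4 * M))
    (hne : ∃ l, l.Prime ∧ G l ∧ ¬ (p : ℤ) ∣ a l - (1 + l))
    {x : JZero (p * M)} (hx0 : x ≠ 0) (hxp : p • x = 0) (hxe : IsEigen (p * M) G a x)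
    (hxf : ∀ τ ∈ A.inertiaSubgroupIn ℚ, τ • x = x) : CongrForm M p G a := by
  have : CharP (Res A) p := residueField_charP hA Fact.out
  have := isFunctionField_KM (A := A) (M := 4 * M) fun h =>
    hpM4 ((CharP.cast_eq_zero_iff (Res A) p _).mp h)
  refine (fixed_flat_or_congr hA hp5 hpM hpM4 G a hG hne hx0 hxp hxe hxf).resolve_left ?_
  rintro ⟨y, hy, hpy, hflat, hfix⟩
  exact hGeo.false_of_fixed hy hpy hflat hfix

/-- Step to the congruent form from the wild plane. -/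
theorem congrForm_of_wild {A : ValuationSubring QBar} (hA : A.LiesOverPrime p) (hp5 : 5 ≤ p)
    (hpM : ¬ p ∣ M) (hpM4 : ¬ p ∣ 4 * M) (hGeo : NoFlatQuotient A (4 * M) p hpM4)
    (G : ℕ → Prop) (a : ℕ → ℤ) (hG : ∀ l, l.Prime → G l → ¬ l ∣ p * (4 * M))
    (hne : ∃ l, l.Prime ∧ G l ∧ ¬ (p : ℤ) ∣ a l - (1 + l))
    (W : Wild A p) {x₁ x₀ : JZero (p * M)} (hx0 : x₀ ≠ 0) (hp₁ : p • x₁ = 0) (hp₀ : p • x₀ = 0)
    (he₁ : IsEigen (p * M) G a x₁) (he₀ : IsEigen (p * M) G a x₀)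
    (hf₁ : ∀ τ ∈ W.C.H, τ • x₁ = x₁) (hf₀ : ∀ τ ∈ W.C₁.H, τ • x₀ = x₀)
    (hσ : W.σ • x₁ = x₁ + x₀)
    (hI : ∀ τ ∈ A.inertiaSubgroupIn ℚ, ∃ n c : ℤ, τ • x₀ = n • x₀ ∧ τ • x₁ = x₁ + c • x₀) :
    CongrForm M p G a := by
  have : CharP (Res A) p := residueField_charP hA Fact.out
  have := isFunctionField_KM (A := A) (M := 4 * M) fun h =>
    hpM4 ((CharP.cast_eq_zero_iff (Res A) p _).mp h)
  refine (wild_flat_or_congr hA hp5 hpM hpM4 G a hG hne W hx0 hp₁ hp₀ he₁ he₀ hf₁ hf₀ hσ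
    hI).resolve_left ?_
  rintro ⟨y₁, y₀, hy₀, -, hpy₀, h1, h0, hfl₁, hfl₀, hI'⟩
  exact hGeo.false_of_plane hy₀ hpy₀ h1 h0 hfl₁ hfl₀ hI'

end Main

end Fermat.Agent.RT.MazurP

end
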