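import Fermat.Agent.RT.MazurP.Embed
import Fermat.Prelude.Def_WeierstrassCurve_PeuRamifiee

/-!
# Eigen classes at an ordinary place over `p`

Through an equivariant embedding of `E[p]`, an adapted basis of `E[p]` at a place over `p` gives
either an eigen class fixed by inertia or a wild extension of two eigen classes.
-/

set_option autoImplicit false
set_option synthInstance.maxHeartbeats 400000

noncomputable section

namespace Fermat.Agent.RT.MazurP

open ModularCurve Fermat.Agent.Arith Fermat.Agent.GaloisReps Fermat.Agent.EC.Rep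
open Fermat.Agent.EC.Reduction Fermat.Agent.EC.Multiplicative
open Fermat.Agent.EC.AtP (PointQBar)

/-- The primes at which the eigenvalues of `W` are seen on classes of level `N`. -/
def eigenPrimes (W : WeierstrassCurve ℤ) (p N l : ℕ) : Prop :=
  (W.IsGoodPrimeFor l ∧ l ≠ p) ∧ ¬ l ∣ N

/-- An eigen class fixed by inertia at `A`, or a wild extension of two eigen classes. -/
def FixedOrWild (W : WeierstrassCurve ℤ) (p N : ℕ) [NeZero N] (A : ValuationSubring QBar) : Prop :=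
  (∃ x : JZero N, x ≠ 0 ∧ p • x = 0 ∧ IsEigen N (eigenPrimes W p N) W.apOfModel x ∧
      ∀ τ ∈ A.inertiaSubgroupIn ℚ, τ • x = x) ∨
    ∃ (Wd : Wild A p) (x₁ x₀ : JZero N), x₀ ≠ 0 ∧ p • x₁ = 0 ∧ p • x₀ = 0 ∧
      IsEigen N (eigenPrimes W p N) W.apOfModel x₁ ∧
      IsEigen N (eigenPrimes W p N) W.apOfModel x₀ ∧
      (∀ τ ∈ Wd.C.H, τ • x₁ = x₁) ∧ (∀ τ ∈ Wd.C₁.H, τ • x₀ = x₀) ∧ Wd.σ • x₁ = x₁ + x₀ ∧
      ∀ τ ∈ A.inertiaSubgroupIn ℚ, ∃ n c : ℤ, τ • x₀ = n • x₀ ∧ τ • x₁ = x₁ + c • x₀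

variable {N p : ℕ} [NeZero N] [Fact p.Prime] {W : WeierstrassCurve ℤ}

/-- An eigen prime distinguishing `W` from the reducible system `1 + l`. -/
theorem exists_eigenPrimes_ne (hΔ : W.Δ ≠ 0) (hp2 : p ≠ 2) (hirr : W.ModRepIsIrreducible p) :
    ∃ l, l.Prime ∧ eigenPrimes W p N l ∧ ¬ (p : ℤ) ∣ W.apOfModel l - (1 + l) := by
  obtain ⟨l, hl, hlN, hgood, hlp, hne⟩ := exists_apOfModel_ne hp2 hirr hΔ N.primeFactors
  refine ⟨l, hl, ⟨⟨hgood, hlp⟩, fun hd => hlN (Nat.mem_primeFactors.mpr ⟨hl, hd, NeZero.ne N⟩)⟩,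
    fun hd => hne ?_⟩
  have := (ZMod.intCast_zmod_eq_zero_iff_dvd _ _).mpr hd
  push_cast at this
  exact sub_eq_zero.mp this

/-- From a basis `R`, `S` of `E[p]` adapted to the place and the dichotomy of its wild kernel. -/
theorem fixedOrWild_of_basis {A : ValuationSubring QBar} (hA : A.LiesOverPrime p) (hΔ : W.Δ ≠ 0)
    (hp2 : p ≠ 2) (hirr : W.ModRepIsIrreducible p) (hmod : W.IsResiduallyModularOfLevel p N)
    (R S : PointQBar W) (hR : (p : ℤ) • R = 0) (hS : (p : ℤ) • S = 0) (hR0 : R ≠ 0)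
    (hS0 : ∀ a : ℤ, S ≠ a • R)
    (hspan : ∀ x : PointQBar W, (p : ℤ) • x = 0 → ∃ a b : ℤ, x = a • R + b • S)
    (hτR : ∀ τ ∈ A.inertiaSubgroupIn ℚ, τ • R = (cyclotomicHom p τ : ZMod p).val • R)
    (hτS : ∀ τ ∈ A.inertiaSubgroupIn ℚ, ∃ b : ℤ, τ • S = S + b • R)
    (hdich : wildKer A W p = tameKer A p ∨
      ∃ Wd : Wild A p, Wd.C.H = wildKer A W p ∧ Wd.C₁.H = tameKer A p ∧
        ∃ x : PointQBar W, (p : ℤ) • x = 0 ∧ Wd.σ • x ≠ x) :
    FixedOrWild W p N A := by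
  have hp : p.Prime := Fact.out
  obtain ⟨ι, hι, hιg, hιe⟩ := exists_eigen_embedding (N := N) hΔ hp2 hirr hmod
  let pt (P : PointQBar W) (h : (p : ℤ) • P = 0) : (residualRep W p hΔ).V :=
    ⟨P, (Submodule.mem_torsionBy_iff _ _).mpr h⟩
  have key : ∀ (τ : GQ) (P Q : PointQBar W) (hP : (p : ℤ) • P = 0) (hQ : (p : ℤ) • Q = 0),
      τ • P = Q → τ • ι (pt P hP) = ι (pt Q hQ) := fun τ P Q hP hQ h => by
    rw [← hιg]; exact congrArg ι (Subtype.ext h)
  have hmul : ∀ (a : ℤ) {P : PointQBar W}, (p : ℤ) • P = 0 → (p : ℤ) • (a • P) = 0 :=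
    fun a P h => by rw [smul_comm, h, zsmul_zero]
  have htame : ∀ τ ∈ tameKer A p, τ • R = R := fun τ hτ => by
    rw [hτR τ (mem_tameKer.mp hτ).1, (mem_tameKer.mp hτ).2, Units.val_one, ZMod.val_one, one_smul]
  set r : (residualRep W p hΔ).V := pt R hR with hrdef
  set s : (residualRep W p hΔ).V := pt S hS with hsdef
  have hιpt : ∀ (a b : ℤ) (h : (p : ℤ) • (a • R + b • S) = 0),
      ι (pt (a • R + b • S) h) = a • ι r + b • ι s :=
    fun a b h => by rw [← map_zsmul, ← map_zsmul, ← map_add]; exact congrArg ι (Subtype.ext rfl)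
  rcases hdich with hA' | ⟨Wd, hC, hC₁, x, hx, hmove⟩
  · obtain ⟨τ₀, hτ₀, hprim, -, hgen⟩ := exists_tame_generator (p := p) hA
    have hn1 : (cyclotomicHom p τ₀ : ZMod p) ≠ 1 := fun h => by
      have h3 := hprim 1 (by rw [pow_one]; exact h)
      rw [Nat.dvd_one] at h3
      have := hp.two_le
      omega
    obtain ⟨c, hc⟩ := hτS τ₀ hτ₀
    obtain ⟨k, hk⟩ := ZMod.intCast_surjective (-(c : ZMod p) / ((cyclotomicHom p τ₀ : ZMod p) - 1))
    have hv : (p : ℤ) • (k • R + (1 : ℤ) • S) = 0 := by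
      rw [zsmul_add, hmul _ hR, zero_add, one_zsmul, hS]
    have hv0 : k • R + (1 : ℤ) • S ≠ 0 := fun e => hS0 (-k) (by
      rw [one_zsmul] at e
      rw [neg_zsmul, eq_neg_iff_add_eq_zero, add_comm]; exact e)
    have hvfix : τ₀ • (k • R + (1 : ℤ) • S) = k • R + (1 : ℤ) • S := by
      rw [one_zsmul, smul_add_point, smul_zsmul_point, hτR τ₀ hτ₀, hc, ← natCast_zsmul, ← mul_zsmul,
        add_comm S, ← add_assoc, ← add_zsmul]
      refine congrArg (· + S) (zsmul_congr hR ?_)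
      push_cast
      rw [ZMod.natCast_val, ZMod.cast_id, hk]
      field_simp [sub_ne_zero.mpr hn1]
      ring
    refine Or.inl ⟨ι (pt _ hv),
      fun e => hv0 (congrArg Subtype.val ((map_eq_zero_iff ι hι).mp e)), (hιe _).1, (hιe _).2,
      fun τ hτ => key τ _ _ hv hv ?_⟩
    obtain ⟨j, hj⟩ := hgen τ hτ
    rw [show τ = τ₀ ^ j * ((τ₀ ^ j)⁻¹ * τ) by group, mul_smul,
      (mem_wildKer.mp (hA'.symm ▸ hj)).2 _ hv]
    clear hj
    induction j with
    | zero => simp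
    | succ j ih => rw [pow_succ, mul_smul, hvfix, ih]
  · have hσ : Wd.σ ∈ tameKer A p := hC₁ ▸ Wd.σ_mem
    obtain ⟨b, hb⟩ := hτS _ (mem_tameKer.mp hσ).1
    have hb0 : (b : ZMod p) ≠ 0 := fun h => by
      obtain ⟨a, a', rfl⟩ := hspan x hx
      refine hmove ?_
      rw [smul_add_point, smul_zsmul_point, smul_zsmul_point, htame _ hσ, hb,
        zsmul_congr hR (a := b) (b := 0) (by rw [h, Int.cast_zero]), zero_zsmul, add_zero]
    have hbR : (p : ℤ) • (b • R) = 0 := hmul b hR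
    have hιb : ι (pt (b • R) hbR) = b • ι r := by
      rw [← map_zsmul]; exact congrArg ι (Subtype.ext rfl)
    have hSb : (p : ℤ) • ((b : ℤ) • R + (1 : ℤ) • S) = 0 := by
      rw [zsmul_add, hbR, one_zsmul, hS, add_zero]
    refine Or.inr ⟨Wd, ι s, b • ι r, fun e => ?_, (hιe s).1, ?_, (hιe s).2, ?_,
      fun τ hτ => key τ S S hS hS ((mem_wildKer.mp (hC ▸ hτ)).2 S hS), fun τ hτ => ?_, ?_,
      fun τ hτ => ?_⟩
    · rw [← hιb, map_eq_zero_iff ι hι] at e
      obtain ⟨i, hi⟩ := ZMod.intCast_surjective ((b : ZMod p)⁻¹)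
      refine hR0 ?_
      rw [← one_zsmul R, ← zsmul_congr hR (a := i * b) (b := 1)
        (by push_cast; rw [hi, inv_mul_cancel₀ hb0]), mul_zsmul,
        show b • R = 0 from congrArg Subtype.val e, zsmul_zero]
    · rw [← hιb]; exact (hιe _).1
    · rw [← hιb]; exact (hιe _).2
    · rw [← hιb]
      exact key τ _ _ hbR hbR (by rw [smul_zsmul_point, htame τ (hC₁ ▸ hτ)])
    · exact (key Wd.σ S _ hS hSb (by rw [hb, one_zsmul, add_comm])).trans
        ((hιpt b 1 hSb).trans (by rw [one_zsmul, add_comm]))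
    · obtain ⟨c, hc⟩ := hτS τ hτ
      obtain ⟨e, he⟩ := ZMod.intCast_surjective ((c : ZMod p) / (b : ZMod p))
      have hcS : (p : ℤ) • (c • R + (1 : ℤ) • S) = 0 := by
        rw [zsmul_add, hmul _ hR, zero_add, one_zsmul, hS]
      refine ⟨(cyclotomicHom p τ : ZMod p).val, e, ?_, ?_⟩
      · rw [← hιb, ← map_zsmul]
        exact key τ _ _ hbR (hmul _ hbR)
          (by rw [smul_zsmul_point, hτR τ hτ, ← natCast_zsmul, smul_comm])
      · refine (key τ S _ hS hcS (by rw [hc, one_zsmul, add_comm])).trans ((hιpt c 1 hcS).trans ?_)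
        rw [one_zsmul, ← mul_zsmul]
        refine (add_comm _ _).trans (congrArg (ι s + ·) ?_)
        rw [← map_zsmul, ← map_zsmul]
        refine congrArg ι (Subtype.ext ?_)
        show c • R = (e * b) • R
        exact (zsmul_congr hR (by push_cast; rw [he, div_mul_cancel₀ _ hb0]))

/-- Multiplicative reduction, peu ramifié. -/
theorem fixedOrWild_of_multiplicative {A : ValuationSubring QBar} (hA : A.LiesOverPrime p)
    (hp2 : p ≠ 2) (hΔ0 : W.Δ ≠ 0) (hΔ : (p : ℤ) ∣ W.Δ) (hc₄ : ¬ (p : ℤ) ∣ W.c₄)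
    (hv : p ∣ padicValInt p W.Δ) (hirr : W.ModRepIsIrreducible p)
    (hmod : W.IsResiduallyModularOfLevel p N) : FixedOrWild W p N A := by
  classical
  obtain ⟨⟨F⟩, -⟩ := exists_frame hA hp2 hΔ0 hΔ hc₄
  obtain ⟨Nd, -⟩ := exists_node_int hA Fact.out hΔ0 hΔ hc₄
  refine fixedOrWild_of_basis hA hΔ0 hp2 hirr hmod F.R F.S F.hR F.hS F.R_ne (fun a e => F.S_not ?_)
    F.span F.smul_R F.smul_S ((wildKer_eq_tameKer_or_exists_wild hA hp2 hΔ0 hΔ hc₄ hv).imp_right
      fun ⟨Wd, hC, hC₁, hmove, _⟩ => ⟨Wd, hC, hC₁, hmove⟩)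
  show F.S ∈ Nd.red.E0
  rw [e]
  exact zsmul_mem (show F.R ∈ Nd.red.E0 from InE1.inE0 F.R_inE1) a

end Fermat.Agent.RT.MazurP

end
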