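import Fermat.Agent.Arith.RootsOfUnity
import Fermat.Agent.RT.Mazur.Scale
import Fermat.Agent.Semistable.Echelon

/-!
# Series with coefficients in a ramified field and their orders

A `CoefField` is the fixed field of a subgroup of inertia together with a uniformiser. Nonzero
quotients of integral series with coefficients there are a power of the uniformiser times a series
with nonzero reduction.
-/

set_option autoImplicit false
set_option synthInstance.maxHeartbeats 400000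

noncomputable section

namespace Fermat.Agent.RT.MazurP

open ModularCurve Fermat.Agent.Semistable Fermat.Agent.Arith Fermat.Agent.RT.Mazur

variable {A : ValuationSubring QBar} {p : ℕ}

/-- A discretely valued coefficient field inside `QBar`, with the residue field of `A`. -/
structure CoefField (A : ValuationSubring QBar) (p : ℕ) where
  /-- The group fixing the field. -/
  H : Subgroup GQ
  le_inertia : H ≤ A.inertiaSubgroupIn ℚ
  /-- The uniformiser. -/
  π : QBar
  π_ne_zero : π ≠ 0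
  π_nonunit : π ∈ A.nonunits
  π_fixed : ∀ τ ∈ H, τ π = π
  /-- The ramification index. -/
  e : ℕ
  e_pos : 0 < e
  val_p : A.valuation (p : QBar) = A.valuation π ^ e
  discrete : ∀ x : QBar, x ≠ 0 → (∀ τ ∈ H, τ x = x) →
    ∃ n : ℤ, A.valuation x = A.valuation π ^ n

/-- Every residue class contains an element fixed by all of inertia. -/
theorem exists_inertiaFixed_lift (hA : A.LiesOverPrime p) (hp : p.Prime) (r : Res A) :
    ∃ (a : QBar) (ha : a ∈ A), (∀ τ ∈ A.inertiaSubgroupIn ℚ, τ a = a) ∧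
      IsLocalRing.residue A ⟨a, ha⟩ = r := by
  have := Fact.mk hp
  have : CharP (Res A) p := residueField_charP hA hp
  have := residueField_isAlgClosed A
  let _ := ZMod.algebra (Res A) p
  rcases eq_or_ne r 0 with rfl | hr
  · exact ⟨0, zero_mem _, fun τ _ => map_zero τ, map_zero (IsLocalRing.residue A)⟩
  -- `r` is a root of unity of order prime to `p`
  obtain ⟨x, hx, hxr⟩ := exists_integral_residue hA hp r
  have hint : IsIntegral (ZMod p) r := by
    obtain ⟨P, hP, hPx⟩ := id hx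
    refine ⟨P.map (Int.castRingHom (ZMod p)), hP.map _, ?_⟩
    have h0 : P.eval₂ (algebraMap ℤ A) ⟨x, mem_of_isIntegral A hx⟩ = 0 := by
      apply Subtype.ext
      rw [show ((P.eval₂ (algebraMap ℤ A) ⟨x, mem_of_isIntegral A hx⟩ : A) : QBar) =
        A.subtype (P.eval₂ (algebraMap ℤ A) ⟨x, mem_of_isIntegral A hx⟩) from rfl,
        Polynomial.hom_eval₂, RingHom.eq_intCast' (A.subtype.comp (algebraMap ℤ A))]
      simpa only [RingHom.eq_intCast' (algebraMap ℤ QBar), ValuationSubring.coe_subtype,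
        ZeroMemClass.coe_zero] using hPx
    rw [Polynomial.eval₂_map, RingHom.eq_intCast' (((algebraMap (ZMod p) (Res A))).comp
      (Int.castRingHom (ZMod p))), ← RingHom.eq_intCast'
      ((IsLocalRing.residue A).comp (algebraMap ℤ A)), ← hxr, ← Polynomial.hom_eval₂, h0, map_zero]
  have := IntermediateField.adjoin.finiteDimensional hint
  have : Finite (IntermediateField.adjoin (ZMod p) {r}) := Module.finite_of_finite (ZMod p)
  have := Fintype.ofFinite (IntermediateField.adjoin (ZMod p) {r})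
  set n := Fintype.card (IntermediateField.adjoin (ZMod p) {r}) - 1 with hn
  have hrn : r ^ n = 1 := congrArg Subtype.val (FiniteField.pow_card_sub_one_eq_one
    (⟨r, IntermediateField.mem_adjoin_simple_self _ r⟩ : IntermediateField.adjoin (ZMod p) {r})
    (fun h => hr (congrArg Subtype.val h)))
  obtain ⟨m, hm0, hm⟩ : ∃ m : ℕ, m ≠ 0 ∧ m = n := by
    refine ⟨n, ?_, rfl⟩
    have := Fintype.one_lt_card (α := IntermediateField.adjoin (ZMod p) {r})
    omega
  have hpn : ¬ p ∣ n := by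
    obtain ⟨k, -, hk⟩ := FiniteField.card (IntermediateField.adjoin (ZMod p) {r}) p
    intro hd
    have h1 : p ∣ Fintype.card (IntermediateField.adjoin (ZMod p) {r}) := by
      rw [hk]; exact dvd_pow_self p k.2.ne'
    have h2 := Nat.dvd_sub h1 hd
    rw [hn, Nat.sub_sub_self (Fintype.card_pos)] at h2
    exact hp.not_dvd_one h2
  have : NeZero (n : QBar) := ⟨Nat.cast_ne_zero.mpr (hm ▸ hm0)⟩
  have : NeZero n := ⟨hm ▸ hm0⟩
  obtain ⟨ζ, hζ⟩ := HasEnoughRootsOfUnity.exists_primitiveRoot QBar n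
  have hζA : ∀ i, ζ ^ i ∈ A := fun i => pow_mem (mem_of_isIntegral A
    (hζ.isIntegral (NeZero.pos n))) i
  set μ : A := ⟨ζ, by simpa using hζA 1⟩ with hμ
  have hμn : IsPrimitiveRoot (IsLocalRing.residue A μ) n := by
    refine IsPrimitiveRoot.mk_of_lt _ (NeZero.pos n) (by
      rw [← map_pow, show μ ^ n = 1 from Subtype.ext hζ.pow_eq_one, map_one]) fun l hl hln h => ?_
    refine hζ.pow_ne_one_of_pos_of_lt hl.ne' hln (root_eq_one_of_sub_one_mem_nonunits hA hp
      (m := n) (by rw [← pow_mul, mul_comm, pow_mul, hζ.pow_eq_one, one_pow]) hpn ?_)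
    rw [← map_pow, ← map_one (IsLocalRing.residue A)] at h
    exact residue_eq_iff.mp h
  obtain ⟨i, -, hi⟩ := hμn.eq_pow_of_pow_eq_one hrn
  refine ⟨ζ ^ i, hζA i, fun τ hτ => inertia_root hA hp hτ
    (by rw [← pow_mul, mul_comm, pow_mul, hζ.pow_eq_one, one_pow]) hpn, ?_⟩
  rw [← hi, ← map_pow]
  rfl

namespace CoefField

variable (C : CoefField A p)

/-- A series with coefficients in the field. -/
def Fix (x : LSer) : Prop := ∀ τ ∈ C.H, coeffMap (τ : QBar →+* QBar) x = x

variable {C}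

theorem Fix.mul {x y : LSer} (hx : C.Fix x) (hy : C.Fix y) : C.Fix (x * y) :=
  fun τ hτ => by rw [map_mul, hx τ hτ, hy τ hτ]

theorem fix_algebraMap {a : QBar} (ha : ∀ τ ∈ C.H, τ a = a) : C.Fix (algebraMap QBar LSer a) :=
  fun τ hτ => by rw [coeffMap_algebraMap]; exact congrArg _ (ha τ hτ)

theorem Fix.coeff {x : LSer} (hx : C.Fix x) (n : ℤ) {τ : GQ} (hτ : τ ∈ C.H) :
    τ (x.coeff n) = x.coeff n := by
  have h := congrArg (fun s : LSer => s.coeff n) (hx τ hτ)
  simpa only [coeff_coeffMap] using h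

variable (C)

/-- The field. -/
def K : IntermediateField ℚ QBar := IntermediateField.fixedField C.H

theorem mem_K {x : QBar} : x ∈ C.K ↔ ∀ τ ∈ C.H, τ x = x :=
  ⟨fun h τ hτ => h ⟨τ, hτ⟩, fun h τ => h τ.1 τ.2⟩

variable {C}

/-- The product of the finitely many conjugates of an integral series is a fixed multiple of it,
with nonzero reduction when the series has one. -/
theorem exists_fixed_multiple {b : LSer} (hb : b ∈ intS A) (hb0 : red A ⟨b, hb⟩ ≠ 0) :
    ∃ (c : LSer) (hc : b * c ∈ intS A), c ∈ intS A ∧ C.Fix (b * c) ∧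
      red A ⟨b * c, hc⟩ ≠ 0 := by
  classical
  obtain ⟨⟨L, hL, hbL⟩, -⟩ := mem_intS.mp hb
  set O : Set LSer := (fun τ : GQ => coeffMap (τ : QBar →+* QBar) b) '' (C.H : Set GQ) with hOdef
  let ev : (L →ₐ[ℚ] QBar) → ℤ → QBar := fun φ n => φ ⟨b.coeff n, hbL n⟩
  have hO : O.Finite := by
    refine Set.Finite.of_finite_image ((Set.finite_range ev).subset ?_)
      (f := fun x : LSer => x.coeff) (fun x _ y _ h => HahnSeries.ext h)
    rintro _ ⟨_, ⟨τ, -, rfl⟩, rfl⟩
    exact ⟨(τ : QBar ≃ₐ[ℚ] QBar).toAlgHom.comp L.val, funext fun n => (coeff_coeffMap τ b n).symm⟩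
  have hb_mem : b ∈ hO.toFinset := hO.mem_toFinset.mpr ⟨1, one_mem _, by
    show coeffMap (((1 : GQ) : QBar →+* QBar)) b = b
    rw [show ((1 : GQ) : QBar →+* QBar) = RingHom.id QBar from RingHom.ext fun _ => rfl, coeffMap_id]⟩
  have hmem : ∀ x ∈ hO.toFinset, ∃ h : x ∈ intS A, red A ⟨x, h⟩ ≠ 0 := by
    intro x hx
    obtain ⟨τ, hτ, rfl⟩ := hO.mem_toFinset.mp hx
    have hin := isInertial_of_mem (C.le_inertia hτ)
    exact ⟨hin.coeffMap_mem hb, by rw [hin.red_coeffMap ⟨b, hb⟩]; exact hb0⟩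
  have key : ∀ s ⊆ hO.toFinset, ∃ h : ∏ x ∈ s, x ∈ intS A,
      red A ⟨∏ x ∈ s, x, h⟩ ≠ 0 := by
    intro s
    induction s using Finset.induction_on with
    | empty =>
      exact fun _ => ⟨one_mem _, by
        rw [show (⟨∏ x ∈ (∅ : Finset LSer), x, one_mem _⟩ : intS A) = 1 from Subtype.ext rfl,
          map_one]
        exact one_ne_zero⟩
    | insert x s hx ih =>
      intro hs
      obtain ⟨h1, h1'⟩ := hmem x (hs (Finset.mem_insert_self _ _))
      obtain ⟨h2, h2'⟩ := ih fun y hy => hs (Finset.mem_insert_of_mem hy)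
      have h3 : ∏ y ∈ insert x s, y ∈ intS A := by
        rw [Finset.prod_insert hx]; exact mul_mem h1 h2
      refine ⟨h3, ?_⟩
      rw [show (⟨_, h3⟩ : intS A) = ⟨x, h1⟩ * ⟨_, h2⟩ from Subtype.ext (Finset.prod_insert hx),
        map_mul]
      exact mul_ne_zero h1' h2'
  obtain ⟨hall, hall'⟩ := key _ subset_rfl
  have e : b * ∏ x ∈ hO.toFinset.erase b, x = ∏ x ∈ hO.toFinset, x :=
    Finset.mul_prod_erase _ (fun x => x) hb_mem
  refine ⟨_, by rw [e]; exact hall, (key _ (Finset.erase_subset _ _)).1, fun τ hτ => ?_, ?_⟩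
  · rw [e, map_prod]
    have himg : hO.toFinset.image (coeffMap (τ : QBar →+* QBar)) = hO.toFinset := by
      refine Finset.eq_of_subset_of_card_le (fun y hy => ?_)
        (Finset.card_image_of_injective _ (coeffMap (τ : QBar →+* QBar)).injective).ge
      obtain ⟨x, hx, rfl⟩ := Finset.mem_image.mp hy
      obtain ⟨τ', hτ', rfl⟩ := hO.mem_toFinset.mp hx
      refine hO.mem_toFinset.mpr ⟨τ * τ', mul_mem hτ hτ', ?_⟩
      rw [coeffMap_coeffMap]
      rfl
    conv_rhs => rw [← himg]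
    rw [Finset.prod_image fun x _ y _ h => (coeffMap (τ : QBar →+* QBar)).injective h]
  · simpa only [e] using hall'

theorem exists_zpow_mul_unit {a : QBar} (ha : a ≠ 0) (hfix : ∀ τ ∈ C.H, τ a = a) :
    ∃ k : ℤ, C.π ^ (-k) * a ∈ A ∧ C.π ^ (-k) * a ∉ A.nonunits := by
  obtain ⟨k, hk⟩ := C.discrete a ha hfix
  have h1 : A.valuation (C.π ^ (-k) * a) = 1 := by
    rw [map_mul, map_zpow₀, hk, ← zpow_add₀ ((Valuation.ne_zero_iff _).mpr C.π_ne_zero),
      neg_add_cancel, zpow_zero]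
  exact ⟨k, (A.valuation_le_one_iff _).mp h1.le, fun h => by
    rw [ValuationSubring.mem_nonunits_iff, h1] at h; exact lt_irrefl _ h⟩

variable (hA : A.LiesOverPrime p) (hp : p.Prime)
include hA hp

/-- A fixed quotient of integral series is a quotient of fixed integral series, the denominator
having nonzero reduction. -/
theorem exists_fixed_fraction {x : LSer} (hx : x ∈ fracS A) (hfix : C.Fix x) :
    ∃ (a b : intS A) (d : QBar), d ≠ 0 ∧ (∀ τ ∈ C.H, τ d = d) ∧ red A b ≠ 0 ∧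
      C.Fix (a : LSer) ∧ C.Fix (b : LSer) ∧ algebraMap QBar LSer d * x * (b : LSer) = a := by
  obtain ⟨a, ha, b, hb, hb0, hab⟩ := mem_fracS.mp hx
  obtain ⟨c, hc, hcb, hred, -⟩ := exists_scale_intS hA hp hb hb0
  obtain ⟨c', hc', hc'A, hfb, hred'⟩ := exists_fixed_multiple (C := C) hcb hred
  set b' := algebraMap QBar LSer c * b * c'
  have hb'0 : b' ≠ 0 := ne_zero_of_red_ne_zero (x := ⟨b', hc'⟩) hred'
  have hxb : x * b' = algebraMap QBar LSer c * (a * c') := by rw [← hab]; ring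
  obtain ⟨t, ht, htc⟩ := exists_natCast_mul_mem (A := A) c
  have hta : algebraMap QBar LSer (t : QBar) * x * b' ∈ intS A := by
    rw [mul_assoc, hxb, ← mul_assoc, ← map_mul]
    exact mul_mem (algebraMap_mem_intS htc) (mul_mem ha hc'A)
  have ht' : ∀ τ ∈ C.H, τ (t : QBar) = t := fun τ _ => map_natCast τ t
  exact ⟨⟨_, hta⟩, ⟨b', hc'⟩, (t : QBar), Nat.cast_ne_zero.mpr ht, ht', hred',
    ((fix_algebraMap ht').mul hfix).mul hfb, hfb, rfl⟩

theorem fracOver {x : LSer} (hx : x ∈ fracS A) (hfix : C.Fix x) : FracOver A C.K x := by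
  obtain ⟨a, b, d, hd, hdfix, hb, hfa, hfb, h⟩ := exists_fixed_fraction hA hp hx hfix
  obtain ⟨t, ht, htd⟩ := exists_natCast_mul_mem (A := A) d⁻¹
  have hmem : ∀ {y : QBar}, (∀ τ ∈ C.H, τ y = y) → y ∈ (algebraMap C.K QBar).fieldRange :=
    fun {y} hy => ⟨⟨y, C.mem_K.mpr hy⟩, rfl⟩
  refine ⟨algebraMap QBar LSer ((t : QBar) * d⁻¹) * a, mul_mem (algebraMap_mem_intS htd) a.2,
    algebraMap QBar LSer (t : QBar) * b, mul_mem (algebraMap_mem_intS (natCast_mem A t)) b.2,
    mul_ne_zero ((map_ne_zero _).mpr (Nat.cast_ne_zero.mpr ht)) (ne_zero_of_red_ne_zero hb),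
    ?_, fun n => hmem fun τ hτ => ?_, fun n => hmem fun τ hτ => ?_⟩
  · rw [← h, map_mul (algebraMap QBar LSer) (t : QBar), map_inv₀]
    field_simp [(map_ne_zero (algebraMap QBar LSer)).mpr hd]
  · exact ((fix_algebraMap (C := C) fun τ hτ => by
      rw [map_mul, map_natCast, map_inv₀, hdfix τ hτ]).mul hfa).coeff n hτ
  · exact ((fix_algebraMap (C := C) fun τ _ => map_natCast τ t).mul hfb).coeff n hτ

theorem exists_zpow_isGUnit {x : LSer} (hx : x ∈ fracS A) (h0 : x ≠ 0) (hfix : C.Fix x) :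
    ∃ n : ℤ, IsGUnit A (algebraMap QBar LSer (C.π ^ (-n)) * x) := by
  obtain ⟨a, b, d, hd, hdfix, hb, hfa, -, h⟩ := exists_fixed_fraction hA hp hx hfix
  have hd' : algebraMap QBar LSer d ≠ 0 := (map_ne_zero _).mpr hd
  have ha0 : (a : LSer) ≠ 0 := by
    rw [← h]; exact mul_ne_zero (mul_ne_zero hd' h0) (ne_zero_of_red_ne_zero hb)
  obtain ⟨c, hc0, hca, hred, m, hm⟩ := exists_scale_intS hA hp a.2 ha0
  have hcfix : ∀ τ ∈ C.H, τ (c * d) = c * d := fun τ hτ => by
    rw [map_mul, hm, map_inv₀, hfa.coeff m hτ, hdfix τ hτ]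
  obtain ⟨k, hk, hku⟩ := exists_zpow_mul_unit (C := C) (inv_ne_zero (mul_ne_zero hc0 hd))
    fun τ hτ => by rw [map_inv₀, hcfix τ hτ]
  have hga : IsGUnit A (algebraMap QBar LSer c * a) :=
    ⟨intS_le_locS hca, by rw [redL_of_mem_intS ⟨_, hca⟩]; exact hred⟩
  have hgb : IsGUnit A (b : LSer) :=
    ⟨intS_le_locS b.2, by rw [redL_of_mem_intS b]; exact hb⟩
  refine ⟨k, ?_⟩
  have hg := ((isGUnit_algebraMap hk hku).mul hga).mul hgb.inv
  have e : algebraMap QBar LSer (C.π ^ (-k) * (c * d)⁻¹) * (algebraMap QBar LSer c * (a : LSer)) *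
      (b : LSer)⁻¹ = algebraMap QBar LSer (C.π ^ (-k)) * x := by
    have hb' := ne_zero_of_red_ne_zero hb
    have hc' : algebraMap QBar LSer c ≠ 0 := (map_ne_zero _).mpr hc0
    rw [← h, map_mul, map_inv₀, map_mul]
    field_simp
  rwa [e] at hg

omit hA hp in
theorem π_zpow_eq_one {k : ℤ} (h : A.valuation (C.π ^ k) = 1) : k = 0 := by
  rw [map_zpow₀] at h
  exact zpow_right_injective₀ (zero_lt_iff.mpr ((Valuation.ne_zero_iff _).mpr C.π_ne_zero))
    (C.π_nonunit).ne (a₁ := k) (a₂ := 0) (by simpa using h)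

open Classical in
variable (C) in
omit hA hp in
/-- The order of a series in units of the uniformiser. -/
def gord (x : LSer) : ℤ :=
  if h : ∃ n : ℤ, IsGUnit A (algebraMap QBar LSer (C.π ^ (-n)) * x) then h.choose else 0

omit hA hp in
theorem gord_eq {x : LSer} {n : ℤ}
    (h : IsGUnit A (algebraMap QBar LSer (C.π ^ (-n)) * x)) : C.gord x = n := by
  rw [gord, dif_pos ⟨n, h⟩]
  have hv := valuation_eq_of_isGUnit
    (Exists.choose_spec (⟨n, h⟩ : ∃ m : ℤ, IsGUnit A (algebraMap QBar LSer (C.π ^ (-m)) * x))) h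
  set m := Exists.choose (⟨n, h⟩ : ∃ m : ℤ, IsGUnit A (algebraMap QBar LSer (C.π ^ (-m)) * x))
  have hπ : A.valuation C.π ≠ 0 := (Valuation.ne_zero_iff _).mpr C.π_ne_zero
  have := π_zpow_eq_one (C := C) (k := -m - -n) (by
    rw [map_zpow₀, zpow_sub₀ hπ, ← map_zpow₀, ← map_zpow₀, hv,
      div_self ((Valuation.ne_zero_iff _).mpr (zpow_ne_zero _ C.π_ne_zero))])
  omega

theorem gord_spec {x : LSer} (hx : x ∈ fracS A) (h0 : x ≠ 0) (hfix : C.Fix x) :
    IsGUnit A (algebraMap QBar LSer (C.π ^ (-C.gord x)) * x) := by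
  obtain ⟨n, hn⟩ := exists_zpow_isGUnit hA hp hx h0 hfix
  rwa [gord_eq hn]

theorem gord_nonneg_of_mem_locS {x : LSer} (hx : x ∈ locS A) (h0 : x ≠ 0) (hfix : C.Fix x) :
    0 ≤ C.gord x := by
  by_contra hlt
  obtain ⟨hm, hne⟩ := gord_spec hA hp (locS_le_fracS hx) h0 hfix
  obtain ⟨n, hn⟩ : ∃ n : ℕ, -C.gord x = n + 1 := ⟨(-C.gord x - 1).toNat, by omega⟩
  have hnu : C.π ^ (-C.gord x) ∈ A.nonunits := by
    rw [hn, zpow_add₀ C.π_ne_zero, zpow_one, zpow_natCast]
    exact nonunits_mul_left (pow_mem (mem_of_mem_nonunits C.π_nonunit) n) C.π_nonunit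
  obtain ⟨hmem, e⟩ := redL_const_mul (mem_of_mem_nonunits hnu) hx
  rw [(residue_eq_zero_iff _).mpr hnu, map_zero, zero_mul] at e
  exact hne e

end CoefField

end Fermat.Agent.RT.MazurP

end
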