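import Fermat.Agent.RT.MazurP.Torsion
import Fermat.Agent.GaloisReps.OfInjective
import Fermat.Agent.EichlerShimura.InjectiveProof
import Mathlib.LinearAlgebra.Finsupp.LinearCombination

/-!
# The residual representation inside the Jacobian

A module on which every group element satisfies the characteristic polynomial of an absolutely
irreducible two dimensional representation contains that representation. Hence the `p`-torsion of
a residually modular curve embeds in the Jacobian, on classes with its eigenvalues.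
-/

set_option autoImplicit false
set_option synthInstance.maxHeartbeats 400000

noncomputable section

namespace Fermat.Agent.RT.MazurP

open Matrix

section Abstract

variable {p : ℕ} [Fact p.Prime] {G : Type*} [Group G] {V : Type*} [AddCommGroup V]
  [Module (ZMod p) V] {ψ : G →* Module.End (ZMod p) V}
  {r : G →* Matrix (Fin 2) (Fin 2) (ZMod p)}

/-- The anticommutator of two elements satisfying the characteristic polynomials. -/
theorem anticomm_of_quadratic
    (hquad : ∀ g, ψ g * ψ g - (r g).trace • ψ g + (r g).det • 1 = 0) (g h : G) :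
    ψ g * ψ h + ψ h * ψ g = (r g).trace • ψ h + (r h).trace • ψ g +
      ((r (g * h)).trace - (r g).trace * (r h).trace) • 1 := by
  have inv_eq : ∀ a : G, (r a).det • ψ a⁻¹ = (r a).trace • 1 - ψ a := fun a => by
    have e := congrArg (· * ψ a⁻¹) (hquad a)
    simp only [zero_mul, add_mul, sub_mul, smul_mul_assoc, one_mul, mul_assoc, ← map_mul,
      mul_inv_cancel, map_one, mul_one] at e
    linear_combination (norm := module) e
  have e := inv_eq (g * h)
  rw [_root_.mul_inv_rev, map_mul ψ h⁻¹, map_mul r, det_mul, mul_comm (r g).det,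
    ← smul_mul_smul_comm, inv_eq, inv_eq, map_mul ψ g] at e
  simp only [sub_mul, mul_sub, smul_mul_assoc, mul_smul_comm, one_mul, mul_one] at e
  rw [← map_mul r] at e
  linear_combination (norm := module) e

/-- Matrices spanned by a commuting image commute. -/
theorem exists_not_commute (hspan : Submodule.span (ZMod p) (Set.range r) = ⊤) :
    ∃ g h : G, r g * r h ≠ r h * r g := by
  by_contra hall
  simp only [not_exists, not_not] at hall
  have h1 : ∀ (m : Matrix (Fin 2) (Fin 2) (ZMod p)) (g : G), m * r g = r g * m := by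
    intro m g
    have hm : m ∈ Submodule.span (ZMod p) (Set.range r) := hspan ▸ Submodule.mem_top
    induction hm using Submodule.span_induction with
    | mem _ hx => obtain ⟨h, rfl⟩ := hx; exact hall h g
    | zero => simp
    | add _ _ _ _ ha hb => rw [add_mul, mul_add, ha, hb]
    | smul c _ _ ha => rw [smul_mul_assoc, mul_smul_comm, ha]
  have h2 : ∀ m m' : Matrix (Fin 2) (Fin 2) (ZMod p), m * m' = m' * m := by
    intro m m'
    have hm : m' ∈ Submodule.span (ZMod p) (Set.range r) := hspan ▸ Submodule.mem_top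
    induction hm using Submodule.span_induction with
    | mem _ hx => obtain ⟨h, rfl⟩ := hx; exact h1 m h
    | zero => simp
    | add _ _ _ _ ha hb => rw [add_mul, mul_add, ha, hb]
    | smul c _ _ ha => rw [smul_mul_assoc, mul_smul_comm, ha]
  have e := congrFun (congrFun (h2 !![0, 1; 0, 0] !![0, 0; 1, 0]) 0) 0
  simp [Matrix.mul_apply, Fin.sum_univ_two] at e

variable [Finite V]

/-- A linear relation between the matrices holds between the operators. -/
theorem linearCombination_eq_zero
    (hquad : ∀ g, ψ g * ψ g - (r g).trace • ψ g + (r g).det • 1 = 0)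
    (hspan : Submodule.span (ZMod p) (Set.range r) = ⊤) (c : G →₀ ZMod p)
    (hc : Finsupp.linearCombination (ZMod p) r c = 0) :
    Finsupp.linearCombination (ZMod p) ψ c = 0 := by
  classical
  set x : Module.End (ZMod p) V := Finsupp.linearCombination (ZMod p) ψ c with hx
  rw [Finsupp.linearCombination_apply, Finsupp.sum] at hx hc
  have hT : ∑ g ∈ c.support, c g * (r g).trace = 0 := by
    have e := congrArg Matrix.trace hc
    simp only [trace_sum, trace_smul, trace_zero, smul_eq_mul] at e
    exact e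
  have hTh : ∀ h, ∑ g ∈ c.support, c g * (r (g * h)).trace = 0 := fun h => by
    have e := congrArg (fun m => (m * r h).trace) hc
    simp only [Finset.sum_mul, trace_sum, smul_mul_assoc, ← map_mul, trace_smul, zero_mul,
      trace_zero, smul_eq_mul] at e
    exact e
  -- `x` intertwines the operators with their adjugates
  have hxh : ∀ h, x * ψ h + ψ h * x = (r h).trace • x := fun h => by
    have e : ∀ g, c g • (ψ g * ψ h) + c g • (ψ h * ψ g) = (c g * (r g).trace) • ψ h +
        (r h).trace • (c g • ψ g) + (c g * (r (g * h)).trace -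
          c g * (r g).trace * (r h).trace) • (1 : Module.End (ZMod p) V) := fun g => by
      linear_combination (norm := module) c g • anticomm_of_quadratic hquad g h
    rw [hx, Finset.sum_mul, Finset.mul_sum, ← Finset.sum_add_distrib]
    simp only [smul_mul_assoc, mul_smul_comm, e]
    rw [Finset.sum_add_distrib, Finset.sum_add_distrib, ← Finset.sum_smul, ← Finset.sum_smul,
      ← Finset.smul_sum, Finset.sum_sub_distrib, ← Finset.sum_mul, hT, hTh]
    simp
  have inv_eq : ∀ a : G, ((r a).trace • 1 - ψ a) = (r a).det • ψ a⁻¹ := fun a => by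
    have e := congrArg (· * ψ a⁻¹) (hquad a)
    simp only [zero_mul, add_mul, sub_mul, smul_mul_assoc, one_mul, mul_assoc, ← map_mul,
      mul_inv_cancel, map_one, mul_one] at e
    linear_combination (norm := module) -e
  have hswap : ∀ h, x * ψ h = (r h).det • (ψ h⁻¹ * x) := fun h => by
    rw [← smul_mul_assoc, ← inv_eq, sub_mul, smul_mul_assoc, one_mul, ← hxh]
    abel
  have hcomm : ∀ g h, ψ (g⁻¹ * h⁻¹) * x = ψ (h⁻¹ * g⁻¹) * x := fun g h => by
    have h1 := hswap (g * h)
    rw [map_mul ψ g h, ← mul_assoc, hswap g, smul_mul_assoc, mul_assoc, hswap h, mul_smul_comm,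
      smul_smul, ← mul_assoc, ← map_mul, map_mul r, det_mul, _root_.mul_inv_rev] at h1
    have hd : ∀ a, (r a).det ≠ 0 := fun a h0 => by
      have : r a * r a⁻¹ = 1 := by rw [← map_mul, mul_inv_cancel, map_one]
      have := congrArg Matrix.det this
      rw [det_mul, h0, zero_mul, det_one] at this
      exact zero_ne_one this
    exact smul_right_injective _ (mul_ne_zero (hd g) (hd h)) h1
  by_contra hx0
  set V₁ : Submodule (ZMod p) V := LinearMap.range x with hV₁def
  have hV₁ : RT.Mazur.IsStableUnder ψ V₁ := by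
    rintro h _ ⟨v, rfl⟩
    refine ⟨(r h).trace • v - ψ h v, ?_⟩
    have e := LinearMap.congr_fun (hxh h) v
    simp only [LinearMap.add_apply, Module.End.mul_apply, LinearMap.smul_apply] at e
    rw [map_sub, map_smul, ← e]
    abel
  have hV₁0 : V₁ ≠ ⊥ := fun e => hx0 (LinearMap.range_eq_bot.mp e)
  have hqv : ∀ g, ∀ v ∈ V₁, ψ g (ψ g v) - (r g).trace • ψ g v + (r g).det • v = 0 := fun g v _ =>
    LinearMap.congr_fun (hquad g) v
  obtain ⟨U, hU₁, hU0, -, -, hUns⟩ := RT.Mazur.exists_submodule_kernel ψ r hspan V₁ hV₁ hV₁0 hqv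
  obtain ⟨g, h, hne⟩ := exists_not_commute hspan
  obtain ⟨u, hu, hu0⟩ := Submodule.exists_mem_ne_zero_of_ne_bot hU0
  set σ := (h⁻¹ * g⁻¹)⁻¹ * (g⁻¹ * h⁻¹) with hσ
  have hfix : ∀ v ∈ U, ψ σ v = v := fun v hv => by
    obtain ⟨w, rfl⟩ := hU₁ hv
    rw [← Module.End.mul_apply, hσ, map_mul, mul_assoc, hcomm, ← mul_assoc, ← map_mul,
      inv_mul_cancel, map_one, one_mul]
  obtain ⟨k, hk⟩ : ∃ k : ZMod p, r σ = k • 1 := by
    by_contra hns
    simp only [not_exists] at hns
    obtain ⟨v, hv, hv'⟩ := hUns σ hns 1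
    exact hv' (by rw [hfix v hv, one_smul])
  have hk1 : k = 1 := by
    have e := hqv σ u (hU₁ hu)
    rw [hfix u hu, hfix u hu, hk, trace_smul, trace_one, det_smul, det_one, Fintype.card_fin] at e
    have e' : ((k - 1) * (k - 1)) • u = 0 := by
      linear_combination (norm := module) e
    exact sub_eq_zero.mp (mul_self_eq_zero.mp ((smul_eq_zero.mp e').resolve_right hu0))
  rw [hk1, one_smul, hσ, _root_.mul_inv_rev, inv_inv, inv_inv] at hk
  have e := congrArg (· * r (h * g)) hk
  simp only [one_mul, ← map_mul] at e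
  refine hne ?_
  rw [← map_mul, ← map_mul, ← e]
  group

/-- A module satisfying the characteristic polynomials of a spanning representation contains it. -/
theorem exists_embedding [Nontrivial V]
    (hquad : ∀ g, ψ g * ψ g - (r g).trace • ψ g + (r g).det • 1 = 0)
    (hspan : Submodule.span (ZMod p) (Set.range r) = ⊤) :
    ∃ ι : (Fin 2 → ZMod p) →ₗ[ZMod p] V, Function.Injective ι ∧
      ∀ g v, ι (r g *ᵥ v) = ψ g (ι v) := by
  classical
  set L := Finsupp.linearCombination (ZMod p) (r : G → Matrix (Fin 2) (Fin 2) (ZMod p))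
  have hL : LinearMap.range L = ⊤ := by rw [Finsupp.range_linearCombination, hspan]
  obtain ⟨s, hs⟩ := L.exists_rightInverse_of_surjective hL
  let Φ : Matrix (Fin 2) (Fin 2) (ZMod p) →ₗ[ZMod p] Module.End (ZMod p) V :=
    (Finsupp.linearCombination (ZMod p) (ψ : G → Module.End (ZMod p) V)).comp s
  have hΦr : ∀ g, Φ (r g) = ψ g := fun g => by
    have h0 : L (s (r g) - Finsupp.single g 1) = 0 := by
      rw [map_sub, ← LinearMap.comp_apply, hs, LinearMap.id_apply,
        Finsupp.linearCombination_single, one_smul, sub_self]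
    have e := linearCombination_eq_zero hquad hspan _ h0
    rw [map_sub, sub_eq_zero, Finsupp.linearCombination_single, one_smul] at e
    exact e
  have hΦmul : ∀ m m', Φ (m * m') = Φ m * Φ m' := by
    have h1 : ∀ g m', Φ (r g * m') = ψ g * Φ m' := fun g m' => by
      have hm : m' ∈ Submodule.span (ZMod p) (Set.range r) := hspan ▸ Submodule.mem_top
      induction hm using Submodule.span_induction with
      | mem _ hx => obtain ⟨h, rfl⟩ := hx; rw [← map_mul, hΦr, hΦr, map_mul]
      | zero => simp
      | add _ _ _ _ ha hb => rw [mul_add, map_add, map_add, mul_add, ha, hb]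
      | smul c _ _ ha => rw [mul_smul_comm, map_smul, map_smul, mul_smul_comm, ha]
    intro m m'
    have hm : m ∈ Submodule.span (ZMod p) (Set.range r) := hspan ▸ Submodule.mem_top
    induction hm using Submodule.span_induction with
    | mem _ hx => obtain ⟨h, rfl⟩ := hx; rw [h1, hΦr]
    | zero => simp
    | add _ _ _ _ ha hb => rw [add_mul, map_add, map_add, add_mul, ha, hb]
    | smul c _ _ ha => rw [smul_mul_assoc, map_smul, map_smul, smul_mul_assoc, ha]
  -- the matrices with vanishing second column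
  let col : (Fin 2 → ZMod p) →ₗ[ZMod p] Matrix (Fin 2) (Fin 2) (ZMod p) :=
    { toFun := fun v => vecMulVec v ![1, 0]
      map_add' := fun v w => add_vecMulVec v w _
      map_smul' := fun c v => smul_vecMulVec c v _ }
  have hcol : ∀ (m : Matrix (Fin 2) (Fin 2) (ZMod p)) v, m * col v = col (m *ᵥ v) := fun m v =>
    mul_vecMulVec m v _
  obtain ⟨v₀, u, hu⟩ : ∃ v₀ u, Φ (col v₀) u ≠ 0 := by
    by_contra hall
    simp only [not_exists, not_not] at hall
    have h0 : ∀ v, Φ (col v) = 0 := fun v => LinearMap.ext (hall v)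
    obtain ⟨u, hu⟩ := exists_ne (0 : V)
    refine hu ?_
    have e1 : (1 : Matrix (Fin 2) (Fin 2) (ZMod p)) =
        col ![1, 0] + col ![0, 1] * !![0, 1; 0, 0] := by
      ext i j
      fin_cases i <;> fin_cases j <;>
        simp [col, vecMulVec, Matrix.mul_apply, Fin.sum_univ_two]
    have e2 : Φ 1 = 1 := by rw [← map_one r, hΦr, map_one]
    rw [e1, map_add, hΦmul, h0, h0, zero_mul, zero_add] at e2
    exact (LinearMap.congr_fun e2 u).symm
  refine ⟨(LinearMap.applyₗ u).comp (Φ.comp col), ?_, fun g v => ?_⟩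
  · refine (injective_iff_map_eq_zero _).mpr fun v hv => ?_
    by_contra hv0
    refine hu ?_
    have key : ∀ m : Matrix (Fin 2) (Fin 2) (ZMod p), Φ (col (m *ᵥ v)) u = 0 := fun m => by
      rw [← hcol, hΦmul, Module.End.mul_apply, show Φ (col v) u = 0 from hv, map_zero]
    obtain ⟨i, hi⟩ : ∃ i, v i ≠ 0 := by
      by_contra hall
      simp only [not_exists, not_not] at hall
      exact hv0 (funext hall)
    have e := key (vecMulVec v₀ (Pi.single i (v i)⁻¹))
    rwa [vecMulVec_mulVec, single_dotProduct, inv_mul_cancel₀ hi, MulOpposite.op_one,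
      one_smul] at e
  · show Φ (col (r g *ᵥ v)) u = ψ g (Φ (col v) u)
    rw [← hcol, hΦmul, hΦr, Module.End.mul_apply]

end Abstract

open ModularCurve AlgebraicCurve Fermat.Agent.Arith Fermat.Agent.GaloisReps Fermat.Agent.EC.Rep

variable {N p : ℕ} [NeZero N] [Fact p.Prime]

set_option maxHeartbeats 800000 in
/-- The `p`-torsion of a residually modular curve embeds, Galois equivariantly, into the classes of
the Jacobian with the eigenvalues of the curve. -/
theorem exists_eigen_embedding {W : WeierstrassCurve ℤ} (hΔ : W.Δ ≠ 0) (hp2 : p ≠ 2)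
    (hirr : W.ModRepIsIrreducible p) (hmod : W.IsResiduallyModularOfLevel p N) :
    ∃ ι : (residualRep W p hΔ).V →+ JZero N, Function.Injective ι ∧
      (∀ (g : GQ) v, ι ((residualRep W p hΔ).ρ g v) = g • ι v) ∧
      ∀ v, p • ι v = 0 ∧
        IsEigen N (fun l => (W.IsGoodPrimeFor l ∧ l ≠ p) ∧ ¬ l ∣ N) W.apOfModel (ι v) := by
  classical
  obtain ⟨f, 𝔪, hf, h𝔪, hp𝔪, hcong⟩ := hmod
  obtain ⟨x, hx0, hpx, hxe⟩ := exists_eigen_class (p := p) hf h𝔪.ne_top hp𝔪
    (fun l => (W.IsGoodPrimeFor l ∧ l ≠ p) ∧ ¬ l ∣ N) W.apOfModel fun l hl hG =>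
      hcong l hl hG.1.1 hG.2 hG.1.2
  obtain ⟨U, hUe, hUst, -, hUns, hquad⟩ := exists_eigen_subgroup hΔ hp2 hirr
    (congruenceProperty_all EichlerShimura.injectiveOnTorsion_all N p)
    (fun l => (W.IsGoodPrimeFor l ∧ l ≠ p) ∧ ¬ l ∣ N)
    (insert p (W.Δ.natAbs.primeFactors ∪ N.primeFactors))
    (fun l hl hS => by
      rw [Finset.mem_insert, not_or, Finset.mem_union, not_or] at hS
      have hgood : W.IsGoodPrimeFor l := fun hd => hS.2.1 (Nat.mem_primeFactors.mpr
        ⟨hl, Int.natCast_dvd.mp hd, Int.natAbs_ne_zero.mpr hΔ⟩)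
      exact ⟨⟨⟨hgood, hS.1⟩,
        fun hd => hS.2.2 (Nat.mem_primeFactors.mpr ⟨hl, hd, NeZero.ne N⟩)⟩, hgood⟩) hx0 hpx hxe
  set ρ := residualRep W p hΔ with hρdef
  have htor : ∀ u : U, p • u = 0 := fun u => Subtype.ext (hUe u u.2).1
  let _ : Module (ZMod p) U := AddCommGroup.zmodModule (n := p) htor
  let act : GQ → U →+ U := fun g =>
    { toFun := fun v => ⟨g • (v : JZero N), hUst g v v.2⟩
      map_zero' := Subtype.ext (smul_zero g)
      map_add' := fun v w => Subtype.ext (smul_add g (v : JZero N) w) }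
  let ψ : GQ →* Module.End (ZMod p) U :=
    { toFun := fun g => (act g).toZModLinearMap p
      map_one' := LinearMap.ext fun v => Subtype.ext (one_smul GQ (v : JZero N))
      map_mul' := fun g h => LinearMap.ext fun v => Subtype.ext (mul_smul g h (v : JZero N)) }
  have hψ : ∀ g (v : U), ((ψ g v : U) : JZero N) = g • (v : JZero N) := fun g v => rfl
  have hsmul : ∀ (a : ℤ) (v : U), (((a : ZMod p) • v : U) : JZero N) = a • (v : JZero N) :=
    fun a v => by rw [Int.cast_smul_eq_zsmul]; rfl
  let b := Module.finBasisOfFinrankEq (ZMod p) ρ.V ρ.finrank_eq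
  let r : GQ →* Matrix (Fin 2) (Fin 2) (ZMod p) :=
    (LinearMap.toMatrixAlgEquiv b).toMonoidHom.comp ρ.ρ
  have hq : ∀ g, ψ g * ψ g - (r g).trace • ψ g + (r g).det • 1 = 0 := fun g => by
    obtain ⟨t, ht⟩ := ZMod.intCast_surjective (r g).trace
    obtain ⟨d, hd⟩ := ZMod.intCast_surjective (r g).det
    refine LinearMap.ext fun v => Subtype.ext ?_
    have e := hquad g t d (ht.trans (LinearMap.trace_eq_matrix_trace (ZMod p) b _).symm)
      (hd.trans (LinearMap.det_toMatrix b _)) v v.2
    rw [← ht, ← hd]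
    simpa only [LinearMap.add_apply, LinearMap.sub_apply, LinearMap.smul_apply, LinearMap.zero_apply,
      Module.End.mul_apply, Module.End.one_apply, AddSubgroup.coe_add, AddSubgroup.coe_sub,
      AddSubgroup.coe_zero, hsmul, hψ] using e
  have hspan := Deform.span_matrix_eq_top ρ (isAbsolutelyIrreducible_residualRep hΔ hp2 hirr) b
  obtain ⟨g, hg⟩ : ∃ g : GQ, ∀ c : ZMod p, ρ.ρ g ≠ c • 1 := by
    obtain ⟨g, h, hne⟩ := exists_not_commute (r := r) hspan
    refine ⟨g, fun c hc => hne ?_⟩
    show LinearMap.toMatrixAlgEquiv b (ρ.ρ g) * _ = _ * LinearMap.toMatrixAlgEquiv b (ρ.ρ g)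
    rw [hc, map_smul, map_one, smul_mul_assoc, one_mul, mul_smul_comm, mul_one]
  have : Nontrivial U := by
    obtain ⟨u, hu, hne⟩ := hUns g hg 0
    refine ⟨⟨⟨u, hu⟩, 0, fun e => hne ?_⟩⟩
    rw [show u = 0 from congrArg Subtype.val e, zsmul_zero, smul_zero (A := JZero N) g]
  have : Finite (JTors N p 1) :=
    Finite.of_injective _ ((torsionIso N p (conjProperty N)).psi 1).injective
  have : Finite U := Finite.of_injective (β := JTors N p 1)
    (fun u : U => ⟨u, by rw [Pic0.mem_torsion, pow_one, natCast_zsmul]; exact (hUe u u.2).1⟩)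
    fun u v h => Subtype.ext (congrArg Subtype.val h :)
  obtain ⟨ι, hι, hιg⟩ := exists_embedding hq hspan
  refine ⟨U.subtype.comp (ι.comp b.equivFun.toLinearMap).toAddMonoidHom,
    Subtype.val_injective.comp (hι.comp b.equivFun.injective), fun g v => ?_,
    fun v => hUe _ (ι (b.equivFun v)).2⟩
  show (ι (b.equivFun (ρ.ρ g v)) : JZero N) = g • (ι (b.equivFun v) : JZero N)
  rw [← hψ, ← hιg]
  congr 2
  exact (LinearMap.toMatrix_mulVec_repr b b (ρ.ρ g) v).symm

end Fermat.Agent.RT.MazurP

end
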