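import Fermat.Agent.ModFun.Affine
import Fermat.Agent.EichlerShimura.SeriesFrob
import Fermat.Agent.Semistable.SeriesLemmas
import Mathlib.RingTheory.Derivation.Basic
import Mathlib.RingTheory.RootsOfUnity.PrimitiveRoots

/-!
# The derivation `θ = q d/dq` and logarithmic derivatives of Hecke products

If `X(q^l) = f(q^(l^2)) ∏ᵢ f(ζⁱ q)` and `η = θ log f`, then `θ log X` has `n`-th coefficient
`η_{ln} + l η_{n/l}`: the operator `T_l` in weight two.
-/

set_option autoImplicit false

noncomputable section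

open ModularCurve

namespace Fermat.Agent.RT.MazurP

section CommRing

variable {R : Type*} [CommRing R]

/-- Multiply the `k`-th coefficient by `k`. -/
def thetaFun (x : LaurentSeries R) : LaurentSeries R :=
  HahnSeries.mk (fun k => (k : R) * x.coeff k) <|
    x.isPWO_support.mono fun k hk => by
      simp only [Function.mem_support, ne_eq] at hk ⊢
      exact fun h => hk (by rw [h, mul_zero])

theorem coeff_thetaFun (x : LaurentSeries R) (k : ℤ) :
    (thetaFun x).coeff k = (k : R) * x.coeff k := rfl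

theorem coeff_C_mul (r : R) (x : LaurentSeries R) (k : ℤ) :
    (HahnSeries.C r * x).coeff k = r * x.coeff k := by
  rw [HahnSeries.C_apply, HahnSeries.coeff_single_zero_mul]

theorem algebraMap_eq_C (r : R) :
    algebraMap R (LaurentSeries R) r = HahnSeries.C r := by
  rw [HahnSeries.algebraMap_apply', HahnSeries.C_apply]
  simp

theorem thetaFun_mul (x y : LaurentSeries R) :
    thetaFun (x * y) = x * thetaFun y + y * thetaFun x := by
  ext k
  rw [mul_comm y, HahnSeries.coeff_add, coeff_thetaFun, HahnSeries.coeff_mul,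
    HahnSeries.coeff_mul_left' x.isPWO_support (fun n hn => ?_) (x := thetaFun x),
    HahnSeries.coeff_mul_right' y.isPWO_support (fun n hn => ?_) (y := thetaFun y),
    Finset.mul_sum, ← Finset.sum_add_distrib]
  · refine Finset.sum_congr rfl fun ij hij => ?_
    have hk : ij.1 + ij.2 = k := (Finset.mem_antidiagonal.mp hij).2.2
    rw [coeff_thetaFun, coeff_thetaFun, ← hk, Int.cast_add]
    ring
  all_goals
    simp only [HahnSeries.mem_support, coeff_thetaFun, ne_eq] at hn ⊢
    exact fun h => hn (by rw [h, mul_zero])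

variable (R) in
/-- `θ = q d/dq`. -/
def theta : Derivation R (LaurentSeries R) (LaurentSeries R) where
  toFun := thetaFun
  map_add' x y := by ext k; simp [coeff_thetaFun, mul_add]
  map_smul' r x := by
    ext k
    simp only [RingHom.id_apply, Algebra.smul_def, algebraMap_eq_C, coeff_C_mul, coeff_thetaFun,
      HahnSeries.coeff_smul, Algebra.algebraMap_self, RingHom.id_apply]
    ring
  map_one_eq_zero' := by
    ext k
    rcases eq_or_ne k 0 with rfl | hk
    · simp [coeff_thetaFun]
    · simp [coeff_thetaFun, HahnSeries.coeff_one, hk]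
  leibniz' x y := by simpa only [smul_eq_mul, LinearMap.coe_mk, AddHom.coe_mk] using thetaFun_mul x y

@[simp]
theorem coeff_theta (x : LaurentSeries R) (k : ℤ) :
    (theta R x).coeff k = (k : R) * x.coeff k := rfl

theorem theta_mul (x y : LaurentSeries R) :
    theta R (x * y) = x * theta R y + y * theta R x := thetaFun_mul x y

theorem theta_C (r : R) : theta R (HahnSeries.C r : LaurentSeries R) = 0 := by
  ext k
  rcases eq_or_ne k 0 with rfl | hk
  · simp
  · simp [coeff_theta, hk]

theorem theta_qExpand (l : ℕ) [NeZero l] (x : LaurentSeries R) :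
    theta R (qExpand R l x) = HahnSeries.C (l : R) * qExpand R l (theta R x) := by
  ext k
  rw [coeff_C_mul, coeff_theta]
  by_cases hk : (l : ℤ) ∣ k
  · obtain ⟨m, rfl⟩ := hk
    rw [qExpand_coeff_mul, qExpand_coeff_mul, coeff_theta]
    push_cast
    ring
  · rw [qExpand_coeff_of_not_dvd l _ hk, qExpand_coeff_of_not_dvd l _ hk, mul_zero, mul_zero]

theorem theta_coeffMap {S : Type*} [CommRing S] (φ : R →+* S) (x : LaurentSeries R) :
    theta S (coeffMap φ x) = coeffMap φ (theta R x) := by
  ext k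
  rw [coeff_theta, coeffMap_coeff, coeffMap_coeff, coeff_theta,
    map_mul, map_intCast]

end CommRing

variable {K : Type*} [Field K]

theorem theta_twist (u : Kˣ) (x : LaurentSeries K) :
    theta K (ModFun.twist u x) = ModFun.twist u (theta K x) := by
  ext k
  simp only [coeff_theta, ModFun.coeff_twist]
  ring

/-- The logarithmic derivative. -/
def dlog (x : LaurentSeries K) : LaurentSeries K := theta K x / x

theorem dlog_one : dlog (1 : LaurentSeries K) = 0 := by
  rw [dlog, Derivation.map_one_eq_zero, zero_div]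

theorem dlog_zero : dlog (0 : LaurentSeries K) = 0 := by
  rw [dlog, map_zero, zero_div]

theorem dlog_mul {x y : LaurentSeries K} (hx : x ≠ 0) (hy : y ≠ 0) :
    dlog (x * y) = dlog x + dlog y := by
  rw [dlog, dlog, dlog, theta_mul]
  field_simp
  ring

theorem dlog_prod {ι : Type*} (s : Finset ι) (x : ι → LaurentSeries K) (hx : ∀ i ∈ s, x i ≠ 0) :
    dlog (∏ i ∈ s, x i) = ∑ i ∈ s, dlog (x i) := by
  classical
  induction s using Finset.induction_on with
  | empty => simp [dlog_one]
  | insert i s hi ih =>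
    rw [Finset.prod_insert hi, Finset.sum_insert hi,
      dlog_mul (hx i (Finset.mem_insert_self i s))
        (Finset.prod_ne_zero_iff.mpr fun j hj => hx j (Finset.mem_insert_of_mem hj)),
      ih fun j hj => hx j (Finset.mem_insert_of_mem hj)]

theorem dlog_inv {x : LaurentSeries K} (hx : x ≠ 0) : dlog x⁻¹ = -dlog x := by
  have h := dlog_mul hx (inv_ne_zero hx)
  rw [mul_inv_cancel₀ hx, dlog_one] at h
  exact eq_neg_of_add_eq_zero_right h.symm

theorem dlog_pow (x : LaurentSeries K) (n : ℕ) : dlog (x ^ n) = (n : LaurentSeries K) * dlog x := by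
  rcases eq_or_ne x 0 with rfl | hx
  · rcases n with _ | n
    · simp [dlog_one]
    · simp [dlog_zero]
  induction n with
  | zero => simp [dlog_one]
  | succ n ih => rw [pow_succ, dlog_mul (pow_ne_zero n hx) hx, ih]; push_cast; ring

theorem dlog_zpow {x : LaurentSeries K} (hx : x ≠ 0) (n : ℤ) :
    dlog (x ^ n) = (n : LaurentSeries K) * dlog x := by
  cases n with
  | ofNat n => simpa using dlog_pow x n
  | negSucc n =>
    rw [zpow_negSucc, dlog_inv (pow_ne_zero _ hx), dlog_pow, Int.cast_negSucc]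
    ring

theorem dlog_C (r : K) : dlog (HahnSeries.C r : LaurentSeries K) = 0 := by
  rw [dlog, theta_C, zero_div]

theorem dlog_qExpand (l : ℕ) [NeZero l] (x : LaurentSeries K) :
    dlog (qExpand K l x) = HahnSeries.C (l : K) * qExpand K l (dlog x) := by
  rw [dlog, dlog, theta_qExpand, map_div₀, mul_div_assoc]

theorem dlog_twist (u : Kˣ) (x : LaurentSeries K) :
    dlog (ModFun.twist u x) = ModFun.twist u (dlog x) := by
  rw [dlog, dlog, theta_twist, map_div₀]

theorem sum_zpow_primitiveRoot {l : ℕ} [NeZero l] {ζ : Kˣ} (hζ : IsPrimitiveRoot ζ l) (m : ℤ) :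
    ∑ i : Fin l, (((ζ ^ (i : ℕ)) ^ m : Kˣ) : K) = if (l : ℤ) ∣ m then (l : K) else 0 := by
  have hw : ∀ i : ℕ, (((ζ ^ i) ^ m : Kˣ) : K) = ((ζ ^ m : Kˣ) : K) ^ i := fun i => by
    rw [← Units.val_pow_eq_pow_val, ← zpow_natCast, ← zpow_natCast, ← zpow_mul, ← zpow_mul,
      mul_comm]
  simp only [hw]
  split_ifs with h
  · simp [(hζ.zpow_eq_one_iff_dvd m).mpr h]
  · have hne : ((ζ ^ m : Kˣ) : K) ≠ 1 := fun h1 =>
      h ((hζ.zpow_eq_one_iff_dvd m).mp (Units.val_eq_one.mp h1))
    have hl : ((ζ ^ m : Kˣ) : K) ^ l = 1 := by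
      rw [← Units.val_pow_eq_pow_val, ← zpow_natCast, ← zpow_mul,
        (hζ.zpow_eq_one_iff_dvd _).mpr (dvd_mul_left (l : ℤ) m), Units.val_one]
    rw [Fin.sum_univ_eq_sum_range fun i => ((ζ ^ m : Kˣ) : K) ^ i, geom_sum_eq hne, hl, sub_self,
      zero_div]

/-- `θ log` turns the Hecke product into `T_l` in weight two. -/
theorem coeff_dlog_of_heckeProd {l : ℕ} [NeZero l] (hlK : (l : K) ≠ 0) {ζ : Kˣ}
    (hζ : IsPrimitiveRoot ζ l) {f X : LaurentSeries K} (hf : f ≠ 0)
    (h : qExpand K l X = qExpand K l (qExpand K l f) *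
      ∏ i : Fin l, ModFun.twist (ζ ^ (i : ℕ)) f) (n : ℤ) :
    (dlog X).coeff n = (dlog f).coeff ((l : ℤ) * n) +
      if (l : ℤ) ∣ n then (l : K) * (dlog f).coeff (n / l) else 0 := by
  have hne : ∀ i : Fin l, ModFun.twist (ζ ^ (i : ℕ)) f ≠ 0 := fun i => (map_ne_zero _).mpr hf
  have e := congrArg dlog h
  rw [dlog_qExpand, dlog_mul ((map_ne_zero _).mpr ((map_ne_zero _).mpr hf))
    (Finset.prod_ne_zero_iff.mpr fun i _ => hne i), dlog_prod _ _ fun i _ => hne i,
    dlog_qExpand, dlog_qExpand] at e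
  simp only [dlog_twist] at e
  have e' := congrArg (fun y : LaurentSeries K => y.coeff ((l : ℤ) * n)) e
  simp only [map_mul, qExpand_C, ← mul_assoc, coeff_C_mul, HahnSeries.coeff_add,
    HahnSeries.coeff_sum, qExpand_coeff_mul, ModFun.coeff_twist, ← Finset.sum_mul,
    sum_zpow_primitiveRoot hζ ((l : ℤ) * n), dvd_mul_right, if_true] at e'
  refine mul_left_cancel₀ hlK ?_
  rw [e', ← map_mul HahnSeries.C, coeff_C_mul, qExpand_coeff_mul]
  by_cases hn : (l : ℤ) ∣ n
  · obtain ⟨m, rfl⟩ := hn
    rw [if_pos (dvd_mul_right _ _), qExpand_coeff_mul,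
      Int.mul_ediv_cancel_left _ (Int.natCast_ne_zero.mpr (NeZero.ne l))]
    ring
  · rw [if_neg hn, qExpand_coeff_of_not_dvd l _ hn]
    ring

end Fermat.Agent.RT.MazurP

end
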