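import Fermat.Agent.S20
import Fermat.Agent.IntegralStructure.Main
import Fermat.Agent.FF.GenusEq
import Fermat.Agent.Semistable.GoodM
import Fermat.Agent.RT.MazurP.Diff
import Fermat.Agent.RT.MazurP.CuspForms

/-!
# Regular differentials modulo `p` are reductions of integral cusp forms of weight two

For `p ≥ 5` prime to `M`, the space `{g θ j : g ∈ L (div dj)}` over the residue field is spanned
by the reductions of integral cusp forms of weight two and level `M`, and the genus does not drop.
-/

set_option autoImplicit false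
set_option synthInstance.maxHeartbeats 400000
set_option maxHeartbeats 1000000
set_option linter.unusedSectionVars false

noncomputable section

open AlgebraicCurve CongruenceSubgroup
open ModularCurve (jqModC coeffMap)
open scoped IntermediateField

namespace Fermat.Agent.RT.MazurP

open Fermat.Agent.Semistable
open Arith (QBar)

variable {A : ValuationSubring QBar} {M : ℕ} [NeZero M]

/-- Integral series of cusp forms of weight two and level `M`. -/
def intSeries (M : ℕ) : Set (PowerSeries ℤ) :=
  {φ | ∃ f : CuspForm (Gamma0 M) 2, ∀ n, ModularFormClass.qCoeff f n = ((φ.coeff n : ℤ) : ℂ)}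

variable (A M) in
/-- Reductions of integral cusp forms. -/
def redLattice : Submodule (Res A) (LaurentSeries (Res A)) :=
  Submodule.span (Res A) (zSer (Res A) '' intSeries M)

variable (A M) in
/-- `g ↦ g θ j`. -/
def mulTheta : KM A M →ₗ[Res A] LaurentSeries (Res A) where
  toFun g := (g : LaurentSeries (Res A)) * theta (Res A) (jqModC (Res A))
  map_add' a b := add_mul (a : LaurentSeries (Res A)) (b : LaurentSeries (Res A)) _
  map_smul' c a := by
    show ((algebraMap (Res A) (LaurentSeries (Res A)) c * (a : LaurentSeries (Res A)))) * _ = _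
    rw [RingHom.id_apply, Igusa.hsmul_eq, mul_assoc]

theorem mulTheta_apply (g : KM A M) :
    mulTheta A M g = (g : LaurentSeries (Res A)) * theta (Res A) (jqModC (Res A)) := rfl

theorem exists_series {f : CuspForm (Gamma0 M) 2} (hf : f ∈ CuspForm.intLattice M 2) :
    ∃ φ : PowerSeries ℤ, ∀ n, ModularFormClass.qCoeff f n = ((φ.coeff n : ℤ) : ℂ) := by
  choose a ha using (HeckeDuality.mem_intLattice_iff f).mp hf
  exact ⟨PowerSeries.mk a, fun n => by rw [PowerSeries.coeff_mk]; exact ha n⟩

variable (p : ℕ) [Fact p.Prime] [CharP (Res A) p]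

/-- The reductions of a basis of the integral cusp forms are independent. -/
theorem linearIndependent_zSer (hp : p.Prime) {ι : Type*} [Fintype ι]
    (b : Module.Basis ι ℤ (CuspForm.intLattice M 2)) (φ : ι → PowerSeries ℤ)
    (hφ : ∀ i n, ModularFormClass.qCoeff ((b i : CuspForm.intLattice M 2) :
      CuspForm (Gamma0 M) 2) n = (((φ i).coeff n : ℤ) : ℂ)) :
    LinearIndependent (Res A) fun i => zSer (Res A) (φ i) := by
  classical
  have : Fact p.Prime := ⟨hp⟩
  let _ := ZMod.algebra (Res A) p
  refine Fintype.linearIndependent_iff.mpr fun c hc i₀ => ?_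
  by_contra hne
  obtain ⟨L, hL⟩ := Module.Projective.exists_dual_ne_zero (ZMod p) hne
  set d : ι → ℤ := fun i => ((L (c i)).val : ℤ) with hd
  have hdiv : ∀ n, (p : ℤ) ∣ ∑ i, d i * (φ i).coeff n := by
    intro n
    rw [← ZMod.intCast_zmod_eq_zero_iff_dvd, Int.cast_sum]
    have h0 := congrArg (fun w : LaurentSeries (Res A) => w.coeff (n : ℤ)) hc
    simp only [HahnSeries.coeff_sum, HahnSeries.coeff_zero] at h0
    have h1 : ∑ i, ((φ i).coeff n : ZMod p) • c i = 0 := by
      refine Eq.trans (Finset.sum_congr rfl fun i _ => ?_) h0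
      rw [Algebra.smul_def, map_intCast, ← HahnSeries.C_mul_eq_smul, coeff_C_mul, zSer,
        HahnSeries.ofPowerSeries_apply_coeff, PowerSeries.coeff_map, eq_intCast, mul_comm]
    have h2 := congrArg L h1
    rw [map_sum, map_zero] at h2
    refine Eq.trans (Finset.sum_congr rfl fun i _ => ?_) h2
    rw [map_smul, Int.cast_mul, smul_eq_mul, hd, Int.cast_natCast, ZMod.natCast_zmod_val, mul_comm]
  choose a ha using hdiv
  set F : CuspForm (Gamma0 M) 2 :=
    (p : ℂ)⁻¹ • (((∑ i, d i • b i : CuspForm.intLattice M 2)) : CuspForm (Gamma0 M) 2) with hF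
  have hpC : (p : ℂ) ≠ 0 := Nat.cast_ne_zero.mpr hp.ne_zero
  have hFmem : F ∈ CuspForm.intLattice M 2 := (HeckeDuality.mem_intLattice_iff F).mpr fun n =>
    ⟨a n, by
      have hcoef : ModularFormClass.qCoeff (((∑ i, d i • b i : CuspForm.intLattice M 2)) :
          CuspForm (Gamma0 M) 2) n = ((p * a n : ℤ) : ℂ) := by
        rw [← ha n, Submodule.coe_sum, Int.cast_sum, ← HeckeDuality.coeffLin_apply, map_sum]
        refine Finset.sum_congr rfl fun i _ => ?_
        rw [Submodule.coe_smul_of_tower, HeckeDuality.coeffLin_apply, HeckeDuality.coeff_zsmul,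
          hφ i, Int.cast_mul]
      rw [hF, HeckeDuality.coeff_smul, hcoef, Int.cast_mul, Int.cast_natCast, ← mul_assoc,
        inv_mul_cancel₀ hpC, one_mul]⟩
  have hsum : ∑ i, d i • b i = (p : ℤ) • (⟨F, hFmem⟩ : CuspForm.intLattice M 2) := by
    refine Subtype.ext ?_
    rw [Submodule.coe_smul_of_tower]
    show _ = (p : ℤ) • F
    rw [hF, ← Int.cast_smul_eq_zsmul ℂ, Int.cast_natCast,
      smul_smul, mul_inv_cancel₀ hpC, one_smul]
  have hi := congrArg (fun w => b.repr w i₀) hsum
  simp only [b.repr_sum_self, map_smul, Finsupp.smul_apply, smul_eq_mul] at hi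
  refine hL ?_
  rw [← ZMod.natCast_zmod_val (L (c i₀)), ← Int.cast_natCast (R := ZMod p),
    ZMod.intCast_zmod_eq_zero_iff_dvd]
  exact ⟨_, hi⟩

/-- The reductions of a basis span the reductions of all integral cusp forms. -/
theorem redLattice_le_span {ι : Type*} [Fintype ι]
    (b : Module.Basis ι ℤ (CuspForm.intLattice M 2)) (φ : ι → PowerSeries ℤ)
    (hφ : ∀ i n, ModularFormClass.qCoeff ((b i : CuspForm.intLattice M 2) :
      CuspForm (Gamma0 M) 2) n = (((φ i).coeff n : ℤ) : ℂ)) :
    redLattice A M ≤ Submodule.span (Res A) (Set.range fun i => zSer (Res A) (φ i)) := by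
  refine Submodule.span_le.mpr ?_
  rintro _ ⟨ψ, ⟨f, hf⟩, rfl⟩
  have hmem : f ∈ CuspForm.intLattice M 2 :=
    (HeckeDuality.mem_intLattice_iff f).mpr fun n => ⟨_, hf n⟩
  have e : ψ = ∑ i, b.repr ⟨f, hmem⟩ i • φ i := by
    ext n
    refine Int.cast_injective (α := ℂ) ?_
    have h := congrArg (fun g : CuspForm.intLattice M 2 =>
      ModularFormClass.qCoeff (g : CuspForm (Gamma0 M) 2) n) (b.sum_repr ⟨f, hmem⟩)
    simp only [Submodule.coe_sum, Submodule.coe_smul_of_tower, ← HeckeDuality.coeffLin_apply,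
      map_sum] at h
    simp only [HeckeDuality.coeffLin_apply, HeckeDuality.coeff_zsmul, hφ] at h
    rw [← hf n, ← h, map_sum, Int.cast_sum]
    refine Finset.sum_congr rfl fun i _ => ?_
    rw [map_zsmul, zsmul_eq_mul, Int.cast_mul, Int.cast_id]
  have e2 : zSer (Res A) ψ =
      ∑ i, ((b.repr ⟨f, hmem⟩ i : ℤ) : Res A) • zSer (Res A) (φ i) := by
    rw [e, zSer, map_sum, map_sum]
    refine Finset.sum_congr rfl fun i _ => ?_
    rw [map_zsmul, map_zsmul, ← zSer, Int.cast_smul_eq_zsmul]
  rw [SetLike.mem_coe, e2]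
  exact Submodule.sum_mem _ fun i _ => Submodule.smul_mem _ _ (Submodule.subset_span ⟨i, rfl⟩)

/-- Integral cusp forms stay independent modulo `p`. -/
theorem finrank_cuspForm_le_redLattice (hp : p.Prime) [Module.Finite (Res A) (redLattice A M)] :
    Module.finrank ℂ (CuspForm (Gamma0 M) 2) ≤ Module.finrank (Res A) (redLattice A M) := by
  classical
  have : Fact p.Prime := ⟨hp⟩
  have := CuspForm.intLattice.moduleFinite (N := M)
  have : Module.IsTorsionFree ℤ (CuspForm (Gamma0 M) 2) :=
    Module.IsTorsionFree.trans_faithfulSMul ℤ ℂ _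
  obtain ⟨ι, b⟩ := Module.Free.exists_basis (R := ℤ) (M := CuspForm.intLattice M 2)
  have := Module.Finite.finite_basis b
  have := Fintype.ofFinite ι
  choose φ hφ using fun i => exists_series (b i).2
  have hspan : Module.finrank ℂ (CuspForm (Gamma0 M) 2) ≤ Fintype.card ι := by
    have htop : Submodule.span ℂ (Set.range fun i => ((b i : CuspForm.intLattice M 2) :
        CuspForm (Gamma0 M) 2)) = ⊤ := by
      refine top_le_iff.mp ?_
      rw [← IntegralStructure.hasIntegralStructure M 2, Submodule.span_le]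
      intro f hf
      rw [← Subtype.coe_mk f hf, ← b.sum_repr ⟨f, hf⟩, Submodule.coe_sum]
      refine Submodule.sum_mem _ fun i _ => ?_
      rw [Submodule.coe_smul_of_tower]
      exact Submodule.smul_of_tower_mem _ _ (Submodule.subset_span ⟨i, rfl⟩)
    have h := finrank_range_le_card (R := ℂ) fun i => ((b i : CuspForm.intLattice M 2) :
        CuspForm (Gamma0 M) 2)
    rwa [Set.finrank, htop, finrank_top] at h
  let v : ι → redLattice A M := fun i =>
    ⟨zSer (Res A) (φ i), Submodule.subset_span ⟨_, ⟨_, hφ i⟩, rfl⟩⟩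
  have hv : LinearIndependent (Res A) v :=
    LinearIndependent.of_comp (redLattice A M).subtype (linearIndependent_zSer p hp b φ hφ)
  exact hspan.trans hv.fintype_card_le_finrank

variable [FF.IsFunctionField (Res A) (KM A M)] [IsAlgClosed (Res A)]
  [FiniteDimensional (Res A)⟮jK A M⟯ (KM A M)] [Algebra.IsSeparable (Res A)⟮jK A M⟯ (KM A M)]

variable (A M) in
/-- The regular differentials, as series `g θ j`. -/
def regForms : Submodule (Res A) (LaurentSeries (Res A)) :=
  (riemannRochSpace (djDiv (jK_transcendental A M))).map (mulTheta A M)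

omit [Fact p.Prime] [CharP (Res A) p] in
theorem finrank_regForms_le :
    Module.Finite (Res A) (regForms A M) ∧
      Module.finrank (Res A) (regForms A M) ≤ genusFF (Res A) (KM A M) := by
  have h := ell_le_genus (degree_djDiv (jK_transcendental A M))
  have h1 := Submodule.finrank_map_le (mulTheta A M)
    (riemannRochSpace (djDiv (jK_transcendental A M)))
  refine ⟨Module.Finite.map _ _, h1.trans ?_⟩
  unfold FF.ell at h
  exact_mod_cast h

variable (hA : A.LiesOverPrime p) (hp5 : 5 ≤ p) (hM : (M : Res A) ≠ 0)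
include hA hp5 hM

omit hA hM in
theorem natCast_1728_ne_zero : (1728 : Res A) ≠ 0 := by
  intro h
  have h' : ((1728 : ℕ) : Res A) = 0 := by exact_mod_cast h
  rw [CharP.cast_eq_zero_iff (Res A) p, show (1728 : ℕ) = 2 ^ 6 * 3 ^ 3 by norm_num] at h'
  have hp : p.Prime := Fact.out
  rcases hp.dvd_mul.mp h' with h2 | h2
  · have := Nat.le_of_dvd (by norm_num) (hp.dvd_of_dvd_pow h2); omega
  · have := Nat.le_of_dvd (by norm_num) (hp.dvd_of_dvd_pow h2); omega

omit hA hp5 in
theorem serY_mem_KM {φ : PowerSeries ℤ} (hφ : φ ∈ intSeries M) :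
    serY (Res A) φ ∈ KM A M ∧ serX (Res A) φ ∈ KM A M := by
  obtain ⟨f, hf⟩ := hφ
  have key : ∀ (y : LaurentSeries ℤ), coeffMap (Int.castRingHom QBar) y ∈ FB M →
      coeffMap (Int.castRingHom (Res A)) y ∈ KM A M := by
    intro y hy
    have hi := coeffMap_intCast_mem_intS (A := A) y
    have hm : (⟨_, hy⟩ : FB M) ∈ loc2 A (iota1 M) := (mem_loc1 M).mpr (intS_le_locS hi)
    have h := red1_mem_KM M hM ⟨_, hm⟩
    rw [red1_eq, redL_of_mem_intS ⟨_, hi⟩, red_coeffMap_intCast] at h
    exact h
  constructor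
  · rw [← coeffMap_serY (Int.castRingHom (Res A))]
    exact key _ (by rw [coeffMap_serY]; exact serY_mem_FB f hf)
  · rw [← coeffMap_serX (Int.castRingHom (Res A))]
    exact key _ (by rw [coeffMap_serX]; exact serX_mem_FB f hf)

/-- The reduction of an integral cusp form is a regular differential. -/
theorem zSer_mem_regForms {φ : PowerSeries ℤ} (hφ : φ ∈ intSeries M) :
    zSer (Res A) φ ∈ regForms A M := by
  obtain ⟨f, hf⟩ := hφ
  obtain ⟨hY, hX⟩ := serY_mem_KM (A := A) hM ⟨f, hf⟩
  set J : KM A M := jK A M with hJdef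
  have hJ : Transcendental (Res A) J := jK_transcendental A M
  set J' : KM A M := J - algebraMap (Res A) (KM A M) 1728 with hJ'def
  have hcoeJ' : (J' : LaurentSeries (Res A)) = jqModC (Res A) - 1728 := by
    show (J : LaurentSeries (Res A)) - algebraMap (Res A) (LaurentSeries (Res A)) 1728 = _
    rw [map_ofNat]; rfl
  have hJ'0 : J' ≠ 0 := fun h => hJ (by
    rw [sub_eq_zero.mp h]; exact isAlgebraic_algebraMap _)
  have hJ0 : J ≠ 0 := fun h => hJ (h ▸ isAlgebraic_zero)
  set r : KM A M := -⟨_, hY⟩ / (J * J') with hr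
  have hcoer : (r : LaurentSeries (Res A)) = serR (Res A) φ := by
    rw [serR, ← hcoeJ']; rfl
  refine ⟨r, ?_, by rw [mulTheta_apply, hcoer, serR_mul_theta]⟩
  set x : KM A M := ⟨_, hX⟩ with hx
  have hrx : r ^ 3 * (J * J') ^ 2 = -x := Subtype.ext (by
    show (r : LaurentSeries (Res A)) ^ 3 *
      ((J : LaurentSeries (Res A)) * (J' : LaurentSeries (Res A))) ^ 2 = _
    rw [hcoer, hcoeJ']
    exact serR_pow_three φ)
  -- the bound on `x`
  have hxk : ∀ k, M ≤ k → x ^ k * J ∈ Semistable.Hk A M k := by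
    intro k hk
    have hi : (serX QBar φ : LSer) ∈ intS A := by
      rw [← coeffMap_serX (Int.castRingHom QBar)]; exact coeffMap_intCast_mem_intS _
    have hm : (⟨serX QBar φ, serX_mem_FB f hf⟩ : FB M) ∈ loc2 A (iota1 M) :=
      (mem_loc1 M).mpr (intS_le_locS hi)
    set y : loc2 A (iota1 M) := ⟨_, hm⟩ ^ k * ⟨jM M, jM_mem M⟩
    have h := red1_mem_HkS M p hA hM (x := y) (n := k) (serX_pow_mul_mem f hf hk)
    obtain ⟨hmem, hk'⟩ := (mem_HkS A M).mp h
    have hy : red1 A M y = serX (Res A) φ ^ k * jqModC (Res A) := by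
      rw [map_mul, map_pow, red1_jM, red1_eq, redL_of_mem_intS ⟨_, hi⟩]
      congr 2
      have e : (⟨_, hi⟩ : intS A) = ⟨_, coeffMap_intCast_mem_intS (serX ℤ φ)⟩ :=
        Subtype.ext (coeffMap_serX _ φ).symm
      rw [e, red_coeffMap_intCast, coeffMap_serX]
    have e : x ^ k * J = ⟨_, hmem⟩ := Subtype.ext hy.symm
    rw [e]; exact hk'
  refine FF.mem_riemannRochSpace'.mpr fun v => ?_
  rcases eq_or_ne r 0 with h0 | h0
  · rw [h0]; exact zero_mem _
  have hx0 : x ≠ 0 := fun h => by
    rw [h, neg_zero] at hrx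
    exact mul_ne_zero (pow_ne_zero 3 h0) (pow_ne_zero 2 (mul_ne_zero hJ0 hJ'0)) hrx
  refine FF.mem_ordGe_of_le v ?_
  have hord : 3 * v.ord r + 2 * (v.ord J + v.ord J') = v.ord x := by
    have h := congrArg v.ord hrx
    rw [FF.ord_neg, v.ord_mul (pow_ne_zero 3 h0) (pow_ne_zero 2 (mul_ne_zero hJ0 hJ'0)),
      FF.ord_pow, FF.ord_pow, v.ord_mul hJ0 hJ'0] at h
    exact h
  have hk : ∀ k : ℕ, M ≤ k →
      -((k : ℤ) * FF.poles (Res A) J v) ≤ (k : ℤ) * v.ord x + v.ord J := by
    intro k hk
    have h := FF.le_ord_of_mem_ordGe v (mul_ne_zero (pow_ne_zero k hx0) hJ0)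
      (RedTorsion.mem_polesSpace.mp (hxk k hk) v)
    rwa [v.ord_mul (pow_ne_zero k hx0) hJ0, FF.ord_pow] at h
  have h1728 : (algebraMap (Res A) (KM A M) 1728) ≠ 0 :=
    (_root_.map_ne_zero _).mpr (natCast_1728_ne_zero (A := A) p hp5)
  rcases lt_or_ge (v.ord J) 0 with hpole | hfin
  · have hJ'v : v.ord J' = v.ord J := by
      rw [hJ'def, sub_eq_add_neg]
      exact (FF.ord_add_eq_left v hJ0 (Or.inr (by
        rw [FF.ord_neg, FF.ord_algebraMap]; exact hpole))).2
    rw [djDiv_of_pole hJ hpole]
    set k : ℕ := M + (v.ord J).natAbs + 1 with hkdef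
    have h := hk k (by omega)
    rw [FF.poles_apply, max_eq_right (by omega)] at h
    have hkJ : -v.ord J < (k : ℤ) := by omega
    have hX1 : v.ord J + 1 ≤ v.ord x := by
      by_contra hlt
      nlinarith [not_le.mp hlt]
    omega
  · rw [djDiv_of_finite hJ hfin]
    set k : ℕ := M + (v.ord J).natAbs + 1 with hkdef
    have h := hk k (by omega)
    rw [FF.poles_apply, max_eq_left (by omega)] at h
    have hkJ : v.ord J < (k : ℤ) := by omega
    have hX0 : 0 ≤ v.ord x := by
      by_contra hlt
      nlinarith [not_le.mp hlt]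
    have hJ'v : 0 ≤ v.ord J' := FF.ord_nonneg v (sub_mem
      ((FF.mem_iff v).mpr (Or.inr hfin)) (v.algebraMap_mem' _))
    have he := RedTorsion.ram_pos (x := J) v
    rcases lt_or_eq_of_le hfin with hpos | hzero
    · have e1 : (v.ramificationIndex (Res A)⟮J⟯ : ℤ) = v.ord J := by
        have h := RedTorsion.ram_of_zero hJ v (a := 0) (FF.mem_ordGe_of_le v (by
          rw [map_zero, sub_zero]; omega))
        rwa [map_zero, sub_zero] at h
      have e2 : v.ord J' = 0 := by
        have h := (FF.ord_add_eq_left v (f := -algebraMap (Res A) (KM A M) 1728) (g := J)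
          (neg_ne_zero.mpr h1728) (Or.inr (by
            rw [FF.ord_neg, FF.ord_algebraMap]; exact hpos))).2
        rwa [FF.ord_neg, FF.ord_algebraMap, neg_add_eq_sub] at h
      omega
    · rcases lt_or_eq_of_le hJ'v with hpos' | hzero'
      · have e1 : (v.ramificationIndex (Res A)⟮J⟯ : ℤ) = v.ord J' :=
          RedTorsion.ram_of_zero hJ v (a := 1728) (FF.mem_ordGe_of_le v hpos')
        omega
      · omega

omit hp5 in
/-- Reduction does not raise the genus. -/
theorem genus_residue_le : genusFF (Res A) (KM A M) ≤ genusFF QBar (FB M) := by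
  obtain ⟨n₀, hn₀⟩ := exists_finrank_eq (A := A) M p hM
  obtain ⟨hf, hd⟩ := finrank_redSub p hA (iota1 M) (fun _ x => mem_fracS_of_mem x) (HM M n₀)
  let π : (Unit → LaurentSeries (Res A)) →ₗ[Res A] LaurentSeries (Res A) := LinearMap.proj ()
  have hπ : Function.Injective π := fun a b h => funext fun _ => h
  set W := (redSub A (iota1 M) (HM M n₀)).map π with hW
  have hle : W ≤ HkS A M n₀ := by
    rintro _ ⟨s, hs, rfl⟩
    obtain ⟨x, hx, rfl⟩ := mem_redSub.mp hs
    exact red1_mem_HkS M p hA hM hx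
  have : FiniteDimensional (Res A) (HkS A M n₀) := by unfold HkS; infer_instance
  have h := Submodule.finrank_mono hle
  rw [hW, ← (Submodule.equivMapOfInjective π hπ _).finrank_eq, hd, finrank_HkS] at h
  obtain ⟨h1, -, h3⟩ := hn₀ n₀ le_rfl
  omega

/-- The regular differentials are the reductions of integral cusp forms, and the genus does not
drop. -/
theorem regForms_eq_redLattice : regForms A M = redLattice A M ∧ GoodM A M := by
  obtain ⟨hfin, hle⟩ := finrank_regForms_le (A := A) (M := M)
  have h1 : redLattice A M ≤ regForms A M :=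
    Submodule.span_le.mpr (Set.image_subset_iff.mpr fun φ hφ =>
      zSer_mem_regForms p hA hp5 hM hφ)
  have : Module.Finite (Res A) (redLattice A M) := Submodule.finiteDimensional_of_le h1
  have h2 := finrank_cuspForm_le_redLattice (A := A) (M := M) p Fact.out
  have hg : genusFF QBar (FB M) = Module.finrank ℂ (CuspForm (Gamma0 M) 2) := by
    have h := Genus.genus_eq_genusFormula M
    rw [FF.genus_eq_genusFF, ← S20.result M] at h
    exact_mod_cast h
  have h3 := genus_residue_le (A := A) (M := M) p hA hM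
  have h4 := Submodule.finrank_mono h1
  exact ⟨(Submodule.eq_of_le_of_finrank_le h1 (by omega)).symm, by unfold GoodM; omega⟩

end Fermat.Agent.RT.MazurP

end
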