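import Fermat.Agent.HeckeDuality.DeligneSerre
import Fermat.Agent.IntegralStructure.Main
import Fermat.Agent.RT.MazurP.Forms

/-!
# Eigen series in the reduced lattice lift to eigenforms

A nonzero element of the span of the reductions of integral cusp forms on which the operators
`x ↦ (a_{ln} + l a_{n/l})` act by scalars `a l` gives a character of the Hecke algebra, hence a
normalised eigenform congruent to `a`.
-/

set_option autoImplicit false
set_option synthInstance.maxHeartbeats 400000
set_option maxHeartbeats 1000000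
set_option linter.unusedSectionVars false

noncomputable section

open CongruenceSubgroup

namespace Fermat.Agent.RT.MazurP

open Fermat.Agent.Semistable
open Arith (QBar)

/-- Commuting operators on a nonzero stable subspace over an algebraically closed field have a
common eigenvector. -/
theorem exists_common_eigen {κ V R : Type*} [Field κ] [IsAlgClosed κ] [AddCommGroup V] [Module κ V]
    [FiniteDimensional κ V] [CommRing R] (ρ : R →+* Module.End κ V) (W : Submodule κ V)
    (hW : W ≠ ⊥) (hinv : ∀ a, ∀ w ∈ W, ρ a w ∈ W) :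
    ∃ (θ : R →+* κ) (v : V), v ∈ W ∧ v ≠ 0 ∧ ∀ a, ρ a v = θ a • v := by
  classical
  obtain ⟨U, ⟨hU0, hUW, hUinv⟩, hmin⟩ :=
    WellFounded.has_min (wellFounded_lt (α := Submodule κ V))
      {U : Submodule κ V | U ≠ ⊥ ∧ U ≤ W ∧ ∀ a, ∀ u ∈ U, ρ a u ∈ U} ⟨W, hW, le_rfl, hinv⟩
  have key : ∀ a, ∃ c : κ, ∀ u ∈ U, ρ a u = c • u := by
    intro a
    have : Nontrivial U := Submodule.nontrivial_iff_ne_bot.2 hU0
    obtain ⟨c, hc⟩ := Module.End.exists_eigenvalue ((ρ a).restrict (hUinv a))
    obtain ⟨u₀, hu₀⟩ := hc.exists_hasEigenvector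
    refine ⟨c, ?_⟩
    let U' : Submodule κ V := U ⊓ LinearMap.ker (ρ a - c • (1 : Module.End κ V))
    have hu₀' : (u₀ : V) ∈ U' := by
      refine Submodule.mem_inf.2 ⟨u₀.2, ?_⟩
      have := congrArg Subtype.val hu₀.apply_eq_smul
      simpa [sub_eq_zero] using this
    have hne : U' ≠ ⊥ := fun h => hu₀.2 <| by
      rw [h, Submodule.mem_bot] at hu₀'
      exact Subtype.ext hu₀'
    have hU'inv : ∀ b, ∀ u ∈ U', ρ b u ∈ U' := by
      intro b u hu
      obtain ⟨hu1, hu2⟩ := Submodule.mem_inf.1 hu
      refine Submodule.mem_inf.2 ⟨hUinv b u hu1, ?_⟩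
      have hu3 : ρ a u = c • u := by simpa [sub_eq_zero] using hu2
      have hcomm : ρ a (ρ b u) = ρ b (ρ a u) := by
        rw [← Module.End.mul_apply, ← map_mul, mul_comm, map_mul, Module.End.mul_apply]
      simp [hcomm, hu3]
    have hnlt := hmin U' ⟨hne, inf_le_left.trans hUW, hU'inv⟩
    have hEq : U' = U := eq_of_le_of_not_lt inf_le_left hnlt
    intro u hu
    rw [← hEq] at hu
    simpa [sub_eq_zero] using (Submodule.mem_inf.1 hu).2
  choose θ hθ using key
  obtain ⟨v, hvU, hv⟩ := Submodule.exists_mem_ne_zero_of_ne_bot hU0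
  have hinj : Function.Injective (fun c : κ => c • v) := smul_left_injective κ hv
  refine ⟨{ toFun := θ, map_one' := hinj ?_, map_mul' := fun a b => hinj ?_, map_zero' := hinj ?_,
            map_add' := fun a b => hinj ?_ }, v, hUW hvU, hv, fun a => hθ a v hvU⟩
  · show θ 1 • v = (1 : κ) • v
    rw [← hθ 1 v hvU, map_one, one_smul]; rfl
  · show θ (a * b) • v = (θ a * θ b) • v
    rw [← hθ (a * b) v hvU, map_mul, Module.End.mul_apply, hθ b v hvU, map_smul, hθ a v hvU,
      smul_smul, mul_comm]
  · show θ 0 • v = (0 : κ) • v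
    rw [← hθ 0 v hvU, map_zero, zero_smul]; rfl
  · show θ (a + b) • v = (θ a + θ b) • v
    rw [← hθ (a + b) v hvU, map_add, LinearMap.add_apply, hθ a v hvU, hθ b v hvU, add_smul]

/-- An image of a finite `ℤ`-module in characteristic `p` is finite. -/
theorem finite_range_of_charP {T κ : Type*} [Ring T] [Ring κ] (p : ℕ) [Fact p.Prime] [CharP κ p]
    [Module.Finite ℤ T] (χ : T →+* κ) : (Set.range χ).Finite := by
  obtain ⟨n, f, hf⟩ := Module.Finite.exists_fin' ℤ T
  refine (Set.finite_range fun c : Fin n → ZMod p =>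
    ∑ i, ZMod.castHom (dvd_refl p) κ (c i) * χ (f (Pi.single i 1))).subset ?_
  rintro _ ⟨t, rfl⟩
  obtain ⟨v, rfl⟩ := hf t
  refine ⟨fun i => (v i : ZMod p), ?_⟩
  have e : f v = ∑ i, v i • f (Pi.single i 1) := by
    conv_lhs => rw [pi_eq_sum_univ' v]
    rw [map_sum]
    exact Finset.sum_congr rfl fun i _ => map_zsmul f (v i) _
  simp only [e, map_sum, zsmul_eq_mul, map_mul, map_intCast]

variable {A : ValuationSubring QBar} {M : ℕ} [NeZero M] (p : ℕ) [Fact p.Prime] [CharP (Res A) p]
  [IsAlgClosed (Res A)]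

/-- An eigen series in the reduced lattice gives a congruent eigenform. -/
theorem exists_eigenform_of_redLattice {η : LaurentSeries (Res A)} (hη : η ∈ redLattice A M)
    (hη0 : η ≠ 0) (G : ℕ → Prop) (hG : ∀ l, l.Prime → G l → ¬ l ∣ M) (a : ℕ → ℤ)
    (heig : ∀ l : ℕ, l.Prime → G l → ∀ n : ℤ,
      η.coeff ((l : ℤ) * n) + (if (l : ℤ) ∣ n then (l : Res A) * η.coeff (n / l) else 0) =
        (a l : Res A) * η.coeff n) :
    ∃ (g : CuspForm (Gamma0 M) 2) (_ : g.IsNormalizedEigenform)
      (𝔪 : Ideal (integralClosure ℤ ℂ)), 𝔪.IsMaximal ∧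
      ((p : ℕ) : integralClosure ℤ ℂ) ∈ 𝔪 ∧
      ∀ l, l.Prime → G l → ∃ c : integralClosure ℤ ℂ,
        (c : ℂ) = ModularFormClass.qCoeff g l ∧ c - (a l : integralClosure ℤ ℂ) ∈ 𝔪 := by
  classical
  have hp : p.Prime := Fact.out
  have hint := IntegralStructure.hasIntegralStructure M 2
  have := CuspForm.intLattice.moduleFinite (N := M)
  have := CuspForm.intLattice.moduleFree (N := M)
  have := HeckeDuality.heckeAlgebra_finite_of_integralStructure (N := M) ∅ hint
  let b := Module.Free.chooseBasis ℤ (CuspForm.intLattice M 2)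
  set ι := Module.Free.ChooseBasisIndex ℤ (CuspForm.intLattice M 2)
  choose φ hφ using fun i : ι => exists_series (b i).2
  let S : (CuspForm.heckeAlgebra M 2 ∅) →+* Module.End (Res A) (ι → Res A) :=
    (Matrix.toLinAlgEquiv' (R := Res A) (n := ι)).toRingEquiv.toRingHom.comp
      (((Int.castRingHom (Res A)).mapMatrix).comp
        ((LinearMap.toMatrixAlgEquiv b).toRingEquiv.toRingHom.comp
          (CuspForm.latticeActionHom M ∅)))
  obtain ⟨c, hc⟩ := (Submodule.mem_span_range_iff_exists_fun (Res A)).mp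
    (redLattice_le_span b φ hφ hη)
  have hc0 : c ≠ 0 := by
    rintro rfl
    exact hη0 (by simp [← hc])
  -- the eigen equations
  have hSc : ∀ l (hl : l.Prime), G l →
      S (HeckeDuality.heckeOp M 2 l hl) c = (a l : Res A) • c := by
    intro l hl hGl
    set t := HeckeDuality.heckeOp M 2 l hl with ht
    set N := LinearMap.toMatrix b b (CuspForm.latticeActionHom M ∅ t) with hN
    have hS : ∀ j, S t c j = ∑ i, (N j i : Res A) * c i := fun j => rfl
    -- the action on the series of the basis
    have hcol : ∀ i (n : ℕ), ∑ j, N j i * (φ j).coeff n =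
        (φ i).coeff (n * l) + if l ∣ n then (l : ℤ) * (φ i).coeff (n / l) else 0 := by
      intro i n
      refine Int.cast_injective (α := ℂ) ?_
      have h := congrArg (fun g : CuspForm.intLattice M 2 =>
        ModularFormClass.qCoeff (g : CuspForm (Gamma0 M) 2) n)
        (b.sum_repr (CuspForm.latticeActionHom M ∅ t (b i)))
      simp only [Submodule.coe_sum, Submodule.coe_smul_of_tower, ← HeckeDuality.coeffLin_apply,
        map_sum] at h
      simp only [HeckeDuality.coeffLin_apply, HeckeDuality.coeff_zsmul, hφ] at h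
      have h2 : ModularFormClass.qCoeff
          ((CuspForm.latticeActionHom M ∅ t (b i) : CuspForm.intLattice M 2) :
            CuspForm (Gamma0 M) 2) n =
          ((φ i).coeff (n * l) : ℂ) + if l ∣ n then (l : ℂ) * ((φ i).coeff (n / l) : ℂ) else 0 := by
        rw [← hφ, ← hφ]
        refine (HeckeDuality.coeff_heckeOp hl _ n).trans ?_
        rw [HeckeDuality.eulerWeight, if_neg (hG l hl hGl)]
        rfl
      rw [Int.cast_sum]
      simp only [Int.cast_mul, hN, LinearMap.toMatrix_apply]
      rw [h, h2]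
      push_cast [apply_ite (Int.cast : ℤ → ℂ)]
      rfl
    -- compare the combinations
    have hli := linearIndependent_zSer (A := A) p hp b φ hφ
    rw [Fintype.linearIndependent_iff] at hli
    funext j
    rw [hS, Pi.smul_apply, smul_eq_mul, ← sub_eq_zero]
    refine hli (fun j => ∑ i, (N j i : Res A) * c i - (a l : Res A) * c j) ?_ j
    ext k
    rcases lt_or_ge k 0 with hk | hk
    · simp only [HahnSeries.coeff_sum, HahnSeries.coeff_smul, HahnSeries.coeff_zero]
      refine Finset.sum_eq_zero fun j _ => ?_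
      rw [zSer, ModularCurve.ofPowerSeries_coeff_of_neg _ hk, smul_zero]
    obtain ⟨n, rfl⟩ := Int.eq_ofNat_of_zero_le hk
    have hco : ∀ m : ℕ, η.coeff (m : ℤ) = ∑ i, c i * ((φ i).coeff m : Res A) := by
      intro m
      rw [← hc, HahnSeries.coeff_sum]
      refine Finset.sum_congr rfl fun i _ => ?_
      rw [← HahnSeries.C_mul_eq_smul, coeff_C_mul, zSer, HahnSeries.ofPowerSeries_apply_coeff,
        PowerSeries.coeff_map, eq_intCast]
    have h := heig l hl hGl (n : ℤ)
    rw [← Nat.cast_mul, hco, hco, mul_comm l n] at h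
    simp only [Int.natCast_dvd_natCast, ← Int.natCast_ediv, hco] at h
    simp only [HahnSeries.coeff_sum, HahnSeries.coeff_zero]
    have hj : ∀ j, ((∑ i, (N j i : Res A) * c i - (a l : Res A) * c j) •
        zSer (Res A) (φ j)).coeff (n : ℤ) =
        ∑ i, c i * ((N j i * (φ j).coeff n : ℤ) : Res A) -
          (a l : Res A) * (c j * ((φ j).coeff n : Res A)) := by
      intro j
      rw [← HahnSeries.C_mul_eq_smul, coeff_C_mul, zSer, HahnSeries.ofPowerSeries_apply_coeff,
        PowerSeries.coeff_map, eq_intCast, sub_mul, Finset.sum_mul, mul_assoc]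
      congr 1
      exact Finset.sum_congr rfl fun i _ => by push_cast; ring
    simp only [hj, Finset.sum_sub_distrib]
    rw [Finset.sum_comm]
    simp only [← Finset.mul_sum, ← Int.cast_sum, hcol, sub_eq_zero]
    rw [← h]
    push_cast [apply_ite (Int.cast : ℤ → Res A), mul_add, mul_ite, Finset.sum_add_distrib]
    congr 1
    split_ifs with hd
    · rw [Finset.mul_sum]
      exact Finset.sum_congr rfl fun i _ => by ring
    · simp
  -- a common eigenvector
  let W : Submodule (Res A) (ι → Res A) := ⨅ l : {l : ℕ // l.Prime ∧ G l},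
    LinearMap.ker (S (HeckeDuality.heckeOp M 2 l.1 l.2.1) -
      (a l.1 : Res A) • (1 : Module.End (Res A) (ι → Res A)))
  have hW : W ≠ ⊥ := (Submodule.ne_bot_iff _).mpr ⟨c, (Submodule.mem_iInf _).mpr fun l =>
    LinearMap.mem_ker.mpr (by simp [hSc l.1 l.2.1 l.2.2]), hc0⟩
  have hinv : ∀ t, ∀ w ∈ W, S t w ∈ W := by
    intro t w hw
    refine (Submodule.mem_iInf _).mpr fun l => ?_
    have hw' := LinearMap.mem_ker.mp ((Submodule.mem_iInf _).mp hw l)
    simp only [LinearMap.sub_apply, LinearMap.smul_apply, Module.End.one_apply, sub_eq_zero] at hw'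
    simp only [LinearMap.mem_ker, LinearMap.sub_apply, LinearMap.smul_apply, Module.End.one_apply,
      sub_eq_zero]
    rw [← Module.End.mul_apply, ← map_mul, mul_comm, map_mul, Module.End.mul_apply, hw', map_smul]
  obtain ⟨χ, v, hvW, hv, hχ⟩ := exists_common_eigen S W hW hinv
  have : Finite χ.range := (finite_range_of_charP p χ).to_subtype
  have hfield : IsField χ.range := Finite.isField_of_domain _
  let _ := hfield.toField
  have : CharP χ.range p := RingHom.charP χ.range.subtype Subtype.val_injective p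
  obtain ⟨g, hg, 𝔪, h𝔪, hp𝔪, hcong⟩ :=
    HeckeDuality.exists_eigenform_lifting (p := p) hint χ.rangeRestrict
  refine ⟨g, hg, 𝔪, h𝔪, hp𝔪, fun l hl hGl => hcong l hl (a l) (Subtype.ext ?_)⟩
  have h1 := LinearMap.mem_ker.mp ((Submodule.mem_iInf _).mp hvW ⟨l, hl, hGl⟩)
  simp only [LinearMap.sub_apply, LinearMap.smul_apply, Module.End.one_apply, sub_eq_zero, hχ] at h1
  exact (smul_left_injective (Res A) hv h1).trans (map_intCast χ.range.subtype (a l)).symm

end Fermat.Agent.RT.MazurP

end
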