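import Fermat.Agent.Genus.Bounds
import Fermat.Agent.FF.Differential
import Fermat.Agent.RedTorsion.CuspEmbeddings
import Fermat.Agent.RT.MazurP.Forms

/-!
# Logarithmic derivatives with orders divisible by the characteristic are regular

The bound `3 ord (dr/dj) + 2 ord j + 2 ord (j - 1728) ≥ 0` away from the cusps holds in
characteristic zero and passes to the residue field by lifting the spaces `L (n ∞)`.
-/

set_option autoImplicit false
set_option synthInstance.maxHeartbeats 400000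
set_option maxHeartbeats 1000000
set_option linter.unusedSectionVars false

noncomputable section

open AlgebraicCurve
open ModularCurve (jqModC)
open scoped IntermediateField

namespace Fermat.Agent.RT.MazurP

open Fermat.Agent.Semistable
open Arith (QBar)

/-! ### Characteristic zero -/

section CharZero

variable {N : ℕ} [NeZero N]

theorem jM_sub_ne_zero (a : QBar) : jM N - algebraMap QBar (FB N) a ≠ 0 := fun h =>
  transcendental_jM N (by rw [sub_eq_zero.mp h]; exact isAlgebraic_algebraMap a)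

theorem dd_eq_ddx (r : FB N) : dd (K := QBar) (jM N) r = FF.ddx (K := QBar) (jM N) r := by
  have := FF.isSeparable_adjoin (K := QBar) (transcendental_jM N)
  exact dd_eq (transcendental_jM N) (FF.ddx_spec (transcendental_jM N) r)

theorem cube_dd_mem_HM {n : ℕ} {r : FB N} (hr : r ∈ HM N n) :
    dd (K := QBar) (jM N) r ^ 3 * (jM N * (jM N - algebraMap QBar (FB N) 1728)) ^ 2 ∈
      HM N (3 * n + 1) := by
  rw [dd_eq_ddx]
  set J := jM N with hJdef
  set J' := J - algebraMap QBar (FB N) 1728 with hJ'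
  have hJ : Transcendental QBar J := transcendental_jM N
  have hJ0 : J ≠ 0 := fun h => hJ (h ▸ isAlgebraic_zero)
  have hJ'0 : J' ≠ 0 := jM_sub_ne_zero 1728
  refine RedTorsion.mem_polesSpace.mpr fun v => ?_
  set δ := FF.ddx (K := QBar) J r with hδ
  rcases eq_or_ne δ 0 with h0 | h0
  · rw [h0, zero_pow three_ne_zero, zero_mul]; exact zero_mem _
  refine FF.mem_ordGe_of_le v ?_
  rw [v.ord_mul (pow_ne_zero 3 h0) (pow_ne_zero 2 (mul_ne_zero hJ0 hJ'0)), FF.ord_pow,
    FF.ord_pow, v.ord_mul hJ0 hJ'0]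
  obtain ⟨t, -, ht⟩ := FF.exists_uniformizer (v := v)
  have htt : Transcendental QBar t := FF.transcendental_of_ord_pos v (by omega)
  have hchain : FF.ddx (K := QBar) t r = δ * FF.ddx (K := QBar) t J := FF.ddx_chain hJ htt r
  have hr' : -((n : ℤ) * FF.poles QBar J v) ≤ v.ord r ∨ r = 0 := by
    rcases eq_or_ne r 0 with h | h
    · exact Or.inr h
    · exact Or.inl (FF.le_ord_of_mem_ordGe v h (RedTorsion.mem_polesSpace.mp hr v))
  have hr0 : r ≠ 0 := fun h => h0 (by
    rw [hδ, h]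
    simpa using FF.ddx_algebraMap hJ (0 : QBar))
  have hrn := hr'.resolve_right hr0
  have hjB : Genus.jB N = J := Subtype.ext ((ModFun.coe_jBase N _).trans (coe_jM N).symm)
  have hB0 : v.ord J ≤ 3 := hjB ▸ Genus.ord_jB_le N v
  have hB1 : v.ord J' ≤ 2 := by
    have := Genus.ord_jB_sub_1728_le N v
    rwa [hjB] at this
  simp only [← hJdef] at hrn ⊢
  rcases lt_or_ge (v.ord J) 0 with hpole | hfin
  · obtain ⟨hJt0, hJt⟩ := FF.ord_ddx_of_ord_ne_zero v ht hpole.ne
    have hJ'v : v.ord J' = v.ord J := by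
      rw [hJ', sub_eq_add_neg]
      exact (FF.ord_add_eq_left v hJ0 (Or.inr (by
        rw [FF.ord_neg, FF.ord_algebraMap]; exact hpole))).2
    rw [FF.poles_apply, max_eq_right (show (0 : ℤ) ≤ -v.ord J by omega)] at hrn ⊢
    have hrt : FF.ddx (K := QBar) t r ≠ 0 := by rw [hchain]; exact mul_ne_zero h0 hJt0
    have hlo : (n : ℤ) * v.ord J - 1 ≤ v.ord (FF.ddx (K := QBar) t r) := by
      rcases eq_or_ne (v.ord r) 0 with hz | hz
      · have := FF.le_ord_of_mem_ordGe v hrt (FF.ddx_mem v ht ((FF.mem_iff v).mpr (Or.inr hz.ge)))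
        nlinarith
      · rw [(FF.ord_ddx_of_ord_ne_zero v ht hz).2]
        linarith
    rw [hchain, v.ord_mul h0 hJt0, hJt] at hlo
    push_cast
    linarith
  · obtain ⟨c, hc⟩ := FF.exists_ord_sub_pos v hJ hfin
    obtain ⟨hct0, hct⟩ := FF.ord_ddx_of_ord_ne_zero v ht (ne_of_gt hc)
    rw [FF.ddx_sub htt, FF.ddx_algebraMap htt, sub_zero] at hct0 hct
    rw [FF.poles_apply, max_eq_left (show -v.ord J ≤ (0 : ℤ) by omega)] at hrn ⊢
    have hrt : FF.ddx (K := QBar) t r ≠ 0 := by rw [hchain]; exact mul_ne_zero h0 hct0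
    have hlo := FF.le_ord_of_mem_ordGe v hrt
      (FF.ddx_mem v ht ((FF.mem_iff v).mpr (Or.inr (by linarith))))
    rw [hchain, v.ord_mul h0 hct0, hct] at hlo
    have hJ'v : 0 ≤ v.ord J' := FF.ord_nonneg v (sub_mem
      ((FF.mem_iff v).mpr (Or.inr hfin)) (v.algebraMap_mem' _))
    by_cases c0 : c = 0
    · rw [c0, map_zero, sub_zero] at hc hlo
      push_cast
      omega
    by_cases c1 : c = 1728
    · rw [c1, ← hJ'] at hc hlo
      push_cast
      omega
    · have hle : v.ord (J - algebraMap QBar (FB N) c) ≤ 1 := by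
        have h := Genus.ord_jB_sub_le_one N c c0 c1 v
        rw [hjB] at h
        exact h
      push_cast
      omega

end CharZero

/-! ### Reduction -/

section Theta

variable {A : ValuationSubring QBar}

theorem theta_mem_intS {x : LSer} (hx : x ∈ intS A) :
    ∃ h : theta QBar x ∈ intS A, red A ⟨_, h⟩ = theta (Res A) (red A ⟨x, hx⟩) := by
  obtain ⟨⟨L, hL, hxL⟩, hxA⟩ := mem_intS.mp hx
  have h : theta QBar x ∈ intS A := mem_intS.mpr ⟨⟨L, hL, fun n => by
      rw [coeff_theta]; exact mul_mem (intCast_mem L n) (hxL n)⟩,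
    fun n => by rw [coeff_theta]; exact mul_mem (intCast_mem A n) (hxA n)⟩
  refine ⟨h, ?_⟩
  ext n
  rw [coeff_theta, coeff_red, coeff_red, ← map_intCast (IsLocalRing.residue A), ← map_mul]
  exact congrArg (IsLocalRing.residue A) (Subtype.ext (coeff_theta x n))

theorem theta_mem_locS {x : LSer} (hx : x ∈ locS A) :
    ∃ h : theta QBar x ∈ locS A, redL A ⟨_, h⟩ = theta (Res A) (redL A ⟨x, hx⟩) := by
  obtain ⟨a, b, hb, hab⟩ := id hx
  obtain ⟨ha', ea⟩ := theta_mem_intS a.2
  obtain ⟨hb', eb⟩ := theta_mem_intS b.2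
  set a' : intS A := ⟨_, ha'⟩
  set b' : intS A := ⟨_, hb'⟩
  have hb2 : red A (b * b) ≠ 0 := by rw [map_mul]; exact mul_ne_zero hb hb
  have e : theta QBar x * ((b * b : intS A) : LSer) = ((a' * b - a * b' : intS A) : LSer) := by
    show theta QBar x * ((b : LSer) * b) =
      theta QBar (a : LSer) * b - (a : LSer) * theta QBar (b : LSer)
    rw [← hab, theta_mul]
    ring
  have h : theta QBar x ∈ locS A := ⟨_, _, hb2, e⟩
  refine ⟨h, ?_⟩
  rw [redL_eq ⟨_, h⟩ hb2 e, redL_eq ⟨x, hx⟩ hb hab, map_sub, map_mul, map_mul, map_mul, ea, eb,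
    Derivation.leibniz_div]
  simp only [smul_eq_mul]
  field_simp

theorem red_theta_jqModC_ne_zero {K : Type*} [Field K] : theta K (jqModC K) ≠ 0 := fun h => by
  have h1 := congrArg (fun y : LaurentSeries K => y.coeff (-1)) h
  simp [ModularCurve.coeff_jqModC_neg_one] at h1

end Theta

section Regular

variable {A : ValuationSubring QBar} {N : ℕ} [NeZero N] (p : ℕ) [Fact p.Prime]
  [CharP (Res A) p] [FF.IsFunctionField (Res A) (KM A N)]
  [FiniteDimensional (Res A)⟮jK A N⟯ (KM A N)] [Algebra.IsSeparable (Res A)⟮jK A N⟯ (KM A N)]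
  (hA : A.LiesOverPrime p) (hN : (N : Res A) ≠ 0) (hg : GoodM A N)

theorem coe_dd_mul_theta (r : KM A N) :
    theta (Res A) (r : LaurentSeries (Res A)) =
      ((dd (K := Res A) (jK A N) r : KM A N) : LaurentSeries (Res A)) * theta (Res A) (jqModC (Res A)) :=
  theta_algHom (jK_transcendental A N) (KM A N).val r

include hA hN hg

theorem exists_dd_pow_three_mem : ∃ n₀ : ℕ, ∀ n, n₀ ≤ n → ∀ r ∈ Semistable.Hk A N n,
    dd (K := Res A) (jK A N) r ^ 3 *
      (jK A N * (jK A N - algebraMap (Res A) (KM A N) 1728)) ^ 2 ∈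
        Semistable.Hk A N (3 * n + 1) := by
  obtain ⟨n₀, hn₀⟩ := exists_red1_surjective p hA hN hg
  refine ⟨n₀, fun n hn r hr => ?_⟩
  obtain ⟨x, hx, hxr⟩ := hn₀ n hn (r : LaurentSeries (Res A))
    ((mem_HkS A N).mpr ⟨r.2, hr⟩)
  rw [red1_eq] at hxr
  have hxm := (mem_loc1 N).mp x.2
  obtain ⟨hθ, eθ⟩ := theta_mem_locS hxm
  rw [hxr] at eθ
  obtain ⟨hθj, eθj⟩ := theta_mem_intS (A := A) jqModC_mem_intS
  rw [red_jqModC] at eθj
  have hne : redL A ⟨_, intS_le_locS hθj⟩ ≠ 0 := by
    rw [redL_of_mem_intS ⟨_, hθj⟩, eθj]; exact red_theta_jqModC_ne_zero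
  obtain ⟨hinv, einv⟩ := inv_mem_locS (intS_le_locS hθj) hne
  have := FF.isSeparable_adjoin (K := QBar) (transcendental_jM N)
  set d := dd (K := QBar) (jM N) (x : FB N) with hd
  have hde : (d : LSer) = theta QBar ((x : FB N) : LSer) * (theta QBar (jqModC QBar))⁻¹ := by
    have h : theta QBar ((x : FB N) : LSer) = (d : LSer) * theta QBar ((jM N : FB N) : LSer) :=
      theta_algHom (transcendental_jM N) (FB N).val (x : FB N)
    rw [coe_jM] at h
    rw [h, mul_inv_cancel_right₀ red_theta_jqModC_ne_zero]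
  have hdm : d ∈ loc2 A (iota1 N) := (mem_loc1 N).mpr (by rw [hde]; exact mul_mem hθ hinv)
  have hjm : jM N - algebraMap QBar (FB N) 1728 ∈ loc2 A (iota1 N) :=
    sub_mem (jM_mem N) (by rw [map_ofNat]; exact natCast_mem _ 1728)
  set Y : loc2 A (iota1 N) := ⟨d, hdm⟩ ^ 3 * (⟨jM N, jM_mem N⟩ * ⟨_, hjm⟩) ^ 2
  have hY : (Y : FB N) ∈ HM N (3 * n + 1) := cube_dd_mem_HM hx
  obtain ⟨hmem, hk⟩ := (mem_HkS A N).mp (red1_mem_HkS N p hA hN hY)
  have hdred : red1 A N ⟨d, hdm⟩ =
      ((dd (K := Res A) (jK A N) r : KM A N) : LaurentSeries (Res A)) := by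
    rw [red1_eq, redL_congr _ (mul_mem hθ hinv) hde,
      show (⟨_, mul_mem hθ hinv⟩ : locS A) = ⟨_, hθ⟩ * ⟨_, hinv⟩ from rfl, map_mul, eθ, einv,
      redL_of_mem_intS ⟨_, hθj⟩, eθj, coe_dd_mul_theta,
      mul_inv_cancel_right₀ red_theta_jqModC_ne_zero]
  have h1728 : red1 A N ⟨_, hjm⟩ =
      ((jK A N - algebraMap (Res A) (KM A N) 1728 : KM A N) : LaurentSeries (Res A)) := by
    rw [show (⟨_, hjm⟩ : loc2 A (iota1 N)) = ⟨jM N, jM_mem N⟩ - (1728 : ℕ) from
      Subtype.ext (by push_cast; rw [map_ofNat]; rfl), map_sub, red1_jM, map_natCast,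
      AddSubgroupClass.coe_sub, map_ofNat]
    rfl
  have e : dd (K := Res A) (jK A N) r ^ 3 *
      (jK A N * (jK A N - algebraMap (Res A) (KM A N) 1728)) ^ 2 = ⟨_, hmem⟩ := Subtype.ext (by
    show _ = red1 A N Y
    rw [map_mul, map_pow, map_pow, map_mul, hdred, red1_jM, h1728]
    rfl)
  rw [e]
  exact hk

variable [IsAlgClosed (Res A)] (hp5 : 5 ≤ p)
include hp5

/-- Away from the cusps `dw/dj` of a unit has pole order at most `e - 1`. -/
theorem dd_mem_ordGe {v : Place (Res A) (KM A N)} (hv : 0 ≤ v.ord (jK A N)) {w : KM A N}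
    (hw : w ≠ 0) (hvw : v.ord w = 0) :
    dd (K := Res A) (jK A N) w ∈
      FF.ordGe v (1 - (v.ramificationIndex (Res A)⟮jK A N⟯ : ℤ)) := by
  set J := jK A N with hJdef
  set J' := J - algebraMap (Res A) (KM A N) 1728 with hJ'def
  have hJ : Transcendental (Res A) J := jK_transcendental A N
  have hJ0 : J ≠ 0 := fun h => hJ (h ▸ isAlgebraic_zero)
  have hJ'0 : J' ≠ 0 := fun h => hJ (by
    rw [sub_eq_zero.mp h]; exact isAlgebraic_algebraMap _)
  obtain ⟨n₁, hn₁⟩ := exists_dd_pow_three_mem p hA hN hg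
  set e : ℤ := (v.ramificationIndex (Res A)⟮J⟯ : ℤ) with he_def
  -- the bound for elements of `L (n ∞)`
  have key : ∀ n, n₁ ≤ n → ∀ r ∈ Semistable.Hk A N n,
      dd (K := Res A) J r ∈ FF.ordGe v (1 - e) := by
    intro n hn r hr
    rcases eq_or_ne (dd (K := Res A) J r) 0 with h0 | h0
    · rw [h0]; exact zero_mem _
    refine FF.mem_ordGe_of_le v ?_
    have hJJ : jK A N = J := rfl
    have h := FF.le_ord_of_mem_ordGe v (mul_ne_zero (pow_ne_zero 3 h0)
      (pow_ne_zero 2 (mul_ne_zero hJ0 hJ'0))) (RedTorsion.mem_polesSpace.mp (hn₁ n hn r hr) v)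
    rw [v.ord_mul (pow_ne_zero 3 h0) (pow_ne_zero 2 (mul_ne_zero hJ0 hJ'0)), FF.ord_pow,
      FF.ord_pow, v.ord_mul hJ0 hJ'0, FF.poles_apply, hJJ,
      max_eq_left (show -v.ord J ≤ (0 : ℤ) by omega), mul_zero] at h
    push_cast at h
    have h1728 : (1728 : Res A) ≠ 0 := natCast_1728_ne_zero p hp5
    have hJ'v : 0 ≤ v.ord J' := FF.ord_nonneg v (sub_mem
      ((FF.mem_iff v).mpr (Or.inr hv)) (v.algebraMap_mem' _))
    have he := RedTorsion.ram_pos (x := J) v
    rcases lt_or_eq_of_le hv with hpos | hzero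
    · have e1 : e = v.ord J := by
        have h := RedTorsion.ram_of_zero hJ v (a := 0) (FF.mem_ordGe_of_le v (by
          rw [map_zero, sub_zero]; omega))
        rwa [map_zero, sub_zero] at h
      have e2 : v.ord J' = 0 := by
        have h := (FF.ord_add_eq_left v (f := -algebraMap (Res A) (KM A N) 1728) (g := J)
          (neg_ne_zero.mpr ((map_ne_zero _).mpr h1728)) (Or.inr (by
            rw [FF.ord_neg, FF.ord_algebraMap]; exact hpos))).2
        rwa [FF.ord_neg, FF.ord_algebraMap, neg_add_eq_sub] at h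
      omega
    · rcases lt_or_eq_of_le hJ'v with hpos' | hzero'
      · have e1 : e = v.ord J' :=
          RedTorsion.ram_of_zero hJ v (a := 1728) (FF.mem_ordGe_of_le v hpos')
        omega
      · omega
  -- `w` as a quotient
  obtain ⟨c, hc⟩ := FF.exists_ell_eq (K := Res A) (F := KM A N)
  set P := FF.poles (Res A) J with hPdef
  set E := FF.poles (Res A) w with hEdef
  have hdegP : 0 < Divisor.degree P := by
    rw [hPdef, FF.degree_poles hJ]; exact_mod_cast Module.finrank_pos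
  obtain ⟨n, hn, hdeg⟩ : ∃ n : ℕ, n₁ ≤ n ∧
      c + 1 ≤ Divisor.degree (n • P - E) := by
    refine ⟨n₁ + (c + 1 + Divisor.degree E).toNat, Nat.le_add_right _ _, ?_⟩
    rw [map_sub, map_nsmul, nsmul_eq_mul]
    have h1 : c + 1 + Divisor.degree E ≤ ((n₁ + (c + 1 + Divisor.degree E).toNat : ℕ) : ℤ) := by
      push_cast; omega
    have h2 := mul_le_mul_of_nonneg_left (show (1 : ℤ) ≤ Divisor.degree P by omega)
      (Int.natCast_nonneg (n₁ + (c + 1 + Divisor.degree E).toNat))
    linarith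
  set D := n • P - E with hDdef
  obtain ⟨b, hb, hbv⟩ : ∃ b ∈ riemannRochSpace D, b ∉ riemannRochSpace (D - Finsupp.single v 1) := by
    by_contra hall
    push Not at hall
    have hle : riemannRochSpace D ≤ riemannRochSpace (D - Finsupp.single v 1) := hall
    have h1 := hc D (by omega)
    have hd' : Divisor.degree (D - Finsupp.single v 1) = Divisor.degree D - 1 := by
      rw [map_sub, Divisor.degree_single, FF.deg_eq_one v]; simp
    have h2 := hc (D - Finsupp.single v 1) (by omega)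
    have h3 := Submodule.finrank_mono hle
    unfold FF.ell at h1 h2
    omega
  have hDv : D v = 0 := by
    rw [hDdef, Finsupp.sub_apply, RedTorsion.nsmul_poles_apply, hEdef, FF.poles_apply,
      FF.poles_apply, hvw, max_eq_left (by omega)]
    simp
  have hb0 : b ≠ 0 := fun h => hbv (h ▸ zero_mem _)
  have hbord : v.ord b = 0 := by
    have h1 := FF.le_ord_of_mem_ordGe v hb0 (FF.mem_riemannRochSpace'.mp hb v)
    rw [hDv, neg_zero] at h1
    refine le_antisymm ?_ h1
    by_contra hlt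
    refine hbv (FF.mem_riemannRochSpace'.mpr fun u => ?_)
    rcases eq_or_ne u v with rfl | huv
    · refine FF.mem_ordGe_of_le u ?_
      rw [Finsupp.sub_apply, Finsupp.single_eq_same, hDv]
      omega
    · rw [Finsupp.sub_apply, Finsupp.single_eq_of_ne huv, sub_zero]
      exact FF.mem_riemannRochSpace'.mp hb u
  have hbn : b ∈ Semistable.Hk A N n := by
    refine FF.mem_riemannRochSpace'.mpr fun u => ?_
    refine FF.ordGe_anti u ?_ (FF.mem_riemannRochSpace'.mp hb u)
    rw [hDdef, Finsupp.sub_apply, hEdef, FF.poles_apply,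
      show FF.poles (Res A) (jK A N) = P from rfl]
    have := le_max_left (0 : ℤ) (-u.ord w)
    omega
  have han : w * b ∈ Semistable.Hk A N n := by
    refine FF.mem_riemannRochSpace'.mpr fun u => ?_
    refine FF.ordGe_anti u ?_ (FF.mul_mem_ordGe u (FF.mem_ordGe_of_le u (le_refl (u.ord w)))
      (FF.mem_riemannRochSpace'.mp hb u))
    rw [hDdef, Finsupp.sub_apply, hEdef, FF.poles_apply,
      show FF.poles (Res A) (jK A N) = P from rfl]
    have := le_max_right (0 : ℤ) (-u.ord w)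
    omega
  have ew : w = w * b / b := by field_simp
  rw [ew, dd_div hJ]
  have hzero : ∀ {y : KM A N}, y ≠ 0 → v.ord y = 0 → y ∈ FF.ordGe v 0 :=
    fun _ h => FF.mem_ordGe_of_le v h.ge
  have hbi : b⁻¹ ^ 2 ∈ FF.ordGe v 0 :=
    hzero (pow_ne_zero 2 (inv_ne_zero hb0)) (by rw [FF.ord_pow, v.ord_inv, hbord]; simp)
  have := FF.mul_mem_ordGe v hbi (sub_mem
    (FF.mul_mem_ordGe v (hzero hb0 hbord) (key n hn _ han))
    (FF.mul_mem_ordGe v (hzero (mul_ne_zero hw hb0) (by rw [v.ord_mul hw hb0, hvw, hbord]; simp))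
      (key n hn _ hbn)))
  simpa using this

/-- `(dz/dj) / z` is a regular differential when all orders of `z` are divisible by `p`. -/
theorem dlog_mem_regular {z : KM A N} (hz : z ≠ 0)
    (hord : ∀ P : Place (Res A) (KM A N), (p : ℤ) ∣ P.ord z) :
    dd (K := Res A) (jK A N) z / z ∈ riemannRochSpace (djDiv (jK_transcendental A N)) := by
  have hJ : Transcendental (Res A) (jK A N) := jK_transcendental A N
  refine FF.mem_riemannRochSpace'.mpr fun v => ?_
  obtain ⟨t, ht0, ht⟩ := FF.exists_uniformizer (v := v)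
  obtain ⟨k, hk⟩ := hord v
  set w := z / t ^ ((p : ℤ) * k) with hwdef
  have hw : w ≠ 0 := div_ne_zero hz (zpow_ne_zero _ ht0)
  have hvw : v.ord w = 0 := by
    rw [hwdef, div_eq_mul_inv, v.ord_mul hz (inv_ne_zero (zpow_ne_zero _ ht0)), v.ord_inv,
      v.ord_zpow, ht, hk]
    ring
  have hzw : z = t ^ ((p : ℤ) * k) * w := by
    rw [hwdef, mul_div_cancel₀ _ (zpow_ne_zero _ ht0)]
  have hcast : (((p : ℤ) * k : ℤ) : KM A N) = 0 := by
    rw [Int.cast_mul, Int.cast_natCast, ← map_natCast (algebraMap (Res A) (KM A N)),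
      CharP.cast_eq_zero, map_zero, zero_mul]
  have hq : dd (K := Res A) (jK A N) z / z = dd (K := Res A) (jK A N) w / w := by
    rw [hzw, dd_mul hJ, dd_zpow hJ, hcast, zero_mul, zero_mul, mul_zero, add_zero]
    field_simp [zpow_ne_zero ((p : ℤ) * k) ht0]
  rw [hq]
  rcases eq_or_ne (dd (K := Res A) (jK A N) w) 0 with h0 | h0
  · rw [h0, zero_div]; exact zero_mem _
  refine FF.mem_ordGe_of_le v ?_
  rw [div_eq_mul_inv, v.ord_mul h0 (inv_ne_zero hw), v.ord_inv, hvw, neg_zero, add_zero]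
  rcases lt_or_ge (v.ord (jK A N)) 0 with hpole | hfin
  · rw [djDiv_of_pole hJ hpole]
    obtain ⟨V, π, hgood⟩ := RedTorsion.exists_goodRed (N := N) (A := A) hN
    have hcard : Fintype.card (ModFun.Coset N) =
        Module.finrank (Res A)⟮jK A N⟯ (KM A N) := by
      rw [← Nat.card_eq_fintype_card]
      exact (RedTorsion.finrank_jF (K := Res A) (N := N) (F := KM A N) rfl hN).symm
    have h := one_le_ord_dd_mul hJ hN (RedTorsion.cuspFamily (F := KM A N) rfl hgood) hcard v hpole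
      hw hvw h0
    rw [v.ord_mul h0 (fun h => by simp [h] at hpole)] at h
    omega
  · rw [djDiv_of_finite hJ hfin]
    have h := FF.le_ord_of_mem_ordGe v h0 (dd_mem_ordGe p hA hN hg hp5 hfin hw hvw)
    omega

end Regular

end Fermat.Agent.RT.MazurP

end
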