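import Fermat.Agent.RedTorsion.SepCriterion
import Fermat.Agent.RT.MazurP.Regular
import Fermat.Agent.RT.MazurP.Eigen
import Fermat.Agent.RT.MazurP.HeckeSeries

/-!
# The logarithmic derivative of the reductions

If the orders of both reductions of an eigen Kummer function are divisible by `p`, then either
both reductions are `p`-th powers or a normalised eigenform of level `M` and weight two is
congruent to the eigenvalues.
-/

set_option autoImplicit false
set_option synthInstance.maxHeartbeats 400000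
set_option maxHeartbeats 1000000
set_option linter.unusedSectionVars false

noncomputable section

open AlgebraicCurve CongruenceSubgroup
open ModularCurve (jqModC qExpand)
open scoped IntermediateField

namespace Fermat.Agent.RT.MazurP

open Fermat.Agent.Semistable
open Arith (QBar)

variable {A : ValuationSubring QBar}

/-! ### Descent of regularity -/

section Descent

variable [IsAlgClosed (Res A)] {M N : ℕ} [NeZero M] [NeZero N]
  [FF.IsFunctionField (Res A) (KM A M)] [FiniteDimensional (Res A)⟮jK A M⟯ (KM A M)]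
  [Algebra.IsSeparable (Res A)⟮jK A M⟯ (KM A M)]
  [FF.IsFunctionField (Res A) (KM A N)] [FiniteDimensional (Res A)⟮jK A N⟯ (KM A N)]
  [Algebra.IsSeparable (Res A)⟮jK A N⟯ (KM A N)]

/-- A differential regular after pulling back is regular. -/
theorem regular_of_comap (φ : KM A M →ₐ[Res A] KM A N) (hφ : φ (jK A M) = jK A N) {g : KM A M}
    (hg : φ g ∈ riemannRochSpace (djDiv (jK_transcendental A N))) :
    g ∈ riemannRochSpace (djDiv (jK_transcendental A M)) := by
  have hJ := jK_transcendental A M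
  have hint : φ.toRingHom.IsIntegral := FF.isIntegralAlong φ
  refine FF.mem_riemannRochSpace'.mpr fun Q => ?_
  rcases eq_or_ne g 0 with rfl | hg0
  · exact zero_mem _
  obtain ⟨w, hw⟩ := FF.exists_restrictAlong_eq φ hint Q
  have hord : ∀ f : KM A M, w.ord (φ f) = (Place.ramificationIndexAlong φ w : ℤ) * Q.ord f :=
    fun f => by rw [Place.ord_restrictAlong φ hint w f, hw]
  set e : ℤ := (Place.ramificationIndexAlong φ w : ℤ) with he_def
  have hle := FF.le_ord_of_mem_ordGe w ((map_ne_zero φ).mpr hg0)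
    (FF.mem_riemannRochSpace'.mp hg w)
  rw [hord] at hle
  refine FF.mem_ordGe_of_le Q ?_
  have he : 0 < e := by
    let _ := algebraAlong φ
    have := isScalarTower_along φ
    have : Module.Finite (KM A M) (KM A N) := FF.finiteAlong φ
    exact Int.natCast_pos.mpr (w.ramificationIndex_pos (F := KM A M))
  rcases lt_or_ge (Q.ord (jK A M)) 0 with hpole | hfin
  · have hwj : w.ord (jK A N) = e * Q.ord (jK A M) := by rw [← hφ, hord]
    rw [djDiv_of_pole hJ hpole]
    rw [djDiv_of_pole (jK_transcendental A N) (by rw [hwj]; nlinarith), hwj] at hle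
    by_contra hlt
    nlinarith [not_le.mp hlt]
  · obtain ⟨a, ha⟩ := RedTorsion.exists_value (x := jK A M) Q hfin
    have hne : jK A M - algebraMap (Res A) (KM A M) a ≠ 0 := fun h => hJ (by
      rw [sub_eq_zero.mp h]; exact isAlgebraic_algebraMap a)
    have hpos := FF.le_ord_of_mem_ordGe Q hne ha
    have hwa : w.ord (jK A N - algebraMap (Res A) (KM A N) a) =
        e * Q.ord (jK A M - algebraMap (Res A) (KM A M) a) := by
      rw [← hord, map_sub, hφ, AlgHom.commutes]
    have hwfin : 0 ≤ w.ord (jK A N) := by rw [← hφ, hord]; positivity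
    rw [djDiv_of_finite hJ hfin, RedTorsion.ram_of_zero hJ Q ha]
    rw [djDiv_of_finite (jK_transcendental A N) hwfin,
      RedTorsion.ram_of_zero (jK_transcendental A N) w (a := a)
        (FF.mem_ordGe_of_le w (by rw [hwa]; nlinarith)), hwa] at hle
    by_contra hlt
    nlinarith [not_le.mp hlt]

end Descent

/-! ### The dichotomy -/

theorem natCast_laurent_eq_zero {K : Type*} [Field K] (p : ℕ) [CharP K p] :
    (p : LaurentSeries K) = 0 := by
  rw [← map_natCast (HahnSeries.C : K →+* LaurentSeries K), CharP.cast_eq_zero, map_zero]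

theorem four_mul_ne_zero {M : ℕ} (p : ℕ) [Fact p.Prime] [CharP (Res A) p] (hp5 : 5 ≤ p)
    (hM : (M : Res A) ≠ 0) : ((4 * M : ℕ) : Res A) ≠ 0 := by
  rw [Nat.cast_mul]
  refine mul_ne_zero (fun h => ?_) hM
  rw [CharP.cast_eq_zero_iff (Res A) p] at h
  have := Nat.le_of_dvd (by norm_num) h
  omega

theorem km_mem_four_mul {M : ℕ} [NeZero M] {z : LaurentSeries (Res A)} (hz : z ∈ KM A M) :
    z ∈ KM A (4 * M) :=
  ModularCurve.full_degeneracyC_le (Res A) (dvd_mul_left M 4) hz

variable (p M : ℕ) [Fact p.Prime] [NeZero M] [CharP (Res A) p]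

/-- The logarithmic derivative of a series with orders divisible by `p` lies in the lattice of
reductions of cusp forms. -/
theorem dlog_mem_redLattice (hA : A.LiesOverPrime p) (hp5 : 5 ≤ p) (hM : (M : Res A) ≠ 0)
    {z : LaurentSeries (Res A)} (hz : z ∈ KM A M) (hz0 : z ≠ 0)
    (hord : ∀ P : Place (Res A) (KM A (4 * M)), (p : ℤ) ∣ P.ord ⟨z, km_mem_four_mul hz⟩) :
    dlog z ∈ redLattice A M := by
  have := Arith.residueField_isAlgClosed A
  have hN := four_mul_ne_zero (A := A) p hp5 hM
  have := isFunctionField_KM (A := A) hM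
  have := isFunctionField_KM (A := A) hN
  have : FiniteDimensional (Res A)⟮jK A M⟯ (KM A M) :=
    RedTorsion.finiteDimensional_jF (K := Res A) (N := M) (F := KM A M) rfl hM
  have : FiniteDimensional (Res A)⟮jK A (4 * M)⟯ (KM A (4 * M)) :=
    RedTorsion.finiteDimensional_jF (K := Res A) (N := 4 * M) (F := KM A (4 * M)) rfl hN
  have : Algebra.IsSeparable (Res A)⟮jK A M⟯ (KM A M) :=
    RedTorsion.isSeparable_jF (K := Res A) (N := M) (F := KM A M) rfl hM
  have : Algebra.IsSeparable (Res A)⟮jK A (4 * M)⟯ (KM A (4 * M)) :=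
    RedTorsion.isSeparable_jF (K := Res A) (N := 4 * M) (F := KM A (4 * M)) rfl hN
  set Z : KM A M := ⟨z, hz⟩
  set Z' : KM A (4 * M) := ⟨z, km_mem_four_mul hz⟩
  have hreg := dlog_mem_regular p hA hN (goodM_of_dvd (Or.inl rfl) (dvd_mul_right 4 M) hN) hp5
    (z := Z') (fun h => hz0 (congrArg Subtype.val h)) hord
  let φ : KM A M →ₐ[Res A] KM A (4 * M) :=
    IntermediateField.inclusion (ModularCurve.full_degeneracyC_le (Res A) (dvd_mul_left M 4))
  have hcoe : ∀ x, (φ x : LaurentSeries (Res A)) = (x : LaurentSeries (Res A)) := fun x => rfl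
  set g : KM A M := dd (K := Res A) (jK A M) Z / Z
  have hgser : (g : LaurentSeries (Res A)) * theta (Res A) (jqModC (Res A)) = dlog z := by
    have h := coe_dd_mul_theta (A := A) Z
    show ((dd (K := Res A) (jK A M) Z : KM A M) : LaurentSeries (Res A)) / z * _ = theta (Res A) z / z
    rw [h, div_mul_eq_mul_div]
  have hφg : φ g = dd (K := Res A) (jK A (4 * M)) Z' / Z' := by
    refine Subtype.ext (mul_right_cancel₀ (red_theta_jqModC_ne_zero (K := Res A)) ?_)
    rw [hcoe, hgser]
    show theta (Res A) z / z =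
      ((dd (K := Res A) (jK A (4 * M)) Z' : KM A (4 * M)) : LaurentSeries (Res A)) / z * _
    rw [coe_dd_mul_theta (A := A) Z', div_mul_eq_mul_div]
  rw [← (regForms_eq_redLattice (A := A) (M := M) p hA hp5 hM).1]
  exact ⟨g, regular_of_comap φ (Subtype.ext rfl) (by rw [hφg]; exact hreg),
    (mulTheta_apply g).trans hgser⟩

/-- A series with vanishing logarithmic derivative is a `p`-th power. -/
theorem exists_pow_eq_of_dlog_eq_zero (hM : (M : Res A) ≠ 0) {z : LaurentSeries (Res A)}
    (hz : z ∈ KM A M) (h : dlog z = 0) : ∃ y : KM A M, (y : LaurentSeries (Res A)) ^ p = z := by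
  have := Arith.residueField_isAlgClosed A
  have := isFunctionField_KM (A := A) hM
  have : FiniteDimensional (Res A)⟮jK A M⟯ (KM A M) :=
    RedTorsion.finiteDimensional_jF (K := Res A) (N := M) (F := KM A M) rfl hM
  have : Algebra.IsSeparable (Res A)⟮jK A M⟯ (KM A M) :=
    RedTorsion.isSeparable_jF (K := Res A) (N := M) (F := KM A M) rfl hM
  have hp : p.Prime := Fact.out
  set Z : KM A M := ⟨z, hz⟩ with hZ
  by_contra hnot
  push Not at hnot
  have hpow : ∀ y : KM A M, y ^ p ≠ Z := fun y hy => hnot y (congrArg Subtype.val hy)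
  by_cases halg : IsAlgebraic (Res A) Z
  · obtain ⟨c, hc⟩ : ∃ c : Res A, algebraMap (Res A) (KM A M) c = Z :=
      minpoly.natDegree_eq_one_iff.mp (Polynomial.natDegree_eq_of_degree_eq_some
        (IsAlgClosed.degree_eq_one_of_irreducible (Res A) (minpoly.irreducible halg.isIntegral)))
    obtain ⟨d, hd⟩ := IsAlgClosed.exists_pow_nat_eq c hp.pos
    exact hpow (algebraMap (Res A) (KM A M) d) (by rw [← map_pow, hd, hc])
  · have hz0 : z ≠ 0 := fun h0 => halg (by
      rw [show Z = 0 from Subtype.ext h0]; exact isAlgebraic_zero)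
    have := RedTorsion.isSeparable_of_not_pow p (K := Res A) halg hpow
    have hD := FF.D_ne_zero_of_isSeparable (K := Res A) (x := Z) halg
    have hθ : theta (Res A) z = 0 := by
      rw [dlog, div_eq_zero_iff] at h
      exact h.resolve_right hz0
    have hdd : dd (K := Res A) (jK A M) Z = 0 := by
      have h1 := coe_dd_mul_theta (A := A) Z
      rw [show ((Z : KM A M) : LaurentSeries (Res A)) = z from rfl, hθ, eq_comm, mul_eq_zero] at h1
      exact Subtype.ext (h1.resolve_right red_theta_jqModC_ne_zero)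
    refine hD ?_
    rw [← dd_spec (jK_transcendental A M) Z, hdd, zero_smul]

variable {p M}

/-- Both reductions are `p`-th powers, or a congruent eigenform of level `M` exists. -/
theorem dlog_dichotomy (hA : A.LiesOverPrime p) (hp5 : 5 ≤ p) (hpM : ¬ p ∣ M) {f : FB (p * M)}
    (G : ℕ → Prop) (a : ℕ → ℤ) (hG : ∀ l, l.Prime → G l → ¬ l ∣ p * M)
    (hEig : ∀ (l : ℕ) [NeZero l], l.Prime → G l →
      ∃ h : FB (p * M), h ≠ 0 ∧ heckeNorm (p * M) l f = f ^ a l * h ^ p)
    (hord : ∀ (s : Fin 2) (z : LaurentSeries (Res A)), IsRed A (iota2 M p hpM s f) z →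
      ∀ (hz : z ∈ KM A (4 * M)) (P : Place (Res A) (KM A (4 * M))), (p : ℤ) ∣ P.ord ⟨z, hz⟩) :
    (∀ (s : Fin 2) (z : LaurentSeries (Res A)), IsRed A (iota2 M p hpM s f) z →
        ∃ h : KM A (4 * M), (h : LaurentSeries (Res A)) ^ p = z) ∨
      ∃ (g : CuspForm (Gamma0 M) 2) (_ : g.IsNormalizedEigenform)
        (𝔪 : Ideal (integralClosure ℤ ℂ)), 𝔪.IsMaximal ∧
        ((p : ℕ) : integralClosure ℤ ℂ) ∈ 𝔪 ∧
        ∀ l, l.Prime → G l → ∃ c : integralClosure ℤ ℂ,
          (c : ℂ) = ModularFormClass.qCoeff g l ∧ c - (a l : integralClosure ℤ ℂ) ∈ 𝔪 := by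
  have hp : p.Prime := Fact.out
  have := Arith.residueField_isAlgClosed A
  have hM : (M : Res A) ≠ 0 := fun h => hpM ((CharP.cast_eq_zero_iff (Res A) p M).mp h)
  by_cases hall : ∀ (s : Fin 2) (z : LaurentSeries (Res A)),
      IsRed A (iota2 M p hpM s f) z → dlog z = 0
  · exact Or.inl fun s z hz => exists_pow_eq_of_dlog_eq_zero p (4 * M)
      (four_mul_ne_zero (A := A) p hp5 hM) (km_mem_four_mul (isRed_mem_KM p M hpM hA hM hz))
      (hall s z hz)
  push Not at hall
  obtain ⟨s, z, hz, hne⟩ := hall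
  have hzM := isRed_mem_KM p M hpM hA hM hz
  refine Or.inr (exists_eigenform_of_redLattice p
    (dlog_mem_redLattice p M hA hp5 hM hzM hz.1 (hord s z hz _)) hne G
    (fun l hl hGl h => hG l hl hGl (dvd_mul_of_dvd_right h p)) a fun l hl hGl n => ?_)
  have : NeZero l := ⟨hl.ne_zero⟩
  have hlp : ¬ p ∣ l := fun h =>
    hG l hl hGl ((Nat.prime_dvd_prime_iff_eq hp hl).mp h ▸ dvd_mul_right p M)
  obtain ⟨X, hX, himg⟩ := exists_isRed_heckeImage hA hp hlp
    (iota2_fracS M p hpM s (heckeNorm (p * M) l f))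
    (fun ζ hζ => qExpand_iota2_heckeNorm p M l hpM hl (hG l hl hGl) s hζ f) hz
  obtain ⟨h, hh, heq⟩ := hEig l hl hGl
  obtain ⟨w, hw⟩ := IsRed.exists_of_ne_zero hA hp (iota2_fracS M p hpM s h) ((map_ne_zero _).mpr hh)
  rw [heq, map_mul, map_zpow₀, map_pow] at hX
  obtain ⟨u, hu, hXu⟩ := IsRed.unique ((hz.zpow (a l)).mul (hw.pow p)) hX
  obtain ⟨ζ, hζ⟩ := exists_primitive (N := p * M) hl (hG l hl hGl)
  have hl0 : (l : Res A) ≠ 0 := fun h => hlp ((CharP.cast_eq_zero_iff (Res A) p l).mp h)
  rw [← himg.coeff_dlog hl0 (resRoot_primitive hA hp hlp hζ) hz.1 n, hXu,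
    dlog_mul ((map_ne_zero _).mpr hu) (mul_ne_zero (zpow_ne_zero _ hz.1) (pow_ne_zero _ hw.1)),
    algebraMap_eq_C, dlog_C, zero_add, dlog_mul (zpow_ne_zero _ hz.1) (pow_ne_zero _ hw.1),
    dlog_zpow hz.1, dlog_pow, natCast_laurent_eq_zero p, zero_mul, add_zero,
    ← map_intCast (HahnSeries.C : Res A →+* LaurentSeries (Res A)), coeff_C_mul]

end Fermat.Agent.RT.MazurP

end
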