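import Fermat.Agent.RT.MazurP.HeckeSeries

/-!
# Pullback from level `p M` to level `p (4 M)`

The same series at level `p (4 M)`. It commutes with `w`, with Galois and with the Hecke norms,
keeps orders divisible by `p`, and is injective on functions modulo constants and `p`-th powers,
as its degree is `4` or `6`.
-/

set_option autoImplicit false
set_option synthInstance.maxHeartbeats 400000
set_option linter.unusedSectionVars false
set_option linter.style.haveILetI false

noncomputable section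

namespace Fermat.Agent.RT.MazurP

open AlgebraicCurve ModularCurve Fermat.Agent.Semistable Fermat.Agent.RT.Mazur
open Arith (QBar GQ)
open scoped IntermediateField

variable (p M : ℕ) [Fact p.Prime] [NeZero M]

theorem fb_le_four : FB (p * M) ≤ FB (p * (4 * M)) := by
  rw [fb_eq_adjoin (p * M), IntermediateField.adjoin_le_iff]
  rintro _ ⟨d, rfl⟩
  exact gen_mem (p * (4 * M)) ⟨d.1, d.2.trans (mul_dvd_mul_left p (dvd_mul_left M 4))⟩

/-- The inclusion of level `p M` in level `p (4 M)`. -/
def upInc : FB (p * M) →ₐ[QBar] FB (p * (4 * M)) := IntermediateField.inclusion (fb_le_four p M)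

@[simp]
theorem coe_upInc (x : FB (p * M)) : (upInc p M x : LSer) = (x : LSer) :=
  IntermediateField.coe_inclusion (fb_le_four p M) x

/-- Level `p M` and level `p (4 M)` have the same two expansions. -/
theorem iota2_upInc (hpM : ¬ p ∣ M) (hpM4 : ¬ p ∣ 4 * M) (s : Fin 2) (x : FB (p * M)) :
    iota2 (4 * M) p hpM4 s (upInc p M x) = iota2 M p hpM s x := by
  fin_cases s
  · exact coe_upInc p M x
  show (wEquiv p (4 * M) hpM4 (upInc p M x) : LSer) = (wEquiv p M hpM x : LSer)
  have h : ((FB (p * (4 * M))).val.comp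
      ((wEquiv p (4 * M) hpM4).toAlgHom.comp (upInc p M))).toRingHom =
      ((FB (p * M)).val.comp (wEquiv p M hpM).toAlgHom).toRingHom := by
    refine fb_ringHom_ext (fun a => ?_) fun d => ?_
    · simp
    show (wEquiv p (4 * M) hpM4 (upInc p M (genF _ d)) : LSer) = (wEquiv p M hpM (genF _ d) : LSer)
    obtain ⟨d, hd⟩ := d
    rcases dvs_cases p M Fact.out hd with hdM | ⟨d', hd', rfl⟩
    · have : NeZero d := ⟨fun h => NeZero.ne M (Nat.eq_zero_of_zero_dvd (h ▸ hdM))⟩
      have hd4 : d ∣ 4 * M := dvd_mul_of_dvd_right hdM 4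
      rw [show upInc p M (genF _ ⟨d, hd⟩) = genF (p * (4 * M)) ⟨d, dvd_mul_of_dvd_right hd4 p⟩ from
          Subtype.ext (coe_upInc p M _),
        wEquiv_gen_of_dvd p (4 * M) hpM4 hd4, wEquiv_gen_of_dvd p M hpM hdM]
    · have : NeZero d' := ⟨fun h => NeZero.ne M (Nat.eq_zero_of_zero_dvd (h ▸ hd'))⟩
      have hd4 : d' ∣ 4 * M := dvd_mul_of_dvd_right hd' 4
      rw [show upInc p M (genF _ ⟨p * d', hd⟩) =
          genF (p * (4 * M)) ⟨p * d', mul_dvd_mul_left p hd4⟩ from
          Subtype.ext (coe_upInc p M _),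
        wEquiv_gen_mul p (4 * M) hpM4 hd4, wEquiv_gen_mul p M hpM hd']
  exact DFunLike.congr_fun h x

theorem galF_upInc (σ : GQ) (x : FB (p * M)) :
    galF (p * (4 * M)) σ (upInc p M x) = upInc p M (galF (p * M) σ x) :=
  Subtype.ext (by rw [coe_arithmeticRingAut, coe_upInc, coe_upInc, coe_arithmeticRingAut])

theorem heckeNorm_upInc {l : ℕ} [NeZero l] (hl : l.Prime) (hN : ¬ l ∣ p * (4 * M))
    (f : FB (p * M)) :
    heckeNorm (p * (4 * M)) l (upInc p M f) = upInc p M (heckeNorm (p * M) l f) := by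
  obtain ⟨ζ, hζ⟩ := exists_primitive hl hN
  refine Subtype.ext (qExpand_injective l ?_)
  rw [qExpand_heckeNorm hl hN hζ, coe_upInc, coe_upInc,
    qExpand_heckeNorm hl (fun h => hN (h.trans (mul_dvd_mul_left p (dvd_mul_left M 4)))) hζ]

/-- Pullback keeps orders divisible by `p`. -/
theorem dvd_ord_upInc {m : ℕ} {f : FB (p * M)}
    (hf : ∀ v : Place QBar (FB (p * M)), (m : ℤ) ∣ v.ord f)
    (w : Place QBar (FB (p * (4 * M)))) : (m : ℤ) ∣ w.ord (upInc p M f) := by
  rw [Place.ord_restrictAlong (upInc p M) (FF.isIntegralAlong (upInc p M)) w f]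
  exact dvd_mul_of_dvd_right (hf _) _

/-- The degree of the pullback is `4` or `6`. -/
theorem finrankAlong_upInc :
    finrankAlong QBar (upInc p M) = 4 ∨ finrankAlong QBar (upInc p M) = 6 := by
  letI := algebraAlong (upInc p M)
  letI : Module (FB (p * M)) (FB (p * (4 * M))) := Algebra.toModule
  haveI := isScalarTower_along (upInc p M)
  haveI : Module.Finite (FB (p * M)) (FB (p * (4 * M))) := FF.finiteAlong (upInc p M)
  have h := (FF.finite_and_finrank_adjoin_algebraMap (F' := FB (p * (4 * M)))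
    (ModFun.transcendental_jBase (p * M) QBar)).2
  have hj : algebraMap (FB (p * M)) (FB (p * (4 * M))) (ModFun.jBase (p * M) QBar) =
      ModFun.jBase (p * (4 * M)) QBar := Subtype.ext (by
    show (upInc p M (ModFun.jBase (p * M) QBar) : LSer) = _
    rw [coe_upInc, ModFun.coe_jBase, ModFun.coe_jBase])
  rw [hj, (ModFun.finrank_baseChange (p * (4 * M)) QBar).2,
    (ModFun.finrank_baseChange (p * M) QBar).2] at h
  have hψ : dedekindPsi (p * (4 * M)) = dedekindPsi (p * M) * 4 ∨
      dedekindPsi (p * (4 * M)) = dedekindPsi (p * M) * 6 := by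
    rw [show p * (4 * M) = 2 * (2 * (p * M)) by ring,
      Gamma0.dedekindPsi_mul_of_dvd Nat.prime_two (dvd_mul_right 2 _)]
    by_cases h2 : 2 ∣ p * M
    · left; rw [Gamma0.dedekindPsi_mul_of_dvd Nat.prime_two h2]; ring
    · right; rw [Gamma0.dedekindPsi_mul_of_not_dvd Nat.prime_two h2]; ring
  have hpos : 0 < dedekindPsi (p * M) := dedekindPsi_pos (p * M)
  show Module.finrank (FB (p * M)) (FB (p * (4 * M))) = 4 ∨
    Module.finrank (FB (p * M)) (FB (p * (4 * M))) = 6
  rcases hψ with e | e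
  · exact Or.inl (mul_left_cancel₀ hpos.ne' (h.symm.trans e))
  · exact Or.inr (mul_left_cancel₀ hpos.ne' (h.symm.trans e))

/-- A function which becomes a constant times a `p`-th power after pullback is one already. -/
theorem exists_pow_of_upInc (hp5 : 5 ≤ p) {f : FB (p * M)} (hf : f ≠ 0)
    (h : ∃ c g, g ≠ 0 ∧ upInc p M f = algebraMap QBar (FB (p * (4 * M))) c * g ^ p) :
    ∃ c g, g ≠ 0 ∧ f = algebraMap QBar (FB (p * M)) c * g ^ p := by
  obtain ⟨c, g, hg, e⟩ := h
  letI := algebraAlong (upInc p M)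
  letI : Module (FB (p * M)) (FB (p * (4 * M))) := Algebra.toModule
  haveI := isScalarTower_along (upInc p M)
  haveI : Module.Finite (FB (p * M)) (FB (p * (4 * M))) := FF.finiteAlong (upInc p M)
  haveI : Module.Free (FB (p * M)) (FB (p * (4 * M))) := Module.Free.of_divisionRing _ _
  set d := Module.finrank (FB (p * M)) (FB (p * (4 * M))) with hd
  set G := Algebra.norm (FB (p * M)) g with hG
  have hG0 : G ≠ 0 := Algebra.norm_ne_zero_iff.mpr hg
  have e' : f ^ d = algebraMap QBar (FB (p * M)) c ^ d * G ^ p := by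
    have h1 := congrArg (Algebra.norm (FB (p * M))) e
    rw [show upInc p M f = algebraMap (FB (p * M)) (FB (p * (4 * M))) f from rfl,
      Algebra.norm_algebraMap, map_mul, map_pow,
      IsScalarTower.algebraMap_apply QBar (FB (p * M)) (FB (p * (4 * M))), Algebra.norm_algebraMap]
      at h1
    exact h1
  have hcop : IsCoprime (d : ℤ) (p : ℤ) := by
    rw [Int.isCoprime_iff_nat_coprime, Int.natAbs_natCast, Int.natAbs_natCast, Nat.coprime_comm,
      (Fact.out : p.Prime).coprime_iff_not_dvd]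
    intro hdvd
    have hp : p.Prime := Fact.out
    have h2 : ¬ p ∣ 2 := fun h => by have := Nat.le_of_dvd (by norm_num) h; omega
    have h3 : ¬ p ∣ 3 := fun h => by have := Nat.le_of_dvd (by norm_num) h; omega
    rcases (show d = 4 ∨ d = 6 from finrankAlong_upInc p M) with h4 | h6
    · rw [h4, show (4 : ℕ) = 2 * 2 from rfl] at hdvd
      exact (hp.dvd_mul.mp hdvd).elim h2 h2
    · rw [h6, show (6 : ℕ) = 2 * 3 from rfl] at hdvd
      exact (hp.dvd_mul.mp hdvd).elim h2 h3
  obtain ⟨x, y, hxy⟩ := hcop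
  have hc0 : algebraMap QBar (FB (p * M)) c ≠ 0 := fun h0 => by
    rw [map_eq_zero] at h0
    rw [h0, map_zero, zero_mul, map_eq_zero] at e
    exact hf e
  refine ⟨c ^ ((d : ℤ) * x), G ^ x * f ^ y, mul_ne_zero (zpow_ne_zero _ hG0) (zpow_ne_zero _ hf), ?_⟩
  calc f = f ^ ((x * (d : ℤ)) + y * (p : ℤ)) := by rw [hxy, zpow_one]
    _ = (f ^ d) ^ x * (f ^ y) ^ p := by
      rw [zpow_add₀ hf, ← zpow_natCast f d, ← zpow_mul, mul_comm x (d : ℤ),
        ← zpow_natCast (f ^ y) p, ← zpow_mul]
    _ = _ := by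
      rw [e', mul_zpow, ← zpow_natCast (algebraMap QBar (FB (p * M)) c) d, ← zpow_mul, ← map_zpow₀,
        mul_pow, ← zpow_natCast (G ^ x) p, ← zpow_natCast G p, ← zpow_mul, ← zpow_mul,
        mul_comm x (p : ℤ), mul_assoc]

end Fermat.Agent.RT.MazurP

end
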