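import Fermat.Agent.RT.MazurP.Normal
import Fermat.Agent.RT.MazurP.Classes
import Fermat.Agent.RT.MazurP.Dlog
import Fermat.Agent.RT.MazurP.Up

/-!
# Flat classes at level `4 M`

Eigen classes of level `p M` which are moved as little as the Frey torsion become flat after
pullback to level `p (4 M)`, unless a form of level `M` carries the eigenvalues.
-/

set_option autoImplicit false
set_option synthInstance.maxHeartbeats 400000
set_option maxHeartbeats 1000000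
set_option linter.unusedSectionVars false

noncomputable section

namespace Fermat.Agent.RT.MazurP

open ModularCurve AlgebraicCurve CongruenceSubgroup Fermat.Agent.Semistable Fermat.Agent.Arith

variable {A : ValuationSubring QBar}

/-- A normalised eigenform of level `M` congruent to `a` at the primes in `G`. -/
def CongrForm (M p : ℕ) (G : ℕ → Prop) (a : ℕ → ℤ) : Prop :=
  ∃ (g : CuspForm (Gamma0 M) 2) (_ : g.IsNormalizedEigenform)
    (𝔪 : Ideal (integralClosure ℤ ℂ)), 𝔪.IsMaximal ∧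
    ((p : ℕ) : integralClosure ℤ ℂ) ∈ 𝔪 ∧
    ∀ l, l.Prime → G l → ∃ c : integralClosure ℤ ℂ,
      (c : ℂ) = ModularFormClass.qCoeff g l ∧ c - (a l : integralClosure ℤ ℂ) ∈ 𝔪

section Fixed

variable {p M : ℕ} [Fact p.Prime] [NeZero M] {hpM : ¬ p ∣ M} [CharP (Res A) p]
  [FF.IsFunctionField (Res A) (KM A M)]

/-- Orders of an eigen function with coefficients in a field without ramification. -/
theorem Kum.dvd_ord_of_unramified {C : CoefField A p} (K : Kum hpM C) (he : C.e = 1)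
    (hA : A.LiesOverPrime p) (hM : (M : Res A) ≠ 0) (V : VUnit A hpM) (hV : V.Simple)
    {l : ℕ} [NeZero l] (hl : l.Prime) (hN : ¬ l ∣ p * M) {a : ℤ}
    (ha : ¬ (p : ℤ) ∣ a - (1 + l)) (hK : IsNormEigen p M l a K.f)
    (P : Place (Res A) (KM A M)) : (p : ℤ) ∣ K.s₀ P ∧ (p : ℤ) ∣ K.t₀ P := by
  have hp : p.Prime := Fact.out
  rcases hV.val P with hP | hP
  · exact (K.res V hA hM hV).1 P hP
  obtain ⟨K', hK'⟩ := Kum.exists_of (hpM := hpM) (C := C) hA hM (heckeNorm_ne_zero K.f_ne)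
    (hK.dvd_ord K.f_ne K.dvd) fun τ hτ => by rw [← heckeNorm_galF hl hN, K.fix τ hτ]
  have hδ : K'.δ = ((l : ℤ) + 1) * K.δ := by
    have hv : ∀ s, K'.v s = ((l : ℤ) + 1) * K.v s := fun s => by
      rw [← K'.gord_iota, ← K.gord_iota, hK']
      exact gord_heckeImage hA hp C (iota2_fracS M p hpM s _)
        ((_root_.map_ne_zero _).mpr K.f_ne) (K.iota_fix s) (iota2_fracS M p hpM s _)
        (fun ζ hζ => qExpand_iota2_heckeNorm p M l hpM hl hN s hζ K.f)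
    rw [Kum.δ, Kum.δ, hv, hv]
    ring
  obtain ⟨h1, h2⟩ := (K.res V hA hM hV).2.1 P hP
  obtain ⟨h1', -⟩ := (K'.res V hA hM hV).2.1 P hP
  rw [he, Nat.cast_one, one_mul] at h1 h2 h1'
  rw [hδ] at h1'
  have hs : (p : ℤ) ∣ K'.s₀ P - a * K.s₀ P := K.dvd_ord_sub hA hM hK K' hK' 0 P
  have hmul : (p : ℤ) ∣ (a - (1 + l)) * K.s₀ P := by
    have h := dvd_sub (dvd_sub (dvd_mul_of_dvd_right h1 ((l : ℤ) + 1)) h1') hs
    rw [show ((l : ℤ) + 1) * (K.δ - K.s₀ P) - (((l : ℤ) + 1) * K.δ - K'.s₀ P) -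
      (K'.s₀ P - a * K.s₀ P) = (a - (1 + l)) * K.s₀ P by ring] at h
    exact h
  have hs0 := ((Nat.prime_iff_prime_int.mp hp).dvd_or_dvd hmul).resolve_left ha
  have hd : (p : ℤ) ∣ K.δ := (dvd_sub_left hs0).mp h1
  exact ⟨hs0, (dvd_add_right hd).mp h2⟩

end Fixed

variable {p M : ℕ} [Fact p.Prime] [NeZero M]
variable (hA : A.LiesOverPrime p) (hp5 : 5 ≤ p) (hpM : ¬ p ∣ M) (hpM4 : ¬ p ∣ 4 * M)
  (G : ℕ → Prop) (a : ℕ → ℤ) (hG : ∀ l, l.Prime → G l → ¬ l ∣ p * (4 * M))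

/-- The eigen relation downstairs. -/
def EigenFun (p M : ℕ) [Fact p.Prime] [NeZero M] (G : ℕ → Prop) (a : ℕ → ℤ)
    (f : FB (p * M)) : Prop :=
  ∀ (l : ℕ) [NeZero l], l.Prime → G l →
    ∃ h : FB (p * M), h ≠ 0 ∧ heckeNorm (p * M) l f = f ^ a l * h ^ p

/-- Kummer functions of eigen classes are eigen functions. -/
theorem eigenFun_of_cls {f : FB (p * M)} (hf : f ≠ 0)
    (hdvd : ∀ v : Place QBar (FB (p * M)), (p : ℤ) ∣ v.ord f)
    (he : IsEigen (p * M) G a (cls p hf hdvd)) : EigenFun p M G a f :=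
  fun l _ hl hGl => exists_heckeNorm_eq l hl ⟨Units.mk0 f hf, hdvd⟩ (a l) (he l hl hGl)

include hG in
theorem EigenFun.upInc {f : FB (p * M)} (hf : EigenFun p M G a f) {l : ℕ} [NeZero l]
    (hl : l.Prime) (hGl : G l) : IsNormEigen p (4 * M) l (a l) (upInc p M f) := by
  obtain ⟨h, hh, e⟩ := hf l hl hGl
  refine ⟨1, MazurP.upInc p M h, one_ne_zero, (map_ne_zero _).mpr hh, ?_⟩
  rw [heckeNorm_upInc p M hl (hG l hl hGl), e, map_mul, map_pow, map_zpow₀, map_one, one_mul]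

/-- Both reductions one gives a flat class. -/
theorem isFlatClass_of_unit {g : FB (p * (4 * M))} (hg : g ≠ 0)
    (hdvd : ∀ v : Place QBar (FB (p * (4 * M))), (p : ℤ) ∣ v.ord g)
    (hr : ∀ s, ∃ h : iota2 (4 * M) p hpM4 s g ∈ locS A, redL A ⟨_, h⟩ = 1) :
    OrdinaryAtP.IsFlatClass A (4 * M) p hpM4 (cls p hg hdvd) := by
  choose hm hm1 using hr
  exact ⟨⟨Units.mk0 g hg, hdvd⟩, rfl, (mem_loc2 _).mpr hm,
    funext fun s => (red2_apply _ _ _).trans (hm1 s)⟩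

variable [CharP (Res A) p] [FF.IsFunctionField (Res A) (KM A (4 * M))]

include hA hp5 hpM hG in
/-- An eigen class with all orders divisible by `p` is flat upstairs, or there is a congruent form. -/
theorem flat_or_congr {C : CoefField A p} {f : FB (p * M)} (hf : f ≠ 0)
    (hdvd : ∀ v : Place QBar (FB (p * M)), (p : ℤ) ∣ v.ord f) (hEig : EigenFun p M G a f)
    (K : Kum hpM4 C) (hK : K.f = upInc p M f)
    (hord : ∀ P, (p : ℤ) ∣ K.s₀ P ∧ (p : ℤ) ∣ K.t₀ P)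
    (V : VUnit A hpM4) (hV : V.Simple) :
    OrdinaryAtP.IsFlatClass A (4 * M) p hpM4
      (cls p ((map_ne_zero (upInc p M)).mpr hf) (dvd_ord_upInc p M hdvd)) ∨
      CongrForm M p G a := by
  have hp : p.Prime := Fact.out
  have hM4 : ((4 * M : ℕ) : Res A) ≠ 0 := fun h =>
    hpM4 ((CharP.cast_eq_zero_iff (Res A) p _).mp h)
  have hred : ∀ (s : Fin 2) (z : LaurentSeries (Res A)), IsRed A (iota2 M p hpM s f) z →
      ∃ u : Res A, u ≠ 0 ∧ z = algebraMap (Res A) _ u * (K.fb s : LaurentSeries (Res A)) := by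
    intro s z hz
    have h := K.isRed s
    rw [hK, iota2_upInc p M hpM hpM4] at h
    exact h.unique hz
  have hord' : ∀ (s : Fin 2) (z : LaurentSeries (Res A)), IsRed A (iota2 M p hpM s f) z →
      ∀ (hz : z ∈ KM A (4 * M)) (P : Place (Res A) (KM A (4 * M))), (p : ℤ) ∣ P.ord ⟨z, hz⟩ := by
    intro s z hz hzm P
    obtain ⟨u, hu, e⟩ := hred s z hz
    rw [show (⟨z, hzm⟩ : KM A (4 * M)) = algebraMap (Res A) _ u * K.fb s from Subtype.ext e,
      P.ord_mul ((_root_.map_ne_zero _).mpr hu) (K.fb_ne s), FF.ord_algebraMap, zero_add]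
    fin_cases s
    · exact (hord P).1
    · exact (hord P).2
  rcases dlog_dichotomy hA hp5 hpM G a
      (fun l hl hGl h => hG l hl hGl (h.trans (mul_dvd_mul_left p (dvd_mul_left M 4))))
      hEig hord' with hpow | hform
  · refine Or.inl ?_
    have hz : ∀ s, ∃ z : KM A (4 * M), z ^ p * K.fb s = 1 := by
      intro s
      have h := K.isRed s
      rw [hK, iota2_upInc p M hpM hpM4] at h
      obtain ⟨y, hy⟩ := hpow s _ h
      refine ⟨y⁻¹, ?_⟩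
      rw [show K.fb s = y ^ p from Subtype.ext (hy.symm.trans (by push_cast; rfl)), inv_pow,
        inv_mul_cancel₀ (pow_ne_zero _ ?_)]
      rintro rfl
      exact K.fb_ne s (Subtype.ext (hy.symm.trans (by simp [zero_pow hp.ne_zero])))
    choose z hz using hz
    obtain ⟨c, φ, hc, hφ, -, -, hr⟩ := K.exists_unit hA hM4 V hV z hz
      (K.dvd_δ hA hM4 V hV fun P => (hord P).1)
    rw [hK] at hr
    rw [← cls_const_mul_pow hc ((map_ne_zero (upInc p M)).mpr hf) hφ (dvd_ord_upInc p M hdvd)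
      (mul_ne_zero (mul_ne_zero ((map_ne_zero _).mpr hc) ((map_ne_zero _).mpr hf))
        (pow_ne_zero _ hφ))]
    exact isFlatClass_of_unit hpM4 _ _ hr
  · exact Or.inr hform

include hp5 in
/-- Pullback is injective on classes. -/
theorem cls_upInc_ne_zero {f : FB (p * M)} (hf : f ≠ 0)
    (hdvd : ∀ v : Place QBar (FB (p * M)), (p : ℤ) ∣ v.ord f) (hne : cls p hf hdvd ≠ 0) :
    cls p ((map_ne_zero (upInc p M)).mpr hf) (dvd_ord_upInc p M hdvd) ≠ 0 := by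
  intro h
  obtain ⟨g, hg, e⟩ := (cls_eq_zero_iff _ _).mp h
  obtain ⟨c, g', hg', e'⟩ := exists_pow_of_upInc p M hp5 hf
    ⟨1, g, hg, by rw [e, map_one, one_mul]⟩
  obtain ⟨d, hd⟩ := IsAlgClosed.exists_pow_nat_eq c (Fact.out : p.Prime).pos
  refine hne ((cls_eq_zero_iff _ _).mpr ⟨algebraMap QBar (FB (p * M)) d * g', ?_, ?_⟩)
  · refine mul_ne_zero ((map_ne_zero _).mpr fun h0 => hf ?_) hg'
    rw [e', ← hd, h0, zero_pow (Fact.out : p.Prime).ne_zero, map_zero, zero_mul]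
  · rw [mul_pow, ← map_pow, hd, e']

include hA hp5 hpM hG in
/-- The fixed case. -/
theorem fixed_flat_or_congr (hne : ∃ l, l.Prime ∧ G l ∧ ¬ (p : ℤ) ∣ a l - (1 + l))
    {x : JZero (p * M)} (hx0 : x ≠ 0) (hxp : p • x = 0) (hxe : IsEigen (p * M) G a x)
    (hxf : ∀ τ ∈ A.inertiaSubgroupIn ℚ, τ • x = x) :
    (∃ y : JZero (p * (4 * M)), y ≠ 0 ∧ p • y = 0 ∧ OrdinaryAtP.IsFlatClass A (4 * M) p hpM4 y ∧
      ∀ τ ∈ A.inertiaSubgroupIn ℚ, τ • y = y) ∨ CongrForm M p G a := by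
  have hp : p.Prime := Fact.out
  have hM4 : ((4 * M : ℕ) : Res A) ≠ 0 := fun h =>
    hpM4 ((CharP.cast_eq_zero_iff (Res A) p _).mp h)
  obtain ⟨f, hf, hdvd, rfl, -, hfix⟩ := exists_cls_fixed (A.inertiaSubgroupIn ℚ) hxp hxf
  have hfix' : ∀ τ ∈ (unramField (p := p) hA).H,
      galF (p * (4 * M)) τ (upInc p M f) = upInc p M f := fun τ hτ => by
    rw [galF_upInc, hfix τ hτ]
  obtain ⟨V⟩ := exists_vUnit hA hM4 hpM4
  have hV := V.simple hA hM4 (dvd_mul_right 4 M)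
  obtain ⟨K, hK⟩ := Kum.exists_of (hpM := hpM4) hA hM4 ((map_ne_zero (upInc p M)).mpr hf)
    (dvd_ord_upInc p M hdvd) hfix'
  have hEig := eigenFun_of_cls G a hf hdvd hxe
  obtain ⟨l, hl, hGl, ha⟩ := hne
  have : NeZero l := ⟨hl.ne_zero⟩
  have hord := K.dvd_ord_of_unramified (unramField_e hA) hA hM4 V hV hl (hG l hl hGl) ha
    (hK ▸ EigenFun.upInc G a hG hEig hl hGl)
  refine (flat_or_congr hA hp5 hpM hpM4 G a hG hf hdvd hEig K hK hord V hV).imp_left fun hflat => ?_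
  refine ⟨_, cls_upInc_ne_zero hp5 hf hdvd hx0, nsmul_cls _ _, hflat, fun τ hτ => ?_⟩
  rw [smul_cls]
  exact cls_congr (hfix' τ hτ) _ _ _ _

include hA hp5 hpM hG in
/-- The wild case. -/
theorem wild_flat_or_congr (hne : ∃ l, l.Prime ∧ G l ∧ ¬ (p : ℤ) ∣ a l - (1 + l))
    (W : Wild A p) {x₁ x₀ : JZero (p * M)} (hx0 : x₀ ≠ 0) (hp₁ : p • x₁ = 0) (hp₀ : p • x₀ = 0)
    (he₁ : IsEigen (p * M) G a x₁) (he₀ : IsEigen (p * M) G a x₀)
    (hf₁ : ∀ τ ∈ W.C.H, τ • x₁ = x₁) (hf₀ : ∀ τ ∈ W.C₁.H, τ • x₀ = x₀)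
    (hσ : W.σ • x₁ = x₁ + x₀)
    (hI : ∀ τ ∈ A.inertiaSubgroupIn ℚ, ∃ n c : ℤ, τ • x₀ = n • x₀ ∧ τ • x₁ = x₁ + c • x₀) :
    (∃ y₁ y₀ : JZero (p * (4 * M)), y₀ ≠ 0 ∧ p • y₁ = 0 ∧ p • y₀ = 0 ∧
      W.σ • y₁ = y₁ + y₀ ∧ W.σ • y₀ = y₀ ∧
      OrdinaryAtP.IsFlatClass A (4 * M) p hpM4 y₁ ∧ OrdinaryAtP.IsFlatClass A (4 * M) p hpM4 y₀ ∧
      ∀ τ ∈ A.inertiaSubgroupIn ℚ, ∃ n c : ℤ, τ • y₀ = n • y₀ ∧ τ • y₁ = y₁ + c • y₀) ∨
      CongrForm M p G a := by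
  classical
  have hp : p.Prime := Fact.out
  have hM4 : ((4 * M : ℕ) : Res A) ≠ 0 := fun h =>
    hpM4 ((CharP.cast_eq_zero_iff (Res A) p _).mp h)
  obtain ⟨f₁, h₁, d₁, rfl, l₁, fix₁⟩ := exists_cls_fixed W.C.H hp₁ hf₁
  obtain ⟨f₀, h₀, d₀, rfl, l₀, fix₀⟩ := exists_cls_fixed W.C₁.H hp₀ hf₀
  obtain ⟨q, hq, qfix, hrel⟩ := exists_multiplier W.C.H W.normal h₁ h₀ d₁ d₀ l₁ l₀ fix₁
    (fun τ hτ => fix₀ τ (W.le hτ)) hσ
  have hu : ∀ {x : FB (p * M)} (τ : GQ), galF (p * M) τ x = x →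
      galF (p * (4 * M)) τ (upInc p M x) = upInc p M x := fun {x} τ h => by rw [galF_upInc, h]
  obtain ⟨V⟩ := exists_vUnit hA hM4 hpM4
  have hV := V.simple hA hM4 (dvd_mul_right 4 M)
  have hu₁ := (map_ne_zero (upInc p M)).mpr h₁
  have hu₀ := (map_ne_zero (upInc p M)).mpr h₀
  obtain ⟨K, hK⟩ := Kum.exists_of (hpM := hpM4) (C := W.C) hA hM4 hu₁ (dvd_ord_upInc p M d₁)
    fun τ hτ => hu τ (fix₁ τ hτ)
  have hrel' : galF (p * (4 * M)) W.σ K.f =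
      algebraMap QBar (FB (p * (4 * M))) 1 * K.f * upInc p M f₀ * upInc p M q ^ p := by
    rw [hK, galF_upInc, hrel, map_mul, map_mul, map_mul, map_pow, AlgHom.commutes]
  obtain ⟨R, d, φ, hd, hφ, hR⟩ := exists_sigmaRel K hA hM4 V hV one_ne_zero hu₀
    (dvd_ord_upInc p M d₀) (fun τ hτ => hu τ (fix₀ τ hτ)) ((map_ne_zero (upInc p M)).mpr hq)
    (fun τ hτ => hu τ (qfix τ hτ)) hrel'
  have hE₁ := eigenFun_of_cls G a h₁ d₁ he₁
  have hE₀ := eigenFun_of_cls G a h₀ d₀ he₀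
  obtain ⟨l, hl, hGl, ha⟩ := hne
  have : NeZero l := ⟨hl.ne_zero⟩
  have hord := R.dvd_ord hA hM4 V hV hl (hG l hl hGl) ha
    (hK ▸ EigenFun.upInc G a hG hE₁ hl hGl)
    (hR ▸ (EigenFun.upInc G a hG hE₀ hl hGl).mul_const_pow hl (hG l hl hGl) hd hφ)
  refine (flat_or_congr hA hp5 hpM hpM4 G a hG h₁ d₁ hE₁ K hK hord V hV).imp_left fun hflat => ?_
  set y₁ := cls p hu₁ (dvd_ord_upInc p M d₁) with hy₁
  set y₀ := cls p hu₀ (dvd_ord_upInc p M d₀) with hy₀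
  have hflat₀ : OrdinaryAtP.IsFlatClass A (4 * M) p hpM4 y₀ := by
    have h := isFlatClass_of_unit hpM4 R.f₀_ne R.f₀_dvd R.f₀_red
    rw [cls_congr hR R.f₀_ne
      (mul_ne_zero (mul_ne_zero ((map_ne_zero _).mpr hd) hu₀) (pow_ne_zero _ hφ)) R.f₀_dvd
      (dvd_ord_const_mul_pow hd hu₀ hφ (dvd_ord_upInc p M d₀))] at h
    rwa [cls_const_mul_pow hd hu₀ hφ] at h
  -- the relations pull back
  have key : ∀ {g g' : FB (p * M)} (hg : g ≠ 0) (hg' : g' ≠ 0)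
      (dg : ∀ v : Place QBar (FB (p * M)), (p : ℤ) ∣ v.ord g)
      (dg' : ∀ v : Place QBar (FB (p * M)), (p : ℤ) ∣ v.ord g'), cls p hg dg = cls p hg' dg' →
      cls p ((map_ne_zero (upInc p M)).mpr hg) (dvd_ord_upInc p M dg) =
        cls p ((map_ne_zero (upInc p M)).mpr hg') (dvd_ord_upInc p M dg') := by
    intro g g' hg hg' dg dg' h
    obtain ⟨r, hr, e⟩ := exists_eq_mul_pow hg hg' dg dg' h
    have e' : upInc p M g =
        algebraMap QBar (FB (p * (4 * M))) 1 * upInc p M g' * upInc p M r ^ p := by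
      rw [e, map_mul, map_pow, map_one, one_mul]
    have hg'' := (map_ne_zero (upInc p M)).mpr hg'
    have hr' := (map_ne_zero (upInc p M)).mpr hr
    rw [cls_congr e' ((map_ne_zero (upInc p M)).mpr hg)
      (mul_ne_zero (mul_ne_zero ((map_ne_zero _).mpr one_ne_zero) hg'') (pow_ne_zero _ hr'))
      (dvd_ord_upInc p M dg)
      (dvd_ord_const_mul_pow one_ne_zero hg'' hr' (dvd_ord_upInc p M dg'))]
    exact cls_const_mul_pow one_ne_zero hg'' hr' _ _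
  have hsmul : ∀ (τ : GQ) {g : FB (p * M)} (hg : g ≠ 0)
      (dg : ∀ v : Place QBar (FB (p * M)), (p : ℤ) ∣ v.ord g),
      τ • cls p ((map_ne_zero (upInc p M)).mpr hg) (dvd_ord_upInc p M dg) =
        cls p ((map_ne_zero (upInc p M)).mpr (galF_ne_zero τ hg))
          (dvd_ord_upInc p M (dvd_ord_galF τ dg)) := fun τ g hg dg => by
    rw [smul_cls]
    exact cls_congr (galF_upInc p M τ g) _ _ _ _
  have hlin : ∀ (τ : GQ) {g : FB (p * M)} (hg : g ≠ 0)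
      (dg : ∀ v : Place QBar (FB (p * M)), (p : ℤ) ∣ v.ord g) (i j : ℤ),
      τ • cls p hg dg = i • cls p h₁ d₁ + j • cls p h₀ d₀ →
      τ • cls p ((map_ne_zero (upInc p M)).mpr hg) (dvd_ord_upInc p M dg) = i • y₁ + j • y₀ := by
    intro τ g hg dg i j h
    have di : ∀ v : Place QBar (FB (p * M)), (p : ℤ) ∣ v.ord (f₁ ^ i) := fun v => by
      rw [v.ord_zpow]; exact dvd_mul_of_dvd_right (d₁ v) _
    have dj : ∀ v : Place QBar (FB (p * M)), (p : ℤ) ∣ v.ord (f₀ ^ j) := fun v => by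
      rw [v.ord_zpow]; exact dvd_mul_of_dvd_right (d₀ v) _
    have dij : ∀ v : Place QBar (FB (p * M)), (p : ℤ) ∣ v.ord (f₁ ^ i * f₀ ^ j) := fun v => by
      rw [v.ord_mul (zpow_ne_zero _ h₁) (zpow_ne_zero _ h₀)]; exact dvd_add (di v) (dj v)
    rw [smul_cls, ← cls_zpow h₁ d₁ i di, ← cls_zpow h₀ d₀ j dj,
      ← cls_mul (zpow_ne_zero _ h₁) (zpow_ne_zero _ h₀) di dj dij] at h
    have ui : ∀ v : Place QBar (FB (p * (4 * M))), (p : ℤ) ∣ v.ord (upInc p M f₁ ^ i) := fun v => by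
      rw [v.ord_zpow]; exact dvd_mul_of_dvd_right (dvd_ord_upInc p M d₁ v) _
    have uj : ∀ v : Place QBar (FB (p * (4 * M))), (p : ℤ) ∣ v.ord (upInc p M f₀ ^ j) := fun v => by
      rw [v.ord_zpow]; exact dvd_mul_of_dvd_right (dvd_ord_upInc p M d₀ v) _
    have uij : ∀ v : Place QBar (FB (p * (4 * M))),
        (p : ℤ) ∣ v.ord (upInc p M f₁ ^ i * upInc p M f₀ ^ j) := fun v => by
      rw [v.ord_mul (zpow_ne_zero _ hu₁) (zpow_ne_zero _ hu₀)]; exact dvd_add (ui v) (uj v)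
    rw [hsmul τ hg dg, key _ _ _ _ h, hy₁, hy₀, ← cls_zpow hu₁ _ i ui, ← cls_zpow hu₀ _ j uj,
      ← cls_mul (zpow_ne_zero _ hu₁) (zpow_ne_zero _ hu₀) ui uj uij]
    exact cls_congr (by rw [map_mul, map_zpow₀, map_zpow₀]) _ _ _ _
  refine ⟨y₁, y₀, cls_upInc_ne_zero hp5 h₀ d₀ hx0, nsmul_cls _ _, nsmul_cls _ _, ?_, ?_, hflat,
    hflat₀, fun τ hτ => ?_⟩
  · have h := hlin W.σ h₁ d₁ 1 1 (by rw [one_zsmul, one_zsmul, hσ])
    rwa [one_zsmul, one_zsmul] at h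
  · have h := hlin W.σ h₀ d₀ 0 1 (by rw [zero_zsmul, one_zsmul, zero_add, hf₀ _ W.σ_mem])
    rwa [zero_zsmul, one_zsmul, zero_add] at h
  · obtain ⟨n, c, e0, e1⟩ := hI τ hτ
    refine ⟨n, c, ?_, ?_⟩
    · have h := hlin τ h₀ d₀ 0 n (by rw [zero_zsmul, zero_add, e0])
      rwa [zero_zsmul, zero_add] at h
    · have h := hlin τ h₁ d₁ 1 c (by rw [one_zsmul, e1])
      rwa [one_zsmul] at h

end Fermat.Agent.RT.MazurP

end
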