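import Fermat.Agent.EC.Multiplicative.Component
import Fermat.Agent.EC.Reduction.Formal

/-!
# A steep chord, and multiples in the kernel of reduction

Two integral points joined by a chord of slope `λ` with `|λ| > 1` add up to a point of parameter
`|s| = |λ|⁻¹`. At a node, a point and the negative of a second one on the same branch and with the
same `|x - r|` are joined by such a chord.
-/

set_option autoImplicit false

namespace Fermat.Agent.RT.MazurP

open WeierstrassCurve WeierstrassCurve.Affine Fermat.Agent.EC.Reduction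

variable {L : Type*} [Field L] {A : ValuationSubring L}
  {W : Affine L} {V : Affine (IsLocalRing.ResidueField A)}

theorem valuation_add_of_le_mul {x y : L} {g : A.ValueGroup} (hy : A.valuation y ≤ g)
    (hx : g < A.valuation x) : A.valuation (x + y) = A.valuation x :=
  A.valuation.map_add_eq_of_lt_left (hy.trans_lt hx)

variable [DecidableEq L]

/-- A steep chord. -/
theorem sCoord_add_of_steep (h : ReducesTo A W V) {x₁ y₁ x₂ y₂ : L}
    {h₁ : W.Nonsingular x₁ y₁} {h₂ : W.Nonsingular x₂ y₂} (hx₁ : x₁ ∈ A) (hx₂ : x₂ ∈ A)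
    (hy₁ : y₁ ∈ A) (hne : x₁ ≠ x₂)
    (hsteep : 1 < A.valuation ((y₁ - y₂) / (x₁ - x₂))) :
    InE1 A (Point.some _ _ h₁ + Point.some _ _ h₂) ∧
      A.valuation (sCoord (Point.some _ _ h₁ + Point.some _ _ h₂)) =
        (A.valuation ((y₁ - y₂) / (x₁ - x₂)))⁻¹ := by
  set v := A.valuation with hv
  set l := (y₁ - y₂) / (x₁ - x₂) with hl
  rw [Point.add_of_X_ne hne, sCoord_some, inE1_some, slope_of_X_ne hne, ← hl]
  have le1 : ∀ {a : L}, a ∈ A → v a ≤ 1 := fun {a} ha => (A.valuation_le_one_iff a).mpr ha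
  have hl0 : 0 < v l := zero_lt_one.trans hsteep
  have hl12 : v l < v l ^ 2 := by
    rw [sq]; exact lt_mul_of_one_lt_right hl0 hsteep
  have hl23 : v l ^ 2 < v l ^ 3 := by
    rw [pow_succ _ 2]; exact lt_mul_of_one_lt_right (pow_pos hl0 2) hsteep
  have hX : v (W.addX x₁ x₂ l) = v l ^ 2 := by
    rw [addX, show l ^ 2 + W.a₁ * l - W.a₂ - x₁ - x₂ = l ^ 2 + (W.a₁ * l + (-W.a₂ - x₁ - x₂))
      by ring, valuation_add_of_le_mul (g := v l) ?_ (by rwa [map_pow]), map_pow]
    refine v.map_add_le ?_ ((le1 (sub_mem (sub_mem (neg_mem h.a₂_mem) hx₁) hx₂)).trans hsteep.le)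
    rw [map_mul]
    exact mul_le_of_le_one_left zero_le (le1 h.a₁_mem)
  have hY' : v (W.negAddY x₁ x₂ y₁ l) = v l ^ 3 := by
    have e : v (l * W.addX x₁ x₂ l) = v l ^ 3 := by rw [map_mul, hX, ← pow_succ']
    rw [negAddY, show l * (W.addX x₁ x₂ l - x₁) + y₁ = l * W.addX x₁ x₂ l + (y₁ - l * x₁) by ring,
      valuation_add_of_le_mul (g := v l) ?_ (by rw [e]; exact hl12.trans hl23), e]
    refine v.map_sub_le ((le1 hy₁).trans hsteep.le) ?_
    rw [map_mul]
    exact mul_le_of_le_one_right zero_le (le1 hx₁)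
  have hY : v (W.addY x₁ x₂ y₁ l) = v l ^ 3 := by
    rw [addY, negY, show -W.negAddY x₁ x₂ y₁ l - W.a₁ * W.addX x₁ x₂ l - W.a₃ =
      -(W.negAddY x₁ x₂ y₁ l) + (-(W.a₁ * W.addX x₁ x₂ l) - W.a₃) by ring,
      valuation_add_of_le_mul (g := v l ^ 2) ?_ (by rw [v.map_neg, hY']; exact hl23),
      v.map_neg, hY']
    refine v.map_sub_le ?_ ((le1 h.a₃_mem).trans (hsteep.le.trans hl12.le))
    rw [v.map_neg, map_mul, hX]
    exact mul_le_of_le_one_left zero_le (le1 h.a₁_mem)
  refine ⟨fun hc => ?_, ?_⟩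
  · have := le1 hc
    rw [hX] at this
    exact absurd (hsteep.trans hl12) (not_lt.mpr this)
  · rw [map_div₀, hX, hY]
    field_simp

/-- A point and the negative of another one on the same branch near a node. -/
theorem sCoord_add_neg_of_branch (N : EC.Multiplicative.Node A W V) {x y x' y' : L}
    {h : W.Nonsingular x y} {h' : W.Nonsingular x' y'} (hx : x ∈ A) (hx' : x' ∈ A) (hy' : y' ∈ A)
    (hb : A.valuation ((y - N.t) - N.a * (x - N.r)) < A.valuation (x - N.r) ∧
        A.valuation ((y' - N.t) - N.a * (x' - N.r)) < A.valuation (x - N.r) ∨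
      A.valuation ((y - N.t) - N.b * (x - N.r)) < A.valuation (x - N.r) ∧
        A.valuation ((y' - N.t) - N.b * (x' - N.r)) < A.valuation (x - N.r))
    (hne : x' ≠ x) (hlt : A.valuation (x' - x) < A.valuation (x - N.r)) :
    InE1 A (Point.some _ _ h' + -Point.some _ _ h) ∧
      A.valuation (sCoord (Point.some _ _ h' + -Point.some _ _ h)) =
        A.valuation (x' - x) / A.valuation (x - N.r) := by
  set v := A.valuation with hv
  have hnum : v (y' - W.negY x y) = v (x - N.r) := by
    have key : ∀ a b : L, a + b = -W.a₁ → v a ≤ 1 → v (a - b) = 1 →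
        v ((y - N.t) - a * (x - N.r)) < v (x - N.r) →
        v ((y' - N.t) - a * (x' - N.r)) < v (x - N.r) → v (y' - W.negY x y) = v (x - N.r) := by
      intro a b hab ha hd hu hu'
      have e : y' - W.negY x y = (a - b) * (x - N.r) + (a * (x' - x) +
          (((y' - N.t) - a * (x' - N.r)) + ((y - N.t) - a * (x - N.r)))) := by
        rw [negY]
        linear_combination N.eq₃ + (x - N.r) * hab
      rw [e, v.map_add_eq_of_lt_left, map_mul, hd, one_mul]
      rw [map_mul, hd, one_mul]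
      refine v.map_add_lt ?_ (v.map_add_lt hu' hu)
      rw [map_mul]
      exact (mul_le_of_le_one_left zero_le ha).trans_lt hlt
    rcases hb with ⟨hu, hu'⟩ | ⟨hu, hu'⟩
    · exact key N.a N.b N.sum_ab N.par.ha N.par.hab hu hu'
    · exact key N.b N.a (by rw [add_comm]; exact N.sum_ab) N.par.hb N.par.symm.hab hu hu'
  have hd0 : 0 < v (x' - x) := zero_lt_iff.mpr ((v.ne_zero_iff).mpr (sub_ne_zero.mpr hne))
  rw [Point.neg_some]
  obtain ⟨h1, h2⟩ := sCoord_add_of_steep (h₁ := h') (h₂ := (nonsingular_neg x y).mpr h) N.red hx'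
    hx hy' hne (by rw [map_div₀, ← hv, hnum]; exact (one_lt_div₀ hd0).mpr hlt)
  exact ⟨h1, by rw [h2, map_div₀, ← hv, hnum, inv_div]⟩



/-- The parameter of a multiple of a point in the kernel of reduction. -/
theorem res_sCoord_nsmul_div (h : ReducesTo A W V) {P : W.Point} (hP : InE1 A P) (h0 : P ≠ 0)
    (n : ℕ) : sCoord (n • P) / sCoord P ∈ A ∧
      res A (sCoord (n • P) / sCoord P) = (n : IsLocalRing.ResidueField A) := by
  obtain ⟨W₀, rfl, -⟩ := h
  have hs := (reducesTo_map A W₀).sCoord_mem hP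
  have hs0 := (reducesTo_map A W₀).sCoord_ne_zero hP h0
  obtain ⟨sn, en, -, hn⟩ := ReducesTo.sCoord_nsmul W₀ hP
    (s := ⟨_, ValuationSubring.nonunits_subset hs⟩) rfl n
  set s : A := ⟨_, ValuationSubring.nonunits_subset hs⟩ with hsdef
  rw [Ideal.span_singleton_pow, Ideal.mem_span_singleton] at hn
  obtain ⟨q, hq⟩ := hn
  have e : sCoord (n • P) / sCoord P =
      (((n : A) + W₀.a₁ * (n.choose 2 : A) * s + q * s ^ 2 : A) : L) := by
    rw [div_eq_iff hs0, ← en]
    have := congrArg (Subtype.val : A → L) hq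
    push_cast [hsdef] at this ⊢
    linear_combination this
  have hres : IsLocalRing.residue A s = 0 := by rw [← res_coe]; exact res_eq_zero hs
  rw [e]
  refine ⟨Subtype.prop _, ?_⟩
  rw [res_coe]
  simp [hres]

end Fermat.Agent.RT.MazurP
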