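import Fermat.Agent.RT.MazurP.Jump
import Fermat.Agent.RT.MazurP.Steep
import Fermat.Agent.EC.Rep.Cyclotomic
import Fermat.Agent.EC.Rep.Local.NodeTorsion
import Fermat.Agent.EC.Rep.Residual
import Fermat.Agent.EC.Multiplicative.Torsion
import Fermat.Agent.EC.Multiplicative.Frey

/-!
# Inertia over `p` on `E[p]` at a multiplicative place with `p ∣ v(Δ)`

With `wildKer` the part of inertia trivial on `E[p]` and on `μ_p` and `tameKer` the part trivial on
`μ_p`: either the two agree, or the field cut out by `wildKer` is wild with lower jump one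
(peu ramifié).
-/

set_option autoImplicit false
set_option synthInstance.maxHeartbeats 400000

open scoped WeierstrassCurve.Affine Pointwise
open WeierstrassCurve WeierstrassCurve.Affine Fermat.Agent.Arith

noncomputable section

namespace Fermat.Agent.RT.MazurP

open Fermat.Agent.EC.Reduction Fermat.Agent.EC.Multiplicative Fermat.Agent.EC.Rep
open Fermat.Agent.EC.AtP (PointQBar)

variable {A : ValuationSubring (AlgebraicClosure ℚ)} {W : WeierstrassCurve ℤ} {p : ℕ}

theorem smul_zsmul_point (τ : GQ) (a : ℤ) (P : PointQBar W) : τ • (a • P) = a • (τ • P) :=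
  map_zsmul (DistribSMul.toAddMonoidHom (PointQBar W) τ) a P

theorem smul_add_point (τ : GQ) (P Q : PointQBar W) : τ • (P + Q) = τ • P + τ • Q :=
  map_add (DistribSMul.toAddMonoidHom (PointQBar W) τ) P Q

theorem smul_zero_point (τ : GQ) : τ • (0 : PointQBar W) = 0 :=
  map_zero (DistribSMul.toAddMonoidHom (PointQBar W) τ)

theorem zsmul_congr {P : PointQBar W} (hP : (p : ℤ) • P = 0) {a b : ℤ}
    (h : (a : ZMod p) = b) : a • P = b • P := by
  obtain ⟨c, hc⟩ := (ZMod.intCast_eq_intCast_iff_dvd_sub a b p).mp h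
  rw [show b = a + c * p by linear_combination hc, add_zsmul, mul_zsmul, hP, zsmul_zero, add_zero]

theorem sCoord_smul (τ : GQ) (P : PointQBar W) : sCoord (τ • P) = τ (sCoord P) := by
  match P with
  | .zero => rw [← Point.zero_def, smul_zero_point, sCoord_zero, map_zero]
  | .some x y h =>
    obtain ⟨h', e⟩ := EC.Reduction.smul_some (σ := τ) h
    rw [e, sCoord_some, sCoord_some, map_div₀]

section Cyclotomic

variable [Fact p.Prime]

theorem apply_root_eq_pow_cyclotomicHom (τ : GQ) {ζ : QBar} (hζ : ζ ^ p = 1) :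
    τ ζ = ζ ^ (cyclotomicHom p τ : ZMod p).val :=
  modularCyclotomicCharacter.spec QBar (card_rootsOfUnity_qbar p) (τ : QBar ≃+* QBar)
    (t := (rootsOfUnity.mkOfPowEq ζ hζ : rootsOfUnity p QBar)) (rootsOfUnity.mkOfPowEq ζ hζ).2

variable (p A)

/-- The part of inertia trivial on the `p`-th roots of unity. -/
def tameKer : Subgroup GQ := A.inertiaSubgroupIn ℚ ⊓ (cyclotomicHom p).ker

variable (W)

/-- The part of inertia trivial on `E[p]` and on the `p`-th roots of unity. -/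
def wildKer : Subgroup GQ where
  carrier := {τ | τ ∈ tameKer A p ∧ ∀ x : PointQBar W, (p : ℤ) • x = 0 → τ • x = x}
  one_mem' := ⟨one_mem _, fun x _ => one_smul GQ x⟩
  mul_mem' := fun {a b} ha hb => ⟨mul_mem ha.1 hb.1, fun x hx => by
    rw [mul_smul, hb.2 x hx, ha.2 x hx]⟩
  inv_mem' := fun {a} ha => ⟨inv_mem ha.1, fun x hx => by
    rw [inv_smul_eq_iff, ha.2 x hx]⟩

variable {p A W}

theorem mem_tameKer {τ : GQ} :
    τ ∈ tameKer A p ↔ τ ∈ A.inertiaSubgroupIn ℚ ∧ cyclotomicHom p τ = 1 := by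
  rw [tameKer, Subgroup.mem_inf, MonoidHom.mem_ker]

theorem mem_wildKer {τ : GQ} :
    τ ∈ wildKer A W p ↔ (τ ∈ A.inertiaSubgroupIn ℚ ∧ cyclotomicHom p τ = 1) ∧
      ∀ x : PointQBar W, (p : ℤ) • x = 0 → τ • x = x := by
  rw [← mem_tameKer]; rfl

theorem wildKer_le : wildKer A W p ≤ tameKer A p := fun _ h => h.1

theorem conj_mem_tameKer {g h : GQ} (hg : g ∈ A.inertiaSubgroupIn ℚ) (hh : h ∈ tameKer A p) :
    g⁻¹ * h * g ∈ tameKer A p := by
  rw [mem_tameKer] at hh ⊢
  exact ⟨mul_mem (mul_mem (inv_mem hg) hh.1) hg, by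
    rw [map_mul, map_mul, hh.2, mul_one, map_inv, inv_mul_cancel]⟩

theorem conj_mem_wildKer {g h : GQ} (hg : g ∈ A.inertiaSubgroupIn ℚ) (hh : h ∈ wildKer A W p) :
    g⁻¹ * h * g ∈ wildKer A W p := by
  refine ⟨conj_mem_tameKer hg hh.1, fun x hx => ?_⟩
  rw [mul_smul, mul_smul, hh.2 (g • x) (by rw [← smul_zsmul_point, hx, smul_zero_point]), inv_smul_smul]

/-- `τ₀` in inertia with primitive cyclotomic value, generating inertia modulo `tameKer`. -/
theorem exists_tame_generator (hA : A.LiesOverPrime p) :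
    ∃ τ₀ ∈ A.inertiaSubgroupIn ℚ,
      (∀ j : ℕ, ((cyclotomicHom p τ₀ : ZMod p)) ^ j = 1 → p - 1 ∣ j) ∧ τ₀ ^ (p - 1) ∈ tameKer A p ∧
      ∀ τ ∈ A.inertiaSubgroupIn ℚ, ∃ i : ℕ, (τ₀ ^ i)⁻¹ * τ ∈ tameKer A p := by
  obtain ⟨u, hu⟩ := IsCyclic.exists_generator (α := (ZMod p)ˣ)
  obtain ⟨τ₀, h₀, hχ⟩ := exists_mem_inertia_cyclotomicHom_eq hA u
  refine ⟨τ₀, h₀, fun j hj => ?_, mem_tameKer.mpr ⟨pow_mem h₀ _, ?_⟩, fun τ hτ => ?_⟩
  · rw [hχ, ← Units.val_pow_eq_pow_val, Units.val_eq_one, ← orderOf_dvd_iff_pow_eq_one,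
      orderOf_eq_card_of_forall_mem_zpowers hu, Nat.card_eq_fintype_card, ZMod.card_units] at hj
    exact hj
  · rw [map_pow, hχ, ZMod.units_pow_card_sub_one_eq_one]
  · obtain ⟨i, hi⟩ : ∃ i : ℕ, u ^ i = cyclotomicHom p τ :=
      (mem_powers_iff_mem_zpowers.mpr (hu _))
    exact ⟨i, mem_tameKer.mpr ⟨mul_mem (inv_mem (pow_mem h₀ _)) hτ, by
      rw [map_mul, map_inv, map_pow, hχ, hi, inv_mul_cancel]⟩⟩

variable (A W p)

/-- A basis of `E[p]` adapted to the place: `R` reduces to the origin and `S` to the node. -/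
structure Frame where
  R : PointQBar W
  S : PointQBar W
  hR : (p : ℤ) • R = 0
  hS : (p : ℤ) • S = 0
  R_ne : R ≠ 0
  R_inE1 : InE1 A R
  S_not : ¬ InE0 A (W.map (Int.castRingHom (IsLocalRing.ResidueField A))) S
  span : ∀ x : PointQBar W, (p : ℤ) • x = 0 → ∃ a b : ℤ, x = a • R + b • S
  smul_R : ∀ τ ∈ A.inertiaSubgroupIn ℚ, τ • R = (cyclotomicHom p τ : ZMod p).val • R
  smul_S : ∀ τ ∈ A.inertiaSubgroupIn ℚ, ∃ b : ℤ, τ • S = S + b • R

variable {A W p}

/-- At a multiplicative place over the odd `p`, a frame exists and inertia acts on `E[p]` with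
trace `χ + 1`. -/
theorem exists_frame (hA : A.LiesOverPrime p) (hp2 : p ≠ 2) (hΔ0 : W.Δ ≠ 0)
    (hΔ : (p : ℤ) ∣ W.Δ) (hc₄ : ¬ (p : ℤ) ∣ W.c₄) :
    Nonempty (Frame A W p) ∧ ∀ τ ∈ A.inertiaSubgroupIn ℚ,
      LinearMap.trace (ZMod p) (residualRep W p hΔ0).V ((residualRep W p hΔ0).ρ τ) =
        (cyclotomicHom p τ : ZMod p) + 1 := by
  classical
  have hp : p.Prime := Fact.out
  set V := W.map (Int.castRingHom (IsLocalRing.ResidueField A)) with hV
  obtain ⟨R, htor, -, hR1, hR0, hgen⟩ := exists_inE0_system hA hp hp2 hΔ0 hΔ hc₄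
  obtain ⟨N, -⟩ := exists_node_int hA hp hΔ0 hΔ hc₄
  have hRtor : (p : ℤ) • R 1 = 0 := by simpa using htor 1
  have hRE1 : InE1 A (R 1) := inE1_of_pow_nsmul_eq_zero N hA hp (hR0 1) (n := 1)
    (by rw [pow_one, ← natCast_zsmul]; exact hRtor)
  obtain ⟨S, hS, hS1⟩ := exists_torsion_not_inE1 hA hp hp2 hΔ0 hΔ hc₄
  have hStor : (p : ℤ) • S = 0 := by rw [natCast_zsmul]; exact hS
  have hS0 : ¬ InE0 A V S := fun h => hS1 (inE1_of_pow_nsmul_eq_zero N hA hp h (n := 1)
    (by rw [pow_one]; exact hS))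
  let r : (residualRep W p hΔ0).V := ⟨R 1, (Submodule.mem_torsionBy_iff _ _).mpr hRtor⟩
  let s : (residualRep W p hΔ0).V := ⟨S, (Submodule.mem_torsionBy_iff _ _).mpr hStor⟩
  have hr : r ≠ 0 := fun e => hR1 (congrArg Subtype.val e)
  have hs : s ∉ (ZMod p) ∙ r := by
    intro hmem
    obtain ⟨a, ha⟩ := Submodule.mem_span_singleton.mp hmem
    obtain ⟨a, rfl⟩ := ZMod.intCast_surjective a
    rw [Int.cast_smul_eq_zsmul] at ha
    refine hS0 ?_
    rw [← (show a • R 1 = S from congrArg Subtype.val ha)]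
    exact zsmul_mem (show R 1 ∈ N.red.E0 from hR0 1) a
  have hb : LinearIndependent (ZMod p) ![r, s] := by
    rw [linearIndependent_fin2]
    refine ⟨fun e => hs (by simp at e; rw [e]; exact zero_mem _), fun a e => ?_⟩
    simp at e
    rcases eq_or_ne a 0 with rfl | ha
    · exact hr (by simpa using e.symm)
    · exact hs (Submodule.mem_span_singleton.mpr ⟨a⁻¹, by rw [← e, inv_smul_smul₀ ha]⟩)
  let b := basisOfLinearIndependentOfCardEqFinrank hb
    (by rw [Fintype.card_fin, (residualRep W p hΔ0).finrank_eq])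
  have hb0 : b 0 = r := by simp [b]
  have hb1 : b 1 = s := by simp [b]
  have hmain : ∀ τ ∈ A.inertiaSubgroupIn ℚ, ∃ a c : ℤ, τ • R 1 = a • R 1 ∧
      τ • S = S + c • R 1 ∧ ((a : ZMod p) = (cyclotomicHom p τ : ZMod p)) ∧
      LinearMap.trace (ZMod p) (residualRep W p hΔ0).V ((residualRep W p hΔ0).ρ τ) =
        (a : ZMod p) + 1 := by
    intro τ hτ
    obtain ⟨a, ha⟩ := hgen 1 (τ • R 1)
      (by rw [pow_one, ← smul_zsmul_point, hRtor, smul_zero_point])
      ((N.red.inE0_smul_iff (res_inertia hτ).1 (φ := RingHom.id _) (res_inertia hτ).2).mpr (hR0 1))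
    obtain ⟨c, hc⟩ := hgen 1 (τ • S - S)
      (by rw [pow_one, zsmul_sub, ← smul_zsmul_point, hStor, smul_zero_point, sub_zero])
      (N.inE0_smul_sub (res_inertia hτ).1 (res_inertia hτ).2 S)
    have e0 : (residualRep W p hΔ0).ρ τ r = (a : ZMod p) • r := by
      rw [Int.cast_smul_eq_zsmul]; exact Subtype.ext ha
    have e1 : (residualRep W p hΔ0).ρ τ s = (c : ZMod p) • r + s := by
      rw [Int.cast_smul_eq_zsmul]
      exact Subtype.ext (show τ • S = c • R 1 + S by rw [← hc, sub_add_cancel])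
    have e0' : (residualRep W p hΔ0).ρ τ (b 0) = (a : ZMod p) • b 0 := by rw [hb0]; exact e0
    have e1' : (residualRep W p hΔ0).ρ τ (b 1) = (c : ZMod p) • b 0 + b 1 := by
      rw [hb0, hb1]; exact e1
    have hd : LinearMap.det ((residualRep W p hΔ0).ρ τ) = (a : ZMod p) := by
      rw [← LinearMap.det_toMatrix b, Matrix.det_fin_two]
      simp [LinearMap.toMatrix_apply, e0', e1']
    refine ⟨a, c, ha, by rw [← hc]; abel, ?_, ?_⟩
    · rw [← hd, det_residualRep hΔ0 (card_rootsOfUnity_qbar p), cyclotomicHom_apply]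
    · rw [LinearMap.trace_eq_matrix_trace _ b, Matrix.trace_fin_two]
      simp [LinearMap.toMatrix_apply, e0', e1']
  refine ⟨⟨{ R := R 1, S := S, hR := hRtor, hS := hStor, R_ne := hR1, R_inE1 := hRE1,
             S_not := hS0, span := fun x hx => ?_, smul_R := fun τ hτ => ?_,
             smul_S := fun τ hτ => ?_ }⟩, fun τ hτ => ?_⟩
  · let v : (residualRep W p hΔ0).V := ⟨x, (Submodule.mem_torsionBy_iff _ _).mpr hx⟩
    obtain ⟨a₀, ha₀⟩ := ZMod.intCast_surjective (b.repr v 0)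
    obtain ⟨a₁, ha₁⟩ := ZMod.intCast_surjective (b.repr v 1)
    have e := b.sum_repr v
    rw [Fin.sum_univ_two, hb0, hb1, ← ha₀, ← ha₁, Int.cast_smul_eq_zsmul,
      Int.cast_smul_eq_zsmul] at e
    exact ⟨a₀, a₁, (congrArg Subtype.val e).symm⟩
  · obtain ⟨a, c, ha, -, hχ, -⟩ := hmain τ hτ
    rw [ha, ← natCast_zsmul]
    exact zsmul_congr hRtor (by rw [hχ]; simp)
  · obtain ⟨a, c, -, hc, -⟩ := hmain τ hτ
    exact ⟨c, hc⟩
  · obtain ⟨a, c, -, -, hχ, ht⟩ := hmain τ hτ
    rw [ht, hχ]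

namespace Frame

variable (F : Frame A W p)

theorem smul_R_of_mem {τ : GQ} (hτ : τ ∈ tameKer A p) : τ • F.R = F.R := by
  rw [mem_tameKer] at hτ
  rw [F.smul_R τ hτ.1, hτ.2, Units.val_one, ZMod.val_one, one_smul]

theorem mem_wildKer_of {τ : GQ} (hτ : τ ∈ tameKer A p) (hS : τ • F.S = F.S) :
    τ ∈ wildKer A W p := by
  refine ⟨hτ, fun x hx => ?_⟩
  obtain ⟨a, b, rfl⟩ := F.span x hx
  rw [smul_add_point, smul_zsmul_point, smul_zsmul_point, F.smul_R_of_mem hτ, hS]

theorem pow_smul_S {τ : GQ} (hτ : τ ∈ tameKer A p) {b : ℤ} (hb : τ • F.S = F.S + b • F.R)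
    (n : ℕ) : τ ^ n • F.S = F.S + ((n : ℤ) * b) • F.R := by
  induction n with
  | zero => simp
  | succ n ih =>
    rw [pow_succ', mul_smul, ih, smul_add_point, hb, smul_zsmul_point, F.smul_R_of_mem hτ, add_assoc,
      ← add_zsmul]
    push_cast
    ring_nf

/-- Inertia conjugates the tame kernel through the cyclotomic character, modulo the wild kernel. -/
theorem conj_pow_mem_wildKer (F : Frame A W p) {τ σ : GQ} (hτ : τ ∈ A.inertiaSubgroupIn ℚ)
    (hσ : σ ∈ tameKer A p) :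
    (σ ^ (cyclotomicHom p τ : ZMod p).val)⁻¹ * (τ * σ * τ⁻¹) ∈ wildKer A W p := by
  have hconj : τ * σ * τ⁻¹ ∈ tameKer A p := by
    simpa using conj_mem_tameKer (inv_mem hτ) hσ
  refine F.mem_wildKer_of (mul_mem (inv_mem (pow_mem hσ _)) hconj) ?_
  obtain ⟨b, hb⟩ := F.smul_S σ (mem_tameKer.mp hσ).1
  obtain ⟨c, hc⟩ := F.smul_S _ (inv_mem hτ)
  have e : σ • τ⁻¹ • F.S = τ⁻¹ • F.S + b • F.R := by
    rw [hc, smul_add_point, hb, smul_zsmul_point, F.smul_R_of_mem hσ]
    abel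
  rw [mul_smul, inv_smul_eq_iff, F.pow_smul_S hσ hb, mul_smul, mul_smul, e, smul_add_point,
    smul_inv_smul, smul_zsmul_point, F.smul_R τ hτ, mul_comm, mul_zsmul, natCast_zsmul]

end Frame

end Cyclotomic

variable [Fact p.Prime] (hA : A.LiesOverPrime p) (hp2 : p ≠ 2) (hΔ0 : W.Δ ≠ 0)
  (hΔ : (p : ℤ) ∣ W.Δ) (hc₄ : ¬ (p : ℤ) ∣ W.c₄)
include hA hp2 hΔ0 hΔ hc₄

omit hΔ0 hΔ hc₄ in
/-- The parameter of the torsion point in the kernel of reduction has the order of `ζ - 1`. -/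
theorem valuation_sCoord_R (T : TowerData A p) (hT : T.H₁ = tameKer A p) (F : Frame A W p)
    (hg : (cyclotomicHom p T.τ₀ : ZMod p) = (T.g : ZMod p)) :
    A.valuation (sCoord F.R) = A.valuation (T.ζ - 1) := by
  classical
  have hp : p.Prime := Fact.out
  have : CharP (IsLocalRing.ResidueField A) p := residueField_charP hA hp
  obtain ⟨hP1, hP1p, hP1res⟩ := zeta_sub_one hA hp T.hζ
  have hred := reducesTo_int W A
  set s := sCoord F.R with hsdef
  set π₁ := T.ζ - 1 with hπ₁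
  have hs0 : s ≠ 0 := hred.sCoord_ne_zero F.R_inE1 F.R_ne
  have hslt : A.valuation s < 1 := A.mem_nonunits_iff.mp (hred.sCoord_mem F.R_inE1)
  obtain ⟨k, hk⟩ := (TowerData.tame hA hp T).discrete s hs0 fun τ hτ => by
    rw [hsdef, ← sCoord_smul, F.smul_R_of_mem (hT ▸ hτ)]
  change A.valuation s = A.valuation π₁ ^ k at hk
  have hP0 : 0 < A.valuation π₁ := zero_lt_iff.mpr ((Valuation.ne_zero_iff _).mpr
    (sub_ne_zero.mpr (T.hζ.ne_one hp.one_lt)))
  have hk1 : 0 < k := by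
    by_contra hle
    rw [hk] at hslt
    exact absurd (one_le_zpow_of_nonpos₀ hP0 hP1.le (not_lt.mp hle)) (not_le.mpr hslt)
  obtain ⟨k, rfl⟩ := Int.eq_ofNat_of_zero_le hk1.le
  rw [zpow_natCast] at hk
  have hk2 : 2 * k ≤ p - 1 := by
    by_contra hlt
    refine F.R_ne (hred.eq_zero_of_odd_nsmul (hp.odd_of_ne_two hp2) F.R_inE1 ?_
      (by rw [← natCast_zsmul]; exact F.hR))
    rw [← hP1p, ← hsdef, hk, ← pow_mul, mul_comm]
    exact pow_lt_pow_right_of_lt_one₀ hP0 hP1 (not_le.mp hlt)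
  have hgR : T.τ₀ • F.R = T.g • F.R := by
    rw [F.smul_R _ T.τ₀_mem, hg, ← natCast_zsmul, ← natCast_zsmul _ T.g]
    exact zsmul_congr F.hR (by simp)
  obtain ⟨hq, hqr⟩ := res_sCoord_nsmul_div hred F.R_inE1 F.R_ne T.g
  rw [← hgR, sCoord_smul] at hq hqr
  set w := s / π₁ ^ k with hw
  have hπk : π₁ ^ k ≠ 0 := pow_ne_zero _ (sub_ne_zero.mpr (T.hζ.ne_one hp.one_lt))
  obtain ⟨hwA, hwr⟩ := res_ne_zero_of_valuation_eq_one (A := A) (x := w) (by
    rw [hw, map_div₀, map_pow, hk, div_self (pow_ne_zero _ hP0.ne')])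
  obtain ⟨hτw, hτwr⟩ := res_inertia_map T.τ₀_mem hwA
  obtain ⟨hζA, hζr⟩ := hP1res T.g
  have e : T.τ₀ s / s * w = ((T.ζ ^ T.g - 1) / π₁) ^ k * T.τ₀ w := by
    have hτk : T.τ₀ (π₁ ^ k) ≠ 0 := (map_ne_zero _).mpr hπk
    have e1 : T.τ₀ π₁ = T.ζ ^ T.g - 1 := by rw [hπ₁, map_sub, map_one, T.τ₀_ζ]
    rw [hw, map_div₀, map_pow, e1, div_pow, div_mul_div_cancel₀' (by rw [← e1, ← map_pow]; exact hτk)]
    field_simp
  have e' := congrArg (res A) e
  rw [res_mul hq hwA, hqr, res_mul (pow_mem hζA k) hτw, res_pow hζA, hζr, hτwr] at e'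
  have h1 : (T.g : ZMod p) ^ k = (T.g : ZMod p) :=
    (ZMod.castHom (dvd_refl p) (IsLocalRing.ResidueField A)).injective
      (by rw [map_pow, map_natCast]; exact (mul_right_cancel₀ hwr e').symm)
  obtain ⟨i, rfl⟩ : ∃ i, k = i + 1 := ⟨k - 1, by omega⟩
  rw [pow_succ] at h1
  rcases Nat.eq_zero_or_pos i with rfl | hi
  · rw [hk, zero_add, pow_one]
  · have := Nat.le_of_dvd hi (T.primitive i ((mul_eq_right₀ T.g_ne).mp h1))
    omega

/-- If some element of `tameKer` moves `E[p]`, the field of `wildKer` is wild with jump one. -/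
theorem wildKer_eq_tameKer_or_exists_wild (hv : p ∣ padicValInt p W.Δ) :
    wildKer A W p = tameKer A p ∨
      ∃ Wd : Wild A p, Wd.C.H = wildKer A W p ∧ Wd.C₁.H = tameKer A p ∧
        (∃ x : PointQBar W, (p : ℤ) • x = 0 ∧ Wd.σ • x ≠ x) ∧
        ∀ h ∈ tameKer A p, ∃ i : ℕ, (Wd.σ ^ i)⁻¹ * h ∈ wildKer A W p := by
  classical
  have hp : p.Prime := Fact.out
  obtain ⟨⟨F⟩, -⟩ := exists_frame hA hp2 hΔ0 hΔ hc₄
  by_cases hall : ∀ τ ∈ tameKer A p, τ • F.S = F.S
  · exact Or.inl (le_antisymm wildKer_le fun τ hτ => F.mem_wildKer_of hτ (hall τ hτ))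
  right
  simp only [not_forall] at hall
  obtain ⟨τ, hτ, hτS⟩ := hall
  obtain ⟨b, hb⟩ := F.smul_S τ (mem_tameKer.mp hτ).1
  have hb0 : (b : ZMod p) ≠ 0 := fun h => hτS (by
    rw [hb, zsmul_congr F.hR (b := 0) (by rw [h, Int.cast_zero]), zero_zsmul, add_zero])
  set σ := τ ^ ((b : ZMod p)⁻¹).val with hσdef
  have hσ : σ ∈ tameKer A p := pow_mem hτ _
  have hσS : σ • F.S = F.S + F.R := by
    rw [hσdef, F.pow_smul_S hτ hb, zsmul_congr F.hR (b := 1) (by
      push_cast; rw [ZMod.natCast_val, ZMod.cast_id, inv_mul_cancel₀ hb0]), one_zsmul]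
  have hσn : ∀ n : ℕ, σ ^ n • F.S = F.S + (n : ℤ) • F.R := fun n => by
    rw [F.pow_smul_S hσ (b := 1) (by rw [one_zsmul]; exact hσS), mul_one]
  have hgen₁ : ∀ h ∈ tameKer A p, ∃ i : ℕ, (σ ^ i)⁻¹ * h ∈ wildKer A W p := by
    intro h hh
    obtain ⟨c, hc⟩ := F.smul_S h (mem_tameKer.mp hh).1
    refine ⟨(c : ZMod p).val, F.mem_wildKer_of (mul_mem (inv_mem (pow_mem hσ _)) hh) ?_⟩
    rw [mul_smul, inv_smul_eq_iff, hσn, hc]
    exact congrArg (F.S + ·) (zsmul_congr F.hR (by push_cast; rw [ZMod.natCast_val, ZMod.cast_id]))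
  obtain ⟨τ₀, hτ₀, hprim, hpow, hgen⟩ := exists_tame_generator hA
  have : NeZero (p : QBar) := ⟨Nat.cast_ne_zero.mpr hp.ne_zero⟩
  obtain ⟨ζ, hζ⟩ := HasEnoughRootsOfUnity.exists_primitiveRoot QBar p
  set g := (cyclotomicHom p τ₀ : ZMod p).val with hgdef
  have hgcast : (cyclotomicHom p τ₀ : ZMod p) = (g : ZMod p) := by
    rw [hgdef, ZMod.natCast_val, ZMod.cast_id]
  let T : TowerData A p :=
    { Hk := wildKer A W p
      H₁ := tameKer A p
      σ := σ
      τ₀ := τ₀
      g := g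
      ζ := ζ
      le := wildKer_le
      le_inertia := fun h hh => (mem_tameKer.mp hh).1
      σ_mem := hσ
      τ₀_mem := hτ₀
      normal := fun h hh => conj_mem_wildKer (mem_tameKer.mp hσ).1 hh
      normal_τ₀ := fun h hh => conj_mem_wildKer hτ₀ hh
      normal₁ := fun h hh => conj_mem_tameKer hτ₀ hh
      gen₁ := hgen₁
      pow_σ := F.mem_wildKer_of (pow_mem hσ _) (by rw [hσn, F.hR, add_zero])
      gen := hgen
      pow_τ₀ := hpow
      primitive := fun j hj => hprim j (by rw [hgcast]; exact hj)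
      g_ne := hgcast ▸ Units.ne_zero _
      conj := by rw [hgdef]; exact F.conj_pow_mem_wildKer hτ₀ hσ
      hζ := hζ
      ζ_fixed := fun h hh => by
        rw [apply_root_eq_pow_cyclotomicHom (p := p) h hζ.pow_eq_one, (mem_tameKer.mp hh).2,
          Units.val_one, ZMod.val_one, pow_one]
      τ₀_ζ := apply_root_eq_pow_cyclotomicHom τ₀ hζ.pow_eq_one }
  -- the coordinate of `S` near the node
  obtain ⟨N, hN⟩ := exists_node_int hA hp hΔ0 hΔ hc₄
  obtain ⟨m, hm⟩ := hv
  have hR2 : ∀ P : PointQBar W, σ • F.S = P → P - F.S = F.R := fun P h => by rw [← h, hσS]; abel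
  obtain ⟨z, hzA, hzH, hzσ⟩ : ∃ z ∈ A, (∀ h ∈ wildKer A W p, h z = z) ∧
      A.valuation (σ z - z) = A.valuation (sCoord F.R) := by
    have hat := (N.not_inE0_iff F.S).mp F.S_not
    generalize hSdef : F.S = P at hat
    match P with
    | .some x y hxy =>
      obtain ⟨hc2, i, hi0, -, hXp⟩ := N.valuation_pow_of_nsmul (hp.odd_of_ne_two hp2) hat
        (by rw [← natCast_zsmul, ← hSdef]; exact F.hS)
      have hnear := N.nearNode hxy hat
      obtain ⟨hXlt, hYlt⟩ := (N.atNode_some hxy).mp hat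
      have hxA : x ∈ A := by simpa using add_mem ((A.valuation_le_one_iff _).mp hXlt.le) N.hr
      have hyA : y ∈ A := by simpa using add_mem ((A.valuation_le_one_iff _).mp hYlt.le) N.ht
      have hXk : A.valuation (x - N.r) = A.valuation (p : QBar) ^ (m * i) := by
        refine (pow_left_inj₀ zero_le zero_le hp.ne_zero).mp ?_
        rw [hXp, hN, hm, ← pow_mul, ← pow_mul]
        ring_nf
      have hpk : (p : QBar) ^ (m * i) ≠ 0 := pow_ne_zero _ (Nat.cast_ne_zero.mpr hp.ne_zero)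
      set z := (x - N.r) / (p : QBar) ^ (m * i) with hzdef
      have hzv : A.valuation z = 1 := by
        rw [hzdef, map_div₀, map_pow, hXk, div_self (pow_ne_zero _
          ((Valuation.ne_zero_iff _).mpr (Nat.cast_ne_zero.mpr hp.ne_zero)))]
      have hzA : z ∈ A := (A.valuation_le_one_iff _).mp hzv.le
      have hnode : ∀ h ∈ A.inertiaSubgroupIn ℚ, h N.r = N.r ∧ h N.t = N.t ∧ h N.a = N.a := fun h hh =>
        N.map_node_eq (res_inertia hh).1 (res_inertia hh).2
      have hσI := (mem_tameKer.mp hσ).1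
      obtain ⟨hσr, hσt, hσa⟩ := hnode σ hσI
      have hσb : σ N.b = N.b := by
        have e := congrArg σ N.sum_ab
        rw [map_add, map_neg, N.map_a₁' σ, hσa, ← N.sum_ab] at e
        exact add_left_cancel e
      obtain ⟨h', eσ⟩ := EC.Reduction.smul_some (σ := σ) hxy
      have hdiff : A.valuation (σ x - x) < A.valuation (x - N.r) := by
        have e : σ x - x = (σ z - z) * (p : QBar) ^ (m * i) := by
          rw [hzdef, map_div₀, map_pow, map_natCast, map_sub, hσr]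
          field_simp
          ring
        rw [e, map_mul, map_pow, ← hXk]
        exact mul_lt_of_lt_one_left (zero_lt_iff.mpr ((Valuation.ne_zero_iff _).mpr
          (fun h0 => (ne_of_lt hc2) (absurd h0 (NearNode.X_ne_zero hc2)))))
          (valuation_inertia_sub_lt hσI hzA)
      have hne : σ x ≠ x := by
        intro hx
        rcases Y_eq_of_X_eq h'.left hxy.left hx with hy | hy
        · refine F.R_ne ((hR2 _ (show σ • F.S = F.S by
            rw [hSdef, eσ]; exact some_eq_some _ _ hx hy)).symm.trans (sub_self _))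
        · refine F.S_not ?_
          have hneg : σ • F.S = -F.S := by
            rw [hSdef, eσ, Point.neg_some]; exact some_eq_some _ _ hx hy
          have h2 : (2 : ℕ) • F.S ∈ N.red.E0 := by
            rw [show (2 : ℕ) • F.S = -F.R by rw [← hR2 _ hneg, two_nsmul]; abel]
            exact neg_mem (show F.R ∈ N.red.E0 from 
              InE1.inE0 F.R_inE1)
          obtain ⟨j, hj⟩ := hp.odd_of_ne_two hp2
          have e : F.S = (j + 1) • (2 : ℕ) • F.S := by
            rw [← mul_smul, show (j + 1) * 2 = p + 1 by omega, add_smul, one_smul,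
              ← natCast_zsmul, F.hS, zero_add]
          show F.S ∈ N.red.E0
          rw [e]
          exact nsmul_mem h2 _
      have hval : ∀ u : QBar, A.valuation (σ u) = A.valuation u := valuation_inertia hσI
      have hbr := hnear.either hc2
      obtain ⟨-, hs⟩ := sCoord_add_neg_of_branch N (h := hxy) (h' := h') hxA
        (res_inertia_map hσI hxA).1 (res_inertia_map hσI hyA).1 (by
          have key : ∀ a : QBar, σ a = a → A.valuation (y - N.t - a * (x - N.r)) <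
              A.valuation (x - N.r) → A.valuation (σ y - N.t - a * (σ x - N.r)) <
              A.valuation (x - N.r) := by
            intro a ha hu
            rwa [show σ y - N.t - a * (σ x - N.r) = σ (y - N.t - a * (x - N.r)) by
              rw [map_sub, map_mul, map_sub, map_sub, ha, hσr, hσt], hval]
          rcases hbr with h | h
          · exact Or.inl ⟨h, key _ hσa h⟩
          · exact Or.inr ⟨h, key _ hσb h⟩) hne hdiff
      refine ⟨z, hzA, fun h hh => ?_, ?_⟩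
      · obtain ⟨h'', eh⟩ := EC.Reduction.smul_some (σ := h) hxy
        have e := (mem_wildKer.mp hh).2 F.S F.hS
        rw [hSdef, eh] at e
        rw [hzdef, map_div₀, map_pow, map_natCast, map_sub,
          (hnode h (mem_wildKer.mp hh).1.1).1, ((Point.some.injEq ..).mp e).1]
      · rw [← hR2 _ (show σ • F.S = _ by rw [hSdef, eσ]), hSdef,
          sub_eq_add_neg (Point.some (σ x) (σ y) h'), hs, hzdef,
          map_div₀ σ, map_pow σ, map_natCast σ, map_sub σ x, hσr, ← sub_div, map_div₀, map_pow,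
          ← hXk]
        congr 2
        ring
  obtain ⟨Wd, hC, hC₁, hσW⟩ := TowerData.exists_wild hA hp T hzA hzH
    (hzσ.trans (valuation_sCoord_R hA hp2 T rfl F hgcast))
  exact ⟨Wd, hC, hC₁, ⟨F.S, F.hS, fun e => F.R_ne (by
    rw [hσW] at e; rw [← hR2 _ e, sub_self])⟩, fun h hh => by rw [hσW]; exact hgen₁ h hh⟩

end Fermat.Agent.RT.MazurP

end
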