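import Fermat.Agent.RT.MazurP.Bounds
import Fermat.Agent.RT.Mazur.Units
import Fermat.Agent.Igusa.SeriesOrder
import Fermat.Agent.Igusa.LaurentExt
import Mathlib.RingTheory.Polynomial.RationalRoot

/-!
# The vertical unit

`Δ(τ) / Δ(p τ)` is a vertical unit; its reduction is a polynomial of degree `p - 1` in `j`.
-/

set_option autoImplicit false
set_option synthInstance.maxHeartbeats 400000
set_option maxHeartbeats 1000000
set_option linter.unusedSectionVars false

noncomputable section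

namespace Fermat.Agent.RT.MazurP

open ModularCurve AlgebraicCurve Polynomial Fermat.Agent.Semistable Fermat.Agent.Arith
open Fermat.Agent.RT.Mazur

variable {A : ValuationSubring QBar} {p M : ℕ} [Fact p.Prime] [NeZero M]

theorem order_rhoSer (K : Type*) [Field K] (n : ℕ) [Fact n.Prime] :
    rhoSer n K ≠ 0 ∧ (rhoSer n K).order = 1 - n := by
  have h1 : qExpand K n (Igusa.deltaInvSer K) ≠ 0 := fun h =>
    Igusa.deltaInvSer_ne_zero (qExpand_injective n (by rw [h, map_zero]))
  refine ⟨mul_ne_zero Igusa.deltaSer_ne_zero h1, ?_⟩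
  rw [rhoSer, HahnSeries.order_mul Igusa.deltaSer_ne_zero h1, Igusa.order_deltaSer,
    Igusa.order_qExpand Igusa.deltaInvSer_ne_zero, Igusa.order_deltaInvSer]
  ring

theorem order_aeval_jqModC (K : Type*) [Field K] {P : K[X]} (hP : P ≠ 0) :
    (aeval (jqModC K) P).order = -(P.natDegree : ℤ) := by
  refine Igusa.order_eq_of_coeff ?_ fun m hm => Igusa.coeff_aeval_jqModC_of_lt P hm
  rw [Igusa.coeff_aeval_jqModC_neg_natDegree]
  exact leadingCoeff_ne_zero.mpr hP

/-- An element of `k(j)` integral over `k[j]` is a polynomial in `j`. -/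
theorem exists_poly_of_integral {K : Type*} [Field K] {z : LaurentSeries K}
    (hz : z ∈ IntermediateField.adjoin K {jqModC K}) {R : K[X][X]} (hR : R.Monic)
    (h : eval₂ (aeval (jqModC K)).toRingHom z R = 0) :
    ∃ P : K[X], z = aeval (jqModC K) P := by
  have hinj : Function.Injective (aeval (R := K) (jqModC K)) := Igusa.aeval_jqModC_injective
  obtain ⟨a, b, rfl⟩ := IntermediateField.mem_adjoin_simple_iff K z |>.mp hz
  rcases eq_or_ne b 0 with rfl | hb
  · exact ⟨0, by rw [map_zero, div_zero]⟩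
  let ψ : FractionRing K[X] →+* LaurentSeries K := IsLocalization.lift
    (M := nonZeroDivisors K[X]) (g := (aeval (jqModC K)).toRingHom)
    fun x => isUnit_iff_ne_zero.mpr fun h0 => nonZeroDivisors.ne_zero x.2 (hinj (by
      rw [map_zero]; exact h0))
  have hψ : ∀ x : K[X], ψ (algebraMap K[X] (FractionRing K[X]) x) = aeval (jqModC K) x :=
    fun x => IsLocalization.lift_eq _ x
  set r : FractionRing K[X] := algebraMap K[X] _ a / algebraMap K[X] _ b with hr
  have hψr : ψ r = aeval (jqModC K) a / aeval (jqModC K) b := by rw [hr, map_div₀, hψ, hψ]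
  have hint : IsIntegral K[X] r := by
    refine ⟨R, hR, ψ.injective ?_⟩
    rw [map_zero, hom_eval₂, hψr]
    refine Eq.trans ?_ h
    congr 1
    exact RingHom.ext hψ
  obtain ⟨P, hP⟩ := IsIntegrallyClosed.isIntegral_iff.mp hint
  exact ⟨P, by rw [← hψr, ← hP, hψ]⟩

variable [CharP (Res A) p]

theorem isIntegral_unitU (hpM : ¬ p ∣ M) :
    IsIntegral (Algebra.adjoin QBar {upF M p (jM M)}) (unitU p M hpM) ∧
      IsIntegral (Algebra.adjoin QBar {upF M p (jM M)}) (unitU p M hpM)⁻¹ := by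
  have key : ∀ v : Place QBar (FB (p * M)),
      (∀ x ∈ Algebra.adjoin QBar ({upF M p (jM M)} : Set (FB (p * M))),
        x ∈ v.toValuationSubring) → v.ord (unitU p M hpM) = 0 := fun v hv =>
    ord_unitU p M hpM (FF.ord_nonneg v (hv _ (Algebra.self_mem_adjoin_singleton _ _)))
  exact ⟨FF.isIntegral_of_forall_mem _ fun v hv =>
      (FF.mem_ordGe_zero v).mp (FF.mem_ordGe_of_le v (key v hv).ge),
    FF.isIntegral_of_forall_mem _ fun v hv =>
      (FF.mem_ordGe_zero v).mp (FF.mem_ordGe_of_le v (by rw [v.ord_inv, key v hv, neg_zero]))⟩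

/-- The reduction of the unit is a polynomial of degree `p - 1` in `j`. -/
theorem exists_poly_rhoSer (hA : A.LiesOverPrime p) :
    ∃ P : (Res A)[X], P.natDegree = p - 1 ∧ P ≠ 0 ∧
      aeval (jqModC (Res A)) P = rhoSer p (Res A) := by
  have hp : p.Prime := Fact.out
  have h1 : ¬ p ∣ 1 := hp.not_dvd_one
  have hM1 : ((1 : ℕ) : Res A) ≠ 0 := by simp
  have := RedTorsion.isFunctionField_full (K := Res A) (N := 1) (F := KM A 1) rfl hM1
  have h0 : iota2 1 p h1 0 (unitU p 1 h1) ∈ locS A := intS_le_locS (unitU_mem_intS p 1 h1 A)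
  have hU : unitU p 1 h1 ∈ loc2 A (iota2 1 p h1) := (mem_loc2 _).mpr fun s => by
    fin_cases s
    · exact h0
    · have hw : wEquiv p 1 h1 (unitU p 1 h1) =
          algebraMap QBar (FB (p * 1)) ((p : QBar) ^ 12) * (unitU p 1 h1)⁻¹ := by
        rw [← wEquiv_unitU_mul p 1 h1, mul_inv_cancel_right₀ (unitU_ne_zero p 1 h1)]
      show (wEquiv p 1 h1 (unitU p 1 h1) : LSer) ∈ locS A
      rw [hw]
      have hr : redL A ⟨_, intS_le_locS (unitU_mem_intS p 1 h1 A)⟩ ≠ 0 := by
        rw [redL_unitU]; exact (order_rhoSer (Res A) p).1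
      obtain ⟨hi, -⟩ := inv_mem_locS (intS_le_locS (unitU_mem_intS p 1 h1 A)) hr
      push_cast
      refine mul_mem (intS_le_locS ?_) hi
      exact pow_mem (natCast_mem (intS A) p) 12
  set x : loc2 A (iota2 1 p h1) := ⟨_, hU⟩
  obtain ⟨R, hR, hrel⟩ := red2_integral (A := A) 1 p h1 hA hM1 (isParam_jM (A := A) 1 p)
    (x := x) (isIntegral_unitU h1).1 0
  have hpow : red2 A (iota2 1 p h1) (upParam 1 h1 (⟨jM 1, jM_mem 1⟩ : loc2 A (iota1 1))) 0 =
      jqModC (Res A) := by
    rw [red2_upF, red1_jM]; rfl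
  have hval : red2 A (iota2 1 p h1) x 0 = rhoSer p (Res A) := by
    rw [red2_apply]; exact redL_unitU p 1 h1 A
  rw [hpow, hval] at hrel
  have hmem : rhoSer p (Res A) ∈ IntermediateField.adjoin (Res A) {jqModC (Res A)} := by
    have h := red2_mem_KM (A := A) 1 p h1 hM1 x 0
    rw [hval] at h
    refine (IntermediateField.adjoin_le_iff.mpr ?_) h
    rintro _ ⟨d, hd, hd1, rfl⟩
    obtain rfl := Nat.dvd_one.mp hd1
    rw [qExpand_one_apply]
    exact IntermediateField.mem_adjoin_simple_self _ _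
  obtain ⟨P, hP⟩ := exists_poly_of_integral hmem hR hrel
  have hP0 : P ≠ 0 := by
    rintro rfl
    rw [map_zero] at hP
    exact (order_rhoSer (Res A) p).1 hP
  refine ⟨P, ?_, hP0, hP.symm⟩
  have h2 := (order_rhoSer (Res A) p).2
  rw [hP, order_aeval_jqModC _ hP0] at h2
  have := hp.one_le
  omega

/-- The vertical unit at level `p M`. -/
theorem exists_vUnit [FF.IsFunctionField (Res A) (KM A M)] (hA : A.LiesOverPrime p)
    (_hM : (M : Res A) ≠ 0) (hpM : ¬ p ∣ M) : Nonempty (VUnit A hpM) := by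
  have hp : p.Prime := Fact.out
  set U := unitU p M hpM with hU
  have h0 : iota2 M p hpM 0 U ∈ locS A := intS_le_locS (unitU_mem_intS p M hpM A)
  have hred : redL A ⟨_, h0⟩ = rhoSer p (Res A) := redL_unitU p M hpM A
  obtain ⟨hinv, hinvr⟩ := inv_mem_locS h0 (by rw [hred]; exact (order_rhoSer (Res A) p).1)
  have hw1 : algebraMap QBar LSer ((p : QBar) ^ 12)⁻¹ * iota2 M p hpM 1 U =
      (iota2 M p hpM 0 U)⁻¹ := by
    show _ * (wEquiv p M hpM U : LSer) = _
    have e : wEquiv p M hpM U = algebraMap QBar (FB (p * M)) ((p : QBar) ^ 12) * U⁻¹ := by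
      rw [← wEquiv_unitU_mul p M hpM, mul_inv_cancel_right₀ (unitU_ne_zero p M hpM)]
    rw [e, IntermediateField.coe_mul, IntermediateField.coe_inv, ← mul_assoc]
    show algebraMap QBar LSer _ * algebraMap QBar LSer _ * _ = _
    rw [← map_mul, inv_mul_cancel₀ (pow_ne_zero _ (Nat.cast_ne_zero.mpr hp.ne_zero)), map_one,
      one_mul]
    rfl
  obtain ⟨P, hdeg, hP0, hP⟩ := exists_poly_rhoSer (A := A) (p := p) hA
  set ub : KM A M := aeval (jK A M) P with hub
  have hubc : (ub : LaurentSeries (Res A)) = rhoSer p (Res A) := by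
    rw [← hP, hub]
    exact (aeval_algHom_apply (KM A M).val (jK A M) P).symm
  refine ⟨⟨U, unitU_ne_zero p M hpM, fun σ => Subtype.ext ?_, (isIntegral_unitU hpM).1,
    (isIntegral_unitU hpM).2, ub, fun h => (order_rhoSer (Res A) p).1 (by
      rw [← hubc, h]; rfl), h0, by rw [hred, hubc], by rw [hw1]; exact hinv, ?_, ?_, ?_⟩⟩
  · rw [coe_arithmeticRingAut]; exact coeffMap_unitU p M hpM _
  · rw [redL_congr _ hinv hw1, hinvr, hred, hubc]
  · intro Q hQ
    exact FF.ord_nonneg Q (FF.aeval_mem_valuationSubring Q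
      ((FF.mem_ordGe_zero Q).mp (FF.mem_ordGe_of_le Q hQ)) P)
  · intro Q hQ
    rw [hub, (RedTorsion.ord_aeval_of_pole Q hQ P hP0).2, hdeg, Nat.cast_sub hp.one_le]
    push_cast
    ring

end Fermat.Agent.RT.MazurP

end
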