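import Fermat.Agent.EC.Reduction.Frey
import Fermat.Prelude.Def_FLTPrelim_Modularity

/-!
# Two is a bad prime of every integral model of the Frey curve
-/

set_option autoImplicit false

namespace Fermat.Agent.RT.MazurP

open WeierstrassCurve

/-- A prime dividing the discriminant but not `c₄` of one integral model divides the discriminant
of every other. -/
theorem dvd_Δ_of_models {W W' : WeierstrassCurve ℤ} {E : WeierstrassCurve ℚ}
    (hW : W.IsIntegralModelOf E) (hW' : W'.map (Int.castRingHom ℚ) = E) {q : ℕ} (hq : q.Prime)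
    (hΔ : (q : ℤ) ∣ W'.Δ) (hc : ¬ (q : ℤ) ∣ W'.c₄) : (q : ℤ) ∣ W.Δ := by
  obtain ⟨C, hC⟩ := hW
  have e : ((W.Δ * W'.c₄ ^ 3 : ℤ) : ℚ) = ((W.c₄ ^ 3 * W'.Δ : ℤ) : ℚ) := by
    have h1 := congrArg WeierstrassCurve.Δ hC
    have h2 := congrArg WeierstrassCurve.c₄ hC
    rw [← hW', variableChange_Δ, map_Δ, map_Δ, eq_intCast, eq_intCast] at h1
    rw [← hW', variableChange_c₄, map_c₄, map_c₄, eq_intCast, eq_intCast] at h2
    push_cast
    rw [← h1, ← h2]
    ring
  have h : (q : ℤ) ∣ W.Δ * W'.c₄ ^ 3 := by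
    rw [Int.cast_injective e]; exact hΔ.mul_left _
  exact ((Nat.prime_iff_prime_int.mp hq).dvd_or_dvd h).resolve_right fun h' =>
    hc ((Nat.prime_iff_prime_int.mp hq).dvd_of_dvd_pow h')

/-- `2` divides the discriminant of the Frey model. -/
theorem two_dvd_freyCurveInt_Δ (P : FreyPackage) : ((2 : ℕ) : ℤ) ∣ P.freyCurveInt.Δ := by
  have h : (2 : ℤ) ^ 10 ∣ (P.a * P.b * P.c) ^ (2 * P.p) :=
    (pow_dvd_pow_of_dvd P.two_dvd_abc 10).trans (pow_dvd_pow _ (by have := P.hp5; omega))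
  rw [← EC.Reduction.Frey.Δ_eq P, show (2 : ℤ) ^ 10 = 2 ^ 8 * 4 by norm_num] at h
  push_cast
  exact (show (2 : ℤ) ∣ 4 by norm_num).trans ((mul_dvd_mul_iff_left (by norm_num)).mp h)

/-- `2` is a good prime of no integral model of the Frey curve. -/
theorem not_isGoodPrimeFor_two (P : FreyPackage) {W : WeierstrassCurve ℤ}
    (hW : W.IsIntegralModelOf P.freyCurve) : ¬ W.IsGoodPrimeFor 2 :=
  fun h => h (dvd_Δ_of_models hW (EC.Reduction.Frey.freyCurve_eq_map P).symm Nat.prime_two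
    (two_dvd_freyCurveInt_Δ P)
    (EC.Reduction.Frey.not_dvd_c₄ P Nat.prime_two (by exact_mod_cast P.two_dvd_abc)))

end Fermat.Agent.RT.MazurP
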