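import Fermat.Agent.RT.MazurP.Plane
import Fermat.Agent.RT.MazurP.BadPrime
import Fermat.Prelude.Def_FLTPrelim_ModularRep
import Fermat.Prelude.Def_FreyPackage_IsConductorLevel

/-!
# Lowering the level at `p`

The Frey torsion inside the Jacobian of level `p M`, together with the absence of invariant maps
on flat groups at level `p (4 M)`, gives the modularity of level `M`.
-/

set_option autoImplicit false
set_option synthInstance.maxHeartbeats 400000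
set_option maxHeartbeats 1000000
set_option linter.unusedSectionVars false

noncomputable section

namespace Fermat.Agent.RT.MazurP

open ModularCurve Fermat.Agent.Semistable Fermat.Agent.Arith

/-- The primes used. -/
def goodSet (W₀ : WeierstrassCurve ℤ) (p : ℕ) (l : ℕ) : Prop := W₀.IsGoodPrimeFor l ∧ l ≠ p

/-- The torsion of the Frey curve seen in the Jacobian of level `N`, with its behaviour at `p`. -/
def TorsionAtP (P : FreyPackage) (N : ℕ) [NeZero N] (A : ValuationSubring QBar) : Prop :=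
  ∃ W₀ : WeierstrassCurve ℤ, W₀.IsIntegralModelOf P.freyCurve ∧
    (∀ l, l.Prime → goodSet W₀ P.p l → ¬ l ∣ N * P.p) ∧
    (∃ l, l.Prime ∧ goodSet W₀ P.p l ∧ ¬ (P.p : ℤ) ∣ W₀.apOfModel l - (1 + l)) ∧
    ((∃ x : JZero N, x ≠ 0 ∧ P.p • x = 0 ∧ IsEigen N (goodSet W₀ P.p) W₀.apOfModel x ∧
        ∀ τ ∈ A.inertiaSubgroupIn ℚ, τ • x = x) ∨
      ∃ (W : Wild A P.p) (x₁ x₀ : JZero N), x₀ ≠ 0 ∧ P.p • x₁ = 0 ∧ P.p • x₀ = 0 ∧
        IsEigen N (goodSet W₀ P.p) W₀.apOfModel x₁ ∧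
        IsEigen N (goodSet W₀ P.p) W₀.apOfModel x₀ ∧
        (∀ τ ∈ W.C.H, τ • x₁ = x₁) ∧ (∀ τ ∈ W.C₁.H, τ • x₀ = x₀) ∧ W.σ • x₁ = x₁ + x₀ ∧
        ∀ τ ∈ A.inertiaSubgroupIn ℚ, ∃ n c : ℤ, τ • x₀ = n • x₀ ∧ τ • x₁ = x₁ + c • x₀)

/-- A prime exactly dividing a conductor level. -/
theorem exists_eq_mul (P : FreyPackage) {N : ℕ} (hcond : P.IsConductorLevel N) (hpN : P.p ∣ N) :
    ∃ M : ℕ, N = P.p * M ∧ 0 < M ∧ ¬ P.p ∣ M ∧ ¬ P.p ∣ 4 * M := by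
  obtain ⟨M, rfl⟩ := hpN
  have hp := P.pp
  have hnd : ¬ P.p ∣ M := fun h =>
    hp.not_isUnit (hcond.squarefree P.p (mul_dvd_mul_left P.p h))
  refine ⟨M, rfl, Nat.pos_of_ne_zero fun h => hnd (h ▸ dvd_zero _), hnd, fun h => ?_⟩
  rcases hp.dvd_mul.mp h with h | h
  · have := Nat.le_of_dvd (by norm_num) h
    have := P.hp5
    omega
  · exact hnd h

/-- Level lowering at `p` from the torsion and the geometric input. -/
theorem lower_of_inputs (P : FreyPackage) {N : ℕ} (hcond : P.IsConductorLevel N)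
    (hpN : P.p ∣ N)
    (hTor : ∀ [NeZero N] (A : ValuationSubring QBar), A.LiesOverPrime P.p → TorsionAtP P N A)
    (hGeo : ∀ [Fact P.p.Prime] (A : ValuationSubring QBar), A.LiesOverPrime P.p →
      ∀ (M : ℕ) [NeZero M] (hpM : ¬ P.p ∣ M), 4 ∣ M → NoFlatQuotient A M P.p hpM) :
    ∃ M : ℕ, M ∣ N ∧ ¬ P.p ∣ M ∧ P.ModularRepOfLevel M := by
  obtain ⟨M, rfl, hM, hpM, hpM4⟩ := exists_eq_mul P hcond hpN
  have : Fact P.p.Prime := ⟨P.pp⟩
  have : NeZero M := ⟨hM.ne'⟩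
  obtain ⟨A, hA⟩ := exists_liesOverPrime P.pp
  obtain ⟨W₀, hW₀, hG', hne, hcases⟩ := hTor A hA
  have hG : ∀ l, l.Prime → goodSet W₀ P.p l → ¬ l ∣ P.p * (4 * M) := fun l hl hg h => by
    rcases hl.dvd_mul.mp h with h | h
    · exact hg.2 ((Nat.prime_dvd_prime_iff_eq hl P.pp).mp h)
    rcases hl.dvd_mul.mp h with h | h
    · have h2 : l = 2 := (Nat.prime_dvd_prime_iff_eq hl Nat.prime_two).mp
        (hl.dvd_of_dvd_pow (show l ∣ 2 ^ 2 from h))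
      exact not_isGoodPrimeFor_two P hW₀ (h2 ▸ hg.1)
    · exact hG' l hl hg (dvd_mul_of_dvd_left (dvd_mul_of_dvd_right h _) _)
  have hg := hGeo A hA (4 * M) hpM4 (dvd_mul_right 4 M)
  have hform : CongrForm M P.p (goodSet W₀ P.p) W₀.apOfModel := by
    rcases hcases with ⟨x, hx0, hxp, hxe, hxf⟩ |
      ⟨W, x₁, x₀, hx0, hp₁, hp₀, he₁, he₀, hf₁, hf₀, hσ, hI⟩
    · exact congrForm_of_fixed hA P.hp5 hpM hpM4 hg _ _ hG hne hx0 hxp hxe hxf
    · exact congrForm_of_wild hA P.hp5 hpM hpM4 hg _ _ hG hne W hx0 hp₁ hp₀ he₁ he₀ hf₁ hf₀ hσ hI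
  obtain ⟨g, hgf, 𝔪, hmax, hp𝔪, hcong⟩ := hform
  exact ⟨M, dvd_mul_left M _, hpM, g, W₀, 𝔪, hgf, hW₀, hmax, hp𝔪,
    fun l hl hgood _ hlp => hcong l hl ⟨hgood, hlp⟩⟩

end Fermat.Agent.RT.MazurP

end
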