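import Fermat.Agent.RT.MazurP.Basic
import Fermat.Agent.Semistable.Pairs

/-!
# Orders of reductions of functions vanishing on one component

A vertical unit bounds, at the places of level `M` over the residue field, the orders of the two
reductions of a function with poles at the cusps only, in terms of its order along each component.
-/

set_option autoImplicit false

noncomputable section

namespace Fermat.Agent.RT.MazurP

open ModularCurve AlgebraicCurve Polynomial Fermat.Agent.Semistable Fermat.Agent.Arith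
open Fermat.Agent.RT.Mazur
-- Both lines shorten the searches for `Algebra` instances on `FB N` and on Laurent series.
attribute [-instance] IntermediateField.algebra'
attribute [local instance 10000] HahnSeries.powerSeriesAlgebra

variable {A : ValuationSubring QBar} {p M : ℕ} [Fact p.Prime] [NeZero M] {hpM : ¬ p ∣ M}

variable (A) in
/-- A function of level `p M` without zeros and poles outside the cusps whose divisor on the
reduction is a multiple of one component. -/
structure VUnit (hpM : ¬ p ∣ M) where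
  /-- The function. -/
  U : FB (p * M)
  U_ne : U ≠ 0
  gal : ∀ σ : GQ, galF (p * M) σ U = U
  int : IsIntegral (Algebra.adjoin QBar {upF M p (jM M)}) U
  int_inv : IsIntegral (Algebra.adjoin QBar {upF M p (jM M)}) U⁻¹
  /-- Its reduction. -/
  ub : KM A M
  ub_ne : ub ≠ 0
  mem₀ : iota2 M p hpM 0 U ∈ locS A
  red₀ : redL A ⟨_, mem₀⟩ = ub
  mem₁ : algebraMap QBar LSer ((p : QBar) ^ 12)⁻¹ * iota2 M p hpM 1 U ∈ locS A
  red₁ : redL A ⟨_, mem₁⟩ = (ub : LaurentSeries (Res A))⁻¹
  ub_int : ∀ P : Place (Res A) (KM A M), 0 ≤ P.ord (jK A M) → 0 ≤ P.ord ub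
  ub_cusp : ∀ P : Place (Res A) (KM A M), P.ord (jK A M) < 0 →
    P.ord ub = ((p : ℤ) - 1) * P.ord (jK A M)

/-- The order of the reduced unit away from the cusps. -/
def VUnit.oW (V : VUnit A hpM) (P : Place (Res A) (KM A M)) : ℤ :=
  if 0 ≤ P.ord (jK A M) then P.ord V.ub else 0

theorem VUnit.oW_nonneg (V : VUnit A hpM) (P : Place (Res A) (KM A M)) : 0 ≤ V.oW P := by
  rw [VUnit.oW]
  split_ifs with h
  · exact V.ub_int P h
  · exact le_rfl

/-- `redL` of a product. -/
theorem redL_mul' {x y : LSer} (hx : x ∈ locS A) (hy : y ∈ locS A) :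
    redL A ⟨x * y, mul_mem hx hy⟩ = redL A ⟨x, hx⟩ * redL A ⟨y, hy⟩ :=
  map_mul (redL A) (⟨x, hx⟩ : locS A) ⟨y, hy⟩

/-- `redL` of a power. -/
theorem redL_pow' {x : LSer} (hx : x ∈ locS A) (n : ℕ) :
    redL A ⟨x ^ n, pow_mem hx n⟩ = redL A ⟨x, hx⟩ ^ n := by
  induction n with
  | zero => exact (redL_congr _ (one_mem _) (pow_zero x)).trans (map_one (redL A))
  | succ n ih =>
    rw [pow_succ (redL A ⟨x, hx⟩) n, ← ih, ← redL_mul']
    exact redL_congr _ _ (pow_succ x n)

/-- A number of valuation one has nonzero residue. -/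
theorem residue_unit_ne_zero {c : QBar} (hc : A.valuation c = 1) :
    ∃ h : c ∈ A, IsLocalRing.residue A ⟨c, h⟩ ≠ 0 := by
  refine ⟨(A.valuation_le_one_iff c).mp hc.le, fun h0 => ?_⟩
  have := (residue_eq_zero_iff _).mp h0
  rw [ValuationSubring.mem_nonunits_iff, hc] at this
  exact lt_irrefl _ this

omit [Fact p.Prime] in
/-- A power of the uniformiser and a power of `p` with the same valuation. -/
theorem CoefField.valuation_ratio_eq_one (C : CoefField A p) (k : ℕ) :
    A.valuation ((C.π ^ k) ^ (12 * C.e) * (((p : QBar) ^ 12)⁻¹) ^ k) = 1 := by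
  have h0 : A.valuation C.π ≠ 0 := (Valuation.ne_zero_iff _).mpr C.π_ne_zero
  rw [map_mul, map_pow, map_pow, map_pow, map_inv₀, map_pow, C.val_p, ← pow_mul, ← pow_mul,
    inv_pow, ← pow_mul, show k * (12 * C.e) = C.e * 12 * k by ring]
  exact mul_inv_cancel₀ (pow_ne_zero _ h0)

theorem unscale_pow {F : Type*} [Field F] (α β Z W : F) (N k : ℕ) (hα : α ≠ 0) (hβ : β ≠ 0) :
    Z ^ N * W⁻¹ ^ k = α ^ N * β ^ k * ((α⁻¹ * Z) ^ N * (β * W)⁻¹ ^ k) := by
  simp only [mul_pow, mul_inv, inv_pow]
  field_simp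

variable [CharP (Res A) p] [FF.IsFunctionField (Res A) (KM A M)]

omit [FF.IsFunctionField (Res A) (KM A M)] in
/-- Both reductions of an integral element are regular away from the cusps. -/
theorem red2_ord_nonneg (hA : A.LiesOverPrime p) (hM : (M : Res A) ≠ 0)
    {x : loc2 A (iota2 M p hpM)}
    (hx : IsIntegral (Algebra.adjoin QBar {upF M p (jM M)}) (x : FB (p * M))) {s : Fin 2}
    {a : KM A M} (ha : red2 A (iota2 M p hpM) x s = a) (P : Place (Res A) (KM A M))
    (hP : 0 ≤ P.ord (jK A M)) : 0 ≤ P.ord a := by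
  obtain ⟨R, hR, hrel⟩ := red2_integral (A := A) M p hpM hA hM (isParam_jM (A := A) M p)
    (x := x) hx s
  have hpow : red2 A (iota2 M p hpM) (upParam M hpM (⟨jM M, jM_mem M⟩ : loc2 A (iota1 M))) s =
      jqModC (Res A) ^ sideDeg p s := by
    rw [red2_upF, red1_jM]
    fin_cases s
    · exact (pow_one _).symm
    · exact (pow_eq_qExpand_gen_one p).symm
  rw [hpow, ha] at hrel
  have hu : jK A M ^ sideDeg p s ∈ FF.ordGe P 0 := by
    simpa using FF.pow_mem_ordGe P (FF.mem_ordGe_of_le P hP) (sideDeg p s)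
  refine FF.ord_nonneg P ((FF.mem_ordGe_zero P).mp (mem_ordGe_zero_of_rel P hu hR ?_))
  refine (KM A M).val.injective ?_
  rw [map_zero]
  refine Eq.trans ?_ hrel
  show (KM A M).val.toRingHom _ = _
  rw [hom_eval₂]
  congr 1
  exact RingHom.ext fun q => (aeval_algHom_apply (KM A M).val (jK A M ^ sideDeg p s) q).symm

variable (V : VUnit A hpM) (C : CoefField A p)

omit [FF.IsFunctionField (Res A) (KM A M)] in
/-- The auxiliary function, with poles only at the cusps, divisible by `p` on the first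
component. -/
theorem exists_cusp_aux (_hA : A.LiesOverPrime p) :
    ∃ w : loc2 A (iota2 M p hpM), (w : FB (p * M)) ∈ HN M p p ∧
      (∃ y ∈ locS A, iota2 M p hpM 0 (w : FB (p * M)) = algebraMap QBar LSer (p : QBar) * y) ∧
      red2 A (iota2 M p hpM) w 1 = jqModC (Res A) - jqModC (Res A) ^ (p * p) := by
  set tj : loc2 A (iota1 M) := ⟨jM M, jM_mem M⟩ with htj
  set d : loc2 A (iota2 M p hpM) := ⟨_, downF_mem_loc2 M p hpM tj.2⟩ with hd
  set u : loc2 A (iota2 M p hpM) := ⟨_, upF_mem_loc2 M p hpM tj.2⟩ with hu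
  have hj1 : jM M ∈ HM M 1 := by
    rw [RedTorsion.mem_polesSpace]
    intro v
    refine FF.ordGe_anti v ?_ (RedTorsion.poles_mem_ordGe v (jM M))
    rw [Nat.cast_one, one_mul]
  refine ⟨d - u ^ p, ?_, ?_, ?_⟩
  · show downF M p hpM (jM M) - upF M p (jM M) ^ p ∈ _
    refine sub_mem ?_ ?_
    · simpa using downF_mem_HN M p hpM hj1
    · have : ∀ i : ℕ, upF M p (jM M) ^ i ∈ HN M p i := fun i => by
        induction i with
        | zero => rw [pow_zero]; exact one_mem_polesSpace _ _
        | succ i ih => rw [pow_succ]; exact mul_mem_polesSpace ih (upF_mem_HN M p hj1)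
      exact this p
  · -- the first series has integral coefficients divisible by `p`
    obtain ⟨y, hy⟩ : ∃ y : LaurentSeries ℤ,
        qExpand ℤ p (jqModC ℤ) - jqModC ℤ ^ p = (p : LaurentSeries ℤ) * y := by
      have hz : coeffMap (Int.castRingHom (ZMod p)) (qExpand ℤ p (jqModC ℤ) - jqModC ℤ ^ p) = 0 := by
        rw [RingHom.map_sub, RingHom.map_pow, coeffMap_qExpand, coeffMap_jqModC, sub_eq_zero]
        refine (pow_char_eq_qExpand_of_fixed p fun n => ?_).symm
        rw [ZMod.pow_card]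
      refine ⟨(qExpand ℤ p (jqModC ℤ) - jqModC ℤ ^ p).map
        (⟨fun a : ℤ => a / p, Int.zero_ediv _⟩ : ZeroHom ℤ ℤ), ?_⟩
      · refine HahnSeries.ext (funext fun n => ?_)
        rw [← map_natCast (HahnSeries.C : ℤ →+* LaurentSeries ℤ), HahnSeries.C_mul_eq_smul,
          HahnSeries.coeff_smul, HahnSeries.map_coeff, smul_eq_mul, ZeroHom.coe_mk,
          Int.mul_ediv_cancel']
        have h := congrArg (fun s : LaurentSeries (ZMod p) => s.coeff n) hz
        rw [← ZMod.intCast_zmod_eq_zero_iff_dvd]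
        simpa only [coeffMap_coeff, HahnSeries.coeff_zero, eq_intCast] using h
    refine ⟨coeffMap (Int.castRingHom QBar) y, intS_le_locS (coeffMap_intCast_mem_intS y), ?_⟩
    show ((downF M p hpM (jM M) - upF M p (jM M) ^ p : FB (p * M)) : LSer) = _
    push_cast
    rw [coe_downF, coe_upF, coe_jM]
    have h := congrArg (coeffMap (Int.castRingHom QBar)) hy
    rwa [RingHom.map_sub, RingHom.map_pow, RingHom.map_mul, map_natCast, coeffMap_qExpand,
      coeffMap_jqModC] at h
  · rw [RingHom.map_sub, RingHom.map_pow, hd, hu, red2_downF, red2_upF, Pi.sub_apply,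
      Pi.pow_apply]
    simp only [Matrix.cons_val_one, Matrix.cons_val_fin_one, htj, red1_jM]
    rw [← pow_eq_qExpand_gen_one p, ← pow_mul]

/-- The bounds. -/
theorem bounds (hA : A.LiesOverPrime p) (hM : (M : Res A) ≠ 0) {n k : ℕ} {z : FB (p * M)}
    (hz : z ∈ HN M p n) (h0 : iota2 M p hpM 0 z ∈ locS A)
    (h1 : algebraMap QBar LSer (C.π ^ k)⁻¹ * iota2 M p hpM 1 z ∈ locS A)
    {a b : KM A M} (ha : redL A ⟨_, h0⟩ = a) (hb : redL A ⟨_, h1⟩ = b)
    (P : Place (Res A) (KM A M)) :
    (a ≠ 0 → (k : ℤ) * V.oW P - 12 * C.e * (n * FF.poles (Res A) (jK A M) P) ≤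
        12 * C.e * P.ord a) ∧
      (b ≠ 0 → -((k : ℤ) * V.oW P) - 12 * C.e * (p * n * FF.poles (Res A) (jK A M) P) ≤
        12 * C.e * P.ord b) := by
  have hp : p.Prime := Fact.out
  have hπA : C.π ^ k ∈ A := pow_mem (mem_of_mem_nonunits C.π_nonunit) k
  have h1' : iota2 M p hpM 1 z ∈ locS A := by
    have h := mul_mem (algebraMap_mem_locS hπA) h1
    rwa [← mul_assoc, ← map_mul, mul_inv_cancel₀ (pow_ne_zero k C.π_ne_zero), map_one,
      one_mul] at h
  set x : loc2 A (iota2 M p hpM) := ⟨z, (mem_loc2 _).mpr fun s => by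
    fin_cases s
    · exact h0
    · exact h1'⟩ with hx
  by_cases hP : 0 ≤ P.ord (jK A M)
  · have hpole : FF.poles (Res A) (jK A M) P = 0 := by
      rw [FF.poles_apply, max_eq_left (neg_nonpos.mpr hP)]
    have hoW : V.oW P = P.ord V.ub := if_pos hP
    rw [hpole, mul_zero, mul_zero, sub_zero, mul_zero, mul_zero, sub_zero, hoW]
    -- the auxiliary integral function
    obtain ⟨hU0, hU0r⟩ := inv_mem_locS V.mem₀ (by
      rw [V.red₀]; exact fun h => V.ub_ne (Subtype.ext h))
    obtain ⟨hU1, hU1r⟩ := inv_mem_locS V.mem₁ (by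
      rw [V.red₁]; exact inv_ne_zero fun h => V.ub_ne (Subtype.ext h))
    set H : FB (p * M) := z ^ (12 * C.e) * V.U⁻¹ ^ k with hH
    set c : QBar := (C.π ^ k) ^ (12 * C.e) * (((p : QBar) ^ 12)⁻¹) ^ k with hc
    obtain ⟨hcA, hc0⟩ := residue_unit_ne_zero (A := A) (c := c) (C.valuation_ratio_eq_one k)
    have hH0 : iota2 M p hpM 0 H = iota2 M p hpM 0 z ^ (12 * C.e) * (iota2 M p hpM 0 V.U)⁻¹ ^ k := by
      rw [hH, map_mul, map_pow, map_pow, map_inv₀]
    have hH1 : iota2 M p hpM 1 H = algebraMap QBar LSer c *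
        ((algebraMap QBar LSer (C.π ^ k)⁻¹ * iota2 M p hpM 1 z) ^ (12 * C.e) *
          (algebraMap QBar LSer ((p : QBar) ^ 12)⁻¹ * iota2 M p hpM 1 V.U)⁻¹ ^ k) := by
      have hπ : algebraMap QBar LSer (C.π ^ k) ≠ 0 :=
        (_root_.map_ne_zero _).mpr (pow_ne_zero _ C.π_ne_zero)
      have hp12 : algebraMap QBar LSer ((p : QBar) ^ 12)⁻¹ ≠ 0 :=
        (_root_.map_ne_zero _).mpr (inv_ne_zero (pow_ne_zero _ (Nat.cast_ne_zero.mpr hp.ne_zero)))
      rw [hH, map_mul, map_pow, map_pow, map_inv₀, hc, map_mul, map_pow, map_pow]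
      refine (unscale_pow _ _ _ _ _ _ hπ hp12).trans ?_
      simp only [map_pow, map_inv₀]
    have hm0 : iota2 M p hpM 0 H ∈ locS A := by
      rw [hH0]; exact mul_mem (pow_mem h0 _) (pow_mem hU0 _)
    have hm1 : iota2 M p hpM 1 H ∈ locS A := by
      rw [hH1]; exact mul_mem (algebraMap_mem_locS hcA) (mul_mem (pow_mem h1 _) (pow_mem hU1 _))
    set Hl : loc2 A (iota2 M p hpM) := ⟨H, (mem_loc2 _).mpr fun s => by
      fin_cases s
      · exact hm0
      · exact hm1⟩ with hHl
    have hint : IsIntegral (Algebra.adjoin QBar {upF M p (jM M)}) (Hl : FB (p * M)) :=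
      ((isIntegral_of_mem_poles hz).pow _).mul (V.int_inv.pow _)
    have e0 : red2 A (iota2 M p hpM) Hl 0 =
        ((a ^ (12 * C.e) * V.ub⁻¹ ^ k : KM A M) : LaurentSeries (Res A)) := by
      rw [red2_apply, redL_congr _ (mul_mem (pow_mem h0 _) (pow_mem hU0 _)) hH0]
      rw [redL_mul' (pow_mem h0 _) (pow_mem hU0 _), redL_pow' h0, redL_pow' hU0, ha, hU0r, V.red₀]
      push_cast
      rfl
    set c' : KM A M := algebraMap (Res A) (KM A M) (IsLocalRing.residue A ⟨c, hcA⟩) with hc'
    have e1 : red2 A (iota2 M p hpM) Hl 1 =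
        ((c' * (b ^ (12 * C.e) * V.ub ^ k) : KM A M) : LaurentSeries (Res A)) := by
      rw [red2_apply, redL_congr _
        (mul_mem (algebraMap_mem_locS hcA) (mul_mem (pow_mem h1 _) (pow_mem hU1 _))) hH1]
      rw [redL_mul' (algebraMap_mem_locS hcA) (mul_mem (pow_mem h1 _) (pow_mem hU1 _)),
        redL_mul' (pow_mem h1 _) (pow_mem hU1 _), redL_pow' h1, redL_pow' hU1,
        redL_algebraMap hcA, hb, hU1r, V.red₁, inv_inv]
      push_cast
      rfl
    have hc'0 : c' ≠ 0 := (_root_.map_ne_zero _).mpr hc0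
    refine ⟨fun ha0 => ?_, fun hb0 => ?_⟩
    · have h := red2_ord_nonneg hA hM hint e0 P hP
      rw [P.ord_mul (pow_ne_zero _ ha0) (pow_ne_zero _ (inv_ne_zero V.ub_ne)), FF.ord_pow P,
        FF.ord_pow P, P.ord_inv] at h
      push_cast at h
      linarith
    · have h := red2_ord_nonneg hA hM hint e1 P hP
      rw [P.ord_mul hc'0 (mul_ne_zero (pow_ne_zero _ hb0) (pow_ne_zero _ V.ub_ne)),
        P.ord_mul (pow_ne_zero _ hb0) (pow_ne_zero _ V.ub_ne), FF.ord_pow P, FF.ord_pow P, hc',
        FF.ord_algebraMap, zero_add] at h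
      push_cast at h
      linarith
  · have hneg : P.ord (jK A M) < 0 := not_le.mp hP
    have hpole : FF.poles (Res A) (jK A M) P = -P.ord (jK A M) := by
      rw [FF.poles_apply, max_eq_right (neg_nonneg.mpr hneg.le)]
    have hoW : V.oW P = 0 := if_neg hP
    rw [hpole, hoW, mul_zero, neg_zero, zero_sub]
    have hPk := red2_mem_Pk (A := A) M p hpM hA hM (x := x) (n := n) hz
    rw [mem_Pk] at hPk
    refine ⟨fun ha0 => ?_, fun hb0 => ?_⟩
    · have e : red2 A (iota2 M p hpM) x 0 = a := by rw [red2_apply]; exact ha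
      rw [e, coe_mem_HkS, RedTorsion.mem_polesSpace] at hPk
      have h := FF.le_ord_of_mem_ordGe P ha0 (hPk.1 P)
      rw [hpole] at h
      linarith only [mul_le_mul_of_nonneg_left h (by positivity : (0 : ℤ) ≤ 12 * C.e)]
    · obtain ⟨w, hw, ⟨y, hy, hwy⟩, hw1⟩ := exists_cusp_aux (hpM := hpM) (M := M) hA
      set z' : FB (p * M) := algebraMap QBar (FB (p * M)) (C.π ^ k)⁻¹ * (z * (w : FB (p * M)) ^ k)
        with hz'
      have hdiv : (p : QBar) ^ k / C.π ^ k ∈ A := by
        refine (A.valuation_le_one_iff _).mp ?_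
        rw [map_div₀, map_pow, map_pow, C.val_p, ← pow_mul]
        refine (div_le_one₀ (pow_pos (zero_lt_iff.mpr
          ((Valuation.ne_zero_iff _).mpr C.π_ne_zero)) _)).mpr ?_
        exact pow_le_pow_right_of_le_one' ((A.valuation_le_one_iff _).mpr
          (mem_of_mem_nonunits C.π_nonunit)) (Nat.le_mul_of_pos_left k C.e_pos)
      have hz0 : iota2 M p hpM 0 z' ∈ locS A := by
        have h := mul_mem (mul_mem (algebraMap_mem_locS hdiv) h0) (pow_mem hy k)
        convert h using 1
        rw [hz', map_mul, map_mul, map_pow, AlgHom.commutes, hwy, map_div₀, map_pow,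
          map_inv₀, mul_pow, div_eq_mul_inv]
        ring
      have hz1 : iota2 M p hpM 1 z' = algebraMap QBar LSer (C.π ^ k)⁻¹ * iota2 M p hpM 1 z *
          iota2 M p hpM 1 (w : FB (p * M)) ^ k := by
        rw [hz', map_mul, map_mul, map_pow, AlgHom.commutes, mul_assoc]
      set x' : loc2 A (iota2 M p hpM) := ⟨z', (mem_loc2 _).mpr fun s => by
        fin_cases s
        · exact hz0
        · show iota2 M p hpM 1 z' ∈ locS A
          rw [hz1]; exact mul_mem h1 (pow_mem ((mem_loc2 _).mp w.2 1) k)⟩ with hx'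
      have hpw : ∀ i : ℕ, (w : FB (p * M)) ^ i ∈ HN M p (p * i) := fun i => by
        induction i with
        | zero => rw [pow_zero]; exact one_mem_polesSpace _ _
        | succ i ih =>
          rw [pow_succ, Nat.mul_succ]
          exact mul_mem_polesSpace ih hw
      have hx'mem : z' ∈ HN M p (n + p * k) := by
        rw [hz', ← Algebra.smul_def]
        exact Submodule.smul_mem _ _ (mul_mem_polesSpace hz (hpw k))
      have hPk' := red2_mem_Pk (A := A) M p hpM hA hM (x := x') (n := n + p * k) hx'mem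
      rw [mem_Pk] at hPk'
      have e : red2 A (iota2 M p hpM) x' 1 =
          ((b * (jK A M - jK A M ^ (p * p)) ^ k : KM A M) : LaurentSeries (Res A)) := by
        rw [red2_apply, redL_congr _ (mul_mem h1 (pow_mem ((mem_loc2 _).mp w.2 1) k)) hz1]
        rw [redL_mul' h1 (pow_mem ((mem_loc2 _).mp w.2 1) k), redL_pow' ((mem_loc2 _).mp w.2 1), hb,
          ← red2_apply, hw1]
        push_cast
        rw [coe_jK]
      rw [e, coe_mem_HkS, RedTorsion.mem_polesSpace] at hPk'
      set P' := P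
      have hj0 : jK A M ≠ 0 := fun h => by simp [h] at hneg
      have hpp : (1 : ℕ) < p * p := Nat.one_lt_mul_iff.mpr ⟨hp.pos, hp.pos, Or.inl hp.one_lt⟩
      have hordd : P.ord (jK A M - jK A M ^ (p * p)) = ((p * p : ℕ) : ℤ) * P.ord (jK A M) := by
        have hlt : P.ord (jK A M ^ (p * p)) < P.ord (jK A M) := by
          rw [FF.ord_pow P]
          exact mul_lt_of_one_lt_left hneg (by exact_mod_cast hpp)
        rw [sub_eq_neg_add, ← FF.ord_pow P, ← FF.ord_neg P (jK A M ^ (p * p))]
        rw [← FF.ord_neg P (jK A M ^ (p * p))] at hlt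
        exact (FF.ord_add_eq_left P (neg_ne_zero.mpr (pow_ne_zero _ hj0)) (Or.inr hlt)).2
      have hd0 : jK A M - jK A M ^ (p * p) ≠ 0 := fun h => by
        rw [h, P.ord_zero] at hordd
        exact (mul_neg_of_pos_of_neg (Nat.cast_pos.mpr (zero_lt_one.trans hpp)) hneg).ne
          hordd.symm
      have h := FF.le_ord_of_mem_ordGe P (mul_ne_zero hb0 (pow_ne_zero _ hd0)) (hPk'.2 P)
      rw [hpole, P.ord_mul hb0 (pow_ne_zero _ hd0), FF.ord_pow P, hordd] at h
      push_cast at h
      linarith only [mul_le_mul_of_nonneg_left h (by positivity : (0 : ℤ) ≤ 12 * C.e)]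

end Fermat.Agent.RT.MazurP

end
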