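import Fermat.Agent.RT.MazurP.Kum

/-!
# Counting the reductions

The two projections of the reduced spaces lie in Riemann-Roch spaces of level `M` cut out by the
orders of the reduced Kummer function and of the vertical unit. Comparing dimensions over a period
of the exponent gives an inequality; in case of equality all projections are full.
-/

set_option autoImplicit false
set_option synthInstance.maxHeartbeats 400000
set_option maxHeartbeats 1000000
set_option linter.unusedSectionVars false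

noncomputable section

namespace Fermat.Agent.RT.MazurP

open ModularCurve AlgebraicCurve Fermat.Agent.Semistable Fermat.Agent.Arith
open Fermat.Agent.RT.Mazur

/-! ### Rounding up -/

/-- `⌈a / b⌉`. -/
def cdiv (a b : ℤ) : ℤ := -((-a) / b)

theorem cdiv_le_iff {a b x : ℤ} (hb : 0 < b) : cdiv a b ≤ x ↔ a ≤ b * x := by
  rw [cdiv, neg_le, Int.le_ediv_iff_mul_le hb]
  constructor <;> intro h <;> linarith

theorem le_mul_cdiv {a b : ℤ} (hb : 0 < b) : a ≤ b * cdiv a b := (cdiv_le_iff hb).mp le_rfl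

theorem cdiv_eq {a b x : ℤ} (hb : 0 < b) (h₁ : a ≤ b * x) (h₂ : b * x < a + b) :
    cdiv a b = x := by
  refine le_antisymm ((cdiv_le_iff hb).mpr h₁) ?_
  by_contra h
  have h3 : cdiv a b ≤ x - 1 := by omega
  have h4 := (cdiv_le_iff hb).mp h3
  linarith

theorem cdiv_zero (b : ℤ) : cdiv 0 b = 0 := by simp [cdiv]

theorem cdiv_mono {a a' b : ℤ} (hb : 0 < b) (h : a ≤ a') : cdiv a b ≤ cdiv a' b :=
  (cdiv_le_iff hb).mpr (h.trans (le_mul_cdiv hb))

/-- Nested rounding. -/
theorem cdiv_mul_add {b e : ℤ} (hb : 0 < b) (he : 0 < e) (i x : ℤ) :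
    cdiv (b * i + x) (b * e) = cdiv (i + cdiv x b) e := by
  refine eq_of_forall_ge_iff fun z => ?_
  rw [cdiv_le_iff (mul_pos hb he), cdiv_le_iff he,
    show i + cdiv x b ≤ e * z ↔ cdiv x b ≤ e * z - i from le_sub_iff_add_le'.symm,
    cdiv_le_iff hb, mul_sub]
  constructor <;> intro h <;> linarith

theorem cdiv_add_self {e : ℤ} (he : 0 < e) (a : ℤ) : cdiv (a + e) e = cdiv a e + 1 := by
  refine eq_of_forall_ge_iff fun z => ?_
  rw [cdiv_le_iff he, ← le_sub_iff_add_le (a := cdiv a e), cdiv_le_iff he, mul_sub, mul_one]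
  constructor <;> intro h <;> linarith

/-- The sum over one period. -/
theorem sum_cdiv {e : ℕ} (he : 0 < e) (y : ℤ) :
    ∑ i ∈ Finset.range e, cdiv ((i : ℤ) + y) e = y + e - 1 := by
  have hstep : ∀ z : ℤ, ∑ i ∈ Finset.range e, cdiv ((i : ℤ) + (z + 1)) e =
      ∑ i ∈ Finset.range e, cdiv ((i : ℤ) + z) e + 1 := by
    intro z
    have h := Finset.sum_range_succ' (fun i : ℕ => cdiv ((i : ℤ) + z) e) e
    rw [Finset.sum_range_succ] at h
    push_cast at h
    rw [zero_add, show (e : ℤ) + z = z + e by ring, cdiv_add_self (by exact_mod_cast he)] at h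
    have e1 : ∑ i ∈ Finset.range e, cdiv ((i : ℤ) + (z + 1)) e =
        ∑ i ∈ Finset.range e, cdiv ((i : ℤ) + 1 + z) e :=
      Finset.sum_congr rfl fun i _ => by rw [show (i : ℤ) + (z + 1) = (i : ℤ) + 1 + z by ring]
    linarith
  induction y using Int.induction_on with
  | zero =>
    obtain ⟨d, rfl⟩ := Nat.exists_eq_succ_of_ne_zero he.ne'
    rw [Finset.sum_range_succ']
    simp only [Nat.cast_zero, add_zero, cdiv_zero]
    rw [Finset.sum_congr rfl fun i hi => cdiv_eq (x := 1) (by positivity)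
      (by have := Finset.mem_range.mp hi; omega) (by push_cast; omega)]
    simp
  | succ z ih => rw [hstep, ih]; ring
  | pred z ih =>
    have h := hstep (-(z : ℤ) - 1)
    rw [sub_add_cancel, ih] at h
    linarith

variable {A : ValuationSubring QBar} {p M : ℕ} [Fact p.Prime] [NeZero M]
variable {hpM : ¬ p ∣ M} {C : CoefField A p}

/-- The projections of the reduced spaces. -/
def Kum.Pr (K : Kum hpM C) (k : ℤ) (m : ℕ) (s : Fin 2) :
    Submodule (Res A) (LaurentSeries (Res A)) :=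
  (K.Im k m).map (LinearMap.proj s)

/-- `tw` changes by `π` from `k` to `k + 1`. -/
theorem tw_succ (k : ℤ) (φ : FB (p * M)) :
    tw hpM C.π k φ 1 = algebraMap QBar LSer C.π * tw hpM C.π (k + 1) φ 1 := by
  rw [tw_one_apply, tw_one_apply, ← mul_assoc, ← map_mul, neg_add, zpow_add₀ C.π_ne_zero, zpow_neg_one,
    ← mul_assoc, mul_comm C.π, mul_assoc (C.π ^ (-k)), mul_inv_cancel₀ C.π_ne_zero, mul_one]

theorem Kum.residue_π (_K : Kum hpM C) :
    IsLocalRing.residue A ⟨C.π, mem_of_mem_nonunits C.π_nonunit⟩ = 0 :=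
  (residue_eq_zero_iff _).mpr C.π_nonunit

/-- Reductions of elements of `V m` lie in the reduced space. -/
theorem Kum.red_mem_Im (K : Kum hpM C) {k : ℤ} {m : ℕ} {φ : FB (p * M)} (hφ : φ ∈ K.V m)
    (h : ∀ s, tw hpM C.π k φ s ∈ locS A) :
    (fun s => redL A ⟨tw hpM C.π k φ s, h s⟩) ∈ K.Im k m :=
  mem_redImage.mpr ⟨tw hpM C.π k φ, Submodule.mem_map_of_mem hφ, h, rfl⟩

/-- Elements killed by the second projection come from one step higher. -/
theorem Kum.mem_ker_proj_one (hA : A.LiesOverPrime p) (K : Kum hpM C) (k : ℤ) (m : ℕ)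
    (r : Fin 2 → LaurentSeries (Res A)) :
    (r ∈ K.Im k m ∧ r 1 = 0) ↔ (r 1 = 0 ∧ r 0 ∈ K.Pr (k + 1) m 0) := by
  have hp : p.Prime := Fact.out
  constructor
  · rintro ⟨hr, hr1⟩
    refine ⟨hr1, ?_⟩
    obtain ⟨φ, hφ, hφf, h, hred⟩ := (K.Im_spec hA k m).2.2 r hr
    have hnext : tw hpM C.π (k + 1) φ 1 ∈ locS A := by
      rcases eq_or_ne φ 0 with rfl | hφ0
      · rw [map_zero]; exact zero_mem _
      have hfix : C.Fix (iota2 M p hpM 1 φ) := fun τ hτ => by rw [← iota2_galF, hφf τ hτ]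
      have hne : iota2 M p hpM 1 φ ≠ 0 := (_root_.map_ne_zero _).mpr hφ0
      obtain ⟨hg, hgne⟩ := C.gord_spec hA hp (iota2_fracS M p hpM 1 φ) hne hfix
      generalize hgdef : C.gord (iota2 M p hpM 1 φ) = g at hg hgne
      have hk : k + 1 ≤ g := by
        by_contra hlt
        obtain ⟨d, hd⟩ : ∃ d : ℕ, k = g + d := ⟨(k - g).toNat, by omega⟩
        have hπd : C.π ^ d ∈ A := pow_mem (mem_of_mem_nonunits C.π_nonunit) d
        have h1 := h 1
        obtain ⟨h2, e2⟩ := redL_const_mul hπd h1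
        have e : algebraMap QBar LSer (C.π ^ d) * tw hpM C.π k φ 1 =
            algebraMap QBar LSer (C.π ^ (-g)) * iota2 M p hpM 1 φ := by
          rw [tw_one_apply, ← mul_assoc, ← map_mul, ← zpow_natCast, ← zpow_add₀ C.π_ne_zero, hd]
          congr 3
          ring
        refine hgne ?_
        rw [← redL_congr h2 hg e, e2, hred 1, hr1, mul_zero]
      obtain ⟨d, hd⟩ : ∃ d : ℕ, g = k + 1 + d := ⟨(g - (k + 1)).toNat, by omega⟩
      rw [tw_one_apply]
      have := mul_mem (algebraMap_mem_locS (pow_mem (mem_of_mem_nonunits C.π_nonunit) d)) hg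
      rwa [← mul_assoc, ← map_mul, ← zpow_natCast, ← zpow_add₀ C.π_ne_zero,
        show (d : ℤ) + -g = -(k + 1) by omega] at this
    have hm : ∀ s, tw hpM C.π (k + 1) φ s ∈ locS A := by
      intro s
      fin_cases s
      · have h0 := h 0
        rw [tw_zero_apply] at h0
        show tw hpM C.π (k + 1) φ 0 ∈ _
        rwa [tw_zero_apply]
      · exact hnext
    refine Submodule.mem_map.mpr ⟨_, K.red_mem_Im hφ hm, ?_⟩
    rw [LinearMap.proj_apply, ← hred 0]
    exact redL_congr _ _ (by rw [tw_zero_apply, tw_zero_apply])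
  · rintro ⟨hr1, hr0⟩
    obtain ⟨r', hr', hrr⟩ := hr0
    obtain ⟨φ, hφ, hφf, h, hred⟩ := (K.Im_spec hA (k + 1) m).2.2 r' hr'
    obtain ⟨h1, e1⟩ := redL_const_mul (mem_of_mem_nonunits C.π_nonunit) (h 1)
    have hm : ∀ s, tw hpM C.π k φ s ∈ locS A := by
      intro s
      fin_cases s
      · have h0 := h 0
        rw [tw_zero_apply] at h0
        show tw hpM C.π k φ 0 ∈ _
        rwa [tw_zero_apply]
      · show tw hpM C.π k φ 1 ∈ _
        rw [tw_succ]; exact h1
    refine ⟨?_, hr1⟩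
    suffices e : r = fun s => redL A ⟨tw hpM C.π k φ s, hm s⟩ by
      rw [e]; exact K.red_mem_Im hφ hm
    funext s
    fin_cases s
    · show r 0 = redL A ⟨tw hpM C.π k φ 0, hm 0⟩
      rw [← hrr, LinearMap.proj_apply, ← hred 0]
      exact redL_congr _ _ (by rw [tw_zero_apply, tw_zero_apply])
    · show r 1 = redL A ⟨tw hpM C.π k φ 1, hm 1⟩
      rw [hr1, redL_congr (hm 1) h1 (tw_succ k φ), e1, K.residue_π, map_zero, zero_mul]

/-- The dimension of a reduced space is that of its second projection plus that of the first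
projection one step higher. -/
theorem Kum.finrank_Im_eq (hA : A.LiesOverPrime p) (K : Kum hpM C) (k : ℤ) (m : ℕ) :
    Module.finrank (Res A) (K.Im k m) =
      Module.finrank (Res A) (K.Pr k m 1) + Module.finrank (Res A) (K.Pr (k + 1) m 0) := by
  have := (K.Im_spec hA k m).1
  let L : (K.Im k m) →ₗ[Res A] LaurentSeries (Res A) :=
    (LinearMap.proj 1).domRestrict (K.Im k m)
  have hrange : LinearMap.range L = K.Pr k m 1 := by
    rw [LinearMap.range_domRestrict]
    rfl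
  let M₀ : LinearMap.ker L →ₗ[Res A] LaurentSeries (Res A) :=
    ((LinearMap.proj 0).domRestrict (K.Im k m)).comp (LinearMap.ker L).subtype
  have hM₀ : Function.Injective M₀ := fun a b h => by
    refine Subtype.ext (Subtype.ext (funext fun s => ?_))
    fin_cases s
    · exact h
    · exact (LinearMap.mem_ker.mp a.2).trans (LinearMap.mem_ker.mp b.2).symm
  have hrange₀ : LinearMap.range M₀ = K.Pr (k + 1) m 0 := by
    refine le_antisymm ?_ fun x hx => ?_
    · rintro _ ⟨a, rfl⟩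
      exact ((K.mem_ker_proj_one hA k m a.1.1).mp ⟨a.1.2, LinearMap.mem_ker.mp a.2⟩).2
    · obtain ⟨hr, hr1⟩ := (K.mem_ker_proj_one hA k m ![x, 0]).mpr ⟨rfl, hx⟩
      exact ⟨⟨⟨_, hr⟩, LinearMap.mem_ker.mpr hr1⟩, rfl⟩
  rw [← LinearMap.finrank_range_add_finrank_ker L, hrange, ← hrange₀,
    LinearMap.finrank_range_of_inj hM₀]

/-! ### The bounds as divisors -/

variable [CharP (Res A) p] [FF.IsFunctionField (Res A) (KM A M)]

/-- The image of a Riemann-Roch space among series. -/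
def LS (D : Divisor (Res A) (KM A M)) : Submodule (Res A) (LaurentSeries (Res A)) :=
  (riemannRochSpace D).map (valLin A M)

theorem mem_LS {D : Divisor (Res A) (KM A M)} {x : KM A M} :
    (x : LaurentSeries (Res A)) ∈ LS D ↔ x ∈ riemannRochSpace D := by
  refine ⟨?_, fun h => ⟨x, h, rfl⟩⟩
  rintro ⟨y, hy, e⟩
  rwa [← valLin_injective A M (e : valLin A M y = valLin A M x)]

theorem finrank_LS (D : Divisor (Res A) (KM A M)) :
    Module.finrank (Res A) (LS D) = Module.finrank (Res A) (riemannRochSpace D) :=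
  (Submodule.equivMapOfInjective _ (valLin_injective A M) _).finrank_eq.symm

instance (D : Divisor (Res A) (KM A M)) : FiniteDimensional (Res A) (LS D) :=
  Module.Finite.map _ _

namespace Kum

variable (K : Kum hpM C) (V : VUnit A hpM)

/-- Where the data live. -/
def S₀ : Finset (Place (Res A) (KM A M)) :=
  haveI := Classical.decEq (Place (Res A) (KM A M))
  (FF.div (Res A) (K.fb 0)).support ∪ (FF.div (Res A) (K.fb 1)).support ∪
    (FF.div (Res A) V.ub).support

/-- The lower bound on the order of a first reduction. -/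
def lA (k : ℤ) (P : Place (Res A) (KM A M)) : ℤ :=
  cdiv (((p : ℤ) * k + K.δ) * V.oW P - 12 * C.e * K.s₀ P) (12 * C.e * p)

/-- The lower bound on the order of a second reduction. -/
def lB (k : ℤ) (P : Place (Res A) (KM A M)) : ℤ :=
  cdiv (-(((p : ℤ) * k + K.δ) * V.oW P) - 12 * C.e * K.t₀ P) (12 * C.e * p)

theorem data_zero_of_notMem {P : Place (Res A) (KM A M)} (hP : P ∉ K.S₀ V) :
    K.s₀ P = 0 ∧ K.t₀ P = 0 ∧ V.oW P = 0 := by
  simp only [S₀, Finset.mem_union, Finsupp.mem_support_iff, FF.div_apply, not_or, not_not] at hP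
  refine ⟨hP.1.1, hP.1.2, ?_⟩
  rw [VUnit.oW, hP.2, ite_self]

theorem lA_eq_zero {k : ℤ} {P : Place (Res A) (KM A M)} (hP : P ∉ K.S₀ V) :
    K.lA V k P = 0 := by
  obtain ⟨h1, -, h3⟩ := K.data_zero_of_notMem V hP
  rw [lA, h1, h3]
  simp [cdiv_zero]

theorem lB_eq_zero {k : ℤ} {P : Place (Res A) (KM A M)} (hP : P ∉ K.S₀ V) :
    K.lB V k P = 0 := by
  obtain ⟨-, h2, h3⟩ := K.data_zero_of_notMem V hP
  rw [lB, h2, h3]
  simp [cdiv_zero]

/-- The divisor bounding the first projection. -/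
def EA (k : ℤ) (m : ℕ) : Divisor (Res A) (KM A M) :=
  m • FF.poles (Res A) (jK A M) -
    Finsupp.onFinset (K.S₀ V) (K.lA V k) fun P h => by
      by_contra hP; exact h (K.lA_eq_zero V hP)

/-- The divisor bounding the second projection. -/
def EB (k : ℤ) (m : ℕ) : Divisor (Res A) (KM A M) :=
  (p * m) • FF.poles (Res A) (jK A M) -
    Finsupp.onFinset (K.S₀ V) (K.lB V k) fun P h => by
      by_contra hP; exact h (K.lB_eq_zero V hP)

theorem degree_EA (hM : (M : Res A) ≠ 0) (k : ℤ) (m : ℕ) :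
    Divisor.degree (K.EA V k m) = m * dedekindPsi M - ∑ P ∈ K.S₀ V, K.lA V k P := by
  have := residueField_isAlgClosed A
  rw [EA, map_sub, map_nsmul, degree_poles_jK M hM, nsmul_eq_mul,
    FF.degree_eq_sum _ (K.S₀ V) Finsupp.support_onFinset_subset]
  simp [FF.deg_eq_one]

theorem degree_EB (hM : (M : Res A) ≠ 0) (k : ℤ) (m : ℕ) :
    Divisor.degree (K.EB V k m) = p * m * dedekindPsi M - ∑ P ∈ K.S₀ V, K.lB V k P := by
  have := residueField_isAlgClosed A
  rw [EB, map_sub, map_nsmul, degree_poles_jK M hM, nsmul_eq_mul,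
    FF.degree_eq_sum _ (K.S₀ V) Finsupp.support_onFinset_subset]
  simp [FF.deg_eq_one]

theorem exists_red_pow (hA : A.LiesOverPrime p) (hM : (M : Res A) ≠ 0) {k : ℤ} {m : ℕ}
    (_hk : 0 ≤ (p : ℤ) * k + K.δ) {r : Fin 2 → LaurentSeries (Res A)} (hr : r ∈ K.Im k m) :
    ∃ a : Fin 2 → KM A M, (∀ s, (a s : LaurentSeries (Res A)) = r s) ∧
      ∃ z ∈ HN M p (p * m), (∀ τ ∈ C.H, galF (p * M) τ z = z) ∧
      ∃ h : ∀ s, tw hpM C.π ((p : ℤ) * k + K.δ) z s ∈ locS A,
        ∀ s, redL A ⟨_, h s⟩ = ((a s ^ p * K.fb s : KM A M) : LaurentSeries (Res A)) := by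
  have hp : p.Prime := Fact.out
  obtain ⟨φ, hφ, hφf, h, hred⟩ := (K.Im_spec hA k m).2.2 r hr
  have hKM : ∀ s, r s ∈ KM A M := by
    intro s
    by_cases h0 : r s = 0
    · rw [h0]; exact zero_mem _
    refine isRed_mem_KM p M hpM hA hM (x := φ) (s := s) ⟨h0, tsc C.π k s, ?_, h s, hred s⟩
    fin_cases s
    · exact one_ne_zero
    · exact zpow_ne_zero _ C.π_ne_zero
  refine ⟨fun s => ⟨r s, hKM s⟩, fun s => rfl,
    algebraMap QBar (FB (p * M)) (C.π ^ (-K.v 0)) * (φ ^ p * K.f), ?_, fun τ hτ => ?_, ?_⟩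
  · rw [← Algebra.smul_def]
    exact Submodule.smul_mem _ _ (K.mem_V.mp hφ)
  · rw [map_mul, map_mul, map_pow, hφf τ hτ, K.fix τ hτ, arithmeticRingAut_algebraMap]
    refine congrArg (fun x => algebraMap QBar (FB (p * M)) x * (φ ^ p * K.f)) ?_
    show τ (C.π ^ (-K.v 0)) = _
    rw [map_zpow₀, C.π_fixed τ hτ]
  have e : ∀ s, tw hpM C.π ((p : ℤ) * k + K.δ)
      (algebraMap QBar (FB (p * M)) (C.π ^ (-K.v 0)) * (φ ^ p * K.f)) s =
      tw hpM C.π k φ s ^ p * (algebraMap QBar LSer (C.π ^ (-K.v s)) * iota2 M p hpM s K.f) := by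
    intro s
    rw [tw_apply, tw_apply, map_mul, map_mul, map_pow, AlgHom.commutes, mul_pow, ← map_pow]
    have key : tsc C.π ((p : ℤ) * k + K.δ) s * C.π ^ (-K.v 0) =
        tsc C.π k s ^ p * C.π ^ (-K.v s) := by
      fin_cases s
      · simp [tsc]
      · simp only [tsc, Fin.mk_one, Matrix.cons_val_one, Matrix.cons_val_fin_one]
        rw [← zpow_natCast, ← zpow_mul, ← zpow_add₀ C.π_ne_zero, ← zpow_add₀ C.π_ne_zero, δ]
        congr 1
        ring
    rw [← mul_assoc (algebraMap QBar LSer _), ← map_mul, key, map_mul, mul_mul_mul_comm, map_pow]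
  choose hf hfr using K.spec
  refine ⟨fun s => by rw [e s]; exact mul_mem (pow_mem (h s) p) (hf s), fun s => ?_⟩
  rw [redL_congr _ (mul_mem (pow_mem (h s) p) (hf s)) (e s), redL_mul' (pow_mem (h s) p) (hf s),
    redL_pow' (h s), hred, hfr s]
  rfl

/-- Both projections satisfy the bounds. -/
theorem Pr_le (hA : A.LiesOverPrime p) (hM : (M : Res A) ≠ 0) {k : ℤ} (m : ℕ)
    (hk : 0 ≤ (p : ℤ) * k + K.δ) :
    K.Pr k m 0 ≤ LS (K.EA V k m) ∧ K.Pr k m 1 ≤ LS (K.EB V k m) := by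
  have hp : p.Prime := Fact.out
  have key : ∀ r ∈ K.Im k m, r 0 ∈ LS (K.EA V k m) ∧ r 1 ∈ LS (K.EB V k m) := by
    intro r hr
    obtain ⟨a, ha, z, hz, -, h, hred⟩ := K.exists_red_pow hA hM hk hr
    obtain ⟨n, hn⟩ := Int.eq_ofNat_of_zero_le hk
    have hn' : (p : ℤ) * k + K.δ = (n : ℤ) := hn
    have h0 : iota2 M p hpM 0 z ∈ locS A := by
      have := h 0; rwa [tw_zero_apply] at this
    have e1 : tw hpM C.π ((p : ℤ) * k + K.δ) z 1 =
        algebraMap QBar LSer (C.π ^ n)⁻¹ * iota2 M p hpM 1 z := by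
      rw [tw_one_apply, hn', zpow_neg, zpow_natCast]
    have h1 : algebraMap QBar LSer (C.π ^ n)⁻¹ * iota2 M p hpM 1 z ∈ locS A := e1 ▸ h 1
    have hb := bounds V C hA hM hz h0 h1 (a := a 0 ^ p * K.fb 0) (b := a 1 ^ p * K.fb 1)
      (by rw [← hred 0]; exact redL_congr _ _ (tw_zero_apply _ _ _ _).symm)
      (by rw [← hred 1]; exact redL_congr _ _ e1.symm)
    have he : (0 : ℤ) < 12 * C.e * p := by
      have := C.e_pos; have := hp.pos; positivity
    constructor
    · rw [← ha 0, mem_LS, FF.mem_riemannRochSpace']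
      intro P
      rw [FF.mem_ordGe]
      rcases eq_or_ne (a 0) 0 with h00 | h00
      · exact Or.inl h00
      refine Or.inr ?_
      have h' := (hb P).1 (mul_ne_zero (pow_ne_zero _ h00) (K.fb_ne 0))
      rw [P.ord_mul (pow_ne_zero _ h00) (K.fb_ne 0), FF.ord_pow P] at h'
      push_cast at h'
      have hl : K.lA V k P ≤ P.ord (a 0) + m * FF.poles (Res A) (jK A M) P := by
        rw [lA, cdiv_le_iff he, hn', s₀]
        nlinarith
      rw [EA, Finsupp.sub_apply, Finsupp.smul_apply, Finsupp.onFinset_apply, nsmul_eq_mul]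
      linarith
    · rw [← ha 1, mem_LS, FF.mem_riemannRochSpace']
      intro P
      rw [FF.mem_ordGe]
      rcases eq_or_ne (a 1) 0 with h00 | h00
      · exact Or.inl h00
      refine Or.inr ?_
      have h' := (hb P).2 (mul_ne_zero (pow_ne_zero _ h00) (K.fb_ne 1))
      rw [P.ord_mul (pow_ne_zero _ h00) (K.fb_ne 1), FF.ord_pow P] at h'
      push_cast at h'
      have hl : K.lB V k P ≤ P.ord (a 1) + (p * m : ℕ) * FF.poles (Res A) (jK A M) P := by
        rw [lB, cdiv_le_iff he, hn', t₀]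
        push_cast
        nlinarith
      rw [EB, Finsupp.sub_apply, Finsupp.smul_apply, Finsupp.onFinset_apply, nsmul_eq_mul]
      linarith
  constructor
  · rintro _ ⟨r, hr, rfl⟩; exact (key r hr).1
  · rintro _ ⟨r, hr, rfl⟩; exact (key r hr).2

/-- The dimensions of the bounds, for large `m`. -/
theorem exists_finrank_bounds (hM : (M : Res A) ≠ 0) (k : ℤ) :
    ∃ m₀ : ℕ, ∀ m, m₀ ≤ m →
      (Module.finrank (Res A) (LS (K.EA V k m)) : ℤ) =
        m * dedekindPsi M - ∑ P ∈ K.S₀ V, K.lA V k P + 1 - genusFF (Res A) (KM A M) ∧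
      (Module.finrank (Res A) (LS (K.EB V k m)) : ℤ) =
        p * m * dedekindPsi M - ∑ P ∈ K.S₀ V, K.lB V k P + 1 - genusFF (Res A) (KM A M) := by
  have hp : p.Prime := Fact.out
  have := residueField_isAlgClosed A
  obtain ⟨c, hc⟩ := FF.exists_ell_eq (K := Res A) (F := KM A M)
  refine ⟨(c + ∑ P ∈ K.S₀ V, K.lA V k P).toNat + (c + ∑ P ∈ K.S₀ V, K.lB V k P).toNat,
    fun m hm => ?_⟩
  have hpsi : (1 : ℤ) ≤ dedekindPsi M := by exact_mod_cast dedekindPsi_pos M
  have hp1 : (1 : ℤ) ≤ p := by exact_mod_cast hp.pos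
  have hm0 : (0 : ℤ) ≤ m := Int.natCast_nonneg m
  have h1 : (m : ℤ) ≤ m * dedekindPsi M := le_mul_of_one_le_right hm0 hpsi
  have h2 : (m : ℤ) ≤ p * m * dedekindPsi M := by nlinarith
  have hA' := hc (K.EA V k m) (by rw [K.degree_EA V hM]; omega)
  have hB' := hc (K.EB V k m) (by rw [K.degree_EB V hM]; omega)
  rw [K.degree_EA V hM] at hA'
  rw [K.degree_EB V hM] at hB'
  simp only [FF.ell] at hA' hB'
  exact ⟨by rw [finrank_LS]; linarith, by rw [finrank_LS]; linarith⟩

/-- The excess of the bounds over a period, at one place. -/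
def excess (k₀ : ℤ) (P : Place (Res A) (KM A M)) : ℤ :=
  ∑ i ∈ Finset.range C.e, (K.lA V (k₀ + i + 1) P + K.lB V (k₀ + i) P)

/-- The count: the excess is at most `e (g + 1 - 2 g₀)`, and in case of equality the projections
are the full spaces. -/
theorem count (hA : A.LiesOverPrime p) (hM : (M : Res A) ≠ 0) {k₀ : ℤ}
    (hk₀ : 0 ≤ (p : ℤ) * k₀ + K.δ) :
    ∑ P ∈ K.S₀ V, K.excess V k₀ P ≤
        C.e * (genusFF QBar (FB (p * M)) + 1 - 2 * genusFF (Res A) (KM A M)) ∧
      ((∑ P ∈ K.S₀ V, K.excess V k₀ P =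
          C.e * (genusFF QBar (FB (p * M)) + 1 - 2 * genusFF (Res A) (KM A M))) →
        (∀ i < C.e, ∑ P ∈ K.S₀ V, (K.lA V (k₀ + i + 1) P + K.lB V (k₀ + i) P) =
          genusFF QBar (FB (p * M)) + 1 - 2 * genusFF (Res A) (KM A M)) ∧
        ∃ m₀ : ℕ, ∀ m, m₀ ≤ m → ∀ i < C.e,
          K.Pr (k₀ + i + 1) m 0 = LS (K.EA V (k₀ + i + 1) m) ∧
          K.Pr (k₀ + i) m 1 = LS (K.EB V (k₀ + i) m)) := by
  classical
  have hp : p.Prime := Fact.out
  obtain ⟨m₁, hm₁⟩ := K.exists_finrank_V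
  choose mA hmA using fun i : ℕ => K.exists_finrank_bounds V hM (k₀ + i)
  set m₀ := m₁ + ∑ i ∈ Finset.range (C.e + 1), mA i with hm₀
  have hge : ∀ i, i ≤ C.e → mA i ≤ m₀ := fun i hi =>
    (Finset.single_le_sum (f := mA) (fun _ _ => Nat.zero_le _)
      (Finset.mem_range.mpr (by omega))).trans (Nat.le_add_left _ _)
  have hpsi : dedekindPsi (p * M) = (p + 1) * dedekindPsi M := by
    rw [card_family M p hpM, Fintype.card_sum, Fintype.card_prod]
    simp only [Fintype.card_fin]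
    ring
  have main : ∀ m, m₀ ≤ m → ∀ i < C.e,
      0 ≤ (genusFF QBar (FB (p * M)) + 1 - 2 * genusFF (Res A) (KM A M) : ℤ) -
        ∑ P ∈ K.S₀ V, (K.lA V (k₀ + i + 1) P + K.lB V (k₀ + i) P) ∧
      ((genusFF QBar (FB (p * M)) + 1 - 2 * genusFF (Res A) (KM A M) : ℤ) -
        ∑ P ∈ K.S₀ V, (K.lA V (k₀ + i + 1) P + K.lB V (k₀ + i) P) = 0 →
          K.Pr (k₀ + i + 1) m 0 = LS (K.EA V (k₀ + i + 1) m) ∧
          K.Pr (k₀ + i) m 1 = LS (K.EB V (k₀ + i) m)) := by
    intro m hm i hi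
    have hki : 0 ≤ (p : ℤ) * (k₀ + i) + K.δ := by
      nlinarith [mul_nonneg (Int.natCast_nonneg p) (Int.natCast_nonneg i)]
    have hki1 : 0 ≤ (p : ℤ) * (k₀ + i + 1) + K.δ := by nlinarith [Int.natCast_nonneg p]
    have h1 := (hm₁ m (by omega))
    rw [← (K.Im_spec hA (k₀ + i) m).2.1, K.finrank_Im_eq hA, hpsi] at h1
    push_cast at h1
    have hA1 := (hmA (i + 1) m ((hge _ hi).trans hm)).1
    rw [Nat.cast_add, Nat.cast_one, ← add_assoc] at hA1
    have hB1 := (hmA i m ((hge _ hi.le).trans hm)).2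
    have l0 := (K.Pr_le V hA hM m hki1).1
    have l1 := (K.Pr_le V hA hM m hki).2
    have d0 : (Module.finrank (Res A) (K.Pr (k₀ + i + 1) m 0) : ℤ) ≤ _ :=
      Int.ofNat_le.mpr (Submodule.finrank_mono l0)
    have d1 : (Module.finrank (Res A) (K.Pr (k₀ + i) m 1) : ℤ) ≤ _ :=
      Int.ofNat_le.mpr (Submodule.finrank_mono l1)
    rw [Finset.sum_add_distrib]
    refine ⟨by linarith, fun h => ⟨Submodule.eq_of_le_of_finrank_le l0 ?_,
      Submodule.eq_of_le_of_finrank_le l1 ?_⟩⟩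
    · have : (Module.finrank (Res A) (LS (K.EA V (k₀ + i + 1) m)) : ℤ) ≤
          Module.finrank (Res A) (K.Pr (k₀ + i + 1) m 0) := by linarith
      exact_mod_cast this
    · have : (Module.finrank (Res A) (LS (K.EB V (k₀ + i) m)) : ℤ) ≤
          Module.finrank (Res A) (K.Pr (k₀ + i) m 1) := by linarith
      exact_mod_cast this
  have hsum : (C.e : ℤ) * (genusFF QBar (FB (p * M)) + 1 - 2 * genusFF (Res A) (KM A M)) -
      ∑ P ∈ K.S₀ V, K.excess V k₀ P =
      ∑ i ∈ Finset.range C.e, ((genusFF QBar (FB (p * M)) + 1 - 2 * genusFF (Res A) (KM A M) : ℤ) -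
        ∑ P ∈ K.S₀ V, (K.lA V (k₀ + i + 1) P + K.lB V (k₀ + i) P)) := by
    rw [Finset.sum_sub_distrib, Finset.sum_const, Finset.card_range, nsmul_eq_mul]
    congr 1
    exact Finset.sum_comm
  have hnn := Finset.sum_nonneg fun i hi => (main m₀ le_rfl i (Finset.mem_range.mp hi)).1
  refine ⟨by linarith, fun heq => ?_⟩
  rw [heq, sub_self] at hsum
  have hz : ∀ i < C.e, (genusFF QBar (FB (p * M)) + 1 - 2 * genusFF (Res A) (KM A M) : ℤ) -
      ∑ P ∈ K.S₀ V, (K.lA V (k₀ + i + 1) P + K.lB V (k₀ + i) P) = 0 := fun i hi =>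
    (Finset.sum_eq_zero_iff_of_nonneg fun j hj =>
      (main m₀ le_rfl j (Finset.mem_range.mp hj)).1).mp hsum.symm i (Finset.mem_range.mpr hi)
  exact ⟨fun i hi => (sub_eq_zero.mp (hz i hi)).symm,
    m₀, fun m hm i hi => (main m hm i hi).2 (hz i hi)⟩

end Kum

end Fermat.Agent.RT.MazurP

end
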