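import Fermat.Agent.ModFun.Expansion
import Fermat.Agent.Genus.JFunction
import Fermat.Agent.RT.MazurP.Theta

/-!
# The `q`-expansion of the derivative and the identity `θ j = - E₄² E₆ / Δ`
-/

set_option autoImplicit false

noncomputable section

open UpperHalfPlane hiding I
open Filter Complex ModularForm
open scoped Manifold MatrixGroups Real Topology Nat ModularForm

namespace Fermat.Agent.RT.MazurP

open Fermat.Agent.ModFun

/-- The series of `E₆`. -/
def eisenstein6 : PowerSeries ℤ :=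
  PowerSeries.mk fun n => if n = 0 then 1 else -504 * ∑ d ∈ n.divisors, (d : ℤ) ^ 5

theorem qExpansion_E₆ : qExpansion 1 E₆ = eisenstein6.map (Int.castRingHom ℂ) := by
  ext m
  rw [EisensteinSeries.E_qExpansion_coeff (k := 6) _ ⟨3, rfl⟩, PowerSeries.coeff_map, eisenstein6,
    PowerSeries.coeff_mk]
  split_ifs with hm
  · simp
  · rw [show bernoulli 6 = 1 / 42 by decide +kernel]
    norm_num [ArithmeticFunction.sigma_apply]

theorem E₆_mem_BddAlg : (E₆ : ℍ → ℂ) ∈ BddAlg 1 := by
  refine ⟨E₆.holo', fun τ => ?_, ModularFormClass.bdd_at_infty E₆⟩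
  simpa using SlashInvariantForm.vAdd_apply_of_mem_strictPeriods E₆ τ one_mem_strictPeriods_SL

theorem E2_mem_BddAlg : EisensteinSeries.E2 ∈ BddAlg 1 := by
  refine ⟨E2_mdifferentiable, fun τ => ?_, EisensteinSeries.isBoundedAtImInfty_E2⟩
  have h := Genus.periodic_E2 (τ : ℂ)
  simp only [Function.comp_apply, ofComplex_apply] at h
  rw [ofComplex_apply_of_im_pos (by simpa using τ.im_pos)] at h
  refine Eq.trans ?_ h
  congr 1
  ext1
  simp [add_comm]

/-- The `q`-expansion of the normalised derivative is obtained termwise. -/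
theorem hasSum_normalizedDeriv (f : BddAlg 1) (τ : ℍ) :
    HasSum (fun m : ℕ => ((m : ℂ) * (qExpBdd 1 f).coeff m) • qFun 1 τ ^ m)
      (Derivative.normalizedDerivOfComplex (f : ℍ → ℂ) τ) := by
  set F := cuspFunction (1 : ℝ) (f : ℍ → ℂ) with hF
  have hper : Function.Periodic ((f : ℍ → ℂ) ∘ ofComplex) ((1 : ℝ) : ℂ) := by
    have h := f.2.2.1.periodic_comp_ofComplex
    rwa [Nat.cast_one] at h
  have hd : DifferentiableOn ℂ F (Metric.ball 0 1) :=
    differentiableOn_cuspFunction_ball one_pos hper f.2.1 f.2.2.2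
  set q := Function.Periodic.qParam (1 : ℝ) (τ : ℂ) with hq
  have hqball : q ∈ Metric.ball (0 : ℂ) 1 := by
    simpa using Function.Periodic.norm_qParam_lt_one one_pos τ.im_pos
  have hqp : HasDerivAt (Function.Periodic.qParam (1 : ℝ)) (q * (2 * π * I)) (τ : ℂ) := by
    have h := (((hasDerivAt_id (τ : ℂ)).const_mul (2 * π * I)).div_const ((1 : ℝ) : ℂ)).cexp
    unfold Function.Periodic.qParam
    simpa [hq, Function.Periodic.qParam, Function.comp_def] using h
  have hderiv : deriv ((f : ℍ → ℂ) ∘ ofComplex) (τ : ℂ) = deriv F q * (q * (2 * π * I)) := by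
    have hev : ((f : ℍ → ℂ) ∘ ofComplex) =ᶠ[𝓝 (τ : ℂ)] F ∘ Function.Periodic.qParam (1 : ℝ) := by
      filter_upwards [(isOpen_lt continuous_const Complex.continuous_im).mem_nhds τ.im_pos]
        with z hz
      have h := eq_cuspFunction (f := (f : ℍ → ℂ)) ⟨z, hz⟩ one_ne_zero hper
      rw [Function.comp_apply, Function.comp_apply, ofComplex_apply_of_im_pos hz]
      exact h.symm
    rw [hev.deriv_eq]
    have h1 : HasDerivAt F (deriv F q) (Function.Periodic.qParam (1 : ℝ) (τ : ℂ)) :=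
      (hd.differentiableAt (Metric.isOpen_ball.mem_nhds hqball)).hasDerivAt
    exact (h1.comp (τ : ℂ) hqp).deriv
  have hval : Derivative.normalizedDerivOfComplex (f : ℍ → ℂ) τ = q * deriv F q := by
    rw [Derivative.normalizedDerivOfComplex, hderiv]
    field_simp
  have hsum := (Complex.hasSum_taylorSeries_on_ball (hd.deriv Metric.isOpen_ball) hqball).mul_left q
  rw [← hval] at hsum
  have hq1 : qFun 1 τ = q := by simp [qFun, hq]
  refine (hasSum_nat_add_iff' 1).mp ?_
  simp only [Finset.sum_range_one, Nat.cast_zero, zero_mul, zero_smul, sub_zero]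
  refine (hsum.congr_fun fun n => ?_)
  rw [hq1, qExpBdd_apply, qExpansion_coeff, smul_eq_mul, smul_eq_mul, smul_eq_mul,
    iteratedDeriv_succ', Nat.cast_one, ← hF, sub_zero, Nat.factorial_succ]
  have : (n ! : ℂ) ≠ 0 := Nat.cast_ne_zero.mpr (Nat.factorial_ne_zero n)
  have : (n : ℂ) + 1 ≠ 0 := Nat.cast_add_one_ne_zero n
  push_cast
  field_simp
  ring

/-- The normalised derivative of a bounded periodic function. -/
def derivBdd (f : BddAlg 1) : BddAlg 1 :=
  ⟨Derivative.normalizedDerivOfComplex (f : ℍ → ℂ),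
    mem_BddAlg_of_hasSum (Derivative.normalizedDerivOfComplex_mdifferentiable f.2.1)
      (hasSum_normalizedDeriv f)⟩

theorem ofPowerSeries_qExpBdd_derivBdd (f : BddAlg 1) :
    HahnSeries.ofPowerSeries ℤ ℂ (qExpBdd 1 (derivBdd f)) =
      theta ℂ (HahnSeries.ofPowerSeries ℤ ℂ (qExpBdd 1 f)) := by
  rw [qExpBdd_eq_of_hasSum (g := derivBdd f) (hasSum_normalizedDeriv f)]
  ext k
  rw [coeff_theta]
  rcases lt_or_ge k 0 with hk | hk
  · rw [ModularCurve.ofPowerSeries_coeff_of_neg _ hk, ModularCurve.ofPowerSeries_coeff_of_neg _ hk,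
      mul_zero]
  · lift k to ℕ using hk
    rw [HahnSeries.ofPowerSeries_apply_coeff, HahnSeries.ofPowerSeries_apply_coeff,
      PowerSeries.coeff_mk, Int.cast_natCast]

/-- The series of `E₄`, `E₆` and `Δ` over any ring. -/
def e4 (R : Type*) [CommRing R] : LaurentSeries R :=
  HahnSeries.ofPowerSeries ℤ R (ModularCurve.eisenstein4.map (Int.castRingHom R))

@[inherit_doc e4]
def e6 (R : Type*) [CommRing R] : LaurentSeries R :=
  HahnSeries.ofPowerSeries ℤ R (eisenstein6.map (Int.castRingHom R))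

@[inherit_doc e4]
def eD (R : Type*) [CommRing R] : LaurentSeries R :=
  HahnSeries.ofPowerSeries ℤ R
    ((PowerSeries.X * ModularCurve.dedekindEtaUnit).map (Int.castRingHom R))

theorem coeffMap_ofPowerSeries {R S : Type*} [CommRing R] [CommRing S] (u : R →+* S)
    (g : PowerSeries R) :
    ModularCurve.coeffMap u (HahnSeries.ofPowerSeries ℤ R g) =
      HahnSeries.ofPowerSeries ℤ S (g.map u) := by
  ext k
  rw [ModularCurve.coeffMap_coeff]
  rcases lt_or_ge k 0 with hk | hk
  · rw [ModularCurve.ofPowerSeries_coeff_of_neg _ hk, ModularCurve.ofPowerSeries_coeff_of_neg _ hk,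
      map_zero]
  · lift k to ℕ using hk
    rw [HahnSeries.ofPowerSeries_apply_coeff, HahnSeries.ofPowerSeries_apply_coeff,
      PowerSeries.coeff_map]

theorem map_map_intCast {R S : Type*} [CommRing R] [CommRing S] (u : R →+* S)
    (g : PowerSeries ℤ) :
    ModularCurve.coeffMap u (HahnSeries.ofPowerSeries ℤ R (g.map (Int.castRingHom R))) =
      HahnSeries.ofPowerSeries ℤ S (g.map (Int.castRingHom S)) := by
  rw [coeffMap_ofPowerSeries]
  congr 1
  ext n
  simp

theorem theta_jqModC_complex :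
    theta ℂ (ModularCurve.jqModC ℂ) * eD ℂ = -(e4 ℂ ^ 2 * e6 ℂ) := by
  set E4 : BddAlg 1 := ⟨E₄, E₄_mem_BddAlg⟩
  set E6 : BddAlg 1 := ⟨E₆, E₆_mem_BddAlg⟩
  set P : BddAlg 1 := ⟨EisensteinSeries.E2, E2_mem_BddAlg⟩
  let s : BddAlg 1 →ₐ[ℂ] LaurentSeries ℂ :=
    (laurentExp 1).comp (Subalgebra.inclusion (BddAlg_le_CuspAlg 1))
  have hs : ∀ f, s f = HahnSeries.ofPowerSeries ℤ ℂ (qExpBdd 1 f) := laurentExp_of_bdd 1
  have hsd : ∀ f, s (derivBdd f) = theta ℂ (s f) := fun f => by
    rw [hs, hs, ofPowerSeries_qExpBdd_derivBdd]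
  have h4 : s E4 = e4 ℂ := by rw [hs, qExpBdd_apply, Nat.cast_one, qExpansion_E₄, e4]
  have h6 : s E6 = e6 ℂ := by rw [hs, qExpBdd_apply, Nat.cast_one, qExpansion_E₆, e6]
  have hD : s (discBdd 1) = eD ℂ := by
    rw [hs, qExpBdd_apply, Nat.cast_one, eD]; exact congrArg _ qExpansion_discriminant
  have hj : ModularCurve.jqModC ℂ * s (discBdd 1) = s E4 ^ 3 := by
    have h1 : jC 1 * Subalgebra.inclusion (BddAlg_le_CuspAlg 1) (discBdd 1)
        = Subalgebra.inclusion (BddAlg_le_CuspAlg 1) (E4 ^ 3) :=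
      Subtype.ext (funext fun τ => jH_mul_discriminant τ)
    have h2 := congrArg (laurentExp 1) h1
    rw [map_mul, laurentExp_jC] at h2
    rw [← map_pow s]
    exact h2
  have d4 : derivBdd E4 = algebraMap ℂ (BddAlg 1) 3⁻¹ * (P * E4 - E6) := Subtype.ext (funext fun τ => by
    show Derivative.normalizedDerivOfComplex (E₄ : ℍ → ℂ) τ = _
    rw [Genus.normalizedDeriv_E₄]
    simp [div_eq_inv_mul, E4, E6, P])
  have dD : derivBdd (discBdd 1) = P * discBdd 1 := Subtype.ext (funext fun τ => by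
    show Derivative.normalizedDerivOfComplex ModularForm.discriminant τ = _
    rw [Genus.normalizedDeriv_discriminant]
    rfl)
  have t4 : theta ℂ (s E4) = algebraMap ℂ (LaurentSeries ℂ) 3⁻¹ * (s P * s E4 - s E6) := by
    rw [← hsd, d4, map_mul, AlgHom.commutes, map_sub, map_mul]
  have tD : theta ℂ (s (discBdd 1)) = s P * s (discBdd 1) := by rw [← hsd, dD, map_mul]
  have h3 := congrArg (theta ℂ) hj
  rw [theta_mul, tD, Derivation.leibniz_pow, t4] at h3
  simp only [smul_eq_mul, nsmul_eq_mul, Nat.cast_ofNat] at h3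
  have h13 : algebraMap ℂ (LaurentSeries ℂ) 3⁻¹ * 3 = 1 := by
    rw [show (3 : LaurentSeries ℂ) = algebraMap ℂ (LaurentSeries ℂ) 3 by rw [map_ofNat],
      ← map_mul]
    norm_num
  rw [← h4, ← h6, ← hD]
  linear_combination h3 - s P * hj + (s E4 ^ 2 * (s P * s E4 - s E6)) * h13

/-- `θ j · Δ = - E₄² E₆` over every ring. -/
theorem theta_jqModC_mul_eD (R : Type*) [CommRing R] :
    theta R (ModularCurve.jqModC R) * eD R = -(e4 R ^ 2 * e6 R) := by
  have hZ : theta ℤ (ModularCurve.jqModC ℤ) * eD ℤ = -(e4 ℤ ^ 2 * e6 ℤ) := by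
    apply HahnSeries.ext
    funext k
    apply Int.cast_injective (α := ℂ)
    have h := congrArg (fun x : LaurentSeries ℂ => x.coeff k) theta_jqModC_complex
    rw [← eq_intCast (Int.castRingHom ℂ), ← eq_intCast (Int.castRingHom ℂ),
      ← ModularCurve.coeffMap_coeff, ← ModularCurve.coeffMap_coeff, map_mul, map_neg, map_mul,
      map_pow, ← theta_coeffMap, ModularCurve.coeffMap_jqModC, eD, e4, e6, map_map_intCast,
      map_map_intCast, map_map_intCast]
    exact h
  have h := congrArg (ModularCurve.coeffMap (Int.castRingHom R)) hZ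
  rwa [map_mul, map_neg, map_mul, map_pow, ← theta_coeffMap, ModularCurve.coeffMap_jqModC, eD, e4,
    e6, map_map_intCast, map_map_intCast, map_map_intCast] at h

end Fermat.Agent.RT.MazurP

end
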