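import Fermat.Agent.RT.MazurP.Basic
import Fermat.Agent.GaloisReps.Results
import Mathlib.RingTheory.Nakayama
import Mathlib.LinearAlgebra.Matrix.ToLinearEquiv
import Mathlib.LinearAlgebra.Matrix.Charpoly.Coeff

/-!
# Torsion classes with the Hecke eigenvalues of a congruent eigenform

An eigenform congruent to `a` modulo a maximal ideal over `p` gives a nonzero `p`-torsion class of
`J₀(N)` on which the Hecke operators act by `a`.
-/

set_option autoImplicit false
set_option synthInstance.maxHeartbeats 400000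

noncomputable section

namespace Fermat.Agent.RT.MazurP

open ModularCurve AlgebraicCurve Fermat.Agent.GaloisReps
open scoped Matrix

/-- A proper ideal containing the kernel of a representation by matrices over a finite ring has a
common kernel. -/
theorem exists_annihilated {T : Type*} [CommRing T] {ι : Type*} [Fintype ι] [DecidableEq ι]
    {k : Type*} [CommRing k] [Finite k] (h : T →+* Matrix ι ι k) (I : Ideal T) (hI : I ≠ ⊤)
    (hker : RingHom.ker h ≤ I) : ∃ v : ι → k, v ≠ 0 ∧ ∀ t ∈ I, h t *ᵥ v = 0 := by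
  classical
  let R := T ⧸ RingHom.ker h
  let hbar : R →+* Matrix ι ι k := RingHom.kerLift h
  have : Finite R := Finite.of_injective hbar (RingHom.kerLift_injective h)
  let J : Ideal R := I.map (Ideal.Quotient.mk (RingHom.ker h))
  have hJ : J ≠ ⊤ := fun e => hI (by
    have := congrArg (Ideal.comap (Ideal.Quotient.mk (RingHom.ker h))) e
    rwa [Ideal.comap_map_of_surjective _ Ideal.Quotient.mk_surjective, Ideal.comap_top,
      ← RingHom.ker_eq_comap_bot, Ideal.mk_ker, sup_eq_left.mpr hker] at this)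
  obtain ⟨n, hn⟩ : ∃ n : ℕ, J ^ n ≤ J ^ (n + 1) := by
    have : Finite (Ideal R) := Finite.of_injective _ SetLike.coe_injective
    obtain ⟨a, b, hab, e⟩ := Finite.exists_ne_map_eq_of_infinite fun m : ℕ => J ^ m
    rcases lt_or_gt_of_ne hab with hlt | hlt
    · exact ⟨a, e.le.trans (Ideal.pow_le_pow_right hlt)⟩
    · exact ⟨b, e.ge.trans (Ideal.pow_le_pow_right hlt)⟩
  obtain ⟨r, hr1, hr⟩ := Submodule.exists_sub_one_mem_and_smul_eq_zero_of_fg_of_le_smul J (J ^ n)
    (IsNoetherian.noetherian _) (by rw [smul_eq_mul, ← pow_succ']; exact hn)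
  have hr0 : r ≠ 0 := fun e => hJ ((Ideal.eq_top_iff_one _).mpr (by
    have := J.neg_mem hr1; rwa [e, zero_sub, neg_neg] at this))
  obtain ⟨w, hw⟩ : ∃ w, hbar r *ᵥ w ≠ 0 := by
    by_contra hall
    simp only [not_exists, not_not] at hall
    refine hr0 (RingHom.kerLift_injective h ?_)
    rw [map_zero]
    exact Matrix.ext_iff_mulVec.mpr fun w => (hall w).trans (Matrix.zero_mulVec w).symm
  have key : ∀ m : ℕ, ∀ v : ι → k, v ≠ 0 → (∀ t ∈ J ^ m, hbar t *ᵥ v = 0) →
      ∃ v' : ι → k, v' ≠ 0 ∧ ∀ t ∈ J, hbar t *ᵥ v' = 0 := by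
    intro m
    induction m with
    | zero =>
      intro v hv hkill
      exact absurd (by simpa using hkill 1 (by simp)) hv
    | succ m ih =>
      intro v hv hkill
      by_cases hall : ∀ t ∈ J ^ m, hbar t *ᵥ v = 0
      · exact ih v hv hall
      simp only [not_forall] at hall
      obtain ⟨t, ht, htv⟩ := hall
      refine ⟨_, htv, fun s hs => ?_⟩
      rw [Matrix.mulVec_mulVec, ← map_mul]
      exact hkill _ (by rw [pow_succ']; exact Ideal.mul_mem_mul hs ht)
  obtain ⟨v, hv, hkill⟩ := key n _ hw fun t ht => by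
    have e : t * r = 0 := by rw [mul_comm]; exact hr t ht
    rw [Matrix.mulVec_mulVec, ← map_mul, e, map_zero, Matrix.zero_mulVec]
  exact ⟨v, hv, fun t ht => hkill (Ideal.Quotient.mk _ t) (Ideal.mem_map_of_mem _ ht)⟩

variable {N p : ℕ} [NeZero N] [Fact p.Prime]

/-- An element of the Hecke algebra killing the mod `p` lattice takes values in every ideal over
`p`. -/
theorem mem_of_matIn_eq_zero (θ : FullHecke N →+* integralClosure ℤ ℂ)
    {𝔪 : Ideal (integralClosure ℤ ℂ)} (hp : (p : integralClosure ℤ ℂ) ∈ 𝔪) {t : FullHecke N}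
    (ht : matIn (latticeMat N) (ZMod (p ^ 1)) t = 0) : θ t ∈ 𝔪 := by
  classical
  have hd : ∀ i j, (p : ℤ) ∣ latticeMat N t i j := fun i j => by
    have := congrFun (congrFun ht i) j
    simp only [matIn_apply, Matrix.map_apply, eq_intCast, Matrix.zero_apply] at this
    simpa using (ZMod.intCast_zmod_eq_zero_iff_dvd _ _).mp this
  choose M hM using hd
  set θC : FullHecke N →+* ℂ := (algebraMap (integralClosure ℤ ℂ) ℂ).comp θ
  obtain ⟨v, hv, hv0⟩ : ∃ v ∈ eigenspace (latticeMat N) θC, v ≠ 0 := by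
    refine Submodule.exists_mem_ne_zero_of_ne_bot fun e => ?_
    have := finrank_eigenspace_latticeMat θC
    rw [e, finrank_bot] at this
    omega
  have hev := (mem_eigenspace _ _ v).mp hv t
  set MC : Matrix _ _ ℂ := (Matrix.of M).map (Int.castRingHom ℂ) with hMC
  have hp0 : (p : ℂ) ≠ 0 := Nat.cast_ne_zero.mpr (Fact.out : p.Prime).ne_zero
  have e : matIn (latticeMat N) ℂ t = (p : ℂ) • MC := by
    ext i j
    simp only [matIn_apply, Matrix.map_apply, Matrix.smul_apply, hMC, Matrix.of_apply, eq_intCast,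
      smul_eq_mul, hM i j]
    push_cast
    rfl
  rw [e, Matrix.smul_mulVec] at hev
  set c : ℂ := θC t / p with hc
  have hMv : MC *ᵥ v = c • v := by
    rw [hc, div_eq_inv_mul, mul_smul, ← hev, inv_smul_smul₀ hp0]
  have hint : IsIntegral ℤ c := by
    refine ⟨(Matrix.of M).charpoly, Matrix.charpoly_monic _, ?_⟩
    rw [← Polynomial.eval_map, show algebraMap ℤ ℂ = Int.castRingHom ℂ from rfl,
      ← Matrix.charpoly_map, ← hMC, Matrix.eval_charpoly, ← Matrix.exists_mulVec_eq_zero_iff]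
    exact ⟨v, hv0, by rw [Matrix.sub_mulVec, hMv, Matrix.scalar_apply, sub_eq_zero]; ext i;
                      simp [Matrix.mulVec_diagonal]⟩
  have : θ t = (p : integralClosure ℤ ℂ) * ⟨c, hint⟩ := Subtype.ext (by
    show (θ t : ℂ) = ((p : integralClosure ℤ ℂ) : ℂ) * c
    rw [show ((p : integralClosure ℤ ℂ) : ℂ) = (p : ℂ) from map_natCast (algebraMap (integralClosure ℤ ℂ) ℂ) p, hc,
      mul_div_cancel₀ _ hp0]
    rfl)
  rw [this]
  exact Ideal.mul_mem_right _ _ hp

/-- The eigen class. -/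
theorem exists_eigen_class {f : CuspForm (CongruenceSubgroup.Gamma0 N) 2}
    (hf : f.IsNormalizedEigenform) {𝔪 : Ideal (integralClosure ℤ ℂ)} (h𝔪 : 𝔪 ≠ ⊤)
    (hp : (p : integralClosure ℤ ℂ) ∈ 𝔪) (G : ℕ → Prop) (a : ℕ → ℤ)
    (hcong : ∀ l : ℕ, l.Prime → G l → ∃ b : integralClosure ℤ ℂ,
      (b : ℂ) = ModularFormClass.qCoeff f l ∧ b - (a l : integralClosure ℤ ℂ) ∈ 𝔪) :
    ∃ x : JZero N, x ≠ 0 ∧ p • x = 0 ∧ IsEigen N G a x := by
  classical
  obtain ⟨θ, hθ⟩ := exists_eigenform_character hf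
  let E := torsionIso N p (conjProperty N)
  have : NeZero (p ^ 1) := ⟨pow_ne_zero 1 (Fact.out : p.Prime).ne_zero⟩
  obtain ⟨v, hv0, hv⟩ := exists_annihilated (matIn (latticeMat N) (ZMod (p ^ 1)))
    (Ideal.comap θ 𝔪) (Ideal.comap_ne_top θ h𝔪) fun t ht => mem_of_matIn_eq_zero θ hp ht
  set x := (E.psi 1).symm v with hx
  refine ⟨x.1, fun e => hv0 ?_, ?_, fun l hl hG => ?_⟩
  · rw [← (E.psi 1).apply_symm_apply v, ← hx, show x = 0 from Subtype.ext e, map_zero]
  · have := Pic0.mem_torsion.mp x.2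
    rwa [pow_one, natCast_zsmul] at this
  obtain ⟨b, hb, hbm⟩ := hcong l hl hG
  have hmem : HeckeDuality.heckeOp N 2 l hl - (a l : FullHecke N) ∈ Ideal.comap θ 𝔪 := by
    rw [Ideal.mem_comap, map_sub, map_intCast,
      show θ (HeckeDuality.heckeOp N 2 l hl) = b from Subtype.ext ((hθ l hl).trans hb.symm)]
    exact hbm
  have h0 := hv _ hmem
  rw [map_sub, map_intCast, Matrix.sub_mulVec, matIn_apply, latticeMat_heckeOp,
    ← E.mat_heckeTors, ← (E.psi 1).apply_symm_apply v, ← hx, E.mat_mulVec, sub_eq_zero] at h0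
  have h1 : E.psi 1 (heckeTors 1 ⟨l, hl⟩ x) = E.psi 1 (a l • x) := by
    rw [h0, map_zsmul]
    ext i
    simp [Matrix.intCast_apply, Matrix.mulVec, dotProduct]
  exact congrArg Subtype.val ((E.psi 1).injective h1)

end Fermat.Agent.RT.MazurP

end
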