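import Fermat.Agent.RT.MazurP.Node
import Fermat.Agent.RT.MazurP.HeckeSeries

/-!
# Hecke operators at the zeros of the reduced unit

The congruence at a zero of the reduced unit is multiplied by `l + 1` by the Hecke norm, while an
eigen class with eigenvalue `a` multiplies the orders by `a`; hence all orders of the reductions
are divisible by `p` when `a` is not congruent to `l + 1`.
-/

set_option autoImplicit false
set_option synthInstance.maxHeartbeats 400000
set_option maxHeartbeats 1000000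
set_option linter.unusedSectionVars false

noncomputable section

namespace Fermat.Agent.RT.MazurP

open ModularCurve AlgebraicCurve Fermat.Agent.Semistable Fermat.Agent.Arith
open Fermat.Agent.RT.Mazur

variable {A : ValuationSubring QBar} {p M : ℕ} [Fact p.Prime] [NeZero M] {hpM : ¬ p ∣ M}

/-- The Hecke norm of `f` is its `a`-th power up to a constant and a `p`-th power. -/
def IsNormEigen (p M l : ℕ) [NeZero l] [Fact p.Prime] [NeZero M] (a : ℤ) (f : FB (p * M)) : Prop :=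
  ∃ (c : QBar) (h : FB (p * M)), c ≠ 0 ∧ h ≠ 0 ∧
    heckeNorm (p * M) l f = algebraMap QBar (FB (p * M)) c * f ^ a * h ^ p

theorem IsNormEigen.dvd_ord {l : ℕ} [NeZero l] {a : ℤ} {f : FB (p * M)}
    (h : IsNormEigen p M l a f) (hf : f ≠ 0)
    (hdvd : ∀ v : Place QBar (FB (p * M)), (p : ℤ) ∣ v.ord f)
    (v : Place QBar (FB (p * M))) : (p : ℤ) ∣ v.ord (heckeNorm (p * M) l f) := by
  obtain ⟨c, h, hc, hh, e⟩ := h
  have hc' : algebraMap QBar (FB (p * M)) c ≠ 0 := (_root_.map_ne_zero _).mpr hc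
  rw [e, v.ord_mul (mul_ne_zero hc' (zpow_ne_zero _ hf)) (pow_ne_zero _ hh),
    v.ord_mul hc' (zpow_ne_zero _ hf), FF.ord_algebraMap, v.ord_zpow, FF.ord_pow v, zero_add]
  exact dvd_add (dvd_mul_of_dvd_right (hdvd v) _) (dvd_mul_right _ _)

namespace Kum

variable {C : CoefField A p} (K : Kum hpM C)

theorem gord_iota (s : Fin 2) : C.gord (iota2 M p hpM s K.f) = K.v s := by
  obtain ⟨h, hr⟩ := K.spec s
  exact CoefField.gord_eq ⟨h, by rw [hr]; exact fun h0 => K.fb_ne s (Subtype.ext h0)⟩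

theorem isRed (s : Fin 2) : IsRed A (iota2 M p hpM s K.f) (K.fb s : LaurentSeries (Res A)) := by
  obtain ⟨h, hr⟩ := K.spec s
  exact ⟨fun h0 => K.fb_ne s (Subtype.ext h0), _, zpow_ne_zero _ C.π_ne_zero, h, hr⟩

variable [CharP (Res A) p]

/-- The orders of the reductions of the Hecke norm are `a` times the old ones modulo `p`. -/
theorem dvd_ord_sub (hA : A.LiesOverPrime p) (hM : (M : Res A) ≠ 0) {l : ℕ} [NeZero l] {a : ℤ}
    (hK : IsNormEigen p M l a K.f) (K' : Kum hpM C) (hf : K'.f = heckeNorm (p * M) l K.f)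
    (s : Fin 2) (P : Place (Res A) (KM A M)) :
    (p : ℤ) ∣ P.ord (K'.fb s) - a * P.ord (K.fb s) := by
  have hp : p.Prime := Fact.out
  obtain ⟨c, h, hc, hh, e⟩ := hK
  have h1 := K'.isRed s
  obtain ⟨z, hz⟩ := IsRed.exists_of_ne_zero hA hp (iota2_fracS M p hpM s h)
    ((_root_.map_ne_zero _).mpr hh)
  have hzK := isRed_mem_KM p M hpM hA hM hz
  have h2 := ((IsRed.const (A := A) hc).mul ((K.isRed s).zpow a)).mul (hz.pow p)
  have e' : iota2 M p hpM s K'.f =
      algebraMap QBar LSer c * iota2 M p hpM s K.f ^ a * iota2 M p hpM s h ^ p := by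
    rw [hf, e, map_mul, map_mul, map_pow, map_zpow₀, AlgHom.commutes]
  rw [e'] at h1
  obtain ⟨u, hu, hu'⟩ := h2.unique h1
  set zK : KM A M := ⟨z, hzK⟩
  have hz0 : zK ≠ 0 := fun h0 => hz.1 (congrArg Subtype.val h0)
  have hval : K'.fb s = algebraMap (Res A) (KM A M) u * (K.fb s ^ a * zK ^ p) := by
    refine Subtype.ext (hu'.trans ?_)
    rw [one_mul]
    simp only [MulMemClass.coe_mul, SubmonoidClass.coe_pow]
    congr 2
  rw [hval, P.ord_mul ((_root_.map_ne_zero _).mpr hu)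
    (mul_ne_zero (zpow_ne_zero _ (K.fb_ne s)) (pow_ne_zero _ hz0)),
    P.ord_mul (zpow_ne_zero _ (K.fb_ne s)) (pow_ne_zero _ hz0), FF.ord_algebraMap, P.ord_zpow,
    FF.ord_pow P, zero_add, add_sub_cancel_left]
  exact dvd_mul_right _ _

end Kum

variable [CharP (Res A) p] [FF.IsFunctionField (Res A) (KM A M)]

/-- The Hecke norm of the wild relation. -/
theorem SigmaRel.exists_hecke {W : Wild A p} {K : Kum hpM W.C} (R : SigmaRel W K)
    (hA : A.LiesOverPrime p) (hM : (M : Res A) ≠ 0) {l : ℕ} [NeZero l] (hl : l.Prime)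
    (hN : ¬ l ∣ p * M) {a : ℤ} (hK : IsNormEigen p M l a K.f) (h0 : IsNormEigen p M l a R.f₀)
    {r : Fin 2 → Res A}
    (hr : ∀ s, redL A ⟨_, R.y_mem s⟩ = algebraMap (Res A) (LaurentSeries (Res A)) (r s)) :
    ∃ (K' : Kum hpM W.C) (R' : SigmaRel W K'), K'.f = heckeNorm (p * M) l K.f ∧
      K'.δ = ((l : ℤ) + 1) * K.δ ∧
      ∀ s, redL A ⟨_, R'.y_mem s⟩ =
        algebraMap (Res A) (LaurentSeries (Res A)) (((l : Res A) + 1) * r s) := by
  classical
  have hp : p.Prime := Fact.out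
  have hlp : ¬ p ∣ l := fun h =>
    hN (((Nat.prime_dvd_prime_iff_eq hp hl).mp h) ▸ dvd_mul_right p M)
  obtain ⟨ζ, hζ⟩ := exists_primitive hl hN
  have hser : ∀ (x : FB (p * M)) (s : Fin 2) (η : QBarˣ), IsPrimitiveRoot η l →
      qExpand QBar l (iota2 M p hpM s (heckeNorm (p * M) l x)) =
        heckeProd l η (iota2 M p hpM s x) :=
    fun x s η hη => qExpand_iota2_heckeNorm p M l hpM hl hN s hη x
  have hfix : ∀ (H : Subgroup GQ) {x : FB (p * M)}, (∀ τ ∈ H, galF (p * M) τ x = x) →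
      ∀ τ ∈ H, galF (p * M) τ (heckeNorm (p * M) l x) = heckeNorm (p * M) l x :=
    fun H x hx τ hτ => by rw [← heckeNorm_galF hl hN, hx τ hτ]
  obtain ⟨K', hK'⟩ := Kum.exists_of (hpM := hpM) hA hM (heckeNorm_ne_zero K.f_ne)
    (hK.dvd_ord K.f_ne K.dvd) (hfix W.C.H K.fix)
  have hred0 : ∀ s, ∃ h : iota2 M p hpM s (heckeNorm (p * M) l R.f₀) ∈ locS A,
      redL A ⟨_, h⟩ = 1 := by
    intro s
    obtain ⟨hm, hm1⟩ := R.f₀_red s
    obtain ⟨hp', ep⟩ := heckeProd_mem_locS hζ.pow_eq_one hm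
    obtain ⟨h', e'⟩ := locS_of_qExpand hA hp (l := l) (iota2_fracS M p hpM s _)
      (by rw [hser R.f₀ s ζ hζ]; exact hp')
    refine ⟨h', qExpand_injective l ?_⟩
    rw [e', redL_congr _ hp' (hser R.f₀ s ζ hζ), ep, hm1, map_one, map_one]
  have hy : ∀ s, ∃ y₁, ∃ h : y₁ ∈ locS A,
      iota2 M p hpM s (heckeNorm (p * M) l R.q) = 1 + algebraMap QBar LSer W.C.π * y₁ ∧
      redL A ⟨y₁, h⟩ = algebraMap (Res A) (LaurentSeries (Res A)) (((l : Res A) + 1) * r s) :=
    fun s => heckeImage_congr_one hA hp W.C.π_nonunit W.C.π_ne_zero (R.y_mem s) (hr s)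
      (iota2_fracS M p hpM s _) hζ (by rw [hser R.q s ζ hζ, R.q_eq])
  choose y hym hye hyr using hy
  refine ⟨K', ⟨heckeNorm (p * M) l R.f₀, heckeNorm_ne_zero R.f₀_ne,
    h0.dvd_ord R.f₀_ne R.f₀_dvd, hfix W.C₁.H R.f₀_fix, hred0,
    heckeNorm (p * M) l R.q, hfix W.C.H R.q_fix, y, hym, hye, R.κ ^ (l + 1),
    pow_ne_zero _ R.κ_ne, ?_⟩, hK', ?_, hyr⟩
  · rw [hK', ← heckeNorm_galF hl hN, R.rel, map_mul, map_mul, map_mul, map_pow,
      heckeNorm_algebraMap hl hN]
  · have hv : ∀ s, K'.v s = ((l : ℤ) + 1) * K.v s := fun s => by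
      rw [← K'.gord_iota, ← K.gord_iota, hK']
      exact gord_heckeImage hA hp W.C (iota2_fracS M p hpM s _)
        ((_root_.map_ne_zero _).mpr K.f_ne) (K.iota_fix s) (iota2_fracS M p hpM s _) (hser K.f s)
    rw [Kum.δ, Kum.δ, hv, hv]
    ring

/-- All orders of the reductions are divisible by `p` when some eigenvalue is not congruent to
`l + 1`. -/
theorem SigmaRel.dvd_ord {W : Wild A p} {K : Kum hpM W.C} (R : SigmaRel W K)
    (hA : A.LiesOverPrime p) (hM : (M : Res A) ≠ 0) (V : VUnit A hpM) (hV : V.Simple)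
    {l : ℕ} [NeZero l] (hl : l.Prime) (hN : ¬ l ∣ p * M) {a : ℤ}
    (ha : ¬ (p : ℤ) ∣ a - (1 + l)) (hK : IsNormEigen p M l a K.f)
    (h0 : IsNormEigen p M l a R.f₀) (P : Place (Res A) (KM A M)) :
    (p : ℤ) ∣ K.s₀ P ∧ (p : ℤ) ∣ K.t₀ P := by
  have hp : p.Prime := Fact.out
  rcases hV.val P with hP | hP
  · exact (K.res V hA hM hV).1 P hP
  obtain ⟨r, hr⟩ := R.exists_red_const V hA hM hV
  obtain ⟨K', R', hf, hδ, hr'⟩ := R.exists_hecke hA hM hl hN hK h0 hr
  obtain ⟨d, hd, h1, h2⟩ := R.node_eq V hA hM hV hr hP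
  obtain ⟨d', hd', h1', h2'⟩ := R'.node_eq V hA hM hV hr' hP
  have hdd : d' = ((l : ℤ) + 1) * d := by
    have e : (p : ℤ) * d' = p * (((l : ℤ) + 1) * d) := by rw [← hd', hδ, hd]; ring
    exact mul_left_cancel₀ (Int.natCast_ne_zero.mpr hp.ne_zero) e
  have hne : ((a - (1 + l) : ℤ) : Res A) ≠ 0 := fun h =>
    ha ((CharP.intCast_eq_zero_iff (Res A) p _).mp h)
  have key : ∀ x x' : ℤ, (p : ℤ) ∣ x' - a * x →
      ((d' + x' : ℤ) : Res A) * IsLocalRing.residue A W.u =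
        ((l : Res A) + 1) * (((d + x : ℤ) : Res A) * IsLocalRing.residue A W.u) → (p : ℤ) ∣ x := by
    intro x x' hx he
    rw [← mul_assoc] at he
    have he' := mul_right_cancel₀ W.u_ne he
    have hx' := (CharP.intCast_eq_zero_iff (Res A) p _).mpr hx
    rw [hdd] at he'
    push_cast at he' hx' hne
    refine (CharP.intCast_eq_zero_iff (Res A) p _).mp ((mul_eq_zero.mp ?_).resolve_left hne)
    linear_combination he' - hx'
  refine ⟨key _ (K'.s₀ P) (K.dvd_ord_sub hA hM hK K' hf 0 P) (by rw [h1', h1]; ring), ?_⟩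
  refine dvd_neg.mp (key (-K.t₀ P) (-K'.t₀ P) ?_
    (by rw [← sub_eq_add_neg, ← sub_eq_add_neg, h2', h2]; ring))
  rw [show -K'.t₀ P - a * -K.t₀ P = -(K'.t₀ P - a * K.t₀ P) by ring, dvd_neg]
  exact K.dvd_ord_sub hA hM hK K' hf 1 P

end Fermat.Agent.RT.MazurP

end
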