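import Fermat.Agent.RT.MazurP.Res

/-!
# The reduced spaces depend only on the reductions

Two Kummer functions with the same normalised reductions and the same difference of orders have
the same reduced spaces; at every zero of the reduced unit some reduced space strictly jumps.
-/

set_option autoImplicit false
set_option synthInstance.maxHeartbeats 400000
set_option maxHeartbeats 1000000
set_option linter.unusedSectionVars false

noncomputable section

namespace Fermat.Agent.RT.MazurP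

open ModularCurve AlgebraicCurve Fermat.Agent.Semistable Fermat.Agent.Arith
open Fermat.Agent.RT.Mazur

variable {A : ValuationSubring QBar} {p M : ℕ} [Fact p.Prime] [NeZero M]
variable {hpM : ¬ p ∣ M} {C : CoefField A p}
variable [CharP (Res A) p] [FF.IsFunctionField (Res A) (KM A M)]

/-- The trivial class over `C`. -/
def Kum.one (C : CoefField A p) (hpM : ¬ p ∣ M) : Kum hpM C where
  f := 1
  f_ne := one_ne_zero
  dvd v := by rw [v.ord_one]; exact dvd_zero _
  fix τ _ := map_one _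
  v := 0
  fb := 1
  fb_ne _ := one_ne_zero
  spec s := by
    have e : algebraMap QBar LSer (C.π ^ (-(0 : Fin 2 → ℤ) s)) * iota2 M p hpM s 1 = 1 := by
      rw [Pi.zero_apply, neg_zero, zpow_zero, map_one, map_one, one_mul]
    exact ⟨by rw [e]; exact one_mem _, (redL_congr _ (one_mem _) e).trans (map_one (redL A))⟩

theorem charP_laurent (A : ValuationSubring QBar) (p : ℕ) [CharP (Res A) p] :
    CharP (LaurentSeries (Res A)) p :=
  charP_of_injective_algebraMap (algebraMap (Res A) (LaurentSeries (Res A))).injective p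

namespace Kum

variable (K : Kum hpM C) (V : VUnit A hpM)

/-- Pairs within the bounds whose twisted `p`-th powers are reductions for the trivial class. -/
def twistSp (k : ℤ) (m : ℕ) : Submodule (Res A) (Fin 2 → LaurentSeries (Res A)) where
  carrier := {r | r 0 ∈ LS (K.EA V k m) ∧ r 1 ∈ LS (K.EB V k m) ∧
    (fun s => r s ^ p * (K.fb s : LaurentSeries (Res A))) ∈
      (Kum.one C hpM).Im ((p : ℤ) * k + K.δ) (p * m)}
  zero_mem' := by
    refine ⟨zero_mem _, zero_mem _, ?_⟩
    simp only [Pi.zero_apply, zero_pow (Fact.out : p.Prime).ne_zero, zero_mul]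
    exact zero_mem _
  add_mem' := by
    rintro r r' ⟨h0, h1, h⟩ ⟨h0', h1', h'⟩
    refine ⟨add_mem h0 h0', add_mem h1 h1', ?_⟩
    have := charP_laurent A p
    convert add_mem h h' using 1
    funext s
    rw [Pi.add_apply, Pi.add_apply, add_pow_char, add_mul]
  smul_mem' := by
    rintro c r ⟨h0, h1, h⟩
    refine ⟨Submodule.smul_mem _ c h0, Submodule.smul_mem _ c h1, ?_⟩
    convert Submodule.smul_mem _ (c ^ p) h using 1
    funext s
    rw [Pi.smul_apply, Pi.smul_apply, ← HahnSeries.C_mul_eq_smul, ← HahnSeries.C_mul_eq_smul,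
      mul_pow, map_pow, mul_assoc]

theorem mem_twistSp {k : ℤ} {m : ℕ} {r : Fin 2 → LaurentSeries (Res A)} :
    r ∈ K.twistSp V k m ↔ r 0 ∈ LS (K.EA V k m) ∧ r 1 ∈ LS (K.EB V k m) ∧
      (fun s => r s ^ p * (K.fb s : LaurentSeries (Res A))) ∈
        (Kum.one C hpM).Im ((p : ℤ) * k + K.δ) (p * m) := Iff.rfl

theorem Im_le_twistSp (hA : A.LiesOverPrime p) (hM : (M : Res A) ≠ 0) {k : ℤ} (m : ℕ)
    (hk : 0 ≤ (p : ℤ) * k + K.δ) : K.Im k m ≤ K.twistSp V k m := by
  intro r hr
  obtain ⟨l0, l1⟩ := K.Pr_le V hA hM m hk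
  refine ⟨l0 ⟨r, hr, rfl⟩, l1 ⟨r, hr, rfl⟩, ?_⟩
  obtain ⟨a, ha, z, hz, -, h, hred⟩ := K.exists_red_pow hA hM hk hr
  have hzV : z ∈ (Kum.one C hpM).V (p * m) := by
    rw [mem_V]
    show z ^ p * 1 ∈ _
    rw [mul_one]
    have key : ∀ i : ℕ, z ^ i ∈ HN M p (i * (p * m)) := fun i => by
      induction i with
      | zero => rw [pow_zero]; exact one_mem_polesSpace _ _
      | succ i ih => rw [pow_succ, Nat.succ_mul]; exact mul_mem_polesSpace ih hz
    exact key p
  have e : (fun s => r s ^ p * (K.fb s : LaurentSeries (Res A))) =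
      fun s => redL A ⟨tw hpM C.π ((p : ℤ) * k + K.δ) z s, h s⟩ := funext fun s => by
    rw [hred s, ← ha s]
    push_cast
    rfl
  rw [e]
  exact (Kum.one C hpM).red_mem_Im hzV h

/-- Elements of `twistSp` killed by the second projection satisfy the next bound. -/
theorem twistSp_ker (hA : A.LiesOverPrime p) (hM : (M : Res A) ≠ 0) (hV : V.Simple) {k : ℤ}
    {m : ℕ} (hk : 0 ≤ (p : ℤ) * k + K.δ) {r : Fin 2 → LaurentSeries (Res A)}
    (hr : r ∈ K.twistSp V k m) (hr1 : r 1 = 0) : r 0 ∈ LS (K.EA V (k + 1) m) := by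
  obtain ⟨⟨a, -, har⟩, -, h⟩ := hr
  have hp : p.Prime := Fact.out
  set T := Kum.one C hpM
  have hk' : (p : ℤ) * ((p : ℤ) * k + K.δ + 1) + T.δ ≥ 0 := by
    show (p : ℤ) * ((p : ℤ) * k + K.δ + 1) + 0 ≥ 0
    have : (0 : ℤ) ≤ p := Int.natCast_nonneg p
    nlinarith
  have h2 := ((T.mem_ker_proj_one hA _ (p * m) _).mp ⟨h, by
    simp [hr1, zero_pow hp.ne_zero]⟩).2
  have h3 := (T.Pr_le V hA hM (p * m) hk').1 h2
  rw [← har]
  rw [show r 0 ^ p * (K.fb 0 : LaurentSeries (Res A)) =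
    ((a ^ p * K.fb 0 : KM A M) : LaurentSeries (Res A)) by
      simp only [← har, valLin_apply]; push_cast; rfl, mem_LS, FF.mem_riemannRochSpace'] at h3
  rw [valLin_apply, mem_LS, FF.mem_riemannRochSpace']
  intro P
  rw [FF.mem_ordGe]
  rcases eq_or_ne a 0 with ha0 | ha0
  · exact Or.inl ha0
  refine Or.inr ?_
  have h4 := FF.le_ord_of_mem_ordGe P (mul_ne_zero (pow_ne_zero _ ha0) (K.fb_ne 0)) (h3 P)
  rw [P.ord_mul (pow_ne_zero _ ha0) (K.fb_ne 0), FF.ord_pow P] at h4
  simp only [EA, Finsupp.sub_apply, Finsupp.smul_apply, Finsupp.onFinset_apply, nsmul_eq_mul]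
    at h4 ⊢
  push_cast at h4 ⊢
  set x := P.ord a + m * FF.poles (Res A) (jK A M) P with hx
  suffices K.lA V (k + 1) P ≤ x by linarith
  have h5 : T.lA V ((p : ℤ) * k + K.δ + 1) P ≤ p * x + K.s₀ P := by
    rw [hx, s₀]; linarith
  have hp0 : (0 : ℤ) < p := by exact_mod_cast hp.pos
  have he : (0 : ℤ) < C.e := by exact_mod_cast C.e_pos
  have hT : T.s₀ P = 0 := P.ord_one
  have hTδ : T.δ = 0 := rfl
  rcases hV.val P with ho | ho
  · rw [(T.lAB_of_off V ho _).1, hT, neg_zero, cdiv_zero] at h5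
    rw [(K.lAB_of_off V ho _).1, cdiv_le_iff hp0]
    linarith
  · obtain ⟨c, hc⟩ := ((K.res V hA hM hV).2.1 P ho).1
    have hce : cdiv (K.δ - C.e * K.s₀ P) p = c := cdiv_eq hp0 (le_of_eq hc) (by linarith)
    rw [T.lA_of_node V ho, hT, hTδ, mul_zero, sub_zero, cdiv_zero, add_zero,
      cdiv_le_iff he] at h5
    rw [K.lA_of_node V ho, hce, cdiv_le_iff he]
    have h6 : (p : ℤ) * (k + c) < p * (C.e * x) := by linarith
    have := Int.lt_of_mul_lt_mul_left (a := (p : ℤ)) h6 hp0.le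
    omega

/-- For large `m` the reduced space is cut out by the reductions alone. -/
theorem exists_Im_eq_twistSp (hA : A.LiesOverPrime p) (hM : (M : Res A) ≠ 0) (hV : V.Simple)
    {k : ℤ} (hk : 0 ≤ (p : ℤ) * k + K.δ) :
    ∃ m₀ : ℕ, ∀ m, m₀ ≤ m → K.Im k m = K.twistSp V k m := by
  obtain ⟨m₀, hm₀⟩ := ((K.res V hA hM hV).2.2 k hk).2
  refine ⟨m₀, fun m hm => ?_⟩
  obtain ⟨e0, e1⟩ := hm₀ m hm
  let S := K.twistSp V k m
  have hfin : FiniteDimensional (Res A) S := by
    let Φ : S →ₗ[Res A] (LS (K.EA V k m) × LS (K.EB V k m)) :=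
      (((LinearMap.proj (0 : Fin 2)).domRestrict S).codRestrict _ fun r =>
        ((K.mem_twistSp V).mp r.2).1).prod
      (((LinearMap.proj (1 : Fin 2)).domRestrict S).codRestrict _ fun r =>
        ((K.mem_twistSp V).mp r.2).2.1)
    refine Module.Finite.of_injective Φ fun a b h => Subtype.ext (funext fun s => ?_)
    fin_cases s
    · exact congrArg (fun z : LS (K.EA V k m) × LS (K.EB V k m) => (z.1 : LaurentSeries (Res A))) h
    · exact congrArg (fun z : LS (K.EA V k m) × LS (K.EB V k m) => (z.2 : LaurentSeries (Res A))) h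
  refine Submodule.eq_of_le_of_finrank_le (K.Im_le_twistSp V hA hM m hk) ?_
  rw [K.finrank_Im_eq hA, e0, e1]
  let L : S →ₗ[Res A] LS (K.EB V k m) :=
    ((LinearMap.proj (1 : Fin 2)).domRestrict S).codRestrict _ fun r =>
      ((K.mem_twistSp V).mp r.2).2.1
  let L₀ : LinearMap.ker L →ₗ[Res A] LS (K.EA V (k + 1) m) :=
    (((LinearMap.proj (0 : Fin 2)).domRestrict S).comp (LinearMap.ker L).subtype).codRestrict _
      fun r => K.twistSp_ker V hA hM hV hk r.1.2
        (congrArg Subtype.val (LinearMap.mem_ker.mp r.2))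
  have hL₀ : Function.Injective L₀ := fun a b h => Subtype.ext (Subtype.ext (funext fun s => by
    fin_cases s
    · exact congrArg Subtype.val h
    · exact congrArg Subtype.val ((LinearMap.mem_ker.mp a.2).trans
        (LinearMap.mem_ker.mp b.2).symm)))
  show Module.finrank (Res A) S ≤ _
  rw [← LinearMap.finrank_range_add_finrank_ker L]
  exact add_le_add (Submodule.finrank_le _) (LinearMap.finrank_le_finrank_of_injective hL₀)

theorem EA_congr (K' : Kum hpM C) (hfb : K.fb = K'.fb) (hδ : K.δ = K'.δ) (k : ℤ) (m : ℕ) :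
    K.EA V k m = K'.EA V k m ∧ K.EB V k m = K'.EB V k m := by
  have hs : K.S₀ V = K'.S₀ V := by rw [S₀, S₀, hfb]
  constructor <;> ext P <;>
    simp only [EA, EB, Finsupp.sub_apply, Finsupp.onFinset_apply, lA, lB, s₀, t₀, hfb, hδ]

/-- Kummer functions with the same reductions have the same reduced spaces. -/
theorem exists_Im_congr (hA : A.LiesOverPrime p) (hM : (M : Res A) ≠ 0) (hV : V.Simple)
    (K' : Kum hpM C) (hfb : K.fb = K'.fb) (hδ : K.δ = K'.δ)
    {k : ℤ} (hk : 0 ≤ (p : ℤ) * k + K.δ) :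
    ∃ m₀ : ℕ, ∀ m, m₀ ≤ m → K.Im k m = K'.Im k m := by
  obtain ⟨m₁, h1⟩ := K.exists_Im_eq_twistSp V hA hM hV hk
  obtain ⟨m₂, h2⟩ := K'.exists_Im_eq_twistSp V hA hM hV (hδ ▸ hk)
  refine ⟨m₁ + m₂, fun m hm => ?_⟩
  rw [h1 m (by omega), h2 m (by omega)]
  ext r
  rw [mem_twistSp, mem_twistSp, (K.EA_congr V K' hfb hδ k m).1, (K.EA_congr V K' hfb hδ k m).2,
    hfb, hδ]

/-! ### Jumps -/

/-- The class of `k` modulo `e` at which the first projection jumps at `P`. -/
def cA (P : Place (Res A) (KM A M)) : ℤ := cdiv (K.δ - C.e * K.s₀ P) p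

/-- The class of `k` modulo `e` at which the second projection jumps at `P`. -/
def cB (P : Place (Res A) (KM A M)) : ℤ := -cdiv (-K.δ - C.e * K.t₀ P) p

theorem cdiv_add_one_sub {e : ℤ} (he : 0 < e) (x : ℤ) :
    cdiv (x + 1) e - cdiv x e = if e ∣ x then 1 else 0 := by
  split_ifs with h
  · obtain ⟨y, rfl⟩ := h
    rw [cdiv_eq he (le_refl _) (lt_add_of_pos_right _ he),
      cdiv_eq (x := y + 1) he (by linarith) (by linarith)]
    ring
  · have h1 := le_mul_cdiv (a := x) he
    have h1' : x < e * cdiv x e := lt_of_le_of_ne h1 fun h' => h ⟨_, h'⟩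
    have h2 := cdiv_mono he (show x ≤ x + 1 by omega)
    have h3 : cdiv (x + 1) e ≤ cdiv x e := (cdiv_le_iff he).mpr (by omega)
    omega

theorem lA_succ_sub {P : Place (Res A) (KM A M)} (hP : V.oW P = 12) (k : ℤ) :
    K.lA V (k + 1) P - K.lA V k P = if (C.e : ℤ) ∣ k + K.cA P then 1 else 0 := by
  rw [K.lA_of_node V hP, K.lA_of_node V hP, ← cdiv_add_one_sub (by exact_mod_cast C.e_pos)]
  show cdiv (k + 1 + K.cA P) _ - cdiv (k + K.cA P) _ = _
  rw [show k + 1 + K.cA P = k + K.cA P + 1 by ring]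

theorem lB_pred_sub {P : Place (Res A) (KM A M)} (hP : V.oW P = 12) (k : ℤ) :
    K.lB V (k - 1) P - K.lB V k P = if (C.e : ℤ) ∣ k + K.cB P then 1 else 0 := by
  rw [K.lB_of_node V hP, K.lB_of_node V hP]
  have h := cdiv_add_one_sub (e := (C.e : ℤ)) (by exact_mod_cast C.e_pos) (-(k + K.cB P))
  simp only [dvd_neg] at h
  rw [← h, cB]
  congr 2 <;> ring

/-- A jump of the second projection comes with a jump of the first. -/
theorem exists_jump (hA : A.LiesOverPrime p) (hM : (M : Res A) ≠ 0) (hV : V.Simple)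
    {k : ℤ} (hk : 0 ≤ (p : ℤ) * (k - 1) + K.δ) {P : Place (Res A) (KM A M)}
    (hP : V.oW P = 12) (hjump : (C.e : ℤ) ∣ k + K.cB P) :
    ∃ Q, V.oW Q = 12 ∧ (C.e : ℤ) ∣ k + K.cA Q := by
  classical
  by_contra hnone
  push Not at hnone
  have hp0 : (0 : ℤ) < p := by exact_mod_cast (Fact.out : p.Prime).pos
  obtain ⟨-, -, hall⟩ := K.res V hA hM hV
  have h1 := (hall (k - 1) hk).1
  rw [show k - 1 + 1 = k by ring] at h1
  have h2 := (hall k (by linarith)).1
  have hA0 : ∀ Q, K.lA V (k + 1) Q - K.lA V k Q = 0 := by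
    intro Q
    rcases hV.val Q with h | h
    · rw [(K.lAB_of_off V h _).1, (K.lAB_of_off V h _).1, sub_self]
    · rw [K.lA_succ_sub V h, if_neg (hnone Q h)]
  have hB0 : ∀ Q, 0 ≤ K.lB V (k - 1) Q - K.lB V k Q := by
    intro Q
    rcases hV.val Q with h | h
    · rw [(K.lAB_of_off V h _).2, (K.lAB_of_off V h _).2, sub_self]
    · rw [K.lB_pred_sub V h]; split_ifs <;> norm_num
  have hsum : ∑ Q ∈ K.S₀ V, (K.lB V (k - 1) Q - K.lB V k Q) = 0 := by
    have h3 : ∑ Q ∈ K.S₀ V, (K.lA V (k + 1) Q - K.lA V k Q) = 0 :=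
      Finset.sum_eq_zero fun Q _ => hA0 Q
    rw [Finset.sum_sub_distrib] at h3 ⊢
    rw [Finset.sum_add_distrib] at h1 h2
    linarith
  have hmem : P ∈ K.S₀ V := by
    by_contra h
    have := (K.data_zero_of_notMem V h).2.2
    omega
  have := (Finset.sum_eq_zero_iff_of_nonneg fun Q _ => hB0 Q).mp hsum P hmem
  rw [K.lB_pred_sub V hP, if_pos hjump] at this
  exact one_ne_zero this

/-- For large `m` the first bound space has elements of exact order at a given place. -/
theorem exists_exact_order (hM : (M : Res A) ≠ 0) (k : ℤ) :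
    ∃ m₀ : ℕ, ∀ m, m₀ ≤ m → ∀ P : Place (Res A) (KM A M),
      ∃ a : KM A M, a ∈ riemannRochSpace (K.EA V k m) ∧ a ≠ 0 ∧ P.ord a = -K.EA V k m P := by
  classical
  have := residueField_isAlgClosed A
  obtain ⟨cE, hcE⟩ := FF.exists_ell_eq (K := Res A) (F := KM A M)
  refine ⟨(cE + 1 + ∑ P ∈ K.S₀ V, K.lA V k P).toNat, fun m hm P => ?_⟩
  set E := K.EA V k m
  have hψ : (1 : ℤ) ≤ dedekindPsi M := by exact_mod_cast dedekindPsi_pos M
  have hmψ : (m : ℤ) ≤ m * dedekindPsi M := le_mul_of_one_le_right (by positivity) hψ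
  have hdE : cE + 1 ≤ Divisor.degree E := by rw [K.degree_EA V hM]; omega
  have d1 : Divisor.degree (E - Finsupp.single P 1) = Divisor.degree E - 1 := by
    rw [map_sub]
    congr 1
    rw [Divisor.degree, Finsupp.liftAddHom_apply, Finsupp.sum_single_index (by simp)]
    simp [FF.deg_eq_one]
  have e1 := hcE E (by omega)
  have e2 := hcE (E - Finsupp.single P 1) (by omega)
  rw [d1] at e2
  simp only [FF.ell] at e1 e2
  obtain ⟨a, ha, ha'⟩ : ∃ a ∈ riemannRochSpace E,
      a ∉ riemannRochSpace (E - Finsupp.single P 1) := by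
    by_contra hall
    push Not at hall
    have : Module.finrank (Res A) (riemannRochSpace E) ≤
        Module.finrank (Res A) (riemannRochSpace (E - Finsupp.single P 1)) :=
      Submodule.finrank_mono hall
    omega
  have ha0 : a ≠ 0 := fun h => ha' (h ▸ zero_mem _)
  refine ⟨a, ha, ha0, ?_⟩
  rw [FF.mem_riemannRochSpace'] at ha ha'
  refine le_antisymm (not_lt.mp fun hlt => ha' fun w => ?_) (FF.le_ord_of_mem_ordGe P ha0 (ha P))
  rw [Finsupp.sub_apply]
  rcases eq_or_ne w P with rfl | hw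
  · rw [Finsupp.single_eq_same]; exact FF.mem_ordGe_of_le w (by omega)
  · rw [Finsupp.single_eq_of_ne hw, sub_zero]; exact ha w

end Kum

end Fermat.Agent.RT.MazurP

end
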