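import Fermat.Agent.RT.MazurP.Position

/-!
# The congruences at the zeros of the reduced unit

The first reductions of `(q - 1) / π` are constants, and at every zero of the reduced unit the
orders of the reductions of the Kummer function satisfy one congruence with their difference.
-/

set_option autoImplicit false
set_option synthInstance.maxHeartbeats 400000
set_option maxHeartbeats 1000000
set_option linter.unusedSectionVars false

noncomputable section

namespace Fermat.Agent.RT.MazurP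

open ModularCurve AlgebraicCurve Fermat.Agent.Semistable Fermat.Agent.Arith
open Fermat.Agent.RT.Mazur

variable {A : ValuationSubring QBar} {p M : ℕ} [Fact p.Prime] [NeZero M]
variable {hpM : ¬ p ∣ M} [CharP (Res A) p] [FF.IsFunctionField (Res A) (KM A M)]

/-- A function preserving a nonzero Riemann-Roch space is constant. -/
theorem exists_const_of_stable {E : Divisor (Res A) (KM A M)} {z a : KM A M}
    (ha : a ∈ riemannRochSpace E) (ha0 : a ≠ 0)
    (h : ∀ b ∈ riemannRochSpace E, z * b ∈ riemannRochSpace E) :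
    ∃ r : Res A, z = algebraMap (Res A) (KM A M) r := by
  have := residueField_isAlgClosed A
  let T : Module.End (Res A) (riemannRochSpace E) :=
    { toFun := fun b => ⟨z * b, h b b.2⟩
      map_add' := fun b b' => Subtype.ext (mul_add z _ _)
      map_smul' := fun c b => Subtype.ext (mul_smul_comm c z _) }
  have : Nontrivial (riemannRochSpace E) :=
    ⟨⟨⟨a, ha⟩, 0, fun h0 => ha0 (congrArg Subtype.val h0)⟩⟩
  obtain ⟨r, hr⟩ := Module.End.exists_eigenvalue T
  obtain ⟨b, hb⟩ := hr.exists_hasEigenvector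
  have e : z * (b : KM A M) = r • (b : KM A M) := congrArg Subtype.val hb.apply_eq_smul
  rw [Algebra.smul_def] at e
  exact ⟨r, mul_right_cancel₀ (fun h0 => hb.2 (Subtype.ext h0)) e⟩

/-- The auxiliary powers at a place. -/
theorem ord_jPair (hp : 0 < p) (c : ℕ) (s : Fin 2) (P : Place (Res A) (KM A M))
    (hP : P.ord (jK A M) < 0) :
    jK A M ^ sideDeg p s - c ≠ 0 ∧
      P.ord (jK A M ^ sideDeg p s - c) = sideDeg p s * P.ord (jK A M) := by
  have hd : 0 < sideDeg p s := by fin_cases s <;> simp [sideDeg, hp]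
  have hj : jK A M ≠ 0 := fun h => by simp [h] at hP
  have hjd : jK A M ^ sideDeg p s ≠ 0 := pow_ne_zero _ hj
  rw [sub_eq_add_neg, ← FF.ord_pow P, ← map_natCast (algebraMap (Res A) (KM A M)), ← map_neg]
  refine FF.ord_add_eq_left P hjd (Or.inr ?_)
  rw [FF.ord_algebraMap, FF.ord_pow P]
  exact mul_neg_of_pos_of_neg (by exact_mod_cast hd) hP

/-- Two of the auxiliary functions do not vanish at the same place. -/
theorem exists_ord_jPair_eq_zero (_hp2 : 2 ≤ p) (s : Fin 2) (P : Place (Res A) (KM A M))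
    (hP : 0 ≤ P.ord (jK A M)) :
    ∃ c : ℕ, (c = 1 ∨ c = 2) ∧ jK A M ^ sideDeg p s - c ≠ 0 ∧
      P.ord (jK A M ^ sideDeg p s - c) = 0 := by
  have h0 : ∀ c : ℕ, jK A M ^ sideDeg p s - c ∈ FF.ordGe P 0 := fun c => by
    refine sub_mem ?_ ?_
    · simpa using FF.pow_mem_ordGe P (FF.mem_ordGe_of_le P hP) (sideDeg p s)
    · rw [← map_natCast (algebraMap (Res A) (KM A M))]
      exact FF.mem_ordGe_of_le P (FF.ord_algebraMap P _).ge
  by_contra hall
  push Not at hall
  have key : ∀ c : ℕ, (c = 1 ∨ c = 2) → jK A M ^ sideDeg p s - c ∈ FF.ordGe P 1 := fun c hc => by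
    rcases eq_or_ne (jK A M ^ sideDeg p s - (c : KM A M)) 0 with h | h
    · rw [h]; exact zero_mem _
    have h1 := FF.le_ord_of_mem_ordGe P h (h0 c)
    have h2 := hall c hc h
    exact FF.mem_ordGe_of_le P (by omega)
  have h := sub_mem (key 1 (Or.inl rfl)) (key 2 (Or.inr rfl))
  rw [sub_sub_sub_cancel_left, Nat.cast_one, show ((2 : ℕ) : KM A M) - 1 = 1 by norm_num] at h
  have := FF.le_ord_of_mem_ordGe P one_ne_zero h
  rw [P.ord_one] at this
  omega

/-- Elements of a larger space which are divisible by two of the powers lie in the smaller one. -/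
theorem mem_of_mul_jPair (hp2 : 2 ≤ p) (s : Fin 2) {n : ℕ} {E : Divisor (Res A) (KM A M)}
    {x : KM A M}
    (h : ∀ c : ℕ, (c = 1 ∨ c = 2) → x * jPair A p M c n s ∈
      riemannRochSpace (E + (sideDeg p s * n) • FF.poles (Res A) (jK A M))) :
    x ∈ riemannRochSpace E := by
  rw [FF.mem_riemannRochSpace']
  intro P
  rw [FF.mem_ordGe]
  rcases eq_or_ne x 0 with hx | hx
  · exact Or.inl hx
  refine Or.inr ?_
  by_cases hP : 0 ≤ P.ord (jK A M)
  · obtain ⟨c, hc, hne, hord⟩ := exists_ord_jPair_eq_zero hp2 s P hP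
    have h1 := FF.le_ord_of_mem_ordGe P (mul_ne_zero hx (pow_ne_zero _ hne))
      (FF.mem_riemannRochSpace'.mp (h c hc) P)
    rw [P.ord_mul hx (pow_ne_zero _ hne), FF.ord_pow P, hord, Finsupp.add_apply,
      Finsupp.smul_apply, FF.poles_apply, max_eq_left (by omega), smul_zero] at h1
    simpa using h1
  · obtain ⟨hne, hord⟩ := ord_jPair (p := p) (by omega) 1 s P (not_le.mp hP)
    have h1 := FF.le_ord_of_mem_ordGe P (mul_ne_zero hx (pow_ne_zero _ hne))
      (FF.mem_riemannRochSpace'.mp (h 1 (Or.inl rfl)) P)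
    rw [P.ord_mul hx (pow_ne_zero _ hne), FF.ord_pow P, hord, Finsupp.add_apply,
      Finsupp.smul_apply, FF.poles_apply, max_eq_right (by omega), nsmul_eq_mul] at h1
    push_cast at h1
    linarith

variable {C : CoefField A p} (K : Kum hpM C) (V : VUnit A hpM)

theorem Kum.EA_add (k : ℤ) (m n : ℕ) :
    K.EA V k (m + n) = K.EA V k m + (sideDeg p 0 * n) • FF.poles (Res A) (jK A M) := by
  rw [Kum.EA, Kum.EA, add_nsmul, show sideDeg p 0 * n = n from one_mul n]
  abel

theorem Kum.EB_add (k : ℤ) (m n : ℕ) :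
    K.EB V k (m + n) = K.EB V k m + (sideDeg p 1 * n) • FF.poles (Res A) (jK A M) := by
  rw [Kum.EB, Kum.EB, mul_add, add_nsmul, show sideDeg p 1 * n = p * n from rfl]
  abel

variable {W : Wild A p} {K' : Kum hpM W.C}

/-- The first reductions of `(q - 1) / π` are constants. -/
theorem SigmaRel.exists_red_const (R : SigmaRel W K') (hA : A.LiesOverPrime p)
    (hM : (M : Res A) ≠ 0) (hV : V.Simple) :
    ∃ r : Fin 2 → Res A, ∀ s,
      redL A ⟨_, R.y_mem s⟩ = algebraMap (Res A) (LaurentSeries (Res A)) (r s) := by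
  classical
  have hp : p.Prime := Fact.out
  have := residueField_isAlgClosed A
  obtain ⟨k, hk⟩ : ∃ k : ℕ, 0 ≤ (p : ℤ) * ((k : ℤ) - 1) + K'.δ := by
    refine ⟨K'.δ.natAbs + 1, ?_⟩
    push_cast
    have := neg_le_abs K'.δ
    have : (1 : ℤ) ≤ p := by exact_mod_cast hp.pos
    nlinarith [abs_nonneg K'.δ]
  have hk' : 0 ≤ (p : ℤ) * k + K'.δ := by
    have : (0 : ℤ) ≤ p := Int.natCast_nonneg p
    linarith
  obtain ⟨-, -, hall⟩ := K'.res V hA hM hV
  obtain ⟨mA, hmA⟩ := (hall ((k : ℤ) - 1) hk).2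
  obtain ⟨mB, hmB⟩ := (hall k hk').2
  obtain ⟨n₀, hn₀⟩ := R.exists_mul_mem hA hM V hV k hk'
  obtain ⟨cE, hcE⟩ := FF.exists_ell_eq (K := Res A) (F := KM A M)
  set ZA := ∑ P ∈ K'.S₀ V, K'.lA V k P
  set ZB := ∑ P ∈ K'.S₀ V, K'.lB V k P
  set G : ℤ := ((genusFF (Res A) (KM A M) : ℕ) : ℤ)
  set m := mA + mB + (max cE G + max ZA ZB + 1).toNat with hm
  have hψ : (1 : ℤ) ≤ dedekindPsi M := by exact_mod_cast dedekindPsi_pos M
  have h1m : (m : ℤ) ≤ m * dedekindPsi M := le_mul_of_one_le_right (Int.natCast_nonneg m) hψ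
  have h2m : (m : ℤ) ≤ p * m * dedekindPsi M := by
    have : (1 : ℤ) ≤ p := by exact_mod_cast hp.pos
    nlinarith
  have hmax := And.intro (le_max_left cE G) (le_max_right cE G)
  have hmax' := And.intro (le_max_left ZA ZB) (le_max_right ZA ZB)
  have htn := Int.self_le_toNat (max cE G + max ZA ZB + 1)
  -- both bound spaces are full and nonzero
  set E : Fin 2 → Divisor (Res A) (KM A M) := ![K'.EA V k m, K'.EB V k m] with hE
  have hfull : ∀ s, K'.Pr k m s = LS (E s) := by
    intro s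
    fin_cases s
    · have h := (hmA m (by omega)).1
      rw [sub_add_cancel] at h
      simpa [hE] using h
    · simpa [hE] using (hmB m (by omega)).2
  have hne : ∀ s, ∃ a : KM A M, a ∈ riemannRochSpace (E s) ∧ a ≠ 0 := by
    intro s
    have hdeg : max cE G ≤ Divisor.degree (E s) := by
      fin_cases s
      · show _ ≤ Divisor.degree (K'.EA V k m)
        rw [K'.degree_EA V hM]; omega
      · show _ ≤ Divisor.degree (K'.EB V k m)
        rw [K'.degree_EB V hM]; omega
    have hl := hcE (E s) (hmax.1.trans hdeg)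
    obtain ⟨a, ha0, ha⟩ := FF.exists_ne_zero_of_ell_pos (K := Res A) (D := E s) (by
      rw [hl]; omega)
    refine ⟨a, ?_, ha0⟩
    rw [FF.mem_riemannRochSpace']
    intro v
    refine FF.mem_ordGe_of_le v ?_
    have h := Finsupp.le_def.mp ha v
    simp only [Finsupp.coe_zero, Pi.zero_apply, Finsupp.add_apply, FF.div_apply] at h
    omega
  have hadd : ∀ (n : ℕ) s, (![K'.EA V k (m + n), K'.EB V k (m + n)] : Fin 2 → _) s =
      E s + (sideDeg p s * n) • FF.poles (Res A) (jK A M) := by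
    intro n s
    fin_cases s
    · exact K'.EA_add V k m n
    · exact K'.EB_add V k m n
  choose y hy using fun s => R.exists_red_y hA hM s
  have key : ∀ s, ∃ c : Res A, redL A ⟨_, R.y_mem s⟩ = algebraMap (Res A) _ c := by
    intro s
    obtain ⟨a, ha, ha0⟩ := hne s
    set β : Res A := (if s = 0 then 0 else (k : Res A)) * IsLocalRing.residue A W.u with hβ
    obtain ⟨c, hc⟩ := exists_const_of_stable (z := y s + algebraMap (Res A) (KM A M) β) ha ha0
      fun b hb => mem_of_mul_jPair hp.two_le s (n := n₀) fun c hc => by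
        obtain ⟨r, hr, hrb⟩ : (b : LaurentSeries (Res A)) ∈ K'.Pr k m s := by
          rw [hfull s]; exact ⟨b, hb, rfl⟩
        obtain ⟨l0, l1⟩ := K'.Pr_le V hA hM (m + n₀) hk'
        have hpr : ((y s + algebraMap (Res A) (KM A M) β) * b * jPair A p M c n₀ s : KM A M).1 ∈
            K'.Pr k (m + n₀) s := by
          refine ⟨_, (hn₀ n₀ le_rfl m c r hr).2, ?_⟩
          simp only [LinearMap.proj_apply] at hrb ⊢
          rw [hrb, hy s, ← hβ]
          push_cast
          rw [mul_assoc]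
        have hle : K'.Pr k (m + n₀) s ≤
            LS ((![K'.EA V k (m + n₀), K'.EB V k (m + n₀)] : Fin 2 → _) s) := by
          fin_cases s
          · exact l0
          · exact l1
        have h := hle hpr
        rw [hadd] at h
        exact mem_LS.mp h
    refine ⟨c - β, ?_⟩
    rw [hy s, show y s = algebraMap (Res A) (KM A M) (c - β) by
      rw [map_sub, ← hc, add_sub_cancel_right]]
    rfl
  choose r hr using key
  exact ⟨r, hr⟩

/-- At a residue class where the first projection jumps, the exponent is the difference of the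
constants. -/
theorem SigmaRel.mul_residue_eq (R : SigmaRel W K') (hA : A.LiesOverPrime p)
    (hM : (M : Res A) ≠ 0) (hV : V.Simple) {r : Fin 2 → Res A}
    (hr : ∀ s, redL A ⟨_, R.y_mem s⟩ = algebraMap (Res A) (LaurentSeries (Res A)) (r s))
    (k : ℕ) (hk : 0 ≤ (p : ℤ) * ((k : ℤ) - 1) + K'.δ) {P : Place (Res A) (KM A M)}
    (hP : V.oW P = 12) (hjump : (W.C.e : ℤ) ∣ (k : ℤ) + K'.cA P) :
    (k : Res A) * IsLocalRing.residue A W.u = r 0 - r 1 := by
  classical
  have hp : p.Prime := Fact.out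
  by_contra hne
  have hk' : 0 ≤ (p : ℤ) * k + K'.δ := by
    have : (0 : ℤ) ≤ p := Int.natCast_nonneg p
    linarith
  obtain ⟨mA, hmA⟩ := ((K'.res V hA hM hV).2.2 _ hk).2
  obtain ⟨mE, hmE⟩ := K'.exists_exact_order V hM k
  obtain ⟨n₀, hn₀⟩ := R.exists_mul_mem hA hM V hV k hk'
  obtain ⟨a, ha, ha0, horda⟩ := hmE (mA + mE) (by omega) P
  have hj : 0 ≤ P.ord (jK A M) := by
    by_contra h
    rw [VUnit.oW, if_neg h] at hP
    omega
  obtain ⟨c, -, hHne, hHord⟩ := exists_ord_jPair_eq_zero (A := A) (M := M) hp.two_le 0 P hj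
  set m := mA + mE
  obtain ⟨x, hx, hxa⟩ : (a : LaurentSeries (Res A)) ∈ K'.Pr k m 0 := by
    have h := (hmA m (by omega)).1
    rw [sub_add_cancel] at h
    rw [h]
    exact ⟨a, ha, rfl⟩
  obtain ⟨h1, h2⟩ := hn₀ n₀ le_rfl m c x hx
  set lam : Res A := r 1 + (k : Res A) * IsLocalRing.residue A W.u with hlam
  have h3 := Submodule.smul_mem _ (r 0 - lam)⁻¹ (sub_mem h2 (Submodule.smul_mem _ lam h1))
  have hlam0 : r 0 - lam ≠ 0 := fun h0 => hne (by rw [hlam] at h0; linear_combination -h0)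
  have e : ((r 0 - lam)⁻¹ • ((fun s => (redL A ⟨_, R.y_mem s⟩ +
      algebraMap (Res A) (LaurentSeries (Res A))
        ((if s = 0 then 0 else (k : Res A)) * IsLocalRing.residue A W.u)) *
      (x s * (jPair A p M c n₀ s : LaurentSeries (Res A)))) -
      lam • fun s => x s * (jPair A p M c n₀ s : LaurentSeries (Res A)))) =
      ![((a * jPair A p M c n₀ 0 : KM A M) : LaurentSeries (Res A)), 0] := by
    funext s
    have hxa' : x 0 = (a : LaurentSeries (Res A)) := hxa
    simp only [Pi.smul_apply, Pi.sub_apply, ← HahnSeries.C_mul_eq_smul, hr]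
    rw [show (HahnSeries.C : Res A →+* LaurentSeries (Res A)) =
      algebraMap (Res A) (LaurentSeries (Res A)) from
        RingHom.ext fun t => (algebraMap_laurentSeries_eq_single _ t).symm, ← sub_mul, ← map_add,
      ← map_sub, ← mul_assoc, ← map_mul]
    rcases (by fin_cases s <;> simp : s = 0 ∨ s = 1) with rfl | rfl
    · rw [if_pos rfl, zero_mul, add_zero, inv_mul_cancel₀ hlam0, map_one, one_mul, hxa']
      rfl
    · rw [if_neg one_ne_zero, ← hlam, sub_self, mul_zero, map_zero, zero_mul]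
      rfl
  rw [e] at h3
  have h4 := ((K'.mem_ker_proj_one hA _ _ _).mp ⟨h3, rfl⟩).2
  have h5 := mem_LS.mp ((K'.Pr_le V hA hM (m + n₀) (k := (k : ℤ) + 1) (by linarith)).1 h4)
  rw [FF.mem_riemannRochSpace'] at h5
  have h6 := FF.le_ord_of_mem_ordGe P (mul_ne_zero ha0 (pow_ne_zero _ hHne)) (h5 P)
  rw [P.ord_mul ha0 (pow_ne_zero _ hHne), FF.ord_pow P, hHord, horda] at h6
  simp only [Kum.EA, Finsupp.sub_apply, Finsupp.smul_apply, Finsupp.onFinset_apply,
    FF.poles_apply, max_eq_left (show -P.ord (jK A M) ≤ 0 by omega), smul_zero] at h6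
  have h7 := K'.lA_succ_sub V hP k
  rw [if_pos hjump] at h7
  simp only [mul_zero, add_zero, zero_sub, neg_neg] at h6
  omega

/-- The congruences. -/
theorem SigmaRel.node_eq (R : SigmaRel W K') (hA : A.LiesOverPrime p) (hM : (M : Res A) ≠ 0)
    (hV : V.Simple) {r : Fin 2 → Res A}
    (hr : ∀ s, redL A ⟨_, R.y_mem s⟩ = algebraMap (Res A) (LaurentSeries (Res A)) (r s))
    {P : Place (Res A) (KM A M)} (hP : V.oW P = 12) :
    ∃ d : ℤ, K'.δ = p * d ∧
      ((d + K'.s₀ P : ℤ) : Res A) * IsLocalRing.residue A W.u = r 1 - r 0 ∧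
      ((d - K'.t₀ P : ℤ) : Res A) * IsLocalRing.residue A W.u = r 1 - r 0 := by
  classical
  have hp : p.Prime := Fact.out
  have hp0 : (0 : ℤ) < p := by exact_mod_cast hp.pos
  have hp1 : (1 : ℤ) ≤ p := hp0
  have he : (W.C.e : ℤ) = p * ((p : ℤ) - 1) := by
    rw [W.e_eq, Nat.cast_mul, Nat.cast_sub hp.one_le, Nat.cast_one]
  obtain ⟨d, hd⟩ : (p : ℤ) ∣ K'.δ := by
    have h := ((K'.res V hA hM hV).2.1 P hP).1
    rw [he, mul_assoc] at h
    exact (dvd_sub_left (dvd_mul_right _ _)).mp h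
  -- large exponents in given classes modulo `e`
  have hbig : ∀ x : ℤ, ∃ k : ℕ, (0 ≤ (p : ℤ) * ((k : ℤ) - 1) + K'.δ) ∧
      (W.C.e : ℤ) ∣ (k : ℤ) + x ∧ ((k : Res A) : Res A) = -((x : ℤ) : Res A) := by
    intro x
    set i : ℤ := |x| + |K'.δ| + 1 with hi
    have he1 : (1 : ℤ) ≤ W.C.e := by exact_mod_cast W.C.e_pos
    have hei : i ≤ (W.C.e : ℤ) * i := le_mul_of_one_le_left
      (by rw [hi]; positivity) he1
    have hk : 0 ≤ (W.C.e : ℤ) * i - x := by
      linarith [abs_nonneg K'.δ, le_abs_self x]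
    refine ⟨((W.C.e : ℤ) * i - x).toNat, ?_, ?_, ?_⟩
    · rw [Int.toNat_of_nonneg hk]
      nlinarith [abs_nonneg x, abs_nonneg K'.δ, le_abs_self x, neg_le_abs K'.δ]
    · rw [Int.toNat_of_nonneg hk, sub_add_cancel]
      exact dvd_mul_right _ _
    · rw [← Int.cast_natCast (R := Res A), Int.toNat_of_nonneg hk, he]
      push_cast
      rw [CharP.cast_eq_zero]
      ring
  refine ⟨d, hd, ?_, ?_⟩
  · obtain ⟨k, hk, hkx, hkc⟩ := hbig (K'.cA P)
    have h := R.mul_residue_eq V hA hM hV hr k hk hP hkx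
    have hcA : K'.cA P = d - ((p : ℤ) - 1) * K'.s₀ P := by
      rw [Kum.cA, hd, he]
      exact cdiv_eq hp0 (le_of_eq (by ring)) (lt_of_eq_of_lt (by ring) (lt_add_of_pos_right _ hp0))
    rw [hkc, hcA] at h
    push_cast at h ⊢
    rw [CharP.cast_eq_zero] at h
    linear_combination -h
  · obtain ⟨k, hk, hkx, hkc⟩ := hbig (K'.cB P)
    obtain ⟨Q, hQ, hQj⟩ := K'.exists_jump V hA hM hV hk hP hkx
    have h := R.mul_residue_eq V hA hM hV hr k hk hQ hQj
    have hcB : K'.cB P = d + ((p : ℤ) - 1) * K'.t₀ P := by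
      rw [Kum.cB, hd, he, cdiv_eq hp0 (x := -d - ((p : ℤ) - 1) * K'.t₀ P) (le_of_eq (by ring))
        (lt_of_eq_of_lt (by ring) (lt_add_of_pos_right _ hp0))]
      ring
    rw [hkc, hcB] at h
    push_cast at h ⊢
    rw [CharP.cast_eq_zero] at h
    linear_combination -h

end Fermat.Agent.RT.MazurP

end
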