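import Fermat.Agent.RT.MazurP.Hecke
import Fermat.Agent.RT.MazurP.Level
import Fermat.Agent.OrdinaryAtP.Basic

/-!
# Normalisation

A fixed class moved trivially on reductions can be normalised to have both reductions one; the
same holds for every class whose reductions are `p`-th powers.
-/

set_option autoImplicit false
set_option synthInstance.maxHeartbeats 400000
set_option maxHeartbeats 1000000
set_option linter.unusedSectionVars false

noncomputable section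

namespace Fermat.Agent.RT.MazurP

open ModularCurve AlgebraicCurve Fermat.Agent.Semistable Fermat.Agent.Arith
open Fermat.Agent.RT.Mazur

variable {A : ValuationSubring QBar} {p M : ℕ} [Fact p.Prime] [NeZero M] {hpM : ¬ p ∣ M}

/-- Changing a function by a constant and a `p`-th power keeps it an eigen function. -/
theorem IsNormEigen.mul_const_pow {l : ℕ} [NeZero l] (hl : l.Prime) (hN : ¬ l ∣ p * M) {a : ℤ}
    {f : FB (p * M)} (hf : IsNormEigen p M l a f) {d : QBar} (hd : d ≠ 0) {φ : FB (p * M)}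
    (hφ : φ ≠ 0) : IsNormEigen p M l a (algebraMap QBar (FB (p * M)) d * f * φ ^ p) := by
  obtain ⟨c, h, hc, hh, e⟩ := hf
  refine ⟨c * d ^ (l + 1) * (d ^ a)⁻¹, h * heckeNorm (p * M) l φ * (φ ^ a)⁻¹,
    mul_ne_zero (mul_ne_zero hc (pow_ne_zero _ hd)) (inv_ne_zero (zpow_ne_zero _ hd)),
    mul_ne_zero (mul_ne_zero hh (heckeNorm_ne_zero hφ)) (inv_ne_zero (zpow_ne_zero _ hφ)), ?_⟩
  have hφa : (φ ^ p) ^ a = (φ ^ a) ^ p := by
    rw [← zpow_natCast, ← zpow_natCast, zpow_comm]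
  have hda : algebraMap QBar (FB (p * M)) (d ^ a) ≠ 0 :=
    (_root_.map_ne_zero _).mpr (zpow_ne_zero _ hd)
  have hφa0 : (φ ^ a) ^ p ≠ 0 := pow_ne_zero _ (zpow_ne_zero _ hφ)
  rw [map_mul, map_mul, map_pow, heckeNorm_algebraMap hl hN, e, mul_zpow, mul_zpow, hφa,
    ← map_zpow₀, map_mul, map_mul, map_inv₀, mul_pow, mul_pow, inv_pow]
  field_simp

/-- An element congruent to one. -/
theorem zpow_sub_one_mem_nonunits {x : QBar} (h : x - 1 ∈ A.nonunits) (n : ℤ) :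
    x ^ n - 1 ∈ A.nonunits := by
  have hx : x ∈ A := by
    have := add_mem (mem_of_mem_nonunits h) (one_mem A)
    rwa [sub_add_cancel] at this
  have hnat : ∀ k : ℕ, x ^ k - 1 ∈ A.nonunits := fun k => by
    induction k with
    | zero =>
      rw [pow_zero, sub_self, ← residue_eq_zero_iff (zero_mem A)]
      exact map_zero (IsLocalRing.residue A)
    | succ k ih =>
      rw [show x ^ (k + 1) - 1 = x ^ k * (x - 1) + (x ^ k - 1) by ring]
      exact nonunits_add (nonunits_mul_left (pow_mem hx k) h) ih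
  rcases Int.eq_nat_or_neg n with ⟨k, rfl | rfl⟩
  · simpa using hnat k
  · have hk := hnat k
    have hv : A.valuation (x ^ k) = 1 := valuation_eq_one (pow_mem hx k) fun hnu => by
      have h0 := (residue_eq_zero_iff (pow_mem hx k)).mpr hnu
      have h1 : IsLocalRing.residue A ⟨x ^ k, pow_mem hx k⟩ = IsLocalRing.residue A 1 :=
        residue_eq_iff.mpr hk
      rw [h0, map_one] at h1
      exact zero_ne_one h1
    have hk0 : x ^ k ≠ 0 := fun h0 => by simp [h0] at hv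
    have hinv : (x ^ k)⁻¹ ∈ A := (A.valuation_le_one_iff _).mp (by rw [map_inv₀, hv, inv_one])
    rw [zpow_neg, zpow_natCast,
      show (x ^ k)⁻¹ - 1 = -(x ^ k)⁻¹ * (x ^ k - 1) by field_simp; ring]
    exact nonunits_mul_left (neg_mem hinv) hk

/-- The generator moves powers of the uniformiser by units congruent to one. -/
theorem Wild.exists_σ_π_zpow (W : Wild A p) (n : ℤ) :
    ∃ ρ : QBar, A.valuation ρ = 1 ∧ (∃ h : ρ ∈ A, IsLocalRing.residue A ⟨ρ, h⟩ = 1) ∧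
      W.σ (W.C.π ^ n) = ρ * W.C.π ^ n := by
  obtain ⟨w, hw, e⟩ := W.σ_π
  set x := 1 + (W.u : QBar) * W.C.π + w * W.C.π ^ 2 with hxdef
  have hx : x - 1 ∈ A.nonunits := by
    rw [show x - 1 = ((W.u : QBar) + w * W.C.π) * W.C.π by rw [hxdef]; ring]
    exact nonunits_mul_left (add_mem W.u.2 (mul_mem hw (mem_of_mem_nonunits W.C.π_nonunit)))
      W.C.π_nonunit
  have hxn := zpow_sub_one_mem_nonunits hx n
  have hmem : x ^ n ∈ A := by
    have := add_mem (mem_of_mem_nonunits hxn) (one_mem A)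
    rwa [sub_add_cancel] at this
  have hres : IsLocalRing.residue A ⟨x ^ n, hmem⟩ = 1 := by
    rw [← map_one (IsLocalRing.residue A)]
    exact residue_eq_iff.mpr hxn
  refine ⟨x ^ n, valuation_eq_one hmem fun h => ?_, ⟨hmem, hres⟩, ?_⟩
  · rw [← residue_eq_zero_iff hmem, hres] at h
    exact one_ne_zero h
  · rw [map_zpow₀, e, mul_zpow, mul_comm]

/-- The relation on normalised reductions. -/
theorem rel_red {W : Wild A p} (K : Kum hpM W.C) {f₀ q : FB (p * M)} {κ : QBar} (_hκ : κ ≠ 0)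
    (rel : galF (p * M) W.σ K.f = algebraMap QBar (FB (p * M)) κ * K.f * f₀ * q ^ p) (s : Fin 2)
    {a b : QBar} (ha : a ≠ 0) (hb : b ≠ 0) {z₀ zq : LaurentSeries (Res A)}
    (hY : ∃ h : algebraMap QBar LSer a * iota2 M p hpM s f₀ ∈ locS A, redL A ⟨_, h⟩ = z₀)
    (hG : ∃ h : algebraMap QBar LSer b * iota2 M p hpM s q ∈ locS A, redL A ⟨_, h⟩ = zq)
    (hz₀ : z₀ ≠ 0) (hzq : zq ≠ 0) :
    ∃ h : κ / (a * b ^ p) ∈ A, A.valuation (κ / (a * b ^ p)) = 1 ∧
      algebraMap (Res A) (LaurentSeries (Res A)) (IsLocalRing.residue A ⟨_, h⟩) *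
        (z₀ * zq ^ p) = 1 := by
  obtain ⟨hX, hXr⟩ := K.spec s
  obtain ⟨hY, hYr⟩ := hY
  obtain ⟨hG, hGr⟩ := hG
  obtain ⟨ρ, hρv, ⟨hρA, hρr⟩, hρ⟩ := W.exists_σ_π_zpow (-K.v s)
  obtain ⟨hσ, hσr⟩ := (resLift_of_inertia W.σ_mem_inertia).redL_coeffMap hX
  rw [coeffMap_id, hXr] at hσr
  set P := algebraMap QBar LSer (W.C.π ^ (-K.v s)) * iota2 M p hpM s K.f *
    (algebraMap QBar LSer a * iota2 M p hpM s f₀) *
    (algebraMap QBar LSer b * iota2 M p hpM s q) ^ p with hP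
  have hm := mul_mem (mul_mem hX hY) (pow_mem hG p)
  have hPr : redL A ⟨P, hm⟩ = (K.fb s : LaurentSeries (Res A)) * z₀ * zq ^ p := by
    rw [redL_mul' (mul_mem hX hY) (pow_mem hG p), redL_mul' hX hY, redL_pow' hG, hXr, hYr, hGr]
  have hfb : (K.fb s : LaurentSeries (Res A)) ≠ 0 := fun h => K.fb_ne s (Subtype.ext h)
  have hPu : IsGUnit A P := ⟨hm, by
    rw [hPr]; exact mul_ne_zero (mul_ne_zero hfb hz₀) (pow_ne_zero _ hzq)⟩
  have e : coeffMap (W.σ : QBar →+* QBar)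
      (algebraMap QBar LSer (W.C.π ^ (-K.v s)) * iota2 M p hpM s K.f) =
      algebraMap QBar LSer (ρ * (κ / (a * b ^ p))) * P := by
    rw [map_mul, ← iota2_galF, rel, coeffMap_algebraMap]
    simp only [map_mul, map_pow, AlgHom.commutes, map_div₀, hP]
    rw [show ((W.σ : QBar →+* QBar) (W.C.π ^ (-K.v s))) = W.σ (W.C.π ^ (-K.v s)) from rfl, hρ,
      map_mul]
    have hα : algebraMap QBar LSer a ≠ 0 := (_root_.map_ne_zero _).mpr ha
    have hβ : algebraMap QBar LSer b ≠ 0 := (_root_.map_ne_zero _).mpr hb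
    field_simp
    ring
  have hval : A.valuation (ρ * (κ / (a * b ^ p))) = A.valuation 1 := by
    refine valuation_eq_of_isGUnit (x := P) ?_ (by rwa [map_one, one_mul])
    rw [← e]
    exact ⟨hσ, by rw [hσr]; exact hfb⟩
  rw [map_mul, hρv, one_mul, map_one] at hval
  obtain ⟨hc, -⟩ := residue_unit_ne_zero hval
  refine ⟨hc, hval, ?_⟩
  obtain ⟨h', e'⟩ := redL_const_mul (mul_mem hρA hc) hm
  rw [redL_congr hσ h' e, e', hPr,
    show (⟨ρ * (κ / (a * b ^ p)), mul_mem hρA hc⟩ : A) = ⟨ρ, hρA⟩ * ⟨_, hc⟩ from rfl,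
    map_mul (IsLocalRing.residue A), hρr, one_mul] at hσr
  refine mul_left_cancel₀ hfb ?_
  rw [mul_one]
  linear_combination hσr

variable [CharP (Res A) p]

/-- Both normalised reductions of a function, with constant multipliers. -/
theorem exists_isRed_pair (hA : A.LiesOverPrime p) (hM : (M : Res A) ≠ 0) {x : FB (p * M)}
    (hx : x ≠ 0) (s : Fin 2) :
    ∃ (c : QBar) (z : KM A M), c ≠ 0 ∧ z ≠ 0 ∧
      ∃ h : algebraMap QBar LSer c * iota2 M p hpM s x ∈ locS A,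
        redL A ⟨_, h⟩ = (z : LaurentSeries (Res A)) := by
  obtain ⟨z, hz⟩ := IsRed.exists_of_ne_zero hA (Fact.out : p.Prime) (iota2_fracS M p hpM s x)
    ((_root_.map_ne_zero _).mpr hx)
  have hmem := isRed_mem_KM p M hpM hA hM hz
  obtain ⟨hz0, c, hc, h, e⟩ := hz
  exact ⟨c, ⟨z, hmem⟩, hc, fun h0 => hz0 (congrArg Subtype.val h0), h, e⟩

variable [FF.IsFunctionField (Res A) (KM A M)]

/-- The reduced unit has a zero away from the cusps. -/
theorem exists_node (hM : (M : Res A) ≠ 0) (V : VUnit A hpM) (hV : V.Simple) :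
    ∃ P, V.oW P = 12 := by
  classical
  by_contra hall
  push Not at hall
  have h0 : V.oD = 0 := Finsupp.ext fun P => (hV.val P).resolve_right (hall P)
  have h := degree_oD hM V
  rw [h0, map_zero] at h
  have hψ : (1 : ℤ) ≤ dedekindPsi M := by exact_mod_cast dedekindPsi_pos M
  have hp : (2 : ℤ) ≤ p := by exact_mod_cast (Fact.out : p.Prime).two_le
  nlinarith

/-- When the first orders are divisible by `p`, so is the difference of the two orders. -/
theorem Kum.dvd_δ {C : CoefField A p} (K : Kum hpM C) (hA : A.LiesOverPrime p)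
    (hM : (M : Res A) ≠ 0) (V : VUnit A hpM) (hV : V.Simple)
    (h : ∀ P, (p : ℤ) ∣ K.s₀ P) : (p : ℤ) ∣ K.δ := by
  obtain ⟨P, hP⟩ := exists_node hM V hV
  exact (dvd_sub_left (dvd_mul_of_dvd_right (h P) _)).mp ((K.res V hA hM hV).2.1 P hP).1

/-- Classes whose reductions are `p`-th powers and whose orders differ by a multiple of `p` can be
normalised to have both reductions one. -/
theorem Kum.exists_unit {C : CoefField A p} (K : Kum hpM C) (hA : A.LiesOverPrime p)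
    (hM : (M : Res A) ≠ 0) (V : VUnit A hpM) (hV : V.Simple) (z : Fin 2 → KM A M)
    (hz : ∀ s, z s ^ p * K.fb s = 1) (hδ : (p : ℤ) ∣ K.δ) :
    ∃ (c : QBar) (φ : FB (p * M)), c ≠ 0 ∧ φ ≠ 0 ∧ (∀ τ ∈ C.H, τ c = c) ∧
      (∀ τ ∈ C.H, galF (p * M) τ φ = φ) ∧
      ∀ s, ∃ h : iota2 M p hpM s (algebraMap QBar (FB (p * M)) c * K.f * φ ^ p) ∈ locS A,
        redL A ⟨_, h⟩ = 1 := by
  have hp : p.Prime := Fact.out
  obtain ⟨d, hd⟩ := hδ
  have hz0 : ∀ s, z s ≠ 0 := fun s h0 => by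
    have := hz s
    rw [h0, zero_pow hp.ne_zero, zero_mul] at this
    exact zero_ne_one this
  obtain ⟨φ, hφ, hφf, hφr⟩ := exists_fixed_pair (C := C) hA hM V hV z hz0 (-d)
  refine ⟨C.π ^ (-K.v 0), φ, zpow_ne_zero _ C.π_ne_zero, hφ, fun τ hτ => by
    rw [map_zpow₀, C.π_fixed τ hτ], hφf, fun s => ?_⟩
  obtain ⟨hf, hfr⟩ := K.spec s
  obtain ⟨hg, hgr⟩ := hφr s
  have hexp : C.π ^ (-K.v 0) = C.π ^ (-K.v s) * (C.π ^ (-(![0, -d] s))) ^ p := by
    rw [← zpow_natCast (C.π ^ (-(![0, -d] s))), ← zpow_mul, ← zpow_add₀ C.π_ne_zero]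
    congr 1
    rw [Kum.δ] at hd
    fin_cases s <;> simp
    linarith
  have e : iota2 M p hpM s (algebraMap QBar (FB (p * M)) (C.π ^ (-K.v 0)) * K.f * φ ^ p) =
      algebraMap QBar LSer (C.π ^ (-K.v s)) * iota2 M p hpM s K.f *
        (algebraMap QBar LSer (C.π ^ (-(![0, -d] s))) * iota2 M p hpM s φ) ^ p := by
    rw [map_mul, map_mul, map_pow, AlgHom.commutes, hexp, map_mul, map_pow]
    ring
  refine ⟨by rw [e]; exact mul_mem hf (pow_mem hg p), ?_⟩
  rw [redL_congr _ (mul_mem hf (pow_mem hg p)) e, redL_mul' hf (pow_mem hg p), redL_pow' hg, hfr,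
    hgr, mul_comm]
  exact congrArg Subtype.val (hz s)

/-- The wild relation can be normalised. -/
theorem exists_sigmaRel {W : Wild A p} (K : Kum hpM W.C) (hA : A.LiesOverPrime p)
    (hM : (M : Res A) ≠ 0) (V : VUnit A hpM) (hV : V.Simple) {f₀ q : FB (p * M)} {κ : QBar}
    (hκ : κ ≠ 0) (hf₀ : f₀ ≠ 0)
    (hdvd : ∀ v : Place QBar (FB (p * M)), (p : ℤ) ∣ v.ord f₀)
    (hfix₀ : ∀ τ ∈ W.C₁.H, galF (p * M) τ f₀ = f₀) (hq : q ≠ 0)
    (hfixq : ∀ τ ∈ W.C.H, galF (p * M) τ q = q)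
    (rel : galF (p * M) W.σ K.f = algebraMap QBar (FB (p * M)) κ * K.f * f₀ * q ^ p) :
    ∃ (R : SigmaRel W K) (d : QBar) (φ : FB (p * M)), d ≠ 0 ∧ φ ≠ 0 ∧
      R.f₀ = algebraMap QBar (FB (p * M)) d * f₀ * φ ^ p := by
  classical
  have hp : p.Prime := Fact.out
  have := residueField_isAlgClosed A
  obtain ⟨K₀, hK₀⟩ := Kum.exists_of (hpM := hpM) (C := W.C₁) hA hM hf₀ hdvd hfix₀
  choose bq zq hbq hzq hG using fun s => exists_isRed_pair (hpM := hpM) hA hM hq s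
  have hzq' : ∀ s, (zq s : LaurentSeries (Res A)) ≠ 0 := fun s h => hzq s (Subtype.ext h)
  have hfb₀ : ∀ s, (K₀.fb s : LaurentSeries (Res A)) ≠ 0 := fun s h =>
    K₀.fb_ne s (Subtype.ext h)
  have hu : ∀ s, ∃ u : Res A, u ≠ 0 ∧
      algebraMap (Res A) (KM A M) u * (K₀.fb s * zq s ^ p) = 1 := by
    intro s
    obtain ⟨hY, hYr⟩ := K₀.spec s
    obtain ⟨h, -, he⟩ := rel_red K hκ rel s (zpow_ne_zero (-K₀.v s) W.C₁.π_ne_zero) (hbq s)
      ⟨hK₀ ▸ hY, by rw [← hYr]; exact redL_congr _ _ (by rw [hK₀])⟩ (hG s) (hfb₀ s) (hzq' s)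
    refine ⟨IsLocalRing.residue A ⟨_, h⟩, fun h0 => ?_, Subtype.ext ?_⟩
    · rw [h0, map_zero, zero_mul] at he
      exact zero_ne_one he
    · push_cast
      exact he
  choose u hu0 hu using hu
  have hs₀ : ∀ P, (p : ℤ) ∣ K₀.s₀ P := fun P => by
    have h := congrArg P.ord (hu 0)
    rw [P.ord_mul ((_root_.map_ne_zero _).mpr (hu0 0))
      (mul_ne_zero (K₀.fb_ne 0) (pow_ne_zero _ (hzq 0))),
      P.ord_mul (K₀.fb_ne 0) (pow_ne_zero _ (hzq 0)), FF.ord_algebraMap, FF.ord_pow P,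
      P.ord_one, zero_add] at h
    exact ⟨-P.ord (zq 0), by rw [Kum.s₀]; linarith⟩
  choose γ hγ using fun s => IsAlgClosed.exists_pow_nat_eq (u s) hp.pos
  obtain ⟨c, φ, hc, hφ, hcf, hφf, hred⟩ := K₀.exists_unit hA hM V hV
    (fun s => algebraMap (Res A) (KM A M) (γ s) * zq s)
    (fun s => by rw [mul_pow, ← map_pow, hγ, mul_assoc, mul_comm (zq s ^ p), hu s])
    (K₀.dvd_δ hA hM V hV hs₀)
  rw [hK₀] at hred
  set g₀ := algebraMap QBar (FB (p * M)) c * f₀ * φ ^ p with hg₀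
  have hc' : algebraMap QBar (FB (p * M)) c ≠ 0 := (_root_.map_ne_zero _).mpr hc
  have hg₀0 : g₀ ≠ 0 := mul_ne_zero (mul_ne_zero hc' hf₀) (pow_ne_zero _ hφ)
  have hg₀dvd : ∀ v : Place QBar (FB (p * M)), (p : ℤ) ∣ v.ord g₀ := fun v => by
    rw [hg₀, v.ord_mul (mul_ne_zero hc' hf₀) (pow_ne_zero _ hφ), v.ord_mul hc' hf₀,
      FF.ord_algebraMap, FF.ord_pow v, zero_add]
    exact dvd_add (hdvd v) (dvd_mul_right _ _)
  set q' := q / φ with hq'
  have hq'0 : q' ≠ 0 := div_ne_zero hq hφ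
  have rel' : galF (p * M) W.σ K.f =
      algebraMap QBar (FB (p * M)) (κ / c) * K.f * g₀ * q' ^ p := by
    rw [rel, hg₀, hq', div_pow, map_div₀]
    field_simp
  have hq'f : ∀ τ ∈ W.C.H, galF (p * M) τ q' = q' := fun τ hτ => by
    rw [hq', map_div₀, hfixq τ hτ, hφf τ (W.le hτ)]
  -- the normalised root factor
  have hn : ∀ s, ∃ n : ℤ, IsGUnit A (algebraMap QBar LSer (W.C.π ^ (-n)) * iota2 M p hpM s q') :=
    fun s => CoefField.exists_zpow_isGUnit hA hp (iota2_fracS M p hpM s q')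
      ((_root_.map_ne_zero _).mpr hq'0) fun τ hτ => by rw [← iota2_galF, hq'f τ hτ]
  choose n hnm hnne using hn
  have hrel : ∀ s, ∃ h : κ / c / (1 * (W.C.π ^ (-n s)) ^ p) ∈ A,
      A.valuation (κ / c / (1 * (W.C.π ^ (-n s)) ^ p)) = 1 ∧
      algebraMap (Res A) (LaurentSeries (Res A)) (IsLocalRing.residue A ⟨_, h⟩) *
        (1 * redL A ⟨_, hnm s⟩ ^ p) = 1 := fun s => by
    obtain ⟨hm, hm1⟩ := hred s
    have e : algebraMap QBar LSer 1 * iota2 M p hpM s g₀ = iota2 M p hpM s g₀ := by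
      rw [map_one, one_mul]
    exact rel_red K (div_ne_zero hκ hc) rel' s one_ne_zero (zpow_ne_zero _ W.C.π_ne_zero)
      ⟨by rw [e]; exact hm, (redL_congr _ _ e).trans hm1⟩ ⟨hnm s, rfl⟩ one_ne_zero (hnne s)
  have hn01 : n 1 = n 0 := by
    obtain ⟨-, h0, -⟩ := hrel 0
    obtain ⟨-, h1, -⟩ := hrel 1
    rw [map_div₀, div_eq_one_iff_eq ((Valuation.ne_zero_iff _).mpr (mul_ne_zero one_ne_zero
      (pow_ne_zero _ (zpow_ne_zero _ W.C.π_ne_zero)))), one_mul] at h0 h1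
    rw [h1] at h0
    rw [← zpow_natCast, ← zpow_natCast, ← zpow_mul, ← zpow_mul] at h0
    have h2 : A.valuation (W.C.π ^ (-n 1 * (p : ℤ) - -n 0 * (p : ℤ))) = 1 := by
      rw [zpow_sub₀ W.C.π_ne_zero, map_div₀, h0,
        div_self ((Valuation.ne_zero_iff _).mpr (zpow_ne_zero _ W.C.π_ne_zero))]
    have h3 := CoefField.π_zpow_eq_one h2
    have hp0 : (p : ℤ) ≠ 0 := Int.natCast_ne_zero.mpr hp.ne_zero
    have : (n 0 - n 1) * (p : ℤ) = 0 := by linarith
    have := (mul_eq_zero.mp this).resolve_right hp0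
    omega
  set b := W.C.π ^ (-n 0) with hb
  have hnm' : ∀ s, algebraMap QBar LSer b * iota2 M p hpM s q' ∈ locS A := fun s => by
    rcases (by fin_cases s <;> simp : s = 0 ∨ s = 1) with rfl | rfl
    · exact hnm 0
    · rw [hb, ← hn01]; exact hnm 1
  obtain ⟨hrA, -, hr0⟩ := hrel 0
  set r := IsLocalRing.residue A ⟨_, hrA⟩ with hr
  have hrne : r ≠ 0 := fun h0 => by
    rw [h0, map_zero, zero_mul] at hr0
    exact zero_ne_one hr0
  obtain ⟨ρ, hρ⟩ := IsAlgClosed.exists_pow_nat_eq r hp.pos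
  have hconst : ∀ s, algebraMap (Res A) (LaurentSeries (Res A)) ρ *
      redL A ⟨_, hnm' s⟩ = 1 := fun s => by
    obtain ⟨hsA, -, hs⟩ := hrel s
    have hrs : IsLocalRing.residue A ⟨_, hsA⟩ = r := by
      refine congrArg (IsLocalRing.residue A) (Subtype.ext ?_)
      rcases (by fin_cases s <;> simp : s = 0 ∨ s = 1) with rfl | rfl
      · rfl
      · show κ / c / (1 * (W.C.π ^ (-n 1)) ^ p) = κ / c / (1 * (W.C.π ^ (-n 0)) ^ p)
        rw [hn01]
    have hred' : redL A ⟨_, hnm s⟩ = redL A ⟨_, hnm' s⟩ := by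
      refine redL_congr _ _ ?_
      rcases (by fin_cases s <;> simp : s = 0 ∨ s = 1) with rfl | rfl
      · rfl
      · rw [hb, hn01]
    rw [hrs, hred', one_mul, ← hρ, map_pow, ← mul_pow] at hs
    have := charP_laurent A p
    exact frobenius_inj (LaurentSeries (Res A)) p
      (by rw [frobenius_def, frobenius_def, hs, one_pow])
  obtain ⟨a, haA, haf, har⟩ := exists_inertiaFixed_lift hA hp ρ
  have ha0 : a ≠ 0 := by
    rintro rfl
    rw [show (⟨0, haA⟩ : A) = 0 from rfl, map_zero] at har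
    rw [← har, zero_pow hp.ne_zero] at hρ
    exact hrne hρ.symm
  set q₁ := algebraMap QBar (FB (p * M)) (a * b) * q' with hq₁
  have hab : a * b ≠ 0 := mul_ne_zero ha0 (zpow_ne_zero _ W.C.π_ne_zero)
  have hq₁f : ∀ τ ∈ W.C.H, galF (p * M) τ q₁ = q₁ := fun τ hτ => by
    rw [hq₁, map_mul, hq'f τ hτ, arithmeticRingAut_algebraMap, map_mul,
      haf τ (W.C.le_inertia hτ), hb, map_zpow₀, W.C.π_fixed τ hτ]
  have hx : ∀ s, ∃ h : iota2 M p hpM s q₁ - 1 ∈ locS A, redL A ⟨_, h⟩ = 0 := fun s => by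
    obtain ⟨h', e'⟩ := redL_const_mul haA (hnm' s)
    have e : iota2 M p hpM s q₁ = algebraMap QBar LSer a *
        (algebraMap QBar LSer b * iota2 M p hpM s q') := by
      rw [hq₁, map_mul, AlgHom.commutes, map_mul, mul_assoc]
    refine ⟨by rw [e]; exact sub_mem h' (one_mem _), ?_⟩
    rw [redL_congr _ (sub_mem h' (one_mem _)) (by rw [e]),
      show (⟨_, sub_mem h' (one_mem _)⟩ : locS A) = ⟨_, h'⟩ - 1 from rfl, map_sub, map_one, e',
      har, hconst s, sub_self]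
  choose hxm hxr using hx
  let y : Fin 2 → LSer := fun s => algebraMap QBar LSer W.C.π⁻¹ * (iota2 M p hpM s q₁ - 1)
  have hy : ∀ s, y s ∈ locS A := fun s => W.C.inv_π_mul_mem hA (hxm s) (fun τ hτ => by
    rw [map_sub, map_one, ← iota2_galF, hq₁f τ hτ]) (hxr s)
  refine ⟨⟨g₀, hg₀0, hg₀dvd, fun τ hτ => ?_, hred, q₁, hq₁f, y, hy, fun s => ?_,
    κ / c / (a * b) ^ p, div_ne_zero (div_ne_zero hκ hc) (pow_ne_zero _ hab), ?_⟩,
    c, φ, hc, hφ, rfl⟩
  · rw [hg₀, map_mul, map_mul, map_pow, hfix₀ τ hτ, hφf τ hτ, arithmeticRingAut_algebraMap,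
      hcf τ hτ]
  · show _ = _ + _ * (algebraMap QBar LSer W.C.π⁻¹ * _)
    rw [← mul_assoc, ← map_mul, mul_inv_cancel₀ W.C.π_ne_zero, map_one, one_mul]
    ring
  · have hab' : algebraMap QBar (FB (p * M)) (a * b) ≠ 0 := (_root_.map_ne_zero _).mpr hab
    rw [rel', hq₁, mul_pow, map_div₀ _ (κ / c)]
    simp only [map_mul, map_pow] at hab' ⊢
    have ha' := left_ne_zero_of_mul hab'
    have hb' := right_ne_zero_of_mul hab'
    field_simp
    ring

end Fermat.Agent.RT.MazurP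

end
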